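import Mathlib
import Fermat.Agent.AL.Newform
import Fermat.Agent.H24.Pet

/-!
# Oldforms at a prime `q` exactly dividing the level
-/

set_option autoImplicit false
set_option linter.style.haveILetI false
set_option linter.unusedSectionVars false

noncomputable section

namespace Fermat.Agent.TC

open CongruenceSubgroup AL
open scoped MatrixGroups
open ModularFormClass (qCoeff)

section Abstract

variable {V ι : Type*} [AddCommGroup V] [Module ℂ V] (T : ι → Module.End ℂ V)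

/-- the simultaneous eigenspace -/
def simEig (χ : ι → ℂ) : Submodule ℂ V := ⨅ i, (T i).eigenspace (χ i)

lemma mem_simEig (χ : ι → ℂ) (v : V) : v ∈ simEig T χ ↔ ∀ i, T i v = χ i • v := by
  simp only [simEig, Submodule.mem_iInf, Module.End.mem_eigenspace_iff]

lemma simEig_indep (hT : ∀ i j, Commute (T i) (T j)) : iSupIndep (simEig T) := by
  refine (Module.End.independent_iInf_maxGenEigenspace_of_forall_mapsTo T
    (fun i j φ => Module.End.mapsTo_maxGenEigenspace_of_comm (hT j i) φ)).mono fun χ => ?_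
  exact iInf_mono fun i => Module.End.eigenspace_le_maxGenEigenspace

/-- If `v` lies in the sum of subspaces of the simultaneous eigenspaces and in one of the
eigenspaces then it lies in the corresponding subspace. -/
lemma mem_of_mem_iSup (hT : ∀ i j, Commute (T i) (T j)) (G : (ι → ℂ) → Submodule ℂ V)
    (hG : ∀ χ, G χ ≤ simEig T χ) {χ : ι → ℂ} {v : V} (hv : v ∈ simEig T χ)
    (hv' : v ∈ ⨆ χ, G χ) : v ∈ G χ := by
  rw [iSup_split_single G χ, Submodule.mem_sup] at hv'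
  obtain ⟨x, hx, y, hy, rfl⟩ := hv'
  have h1 : y ∈ simEig T χ := by
    have := (simEig T χ).sub_mem hv (hG χ hx)
    rwa [add_sub_cancel_left] at this
  have h2 : y ∈ ⨆ (χ') (_ : χ' ≠ χ), simEig T χ' :=
    (iSup₂_mono fun χ' _ => hG χ') hy
  have h3 := (Submodule.disjoint_def.mp (simEig_indep T hT χ)) y h1 h2
  rw [h3, add_zero]
  exact hx

end Abstract

variable {D : ℕ}

/-- primes not dividing `D` -/
abbrev Pr (D : ℕ) : Type := {ℓ : ℕ // ℓ.Prime ∧ ¬ ℓ ∣ D}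

/-- Hecke operators at primes not dividing `D` at a level dividing `D` -/
def TD {N : ℕ} [NeZero N] (h : N ∣ D) (ℓ : Pr D) : Module.End ℂ (CuspForm (Gamma0 N) 2) :=
  CuspForm.heckeTLin 2 ℓ.2.1 (fun hh => ℓ.2.2 (hh.trans h))

lemma TD_comm {N : ℕ} [NeZero N] (h : N ∣ D) (ℓ ℓ' : Pr D) : Commute (TD h ℓ) (TD h ℓ') :=
  CuspForm.heckeTLin_comm 2 ℓ.2.1 _ ℓ'.2.1 _

lemma iSup_simEig {N : ℕ} [NeZero N] (h : N ∣ D) : ⨆ χ, simEig (TD (N := N) h) χ = ⊤ := by
  rw [eq_top_iff, ← H24.iSup_iInf_eigenspace_heckeT N 2]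
  refine iSup_le fun χ => ?_
  refine le_trans ?_ (le_iSup _ (fun ℓ : Pr D => χ ⟨ℓ.1, ℓ.2.1, fun hh => ℓ.2.2 (hh.trans h)⟩))
  refine le_iInf fun ℓ => ?_
  exact iInf_le (fun ℓ : H24.GoodPr N => (H24.Tgood N 2 ℓ).eigenspace (χ ℓ))
    ⟨ℓ.1, ℓ.2.1, fun hh => ℓ.2.2 (hh.trans h)⟩

/-- existence of a newform with the given eigenvalues -/
theorem exists_newform (hD : D ≠ 0) (χ : Pr D → ℂ) : ∀ (N : ℕ) [NeZero N] (h : N ∣ D)
    (f : CuspForm (Gamma0 N) 2), f ≠ 0 → f ∈ simEig (TD h) χ →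
    ∃ (L : ℕ) (_ : NeZero L) (g : CuspForm (Gamma0 L) 2), L ∣ N ∧ g.IsNewform ∧
      ∀ ℓ : Pr D, qCoeff g ℓ = χ ℓ := by
  intro N
  induction N using Nat.strong_induction_on with
  | _ N ih =>
  intro _ h f hf0 hf
  rw [mem_simEig] at hf
  classical
  obtain ⟨g, hg, hga⟩ := exists_eigenform_away (D := D) hf0
    (a := fun ℓ => if hℓ : ℓ.Prime ∧ ¬ ℓ ∣ D then χ ⟨ℓ, hℓ⟩ else 0)
    (fun ℓ hℓ hℓN hℓD => by
      rw [dif_pos ⟨hℓ, hℓD⟩]
      exact hf ⟨ℓ, hℓ, hℓD⟩)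
  have hga' : ∀ ℓ : Pr D, qCoeff g ℓ = χ ℓ := by
    intro ℓ
    have := hga ℓ ℓ.2.1 (fun hh => ℓ.2.2 (hh.trans h)) ℓ.2.2
    rw [dif_pos ℓ.2] at this
    exact this
  by_cases hnew : g.IsNewform
  · exact ⟨N, inferInstance, g, dvd_rfl, hnew, hga'⟩
  · have h1 : ∃ M : ℕ, M ∣ N ∧ M ≠ N ∧ CuspForm.GoodEigensystemOccursAt g M := by
      by_contra hcon
      push Not at hcon
      exact hnew ⟨hg, fun M hM hMN => hcon M hM hMN⟩
    obtain ⟨M, hMN, hne, g', hg', hgg'⟩ := h1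
    have hM0 : M ≠ 0 := by
      rintro rfl
      exact NeZero.ne N (Nat.eq_zero_of_zero_dvd hMN)
    haveI : NeZero M := ⟨hM0⟩
    have hlt : M < N := lt_of_le_of_ne (Nat.le_of_dvd (Nat.pos_of_ne_zero (NeZero.ne N)) hMN) hne
    obtain ⟨L, hL, g'', h2, h3, h4⟩ := ih M hlt (hMN.trans h) g' hg'.ne_zero (by
      rw [mem_simEig]
      intro ℓ
      have h5 := eigenform_T hg' ℓ.2.1 (fun hh => ℓ.2.2 (hh.trans (hMN.trans h)))
      rw [hgg' ℓ ℓ.2.1 (fun hh => ℓ.2.2 (hh.trans h)), hga' ℓ] at h5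
      exact h5)
    exact ⟨L, hL, g'', h2.trans hMN, h3, h4⟩

theorem degen_degen {M N N' d e : ℕ} [NeZero M] [NeZero N] [NeZero N'] (hd : 0 < d) (he : 0 < e)
    (h : M * d ∣ N) (h' : N * e ∣ N') (hde : 0 < d * e) (h'' : M * (d * e) ∣ N')
    (f : CuspForm (Gamma0 M) 2) :
    degen he h' 2 (degen hd h 2 f) = degen hde h'' 2 f := by
  refine cusp_ext fun n => ?_
  rw [qCoeff_degen, qCoeff_degen, qCoeff_degen]
  by_cases h1 : e ∣ n
  · obtain ⟨m, rfl⟩ := h1
    rw [if_pos (dvd_mul_right _ _), Nat.mul_div_cancel_left _ he]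
    by_cases h2 : d ∣ m
    · obtain ⟨c, rfl⟩ := h2
      rw [if_pos (dvd_mul_right _ _), Nat.mul_div_cancel_left _ hd,
        if_pos ⟨c, by ring⟩]
      congr 1
      rw [show e * (d * c) = (d * e) * c by ring, Nat.mul_div_cancel_left _ hde]
    · rw [if_neg h2, if_neg]
      intro h3
      apply h2
      rw [mul_comm d e] at h3
      exact (mul_dvd_mul_iff_left he.ne').mp h3
  · rw [if_neg h1, if_neg]
    exact fun h3 => h1 ((dvd_mul_left e d).trans h3)

lemma range_degen_congr {K M N d : ℕ} [NeZero K] [NeZero M] [NeZero N] (h : K = M) (hd : 0 < d)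
    (h1 : K * d ∣ N) (h2 : M * d ∣ N) (x : CuspForm (Gamma0 K) 2) :
    degen hd h1 2 x ∈ LinearMap.range (degen (M := M) (N := N) hd h2 2) := by
  subst h
  exact ⟨x, rfl⟩

/-- **Oldforms.** If no newform of level divisible by `q` has the eigenvalues `χ` then the
`χ`-eigenspace is old at `q`. -/
theorem exists_old (hD : D ≠ 0) {q : ℕ} (hq : q.Prime) (χ : Pr D → ℂ) :
    ∀ (M : ℕ) [NeZero M] (N : ℕ) [NeZero N] (hN : N = M * q) (hND : N ∣ D) (_ : ¬ q ∣ M)
      (_ : ∀ (L : ℕ) (_ : NeZero L) (g : CuspForm (Gamma0 L) 2), L ∣ N → q ∣ L → g.IsNewform →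
        (∀ ℓ : Pr D, qCoeff g ℓ = χ ℓ) → False)
      (f : CuspForm (Gamma0 N) 2), f ∈ simEig (TD hND) χ →
      f ∈ LinearMap.range (degen (N := N) (M := M) one_pos (by rw [hN, mul_one]; exact dvd_mul_right M q) 2) ⊔
        LinearMap.range (degen (N := N) (M := M) hq.pos (by rw [hN]) 2) := by
  intro M
  induction M using Nat.strong_induction_on with
  | _ M ih =>
  intro _ N _ hN hND hqM hno f hf
  set Old := LinearMap.range (degen (N := N) (M := M) one_pos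
      (by rw [hN, mul_one]; exact dvd_mul_right M q) 2) ⊔
    LinearMap.range (degen (N := N) (M := M) hq.pos (by rw [hN]) 2) with hOld
  by_cases hf0 : f = 0
  · rw [hf0]; exact zero_mem _
  obtain ⟨L, _, g, hLN, hg, hgχ⟩ := exists_newform hD χ N hND f hf0 hf
  have hqL : ¬ q ∣ L := fun h => hno L inferInstance g hLN h hg hgχ
  have hLM : L ∣ M := by
    rw [hN] at hLN
    exact (Nat.Coprime.dvd_of_dvd_mul_right
      (((Nat.Prime.coprime_iff_not_dvd hq).mpr hqL).symm) hLN)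
  have hMN : M ∣ N := by rw [hN]; exact dvd_mul_right M q
  -- subtract a multiple of `g`
  have hL1 : L * 1 ∣ N := by rw [mul_one]; exact hLN
  have hLM1 : L * 1 ∣ M := by rw [mul_one]; exact hLM
  set G : CuspForm (Gamma0 N) 2 := degen one_pos hL1 2 g with hG
  have hGχ : G ∈ simEig (TD hND) χ := by
    rw [mem_simEig]
    intro ℓ
    have h1 := degen_heckeTLin one_pos hL1 2 ℓ.2.1 (fun hh => ℓ.2.2 (hh.trans (hLN.trans hND)))
      (fun hh => ℓ.2.2 (hh.trans hND)) g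
    rw [eigenform_T hg.1 ℓ.2.1, hgχ ℓ, map_smul] at h1
    exact h1.symm
  have hGold : G ∈ Old := by
    refine Submodule.mem_sup_left ⟨degen one_pos hLM1 2 g, ?_⟩
    rw [degen_degen one_pos one_pos hLM1 _ (by norm_num) (by rw [mul_one, mul_one]; exact hLN)]
  set f' := f - qCoeff f 1 • G with hf'
  have hf'χ : f' ∈ simEig (TD hND) χ := sub_mem hf (Submodule.smul_mem _ _ hGχ)
  have hf'1 : qCoeff f' 1 = 0 := by
    rw [hf', qCoeff_sub, qCoeff_smul, hG, qCoeff_degen, if_pos (one_dvd _), Nat.div_one,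
      hg.1.qCoeff_one, mul_one, sub_self]
  have hf'0 : ∀ n : ℕ, n.Coprime N → qCoeff f' n = 0 := by
    classical
    refine coeff_eq_zero_of_coprime f' hD fun n hn hnD => ?_
    refine coeff_eq_zero_away (D := D)
      (a := fun ℓ => if hℓ : ℓ.Prime ∧ ¬ ℓ ∣ D then χ ⟨ℓ, hℓ⟩ else 0) ?_ hf'1 n hn hnD
    intro ℓ hℓ hℓN hℓD
    rw [dif_pos ⟨hℓ, hℓD⟩]
    exact (mem_simEig _ _ _).mp hf'χ ⟨ℓ, hℓ, hℓD⟩
  have hmain := main_lemma f' hf'0
  -- the subspaces
  let ι := {p : ℕ // p.Prime ∧ p ∣ N}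
  haveI hfact : ∀ p : ι, Fact ((p : ℕ) ∣ N) := fun p ↦ ⟨p.2.2⟩
  have hdvd : ∀ p : ι, N / (p : ℕ) ∣ D := fun p => (Nat.div_dvd_of_dvd p.2.2).trans hND
  let dgn : (p : ι) → CuspForm (Gamma0 (N / (p : ℕ))) 2 →ₗ[ℂ] CuspForm (Gamma0 N) 2 := fun p ↦
    degen (M := N / (p : ℕ)) (N := N) p.2.1.pos (Nat.div_mul_cancel p.2.2).dvd 2
  let Gs : (Pr D → ℂ) → Submodule ℂ (CuspForm (Gamma0 N) 2) := fun χ =>
    ⨆ p : ι, (simEig (TD (hdvd p)) χ).map (dgn p)
  have hGs : ∀ χ, Gs χ ≤ simEig (TD hND) χ := by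
    intro χ
    refine iSup_le fun p => ?_
    rintro _ ⟨h, hh, rfl⟩
    rw [mem_simEig]
    intro ℓ
    have h1 := degen_heckeTLin p.2.1.pos (Nat.div_mul_cancel p.2.2).dvd 2 ℓ.2.1
      (fun hh => ℓ.2.2 (hh.trans (hdvd p))) (fun hh => ℓ.2.2 (hh.trans hND)) h
    have h2 := (mem_simEig _ _ _).mp hh ℓ
    have h3 : CuspForm.heckeTLin 2 ℓ.2.1 (fun hh => ℓ.2.2 (hh.trans (hdvd p))) h = χ ℓ • h := h2
    rw [h3, map_smul] at h1
    exact h1.symm
  have hmem : f' ∈ ⨆ χ, Gs χ := by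
    refine (iSup_le fun p => ?_ : (⨆ p : ι, LinearMap.range (dgn p)) ≤ ⨆ χ, Gs χ) hmain
    rw [LinearMap.range_eq_map, ← iSup_simEig (hdvd p), Submodule.map_iSup]
    exact iSup_mono fun χ => le_iSup (fun p : ι => (simEig (TD (hdvd p)) χ).map (dgn p)) p
  have hkey : f' ∈ Gs χ := mem_of_mem_iSup _ (TD_comm hND) Gs hGs hf'χ hmem
  have hle : Gs χ ≤ Old := by
    refine iSup_le fun p => ?_
    rintro _ ⟨h, hh, rfl⟩
    by_cases hpq : (p : ℕ) = q
    · refine Submodule.mem_sup_right ?_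
      have hNM : N / (p : ℕ) = M := by
        refine Nat.div_eq_of_eq_mul_left p.2.1.pos (hN.trans ?_)
        rw [hpq]
      have h3 : M * (p : ℕ) ∣ N := ⟨1, by rw [mul_one]; exact hN.trans (by rw [hpq])⟩
      have h4 := range_degen_congr hNM p.2.1.pos (Nat.div_mul_cancel p.2.2).dvd h3 h
      obtain ⟨y, hy⟩ := h4
      refine ⟨y, ?_⟩
      change _ = degen p.2.1.pos _ 2 h
      rw [← hy]
      refine cusp_ext fun n => ?_
      rw [qCoeff_degen, qCoeff_degen, hpq]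
    · have hpM : (p : ℕ) ∣ M := by
        have h1 : (p : ℕ) ∣ M * q := hN ▸ p.2.2
        rcases (Nat.Prime.dvd_mul p.2.1).mp h1 with h2 | h2
        · exact h2
        · exact absurd ((Nat.prime_dvd_prime_iff_eq p.2.1 hq).mp h2) hpq
      obtain ⟨M1, hM1⟩ := hpM
      have hM10 : M1 ≠ 0 := by
        rintro rfl
        exact NeZero.ne M (by rw [hM1, mul_zero])
      haveI : NeZero M1 := ⟨hM10⟩
      have hNp : N / (p : ℕ) = M1 * q := by
        refine Nat.div_eq_of_eq_mul_right p.2.1.pos (hN.trans ?_)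
        rw [hM1, mul_assoc]
      have hlt : M1 < M := by
        rw [hM1]
        exact (Nat.lt_mul_iff_one_lt_left (Nat.pos_of_ne_zero hM10)).mpr p.2.1.one_lt
      have h1 := ih M1 hlt (N / (p : ℕ)) hNp (hdvd p)
        (fun h => hqM (h.trans ⟨p, by rw [hM1, mul_comm]⟩))
        (fun L _ g hL => hno L inferInstance g (hL.trans (Nat.div_dvd_of_dvd p.2.2))) h hh
      rw [Submodule.mem_sup] at h1
      obtain ⟨_, ⟨h2, rfl⟩, _, ⟨h3, rfl⟩, rfl⟩ := h1
      have hM1M : M1 * (p : ℕ) ∣ M := by rw [hM1, mul_comm]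
      rw [map_add]
      refine add_mem ?_ ?_
      · refine Submodule.mem_sup_left ⟨degen p.2.1.pos hM1M 2 h2, ?_⟩
        have e1 : M1 * (1 * (p : ℕ)) ∣ N := by rw [one_mul]; exact hM1M.trans hMN
        have e2 : M1 * ((p : ℕ) * 1) ∣ N := by rw [mul_one]; exact hM1M.trans hMN
        rw [degen_degen p.2.1.pos one_pos hM1M _ (by rw [mul_one]; exact p.2.1.pos) e2]
        change _ = degen p.2.1.pos _ 2 (degen one_pos _ 2 h2)
        rw [degen_degen one_pos p.2.1.pos _ _ (by rw [one_mul]; exact p.2.1.pos) e1]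
        refine cusp_ext fun n => ?_
        rw [qCoeff_degen, qCoeff_degen, one_mul, mul_one]
      · refine Submodule.mem_sup_right ⟨degen p.2.1.pos hM1M 2 h3, ?_⟩
        have e1 : M1 * (q * (p : ℕ)) ∣ N := ⟨1, hN.trans (by rw [hM1]; ring)⟩
        have e2 : M1 * ((p : ℕ) * q) ∣ N := ⟨1, hN.trans (by rw [hM1]; ring)⟩
        rw [degen_degen p.2.1.pos hq.pos hM1M _ (Nat.mul_pos p.2.1.pos hq.pos) e2]
        change _ = degen p.2.1.pos _ 2 (degen hq.pos _ 2 h3)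
        rw [degen_degen hq.pos p.2.1.pos _ _ (Nat.mul_pos hq.pos p.2.1.pos) e1]
        refine cusp_ext fun n => ?_
        rw [qCoeff_degen, qCoeff_degen, mul_comm q]
  have hfin : f = f' + qCoeff f 1 • G := by rw [hf']; abel
  rw [hfin]
  exact add_mem (hle hkey) (Submodule.smul_mem _ _ hGold)

end Fermat.Agent.TC
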