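import Mathlib

/-!
# Localisation of finite modules over complete rings at a maximal ideal of a Hecke algebra
-/

set_option autoImplicit false

noncomputable section

universe u

namespace Fermat.Agent.TC

open IsLocalRing TensorProduct

section Complete

variable {O : Type u} [CommRing O] [IsNoetherianRing O] (I : Ideal O) [IsAdicComplete I O]

theorem isAdicComplete_of_finite (M : Type u) [AddCommGroup M] [Module O M] [Module.Finite O M] :
    IsAdicComplete I M := by
  rw [← AdicCompletion.of_bijective_iff]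
  have h1 : Function.Bijective (AdicCompletion.ofTensorProduct I M) :=
    AdicCompletion.ofTensorProduct_bijective_of_finite_of_isNoetherian I M
  let E : O ≃ₗ[O] AdicCompletion I O := AdicCompletion.ofLinearEquiv I O
  let g : M ≃ₗ[O] AdicCompletion I O ⊗[O] M :=
    (TensorProduct.lid O M).symm.trans (TensorProduct.congr E (LinearEquiv.refl O M))
  have h2 : ∀ x, AdicCompletion.of I M x = AdicCompletion.ofTensorProduct I M (g x) := by
    intro x
    have : g x = (E 1) ⊗ₜ x := by simp [g]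
    rw [this, AdicCompletion.ofTensorProduct_tmul]
    have hE : E 1 = (1 : AdicCompletion I O) := rfl
    rw [hE, one_smul]
  have h3 : ⇑(AdicCompletion.of I M) = (AdicCompletion.ofTensorProduct I M) ∘ g := funext h2
  rw [h3]
  exact h1.comp g.bijective

end Complete

section Ring

variable {O : Type u} [CommRing O] [IsNoetherianRing O] [IsLocalRing O]
  [IsAdicComplete (maximalIdeal O) O]

theorem exists_idem_artin {E : Type*} [CommRing E] [IsArtinianRing E] (P : Ideal E)
    [hP : P.IsMaximal] :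
    ∃ e : E, IsIdempotentElem e ∧ e ∉ P ∧ ∀ s ∉ P, ∃ t, s * t = e := by
  obtain ⟨n, hn⟩ := IsArtinian.monotone_stabilizes (R := E) (M := E)
    ⟨fun n => OrderDual.toDual (P ^ n), fun a b hab => Ideal.pow_le_pow_right hab⟩
  have hn' : ∀ m, n ≤ m → P ^ n = P ^ m := fun m hm => hn m hm
  let J := P ^ (n + 1)
  have hJ : J = P ^ n := (hn' (n + 1) (Nat.le_succ n)).symm
  have hJJ : IsIdempotentElem J := by
    show J * J = J
    rw [hJ, ← pow_add]
    exact (hn' (n + n) (Nat.le_add_left n n)).symm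
  obtain ⟨f, hf, hJf⟩ := (Ideal.isIdempotentElem_iff_of_fg J (IsNoetherian.noetherian J)).mp hJJ
  have hfP : f ∈ P := by
    have h1 : f ∈ J := by rw [hJf]; exact Ideal.mem_span_singleton_self f
    exact Ideal.pow_le_self (Nat.succ_ne_zero n) h1
  refine ⟨1 - f, hf.one_sub, ?_, ?_⟩
  · intro h
    apply hP.ne_top
    rw [Ideal.eq_top_iff_one]
    have := P.add_mem h hfP
    rwa [sub_add_cancel] at this
  · intro s hs
    obtain ⟨a, x, hx, hax⟩ := hP.exists_inv hs
    -- `a s + x = 1`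
    have h1 : x ^ (n + 1) ∈ J := Ideal.pow_mem_pow hx _
    rw [hJf, Ideal.mem_span_singleton'] at h1
    obtain ⟨y, hy⟩ := h1
    have h2 : (1 - f) * x ^ (n + 1) = 0 := by
      rw [← hy]
      have : f * f = f := hf
      linear_combination (-y) * this
    obtain ⟨b, hb⟩ : (1 - x) ∣ 1 - x ^ (n + 1) := by
      have := sub_dvd_pow_sub_pow (1 : E) x (n + 1)
      rwa [one_pow] at this
    refine ⟨a * b * (1 - f), ?_⟩
    have h3 : s * a = 1 - x := by linear_combination hax
    calc s * (a * b * (1 - f)) = (s * a) * b * (1 - f) := by ring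
      _ = (1 - x ^ (n + 1)) * (1 - f) := by rw [h3, hb]
      _ = 1 - f := by linear_combination (-1 : E) * h2

theorem exists_idem_local {E : Type u} [CommRing E] [Algebra O E] [Module.Finite O E] (P : Ideal E)
    [hP : P.IsMaximal] (hPI : (maximalIdeal O).map (algebraMap O E) ≤ P) :
    ∃ e : E, IsIdempotentElem e ∧ e ∉ P ∧ ∀ s ∉ P, ∃ t, s * t = e := by
  set I := (maximalIdeal O).map (algebraMap O E) with hI
  have hc : IsAdicComplete (maximalIdeal O) E := isAdicComplete_of_finite _ E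
  have hc2 : IsAdicComplete I E := (IsAdicComplete.map_algebraMap_iff (maximalIdeal O) E).mpr hc
  have hnt : Nontrivial E := ⟨⟨0, 1, fun h => hP.ne_top ((Ideal.eq_top_iff_one _).mpr
    (h ▸ P.zero_mem))⟩⟩
  have hart : IsArtinianRing (E ⧸ I) := by
    letI : Algebra (O ⧸ maximalIdeal O) (E ⧸ I) :=
      (Ideal.quotientMap I (algebraMap O E) Ideal.le_comap_map).toAlgebra
    have : IsScalarTower O (O ⧸ maximalIdeal O) (E ⧸ I) := IsScalarTower.of_algebraMap_eq' rfl
    have h1 : Module.Finite O (E ⧸ I) := inferInstance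
    have h2 : Module.Finite (O ⧸ maximalIdeal O) (E ⧸ I) :=
      Module.Finite.of_restrictScalars_finite O (O ⧸ maximalIdeal O) (E ⧸ I)
    letI := Ideal.Quotient.field (maximalIdeal O)
    exact IsArtinianRing.of_finite (O ⧸ maximalIdeal O) (E ⧸ I)
  have hmk : Function.Surjective (Ideal.Quotient.mk I) := Ideal.Quotient.mk_surjective
  have hker : RingHom.ker (Ideal.Quotient.mk I) ≤ P := by rwa [Ideal.mk_ker]
  have hPm : (P.map (Ideal.Quotient.mk I)).IsMaximal :=
    Ideal.IsMaximal.map_of_surjective_of_ker_le hmk hker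
  have hcm : (P.map (Ideal.Quotient.mk I)).comap (Ideal.Quotient.mk I) = P := by
    rw [Ideal.comap_map_of_surjective _ hmk, sup_eq_left]
    exact hker
  obtain ⟨e0, he0, he0P, hs0⟩ := exists_idem_artin (P.map (Ideal.Quotient.mk I))
  obtain ⟨a, rfl⟩ := hmk e0
  have ha : a * a - a ∈ I := by
    rw [← Ideal.Quotient.eq_zero_iff_mem, map_sub, map_mul, sub_eq_zero]
    exact he0
  -- Hensel
  have hhen : HenselianRing E I := inferInstance
  obtain ⟨e, he, hea⟩ := hhen.is_henselian (Polynomial.X ^ 2 - Polynomial.X)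
    (by
      apply Polynomial.Monic.sub_of_left (Polynomial.monic_X_pow 2)
      rw [Polynomial.degree_X_pow]
      exact lt_of_le_of_lt Polynomial.degree_X_le (by norm_num)) a
    (by
      simp only [Polynomial.eval_sub, Polynomial.eval_pow, Polynomial.eval_X]
      rwa [pow_two])
    (by
      simp only [Polynomial.derivative_sub, Polynomial.derivative_X_pow, Polynomial.derivative_X,
        Polynomial.eval_sub, Polynomial.eval_mul, Polynomial.eval_pow, Polynomial.eval_X,
        Polynomial.eval_one]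
      have h1 : Ideal.Quotient.mk I (a * a) = Ideal.Quotient.mk I a := by
        rw [Ideal.Quotient.eq]; exact ha
      refine IsUnit.of_mul_eq_one (Ideal.Quotient.mk I (2 * a - 1)) ?_
      rw [map_mul] at h1
      have h2 : Ideal.Quotient.mk I 2 = 2 := map_ofNat _ 2
      norm_num
      rw [h2]
      linear_combination (4 : E ⧸ I) * h1)
  have he2 : e * e = e := by
    have h1 : (Polynomial.X ^ 2 - Polynomial.X : Polynomial E).eval e = 0 := he
    simp only [Polynomial.eval_sub, Polynomial.eval_pow, Polynomial.eval_X] at h1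
    linear_combination h1
  have hmke : Ideal.Quotient.mk I e = Ideal.Quotient.mk I a := by
    rw [Ideal.Quotient.eq]; exact hea
  refine ⟨e, he2, ?_, ?_⟩
  · intro h
    apply he0P
    rw [← hmke]
    exact Ideal.mem_map_of_mem _ h
  · intro s hs
    have hs' : Ideal.Quotient.mk I s ∉ P.map (Ideal.Quotient.mk I) := by
      intro h
      apply hs
      rw [← hcm]
      exact h
    obtain ⟨t', ht'⟩ := hs0 _ hs'
    obtain ⟨t, rfl⟩ := hmk t'
    rw [← hmke, ← map_mul, Ideal.Quotient.eq] at ht'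
    have hjac : s * t - e ∈ (⊥ : Ideal E).jacobson := IsAdicComplete.le_jacobson_bot I ht'
    have hunit : IsUnit ((s * t - e) * 1 + 1) := Ideal.mem_jacobson_bot.mp hjac 1
    obtain ⟨w, hw⟩ := hunit
    refine ⟨t * e * (w⁻¹ : Eˣ), ?_⟩
    have h1 : s * t * e = e * w := by
      rw [hw]
      linear_combination he2
    calc s * (t * e * ((w⁻¹ : Eˣ) : E)) = s * t * e * ((w⁻¹ : Eˣ) : E) := by ring
      _ = e * (w * ((w⁻¹ : Eˣ) : E)) := by rw [h1]; ring
      _ = e := by rw [Units.mul_inv, mul_one]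

end Ring

section Dec

variable {O : Type u} [CommRing O] {𝕋 : Type u} [CommRing 𝕋] [Algebra O 𝕋]
  {M : Type u} [AddCommGroup M] [Module O M]

/-- `e` acts as an idempotent cutting out the `m`-part. -/
structure Dec (τ : 𝕋 →ₐ[O] Module.End O M) (m : Ideal 𝕋) (e : 𝕋) : Prop where
  nmem : e ∉ m
  idem : τ e * τ e = τ e
  inv : ∀ s ∉ m, ∃ t, τ s * τ t * τ e = τ e

instance finite_end [IsNoetherianRing O] [Module.Finite O M] : Module.Finite O (Module.End O M) := by
  obtain ⟨n, f, hf⟩ := Module.Finite.exists_fin' O M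
  let g : Module.End O M →ₗ[O] ((Fin n → O) →ₗ[O] M) :=
    { toFun := fun φ => φ.comp f
      map_add' := fun _ _ => rfl
      map_smul' := fun _ _ => rfl }
  have hg : Function.Injective g := by
    intro φ ψ h
    refine LinearMap.ext fun x => ?_
    obtain ⟨y, rfl⟩ := hf x
    exact congrArg (fun F : (Fin n → O) →ₗ[O] M => F y) h
  exact Module.Finite.of_injective g hg

theorem exists_dec [IsNoetherianRing O] [IsLocalRing O] [IsAdicComplete (maximalIdeal O) O]
    [Module.Finite O M] (τ : 𝕋 →ₐ[O] Module.End O M) (m : Ideal 𝕋) [hm : m.IsMaximal]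
    (hmO : ∀ x ∈ maximalIdeal O, algebraMap O 𝕋 x ∈ m) : ∃ e, Dec τ m e := by
  by_cases hker : RingHom.ker τ ≤ m
  · have hinj : Function.Injective (Ideal.Quotient.liftₐ (RingHom.ker τ) τ (fun _ h => h)) := by
      rw [injective_iff_map_eq_zero]
      intro x hx
      obtain ⟨x, rfl⟩ := Ideal.Quotient.mk_surjective x
      rw [Ideal.Quotient.eq_zero_iff_mem]
      exact hx
    have hfin : Module.Finite O (𝕋 ⧸ RingHom.ker τ) :=
      Module.Finite.of_injective
        (Ideal.Quotient.liftₐ (RingHom.ker τ) τ (fun _ h => h)).toLinearMap hinj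
    have hmk : Function.Surjective (Ideal.Quotient.mk (RingHom.ker τ)) :=
      Ideal.Quotient.mk_surjective
    have hker' : RingHom.ker (Ideal.Quotient.mk (RingHom.ker τ)) ≤ m := by rwa [Ideal.mk_ker]
    have hPm : (m.map (Ideal.Quotient.mk (RingHom.ker τ))).IsMaximal :=
      Ideal.IsMaximal.map_of_surjective_of_ker_le hmk hker'
    have hcm : (m.map (Ideal.Quotient.mk (RingHom.ker τ))).comap
        (Ideal.Quotient.mk (RingHom.ker τ)) = m := by
      rw [Ideal.comap_map_of_surjective _ hmk, sup_eq_left]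
      exact hker'
    obtain ⟨e, he, heP, hs⟩ := exists_idem_local (O := O)
      (m.map (Ideal.Quotient.mk (RingHom.ker τ))) (by
        rw [Ideal.map_le_iff_le_comap]
        intro x hx
        exact Ideal.mem_map_of_mem _ (hmO x hx))
    obtain ⟨e, rfl⟩ := hmk e
    refine ⟨e, ?_, ?_, ?_⟩
    · intro h
      exact heP (Ideal.mem_map_of_mem _ h)
    · have h1 : Ideal.Quotient.mk (RingHom.ker τ) (e * e) = Ideal.Quotient.mk (RingHom.ker τ) e := by
        rw [map_mul]; exact he
      rw [Ideal.Quotient.eq] at h1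
      have h2 : τ (e * e - e) = 0 := h1
      rw [map_sub, map_mul, sub_eq_zero] at h2
      exact h2
    · intro s hsm
      have hs' : Ideal.Quotient.mk (RingHom.ker τ) s ∉ m.map (Ideal.Quotient.mk (RingHom.ker τ)) := by
        intro h
        apply hsm
        rw [← hcm]
        exact h
      obtain ⟨t, ht⟩ := hs _ hs'
      obtain ⟨t, rfl⟩ := hmk t
      refine ⟨t, ?_⟩
      have h1 : Ideal.Quotient.mk (RingHom.ker τ) (s * t) = Ideal.Quotient.mk (RingHom.ker τ) e := by
        rw [map_mul]; exact ht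
      rw [Ideal.Quotient.eq] at h1
      have h2 : τ (s * t - e) = 0 := h1
      rw [map_sub, map_mul, sub_eq_zero] at h2
      rw [h2]
      have h3 : Ideal.Quotient.mk (RingHom.ker τ) (e * e) = Ideal.Quotient.mk (RingHom.ker τ) e := by
        rw [map_mul]; exact he
      rw [Ideal.Quotient.eq] at h3
      have h4 : τ (e * e - e) = 0 := h3
      rw [map_sub, map_mul, sub_eq_zero] at h4
      exact h4
  · obtain ⟨x, hx, hxm⟩ := Set.not_subset.mp hker
    have hx0 : τ x = 0 := hx
    exact ⟨x, hxm, by rw [hx0, mul_zero], fun s _ => ⟨1, by rw [hx0, mul_zero]⟩⟩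

/-- The `m`-part of a module. -/
def locPart (τ : 𝕋 →ₐ[O] Module.End O M) (m : Ideal 𝕋) : Submodule O M :=
  ⨅ s : {s : 𝕋 // s ∉ m}, LinearMap.range (τ s)

lemma mem_locPart {τ : 𝕋 →ₐ[O] Module.End O M} {m : Ideal 𝕋} {x : M} :
    x ∈ locPart τ m ↔ ∀ s ∉ m, ∃ y, τ s y = x := by
  simp only [locPart, Submodule.mem_iInf, Subtype.forall, LinearMap.mem_range]

lemma τ_comm (τ : 𝕋 →ₐ[O] Module.End O M) (s t : 𝕋) (x : M) : τ s (τ t x) = τ t (τ s x) := by
  have h1 : τ s (τ t x) = τ (s * t) x := by rw [map_mul]; rfl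
  have h2 : τ t (τ s x) = τ (t * s) x := by rw [map_mul]; rfl
  rw [h1, h2, mul_comm]

lemma Dec.apply_eq {τ : 𝕋 →ₐ[O] Module.End O M} {m : Ideal 𝕋} {e : 𝕋} (h : Dec τ m e) {x : M}
    (hx : x ∈ locPart τ m) : τ e x = x := by
  obtain ⟨y, rfl⟩ := mem_locPart.mp hx e h.nmem
  exact congrArg (fun F : Module.End O M => F y) h.idem

lemma Dec.mem {τ : 𝕋 →ₐ[O] Module.End O M} {m : Ideal 𝕋} {e : 𝕋} (h : Dec τ m e) (x : M) :
    τ e x ∈ locPart τ m := by
  rw [mem_locPart]
  intro s hs
  obtain ⟨t, ht⟩ := h.inv s hs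
  exact ⟨τ t (τ e x), congrArg (fun F : Module.End O M => F x) ht⟩

lemma Dec.mem_iff {τ : 𝕋 →ₐ[O] Module.End O M} {m : Ideal 𝕋} {e : 𝕋} (h : Dec τ m e) {x : M} :
    x ∈ locPart τ m ↔ τ e x = x :=
  ⟨h.apply_eq, fun hx => hx ▸ h.mem x⟩

lemma locPart_stable {τ : 𝕋 →ₐ[O] Module.End O M} {m : Ideal 𝕋} (f : Module.End O M)
    (hf : ∀ t x, f (τ t x) = τ t (f x)) {x : M} (hx : x ∈ locPart τ m) : f x ∈ locPart τ m := by
  rw [mem_locPart] at hx ⊢
  intro s hs
  obtain ⟨y, rfl⟩ := hx s hs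
  exact ⟨f y, (hf s y).symm⟩

lemma τ_mem_locPart {τ : 𝕋 →ₐ[O] Module.End O M} {m : Ideal 𝕋} (t : 𝕋) {x : M}
    (hx : x ∈ locPart τ m) : τ t x ∈ locPart τ m :=
  locPart_stable (τ t) (fun s y => τ_comm τ t s y) hx

lemma Dec.bij {τ : 𝕋 →ₐ[O] Module.End O M} {m : Ideal 𝕋} {e : 𝕋} (h : Dec τ m e) {s : 𝕋}
    (hs : s ∉ m) {x : M} (hx : x ∈ locPart τ m) (h0 : τ s x = 0) : x = 0 := by
  obtain ⟨t, ht⟩ := h.inv s hs
  have h1 : τ s (τ t (τ e x)) = τ e x := congrArg (fun F : Module.End O M => F x) ht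
  rw [h.apply_eq hx, τ_comm, h0, map_zero] at h1
  exact h1.symm

lemma Dec.surj {τ : 𝕋 →ₐ[O] Module.End O M} {m : Ideal 𝕋} {e : 𝕋} (h : Dec τ m e) {s : 𝕋}
    (hs : s ∉ m) {x : M} (hx : x ∈ locPart τ m) : ∃ y ∈ locPart τ m, τ s y = x := by
  obtain ⟨t, ht⟩ := h.inv s hs
  have h1 : τ s (τ t (τ e x)) = τ e x := congrArg (fun F : Module.End O M => F x) ht
  rw [h.apply_eq hx] at h1
  exact ⟨τ t x, τ_mem_locPart t hx, h1⟩

section Functor

variable {N : Type u} [AddCommGroup N] [Module O N]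
  {τ : 𝕋 →ₐ[O] Module.End O M} {τ' : 𝕋 →ₐ[O] Module.End O N} {m : Ideal 𝕋}

lemma map_mem_locPart (f : M →ₗ[O] N) (hf : ∀ t x, f (τ t x) = τ' t (f x)) {x : M}
    (hx : x ∈ locPart τ m) : f x ∈ locPart τ' m := by
  rw [mem_locPart] at hx ⊢
  intro s hs
  obtain ⟨y, rfl⟩ := hx s hs
  exact ⟨f y, (hf s y).symm⟩

/-- The action on a product. -/
def prodAct (τ : 𝕋 →ₐ[O] Module.End O M) (τ' : 𝕋 →ₐ[O] Module.End O N) :
    𝕋 →ₐ[O] Module.End O (M × N) where
  toFun t := LinearMap.prodMap (τ t) (τ' t)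
  map_one' := by
    rw [map_one, map_one]; rfl
  map_mul' s t := by
    rw [map_mul, map_mul]; rfl
  map_zero' := by
    rw [map_zero, map_zero]; rfl
  map_add' s t := by
    rw [map_add, map_add]; rfl
  commutes' r := by
    rw [AlgHom.commutes, AlgHom.commutes]; rfl

lemma Dec.fst {e : 𝕋} (h : Dec (prodAct τ τ') m e) : Dec τ m e := by
  refine ⟨h.nmem, ?_, ?_⟩
  · refine LinearMap.ext fun x => ?_
    exact congrArg (fun F : Module.End O (M × N) => (F (x, 0)).1) h.idem
  · intro s hs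
    obtain ⟨t, ht⟩ := h.inv s hs
    refine ⟨t, LinearMap.ext fun x => ?_⟩
    exact congrArg (fun F : Module.End O (M × N) => (F (x, 0)).1) ht

lemma Dec.snd {e : 𝕋} (h : Dec (prodAct τ τ') m e) : Dec τ' m e := by
  refine ⟨h.nmem, ?_, ?_⟩
  · refine LinearMap.ext fun x => ?_
    exact congrArg (fun F : Module.End O (M × N) => (F (0, x)).2) h.idem
  · intro s hs
    obtain ⟨t, ht⟩ := h.inv s hs
    refine ⟨t, LinearMap.ext fun x => ?_⟩
    exact congrArg (fun F : Module.End O (M × N) => (F (0, x)).2) ht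

variable [IsNoetherianRing O] [IsLocalRing O] [IsAdicComplete (maximalIdeal O) O]
  [Module.Finite O M] [Module.Finite O N]

/-- a common idempotent for two modules -/
theorem exists_dec₂ (τ : 𝕋 →ₐ[O] Module.End O M) (τ' : 𝕋 →ₐ[O] Module.End O N) (m : Ideal 𝕋)
    [hm : m.IsMaximal] (hmO : ∀ x ∈ maximalIdeal O, algebraMap O 𝕋 x ∈ m) :
    ∃ e, Dec τ m e ∧ Dec τ' m e := by
  obtain ⟨e, he⟩ := exists_dec (prodAct τ τ') m hmO
  exact ⟨e, he.fst, he.snd⟩

/-- Surjections induce surjections on the `m`-parts. -/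
theorem locPart_surj [hm : m.IsMaximal] (hmO : ∀ x ∈ maximalIdeal O, algebraMap O 𝕋 x ∈ m)
    (f : M →ₗ[O] N) (hf : ∀ t x, f (τ t x) = τ' t (f x)) (hs : Function.Surjective f) {y : N}
    (hy : y ∈ locPart τ' m) : ∃ x ∈ locPart τ m, f x = y := by
  obtain ⟨e, he, he'⟩ := exists_dec₂ τ τ' m hmO
  obtain ⟨x, rfl⟩ := hs y
  refine ⟨τ e x, he.mem x, ?_⟩
  rw [hf, he'.apply_eq hy]

/-- the image of the `m`-part is the `m`-part of the image -/
theorem locPart_range [hm : m.IsMaximal] (hmO : ∀ x ∈ maximalIdeal O, algebraMap O 𝕋 x ∈ m)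
    (f : M →ₗ[O] N) (hf : ∀ t x, f (τ t x) = τ' t (f x)) {y : N} (hy : y ∈ locPart τ' m)
    (hy' : y ∈ LinearMap.range f) : ∃ x ∈ locPart τ m, f x = y := by
  obtain ⟨e, he, he'⟩ := exists_dec₂ τ τ' m hmO
  obtain ⟨x, rfl⟩ := hy'
  refine ⟨τ e x, he.mem x, ?_⟩
  rw [hf, he'.apply_eq hy]

end Functor

end Dec

end Fermat.Agent.TC
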