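import Mathlib

/-!
# Free modules over group rings of `p`-groups
-/

set_option autoImplicit false

noncomputable section

namespace Fermat.Agent.TC

open IsLocalRing

section Fixed

variable {G : Type*} [Group G] {p : ℕ} [Fact p.Prime]
  {k : Type*} [Field k] [CharP k p]

lemma exists_fixed [Finite G] (hG : IsPGroup p G) {W : Type*} [AddCommGroup W] [Module k W] [Finite W]
    (ρ : G →* Module.End k W) (K : Submodule k W) (hK : ∀ g, ∀ w ∈ K, ρ g w ∈ K) (hne : K ≠ ⊥) :
    ∃ w ∈ K, w ≠ 0 ∧ ∀ g, ρ g w = w := by
  letI : MulAction G K :=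
    { smul := fun g w => ⟨ρ g w, hK g w w.2⟩
      one_smul := fun w => Subtype.ext (by
        show ρ 1 (w : W) = w
        rw [map_one]; rfl)
      mul_smul := fun g h w => Subtype.ext (by
        show ρ (g * h) (w : W) = ρ g (ρ h (w : W))
        rw [map_mul]; rfl) }
  have hsm : ∀ (g : G) (w : K), ((g • w : K) : W) = ρ g w := fun _ _ => rfl
  obtain ⟨x, hx, hx0⟩ := Submodule.exists_mem_ne_zero_of_ne_bot hne
  have hdvd : p ∣ Nat.card K := by
    have h1 : addOrderOf (⟨x, hx⟩ : K) = p := by
      apply addOrderOf_eq_prime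
      · apply Subtype.ext
        show ((p • (⟨x, hx⟩ : K) : K) : W) = 0
        rw [AddSubmonoidClass.coe_nsmul, ← Nat.cast_smul_eq_nsmul k, CharP.cast_eq_zero, zero_smul]
      · intro h
        exact hx0 (congrArg Subtype.val h)
    rw [← h1]
    exact addOrderOf_dvd_natCard _
  have h0 : (0 : K) ∈ MulAction.fixedPoints G K := by
    intro g
    apply Subtype.ext
    rw [hsm]
    exact map_zero _
  obtain ⟨b, hb, hb0⟩ := hG.exists_fixed_point_of_prime_dvd_card_of_fixed_point K hdvd h0
  refine ⟨b, b.2, fun h => hb0 (Subtype.ext h.symm), fun g => ?_⟩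
  have := hb g
  rw [← hsm, this]

/-- The invariants. -/
def invs {V : Type*} [AddCommGroup V] {R : Type*} [CommRing R] [Module R V]
    (ρ : G →* Module.End R V) : Submodule R V where
  carrier := {x | ∀ g, ρ g x = x}
  add_mem' := fun ha hb g => by rw [map_add, ha g, hb g]
  zero_mem' := fun g => map_zero _
  smul_mem' := fun c x hx g => by rw [map_smul, hx g]

lemma mem_invs {V : Type*} [AddCommGroup V] {R : Type*} [CommRing R] [Module R V]
    {ρ : G →* Module.End R V} {x : V} : x ∈ invs ρ ↔ ∀ g, ρ g x = x := Iff.rfl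

variable [Fintype G]

/-- The norm criterion for freeness over the group ring of a `p`-group. -/
theorem basis_of_norm (hG : IsPGroup p G) [Finite k] {V : Type*} [AddCommGroup V] [Module k V]
    [Module.Finite k V] (ρ : G →* Module.End k V) {ι : Type*} [Fintype ι] (v : ι → V)
    (hli : LinearIndependent k (fun i => ∑ g, ρ g (v i)))
    (hsp : ∀ x, (∀ g, ρ g x = x) → x ∈ Submodule.span k (Set.range fun i => ∑ g, ρ g (v i))) :
    LinearIndependent k (fun x : ι × G => ρ x.2 (v x.1)) ∧
      ⊤ ≤ Submodule.span k (Set.range (fun x : ι × G => ρ x.2 (v x.1))) := by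
  classical
  have hVf : Finite V := Module.finite_of_finite k
  -- linear independence
  let L : G →* Module.End k (ι × G → k) :=
    { toFun := fun h =>
        { toFun := fun c x => c (x.1, h⁻¹ * x.2)
          map_add' := fun _ _ => rfl
          map_smul' := fun _ _ => rfl }
      map_one' := by
        refine LinearMap.ext fun c => funext fun x => ?_
        show c (x.1, 1⁻¹ * x.2) = c x
        rw [inv_one, one_mul]
      map_mul' := fun g h => by
        refine LinearMap.ext fun c => funext fun x => ?_
        show c (x.1, (g * h)⁻¹ * x.2) = c (x.1, h⁻¹ * (g⁻¹ * x.2))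
        rw [mul_inv_rev, mul_assoc] }
  have hL : ∀ h c x, L h c x = c (x.1, h⁻¹ * x.2) := fun _ _ _ => rfl
  let Φ : (ι × G → k) →ₗ[k] V := Fintype.linearCombination k (fun x : ι × G => ρ x.2 (v x.1))
  have hΦ : ∀ c, Φ c = ∑ x : ι × G, c x • ρ x.2 (v x.1) := fun c =>
    Fintype.linearCombination_apply k (fun x : ι × G => ρ x.2 (v x.1)) c
  have hΦL : ∀ h c, Φ (L h c) = ρ h (Φ c) := by
    intro h c
    rw [hΦ, hΦ, map_sum]
    have e : (ι × G) ≃ (ι × G) := Equiv.prodCongr (Equiv.refl ι) (Equiv.mulLeft h)
    rw [← Equiv.sum_comp (Equiv.prodCongr (Equiv.refl ι) (Equiv.mulLeft h))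
      (fun x : ι × G => L h c x • ρ x.2 (v x.1))]
    refine Finset.sum_congr rfl fun x _ => ?_
    rw [hL, map_smul]
    show c (x.1, h⁻¹ * (h * x.2)) • ρ (h * x.2) (v x.1) = _
    rw [inv_mul_cancel_left, map_mul]
    rfl
  have hker : LinearMap.ker Φ = ⊥ := by
    by_contra hne
    obtain ⟨c, hc, hc0, hcf⟩ := exists_fixed hG L (LinearMap.ker Φ) (fun g w hw => by
      rw [LinearMap.mem_ker] at hw ⊢
      rw [hΦL, hw, map_zero]) hne
    apply hc0
    have h1 : ∀ i g, c (i, g) = c (i, 1) := by
      intro i g
      have h := congrFun (hcf g) (i, g)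
      rw [hL] at h
      rw [← h, inv_mul_cancel]
    have h2 : ∑ i, c (i, 1) • (∑ g, ρ g (v i)) = 0 := by
      rw [LinearMap.mem_ker, hΦ, Fintype.sum_prod_type] at hc
      rw [← hc]
      refine Finset.sum_congr rfl fun i _ => ?_
      rw [Finset.smul_sum]
      refine Finset.sum_congr rfl fun g _ => ?_
      show _ = c (i, g) • (ρ g) (v i)
      rw [h1 i g]
    have h3 := Fintype.linearIndependent_iff.mp hli (fun i => c (i, 1)) h2
    funext x
    obtain ⟨i, g⟩ := x
    rw [h1 i g, h3]
    rfl
  have hLI : LinearIndependent k (fun x : ι × G => ρ x.2 (v x.1)) :=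
    linearIndependent_iff_injective_fintypeLinearCombination.mpr (LinearMap.ker_eq_bot.mp hker)
  refine ⟨hLI, ?_⟩
  -- dimension count
  have hspan : Submodule.span k (Set.range fun i => ∑ g, ρ g (v i)) = invs ρ := by
    apply le_antisymm
    · rw [Submodule.span_le]
      rintro _ ⟨i, rfl⟩
      intro h
      show ρ h (∑ g, ρ g (v i)) = ∑ g, ρ g (v i)
      rw [map_sum, ← Equiv.sum_comp (Equiv.mulLeft h) (fun g => ρ g (v i))]
      refine Finset.sum_congr rfl fun g _ => ?_
      show _ = ρ (h * g) (v i)
      rw [map_mul]; rfl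
    · intro x hx
      exact hsp x hx
  have hdim : Module.finrank k (invs ρ) = Fintype.card ι := by
    rw [← hspan, finrank_span_eq_card hli]
  obtain ⟨π, hπ⟩ := LinearMap.exists_leftInverse_of_injective (invs ρ).subtype
    (Submodule.ker_subtype _)
  let Ψ : V →ₗ[k] (G → invs ρ) := LinearMap.pi fun g => π.comp (ρ g)
  have hΨ : ∀ x g, Ψ x g = π (ρ g x) := fun _ _ => rfl
  have hΨk : LinearMap.ker Ψ = ⊥ := by
    by_contra hne
    obtain ⟨w, hw, hw0, hwf⟩ := exists_fixed hG ρ (LinearMap.ker Ψ) (fun h w hw => by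
      rw [LinearMap.mem_ker] at hw ⊢
      funext g
      rw [hΨ]
      have h1 := congrFun hw (g * h)
      rw [hΨ, map_mul] at h1
      exact h1) hne
    apply hw0
    have h1 := congrFun (LinearMap.mem_ker.mp hw) 1
    rw [hΨ, hwf] at h1
    have h2 : π ((invs ρ).subtype ⟨w, hwf⟩) = ⟨w, hwf⟩ :=
      congrArg (fun F : invs ρ →ₗ[k] invs ρ => F ⟨w, hwf⟩) hπ
    have h3 : (⟨w, hwf⟩ : invs ρ) = 0 := by
      rw [← h2]; exact h1
    exact congrArg Subtype.val h3
  have hle : Module.finrank k V ≤ Fintype.card (ι × G) := by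
    have h1 := LinearMap.finrank_le_finrank_of_injective (LinearMap.ker_eq_bot.mp hΨk)
    rw [Module.finrank_pi_fintype, Finset.sum_const, hdim, Finset.card_univ, smul_eq_mul] at h1
    rw [Fintype.card_prod, mul_comm]
    exact h1
  have hge : Fintype.card (ι × G) ≤ Module.finrank k V := hLI.fintype_card_le_finrank
  exact (hLI.span_eq_top_of_card_eq_finrank' (le_antisymm hge hle)).ge

end Fixed

section Lift

variable {O : Type*} [CommRing O] [IsDomain O] [IsDiscreteValuationRing O]
  {V : Type*} [AddCommGroup V] [Module O V] [Module.Finite O V]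
  {Vk : Type*} [AddCommGroup Vk] [Module (ResidueField O) Vk]

/-- A family whose reduction is a basis is a basis. -/
theorem basis_lift {ϖ : O} (hϖ : maximalIdeal O = Ideal.span {ϖ})
    (htf : ∀ x : V, ϖ • x = 0 → x = 0) (red : V →+ Vk)
    (hred : ∀ (a : O) x, red (a • x) = residue O a • red x)
    (hker : ∀ x, red x = 0 → ∃ y, x = ϖ • y) {ι : Type*} [Fintype ι] (w : ι → V)
    (hli : LinearIndependent (ResidueField O) (fun i => red (w i)))
    (hsp : ∀ x, red x ∈ Submodule.span (ResidueField O) (Set.range fun i => red (w i))) :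
    LinearIndependent O w ∧ ⊤ ≤ Submodule.span O (Set.range w) := by
  constructor
  · rw [Fintype.linearIndependent_iff]
    intro a ha
    have key : ∀ n : ℕ, ∀ a : ι → O, ∑ i, a i • w i = 0 → ∀ i, a i ∈ maximalIdeal O ^ n := by
      intro n
      induction n with
      | zero => intro a _ i; simp
      | succ n ih =>
        intro a ha i
        have h1 : ∑ i, residue O (a i) • red (w i) = 0 := by
          have := congrArg red ha
          rw [map_sum, map_zero] at this
          rw [← this]
          exact Finset.sum_congr rfl fun i _ => (hred _ _).symm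
        have h2 := Fintype.linearIndependent_iff.mp hli (fun i => residue O (a i)) h1
        have h3 : ∀ i, ∃ b, a i = ϖ * b := by
          intro i
          have h4 : a i ∈ maximalIdeal O := (residue_eq_zero_iff _).mp (h2 i)
          rw [hϖ, Ideal.mem_span_singleton] at h4
          exact h4
        choose b hb using h3
        have h5 : ∑ i, b i • w i = 0 := by
          apply htf
          rw [← ha, Finset.smul_sum]
          refine Finset.sum_congr rfl fun i _ => ?_
          rw [hb, smul_smul]
        rw [hb, pow_succ, mul_comm ϖ]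
        refine Ideal.mul_mem_mul (ih b h5 i) ?_
        rw [hϖ]
        exact Ideal.mem_span_singleton_self ϖ
    intro i
    have h1 : a i ∈ (⨅ n : ℕ, maximalIdeal O ^ n) := by
      rw [Ideal.mem_iInf]
      exact fun n => key n a ha i
    rw [Ideal.iInf_pow_eq_bot_of_isLocalRing _ (IsLocalRing.maximalIdeal.isMaximal O).ne_top] at h1
    exact h1
  · apply Submodule.le_of_le_smul_of_le_jacobson_bot (I := maximalIdeal O) Module.Finite.fg_top
      (IsLocalRing.maximalIdeal_le_jacobson _)
    intro x _
    -- lift the coefficients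
    have h1 := hsp x
    rw [Submodule.mem_span_range_iff_exists_fun] at h1
    obtain ⟨c, hc⟩ := h1
    choose a ha using fun i => residue_surjective (c i)
    have h2 : red (x - ∑ i, a i • w i) = 0 := by
      rw [map_sub, map_sum, sub_eq_zero, ← hc]
      refine Finset.sum_congr rfl fun i _ => ?_
      rw [hred, ha]
    obtain ⟨y, hy⟩ := hker _ h2
    have h3 : x = ∑ i, a i • w i + ϖ • y := by rw [← hy]; abel
    rw [h3]
    refine add_mem (Submodule.mem_sup_left ?_) (Submodule.mem_sup_right ?_)
    · exact Submodule.sum_mem _ fun i _ => Submodule.smul_mem _ _ (Submodule.subset_span ⟨i, rfl⟩)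
    · refine Submodule.smul_mem_smul ?_ trivial
      rw [hϖ]
      exact Ideal.mem_span_singleton_self ϖ

end Lift

end Fermat.Agent.TC
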