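import Mathlib
import Fermat.Agent.TC.Loc
import Fermat.Agent.TC.PGrp

/-!
# Freeness over group rings: abstract form
-/

set_option autoImplicit false

noncomputable section

universe u

namespace Fermat.Agent.TC

open IsLocalRing

section Core

variable {O : Type u} [CommRing O] [IsDomain O] [IsDiscreteValuationRing O]
  [IsAdicComplete (maximalIdeal O) O] [Finite (ResidueField O)]
  {𝕋 : Type u} [CommRing 𝕋] [Algebra O 𝕋]

/-- the `m`-part as a subspace over the residue field -/
def locPartK {Mk : Type u} [AddCommGroup Mk] [Module O Mk] [Module (ResidueField O) Mk]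
    [IsScalarTower O (ResidueField O) Mk] (τ : 𝕋 →ₐ[O] Module.End O Mk) (m : Ideal 𝕋) :
    Submodule (ResidueField O) Mk where
  carrier := locPart τ m
  add_mem' := fun ha hb => add_mem ha hb
  zero_mem' := zero_mem _
  smul_mem' := fun c x hx => by
    obtain ⟨a, rfl⟩ := residue_surjective c
    have : residue O a • x = a • x := by
      rw [← IsLocalRing.ResidueField.algebraMap_eq, algebraMap_smul]
    rw [this]
    exact Submodule.smul_mem _ a hx

lemma residue_smul {Mk : Type u} [AddCommGroup Mk] [Module O Mk] [Module (ResidueField O) Mk]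
    [IsScalarTower O (ResidueField O) Mk] (a : O) (x : Mk) : residue O a • x = a • x := by
  rw [← IsLocalRing.ResidueField.algebraMap_eq, algebraMap_smul]

variable {MO NO Mk Nk : Type u} [AddCommGroup MO] [Module O MO] [Module.Finite O MO]
  [AddCommGroup NO] [Module O NO] [Module.Finite O NO]
  [AddCommGroup Mk] [Module O Mk] [Module (ResidueField O) Mk]
  [IsScalarTower O (ResidueField O) Mk] [Module.Finite O Mk]
  [AddCommGroup Nk] [Module O Nk] [Module (ResidueField O) Nk]
  [IsScalarTower O (ResidueField O) Nk] [Module.Finite O Nk]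
  {Δ : Type*} [Group Δ] [Fintype Δ] {p : ℕ} [Fact p.Prime]

/-- **Freeness over the group ring**, abstract form. -/
theorem free_core (hΔ : IsPGroup p Δ) [CharP (ResidueField O) p]
    {ϖ : O} (hϖ : maximalIdeal O = Ideal.span {ϖ})
    (m : Ideal 𝕋) [hm : m.IsMaximal] (hmO : ∀ x ∈ maximalIdeal O, algebraMap O 𝕋 x ∈ m)
    (τMO : 𝕋 →ₐ[O] Module.End O MO) (τNO : 𝕋 →ₐ[O] Module.End O NO)
    (τMk : 𝕋 →ₐ[O] Module.End O Mk) (τNk : 𝕋 →ₐ[O] Module.End O Nk)
    (htfM : ∀ x : MO, ϖ • x = 0 → x = 0)
    (redM : MO →ₗ[O] Mk) (redN : NO →ₗ[O] Nk)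
    (hredM : ∀ t x, redM (τMO t x) = τMk t (redM x))
    (hredN : ∀ t x, redN (τNO t x) = τNk t (redN x))
    (hkM : ∀ x, redM x = 0 → ∃ y, x = ϖ • y) (hkN : ∀ x, redN x = 0 → ∃ y, x = ϖ • y)
    (hsN : Function.Surjective redN)
    (ρO : Δ →* Module.End O MO) (ρk : Δ →* Module.End (ResidueField O) Mk)
    (hρ : ∀ g x, redM (ρO g x) = ρk g (redM x))
    (hρτO : ∀ g t x, ρO g (τMO t x) = τMO t (ρO g x))
    (hρτk : ∀ g t x, ρk g (τMk t x) = τMk t (ρk g x))
    (trO : MO →ₗ[O] NO) (trk : Mk →ₗ[O] Nk) (hredtr : ∀ x, redN (trO x) = trk (redM x))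
    (resk : Nk →ₗ[O] Mk) (hresk : ∀ t x, resk (τNk t x) = τMk t (resk x))
    (hnorm : ∀ x, resk (trk x) = ∑ g, ρk g x)
    (s : 𝕋) (hs : s ∉ m) (hs1 : ∀ x, resk x = 0 → τNk s x = 0)
    (hs2 : ∀ x, (∀ g, ρk g x = x) → τMk s x ∈ LinearMap.range resk)
    {ι : Type*} [Fintype ι] (v : ι → MO) (hv : ∀ i, v i ∈ locPart τMO m)
    (hli : LinearIndependent O (fun i => trO (v i)))
    (hsp : locPart τNO m ≤ Submodule.span O (Set.range fun i => trO (v i)))
    (hvN : ∀ i, trO (v i) ∈ locPart τNO m) :
    LinearIndependent O (fun x : ι × Δ => ρO x.2 (v x.1)) ∧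
      locPart τMO m = Submodule.span O (Set.range (fun x : ι × Δ => ρO x.2 (v x.1))) := by
  classical
  obtain ⟨e, heM, heN⟩ := exists_dec₂ τMk τNk m hmO
  obtain ⟨eO, heMO, heNO⟩ := exists_dec₂ τMO τNO m hmO
  -- the reductions are linearly independent
  have hkli : LinearIndependent (ResidueField O) (fun i => redN (trO (v i))) := by
    rw [Fintype.linearIndependent_iff]
    intro c hc
    choose a ha using fun i => residue_surjective (c i)
    have h1 : redN (∑ i, a i • trO (v i)) = 0 := by
      rw [map_sum, ← hc]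
      refine Finset.sum_congr rfl fun i _ => ?_
      rw [map_smul, ← ha, residue_smul]
    obtain ⟨y, hy⟩ := hkN _ h1
    have h2 : ∑ i, a i • trO (v i) ∈ locPart τNO m :=
      Submodule.sum_mem _ fun i _ => Submodule.smul_mem _ _ (hvN i)
    have h3 : ∑ i, a i • trO (v i) = ϖ • τNO eO y := by
      rw [← heNO.apply_eq h2, hy, map_smul]
    have h4 := hsp (heNO.mem y)
    rw [Submodule.mem_span_range_iff_exists_fun] at h4
    obtain ⟨d, hd⟩ := h4
    have h5 : ∑ i, (a i - ϖ * d i) • trO (v i) = 0 := by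
      simp only [sub_smul, Finset.sum_sub_distrib, mul_smul]
      rw [← Finset.smul_sum, hd, h3, sub_self]
    intro i
    have h6 := Fintype.linearIndependent_iff.mp hli _ h5 i
    rw [← ha, residue_eq_zero_iff, hϖ, Ideal.mem_span_singleton]
    exact ⟨d i, sub_eq_zero.mp h6⟩
  -- the reductions span
  have hksp : ∀ y ∈ locPart τNk m, y ∈ Submodule.span (ResidueField O)
      (Set.range fun i => redN (trO (v i))) := by
    intro y hy
    obtain ⟨x, hx, rfl⟩ := locPart_surj hmO redN hredN hsN hy
    have h4 := hsp hx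
    rw [Submodule.mem_span_range_iff_exists_fun] at h4
    obtain ⟨d, rfl⟩ := h4
    rw [map_sum]
    refine Submodule.sum_mem _ fun i _ => ?_
    rw [map_smul, ← residue_smul]
    exact Submodule.smul_mem _ _ (Submodule.subset_span ⟨i, rfl⟩)
  have hvk : ∀ i, redM (v i) ∈ locPart τMk m := fun i => map_mem_locPart redM hredM (hv i)
  have hvNk : ∀ i, redN (trO (v i)) ∈ locPart τNk m := fun i =>
    map_mem_locPart redN hredN (hvN i)
  -- the `k`-space
  let W : Submodule (ResidueField O) Mk := locPartK τMk m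
  have hWmem : ∀ x, x ∈ W ↔ x ∈ locPart τMk m := fun _ => Iff.rfl
  have hWρ : ∀ g, ∀ x ∈ W, ρk g x ∈ W := by
    intro g x hx
    rw [hWmem, mem_locPart] at hx ⊢
    intro s hs
    obtain ⟨y, rfl⟩ := hx s hs
    exact ⟨ρk g y, (hρτk g s y).symm⟩
  let ρW : Δ →* Module.End (ResidueField O) W :=
    { toFun := fun g => (ρk g).restrict (hWρ g)
      map_one' := by
        refine LinearMap.ext fun x => Subtype.ext ?_
        show ρk 1 (x : Mk) = x
        rw [map_one]; rfl
      map_mul' := fun g h => by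
        refine LinearMap.ext fun x => Subtype.ext ?_
        show ρk (g * h) (x : Mk) = ρk g (ρk h x)
        rw [map_mul]; rfl }
  have hρW : ∀ g (x : W), ((ρW g x : W) : Mk) = ρk g x := fun _ _ => rfl
  let vW : ι → W := fun i => ⟨redM (v i), hvk i⟩
  have hsum : ∀ i, ((∑ g, ρW g (vW i) : W) : Mk) = resk (redN (trO (v i))) := by
    intro i
    rw [hredtr, hnorm]
    simp only [Submodule.coe_sum, hρW]
    rfl
  -- `resk` as a `k`-linear map
  let resK : Nk →ₗ[ResidueField O] Mk :=
    { toFun := resk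
      map_add' := map_add resk
      map_smul' := fun c x => by
        obtain ⟨a, rfl⟩ := residue_surjective c
        rw [residue_smul, map_smul, RingHom.id_apply, residue_smul] }
  have hfinK : Module.Finite (ResidueField O) Mk :=
    Module.Finite.of_restrictScalars_finite O (ResidueField O) Mk
  have hresinj : ∀ y ∈ locPart τNk m, resk y = 0 → y = 0 := fun y hy h0 =>
    heN.bij hs hy (hs1 y h0)
  have hnli : LinearIndependent (ResidueField O) (fun i => ∑ g, ρW g (vW i)) := by
    rw [Fintype.linearIndependent_iff]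
    intro c hc
    have h1 : resk (∑ i, c i • redN (trO (v i))) = 0 := by
      have h2 := congrArg (fun x : W => (x : Mk)) hc
      simp only [Submodule.coe_sum, Submodule.coe_smul, Submodule.coe_zero] at h2
      have h3 : resK (∑ i, c i • redN (trO (v i))) = 0 := by
        rw [map_sum, ← h2]
        refine Finset.sum_congr rfl fun i _ => ?_
        rw [map_smul]
        congr 1
        rw [← Submodule.coe_sum]
        exact (hsum i).symm
      exact h3
    have h4 : (∑ i, c i • redN (trO (v i))) ∈ locPart τNk m := by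
      have : (∑ i, c i • redN (trO (v i))) ∈ locPartK τNk m :=
        Submodule.sum_mem _ fun i _ => Submodule.smul_mem _ _ (hvNk i)
      exact this
    exact Fintype.linearIndependent_iff.mp hkli c (hresinj _ h4 h1)
  have hnsp : ∀ x : W, (∀ g, ρW g x = x) → x ∈ Submodule.span (ResidueField O)
      (Set.range fun i => ∑ g, ρW g (vW i)) := by
    intro x hx
    have hx' : ∀ g, ρk g (x : Mk) = x := fun g => by rw [← hρW, hx]
    have h1 := hs2 _ hx'
    have h2 : τMk s (x : Mk) ∈ locPart τMk m := τ_mem_locPart s x.2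
    obtain ⟨y, hy, hyx⟩ := locPart_range hmO resk hresk h2 h1
    obtain ⟨t, ht⟩ := heM.inv s hs
    have h3 : (x : Mk) = resk (τNk t y) := by
      have h4 : τMk s (τMk t (τMk e (x : Mk))) = τMk e (x : Mk) :=
        congrArg (fun F : Module.End O Mk => F (x : Mk)) ht
      rw [heM.apply_eq x.2] at h4
      rw [hresk, hyx, τ_comm, h4]
    have h5 := hksp _ (τ_mem_locPart t hy)
    rw [Submodule.mem_span_range_iff_exists_fun] at h5 ⊢
    obtain ⟨c, hc⟩ := h5
    refine ⟨c, Subtype.ext ?_⟩
    simp only [Submodule.coe_sum, Submodule.coe_smul]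
    have h6 : resK (∑ i, c i • redN (trO (v i))) = x := by
      rw [hc]; exact h3.symm
    rw [← h6, map_sum]
    refine Finset.sum_congr rfl fun i _ => ?_
    rw [map_smul]
    congr 1
    rw [← Submodule.coe_sum]
    exact hsum i
  obtain ⟨hb1, hb2⟩ := basis_of_norm hΔ ρW vW hnli hnsp
  -- lift to `O`
  have hMOρ : ∀ g x, x ∈ locPart τMO m → ρO g x ∈ locPart τMO m := fun g x hx =>
    locPart_stable (ρO g) (fun t y => hρτO g t y) hx
  let V := locPart τMO m
  let wV : ι × Δ → V := fun x => ⟨ρO x.2 (v x.1), hMOρ _ _ (hv _)⟩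
  let redV : V →+ W :=
    { toFun := fun x => ⟨redM x, map_mem_locPart redM hredM x.2⟩
      map_zero' := Subtype.ext (map_zero redM)
      map_add' := fun x y => Subtype.ext (map_add redM _ _) }
  have hredw : ∀ x : ι × Δ, redV (wV x) = ρW x.2 (vW x.1) := by
    intro x
    apply Subtype.ext
    show redM (ρO x.2 (v x.1)) = ρk x.2 (redM (v x.1))
    rw [hρ]
  have hfinV : Module.Finite O V := inferInstance
  obtain ⟨hc1, hc2⟩ := basis_lift (V := V) (Vk := W) hϖ
    (fun x hx => Subtype.ext (htfM _ (congrArg Subtype.val hx))) redV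
    (fun a x => Subtype.ext (by
      show redM (a • (x : MO)) = residue O a • redM x
      rw [map_smul, residue_smul]))
    (fun x hx => by
      obtain ⟨y, hy⟩ := hkM _ (congrArg Subtype.val hx)
      refine ⟨⟨τMO eO y, heMO.mem y⟩, Subtype.ext ?_⟩
      show (x : MO) = ϖ • τMO eO y
      rw [← map_smul, ← hy, heMO.apply_eq x.2]) wV
    (by
      simp only [hredw]
      exact hb1)
    (fun x => by
      simp only [hredw]
      exact hb2 trivial)
  constructor
  · have h1 := hc1.map' V.subtype (Submodule.ker_subtype _)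
    exact h1
  · apply le_antisymm
    · intro x hx
      have h1 := hc2 (show (⟨x, hx⟩ : V) ∈ ⊤ from trivial)
      rw [Submodule.mem_span_range_iff_exists_fun] at h1 ⊢
      obtain ⟨c, hc⟩ := h1
      refine ⟨c, ?_⟩
      have h2 := congrArg (fun x : V => (x : MO)) hc
      simp only [Submodule.coe_sum, Submodule.coe_smul] at h2
      exact h2
    · rw [Submodule.span_le]
      rintro _ ⟨x, rfl⟩
      exact hMOρ _ _ (hv _)

end Core

end Fermat.Agent.TC
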