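import Mathlib
import Fermat.Agent.H22.Comm

/-!
# Hecke correspondences on `Hom(Γ, A)`

Operators between spaces `Hom(Γ, A)` for subgroups `Γ` of `SL(2,ℤ)`, described by finite weighted
families of elements of `GL(2,ℚ)` acting on automorphic functions.
-/

set_option autoImplicit false

noncomputable section

namespace Fermat.Agent.TC

open Matrix.SpecialLinearGroup
open scoped MatrixGroups

/-- The ambient group. -/
abbrev GG : Type := GL (Fin 2) ℚ

/-- the embedding of `SL(2,ℤ)` in the ambient group -/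
abbrev emb : SL(2, ℤ) →* GG := mapGL ℚ

lemma emb_injective : Function.Injective emb := mapGL_injective

/-- `Hom(Γ, A)`. -/
abbrev HM (Γ : Subgroup SL(2, ℤ)) (A : Type*) [AddCommGroup A] : Type _ := Additive Γ →+ A

section Basic

variable {Γ Γ' Γ'' : Subgroup SL(2, ℤ)} {A : Type*} [AddCommGroup A]
  {R : Type*} [CommRing R] [Module R A]

/-- `u` is an automorphic function with automorphy factor `ψ`. -/
def IsAut (ψ : HM Γ A) (u : GG → A) : Prop :=
  ∀ (γ : Γ) (x : GG), u (emb γ * x) = ψ (Additive.ofMul γ) + u x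

lemma exists_isAut (ψ : HM Γ A) : ∃ u : GG → A, IsAut ψ u := by
  obtain ⟨u, hu⟩ := H22.exists_automorphic (emb.comp Γ.subtype)
    (emb_injective.comp Γ.subtype_injective) (AddMonoidHom.toMultiplicativeRight ψ)
  exact ⟨fun x => Multiplicative.toAdd (u x), fun γ x => congrArg Multiplicative.toAdd (hu γ x)⟩

/-- two homomorphisms whose automorphic functions differ by a constant agree -/
lemma eq_of_isAut {ψ ψ' : HM Γ A} {u u' : GG → A} (h : IsAut ψ u) (h' : IsAut ψ' u')
    (a : A) (hc : ∀ x, u x = a + u' x) : ψ = ψ' := by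
  refine AddMonoidHom.ext fun γ => ?_
  have h1 := h γ.toMul 1
  have h2 := h' γ.toMul 1
  rw [hc, hc 1, h2] at h1
  have h3 : ψ' γ = ψ γ := by
    have e : a + (ψ' (Additive.ofMul γ.toMul) + u' 1) = ψ (Additive.ofMul γ.toMul) + (a + u' 1) := h1
    have e2 : ψ' (Additive.ofMul γ.toMul) + (a + u' 1) = ψ (Additive.ofMul γ.toMul) + (a + u' 1) := by
      rw [← e]; abel
    exact add_right_cancel e2
  exact h3.symm

lemma IsAut.add {ψ ψ' : HM Γ A} {u u' : GG → A} (h : IsAut ψ u) (h' : IsAut ψ' u') :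
    IsAut (ψ + ψ') (u + u') := by
  intro γ x
  simp only [Pi.add_apply, AddMonoidHom.add_apply]
  rw [h, h']; abel

lemma IsAut.smul (r : R) {ψ : HM Γ A} {u : GG → A} (h : IsAut ψ u) :
    IsAut (r • ψ) (r • u) := by
  intro γ x
  simp only [Pi.smul_apply, AddMonoidHom.smul_apply]
  rw [h, smul_add]

lemma IsAut.sum {κ : Type*} (s : Finset κ) {ψ : κ → HM Γ A} {u : κ → GG → A}
    (h : ∀ i ∈ s, IsAut (ψ i) (u i)) : IsAut (∑ i ∈ s, ψ i) (∑ i ∈ s, u i) := by
  intro γ x
  rw [Finset.sum_apply, Finset.sum_apply, AddMonoidHom.finsetSum_apply, ← Finset.sum_add_distrib]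
  exact Finset.sum_congr rfl fun i hi => h i hi γ x

/-- The operator `F` is represented by the weighted family `(w, α)`. -/
def Rep {ι : Type*} [Fintype ι] (w : ι → R) (α : ι → GG) (F : HM Γ A → HM Γ' A) : Prop :=
  ∀ (ψ : HM Γ A) (u : GG → A), IsAut ψ u → IsAut (F ψ) (fun x => ∑ i, w i • u (α i * x))

variable {ι ι' κ : Type*} [Fintype ι] [Fintype ι'] [Fintype κ]

lemma Rep.comp {w : ι → R} {α : ι → GG} {F : HM Γ A → HM Γ' A} (h : Rep w α F)
    {w' : ι' → R} {α' : ι' → GG} {F' : HM Γ' A → HM Γ'' A} (h' : Rep w' α' F') :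
    Rep (fun i : ι' × ι => w' i.1 * w i.2) (fun i : ι' × ι => α i.2 * α' i.1) (F' ∘ F) := by
  intro ψ u hu
  have h1 := h' _ _ (h ψ u hu)
  have h2 : (fun x => ∑ i : ι', w' i • ∑ j : ι, w j • u (α j * (α' i * x)))
      = fun x => ∑ i : ι' × ι, (w' i.1 * w i.2) • u (α i.2 * α' i.1 * x) := by
    funext x
    rw [Fintype.sum_prod_type]
    refine Finset.sum_congr rfl fun i _ => ?_
    rw [Finset.smul_sum]
    refine Finset.sum_congr rfl fun j _ => ?_
    rw [smul_smul, mul_assoc]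
  rw [← h2]
  exact h1

/-- Two operators with equivalent families agree. -/
lemma Rep.ext {w : ι → R} {α : ι → GG} {F : HM Γ A → HM Γ' A} (h : Rep w α F)
    {w' : ι' → R} {α' : ι' → GG} {F' : HM Γ A → HM Γ' A} (h' : Rep w' α' F')
    (e : ι ≃ ι') (hw : ∀ i, w i = w' (e i)) (hα : ∀ i, ∃ γ : Γ, α i = emb γ * α' (e i))
    (ψ : HM Γ A) : F ψ = F' ψ := by
  obtain ⟨u, hu⟩ := exists_isAut ψ
  choose γ hγ using hα
  refine eq_of_isAut (h ψ u hu) (h' ψ u hu) (∑ i, w i • ψ (Additive.ofMul (γ i))) fun x => ?_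
  have h2 : ∑ i : ι', w' i • u (α' i * x) = ∑ i : ι, w i • u (α' (e i) * x) := by
    rw [← e.sum_comp]
    exact Finset.sum_congr rfl fun i _ => by rw [hw]
  rw [h2, ← Finset.sum_add_distrib]
  refine Finset.sum_congr rfl fun i _ => ?_
  rw [← smul_add, hγ i, mul_assoc, hu]

lemma Rep.congr {w : ι → R} {α : ι → GG} {F F' : HM Γ A → HM Γ' A} (h : Rep w α F)
    (hF : ∀ ψ, F ψ = F' ψ) : Rep w α F' := by
  intro ψ u hu
  rw [← hF]
  exact h ψ u hu

lemma Rep.add {w : ι → R} {α : ι → GG} {F : HM Γ A → HM Γ' A} (h : Rep w α F)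
    {w' : ι' → R} {α' : ι' → GG} {F' : HM Γ A → HM Γ' A} (h' : Rep w' α' F') :
    Rep (Sum.elim w w') (Sum.elim α α') (fun ψ => F ψ + F' ψ) := by
  intro ψ u hu
  have h1 := (h ψ u hu).add (h' ψ u hu)
  have h2 : (fun x => ∑ i : ι ⊕ ι', Sum.elim w w' i • u (Sum.elim α α' i * x))
      = (fun x => ∑ i, w i • u (α i * x)) + (fun x => ∑ i, w' i • u (α' i * x)) := by
    funext x
    rw [Fintype.sum_sum_type]
    rfl
  rw [h2]
  exact h1

lemma Rep.smul (r : R) {w : ι → R} {α : ι → GG} {F : HM Γ A → HM Γ' A} (h : Rep w α F) :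
    Rep (fun i => r * w i) α (fun ψ => r • F ψ) := by
  intro ψ u hu
  have h1 := (h ψ u hu).smul r
  have h2 : (fun x => ∑ i : ι, (r * w i) • u (α i * x))
      = r • (fun x => ∑ i, w i • u (α i * x)) := by
    funext x
    simp only [Pi.smul_apply, Finset.smul_sum, smul_smul]
  rw [h2]
  exact h1

/-- a family is stable for `(Γ, Γ')` -/
def Stable (Γ Γ' : Subgroup SL(2, ℤ)) (w : ι → R) (α : ι → GG) : Prop :=
  ∀ γ' : Γ', ∃ σ : Equiv.Perm ι, ∀ i, w i = w (σ i) ∧ ∃ γ : Γ, α i * emb γ' = emb γ * α (σ i)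

/-- A stable family defines an operator. -/
lemma exists_op (w : ι → R) (α : ι → GG) (hs : Stable Γ Γ' w α) :
    ∃ F : HM Γ A →ₗ[R] HM Γ' A, Rep w α F := by
  classical
  choose σ hσ using hs
  choose hw γ hγ using hσ
  let val : HM Γ A → Γ' → A := fun ψ g => ∑ i, w i • ψ (Additive.ofMul (γ g i))
  have key : ∀ (ψ : HM Γ A) (u : GG → A), IsAut ψ u → ∀ (g : Γ') (x : GG),
      ∑ i, w i • u (α i * (emb g * x)) = val ψ g + ∑ i, w i • u (α i * x) := by
    intro ψ u hu g x
    have h1 : ∑ i, w i • u (α i * x) = ∑ i, w i • u (α (σ g i) * x) := by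
      rw [← Equiv.sum_comp (σ g) (fun i => w i • u (α i * x))]
      exact Finset.sum_congr rfl fun i _ => by rw [← hw]
    rw [h1, ← Finset.sum_add_distrib]
    refine Finset.sum_congr rfl fun i _ => ?_
    rw [← smul_add, ← mul_assoc, hγ, mul_assoc, hu]
  have hadd : ∀ (ψ : HM Γ A) (g h : Γ'), val ψ (g * h) = val ψ g + val ψ h := by
    intro ψ g h
    obtain ⟨u, hu⟩ := exists_isAut ψ
    have h1 := key ψ u hu (g * h) 1
    have h2 := key ψ u hu g (emb h * 1)
    have h3 := key ψ u hu h 1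
    have h4 : emb ((g * h : Γ') : SL(2, ℤ)) * (1 : GG) = emb g * (emb h * 1) := by
      rw [Subgroup.coe_mul, map_mul, mul_assoc]
    rw [h4, h2, h3, ← add_assoc] at h1
    exact (add_right_cancel h1).symm
  refine ⟨{ toFun := fun ψ => AddMonoidHom.mk' (fun g => val ψ g.toMul) ?_
            map_add' := ?_, map_smul' := ?_ }, ?_⟩
  · intro g h
    exact hadd ψ g.toMul h.toMul
  · intro ψ ψ'
    refine AddMonoidHom.ext fun g => ?_
    change ∑ i, w i • (ψ + ψ') _ = ∑ i, w i • ψ _ + ∑ i, w i • ψ' _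
    simp only [AddMonoidHom.add_apply, smul_add, Finset.sum_add_distrib]
  · intro r ψ
    refine AddMonoidHom.ext fun g => ?_
    change ∑ i, w i • (r • ψ) _ = r • ∑ i, w i • ψ _
    simp only [AddMonoidHom.smul_apply, Finset.smul_sum, smul_smul, mul_comm r]
  · intro ψ u hu g x
    exact key ψ u hu g x

/-- The operator attached to a stable family. -/
def op (w : ι → R) (α : ι → GG) (hs : Stable Γ Γ' w α) : HM Γ A →ₗ[R] HM Γ' A :=
  (exists_op w α hs).choose

lemma rep_op (w : ι → R) (α : ι → GG) (hs : Stable Γ Γ' w α) :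
    Rep w α (op (A := A) w α hs) := (exists_op w α hs).choose_spec

/-- Functoriality in the coefficients. -/
lemma op_comp {B : Type*} [AddCommGroup B] [Module R B] (f : A →ₗ[R] B)
    {w : ι → R} {α : ι → GG} {F : HM Γ A → HM Γ' A} (hF : Rep w α F)
    {G : HM Γ B → HM Γ' B} (hG : Rep w α G) (ψ : HM Γ A) :
    G (f.toAddMonoidHom.comp ψ) = f.toAddMonoidHom.comp (F ψ) := by
  obtain ⟨u, hu⟩ := exists_isAut ψ
  have h1 : IsAut (f.toAddMonoidHom.comp ψ) (fun x => f (u x)) := by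
    intro γ x
    show f _ = f _ + f _
    rw [hu, map_add]
  have h2 := hG _ _ h1
  have h3 := hF _ _ hu
  have h4 : IsAut (f.toAddMonoidHom.comp (F ψ)) (fun x => f (∑ i, w i • u (α i * x))) := by
    intro γ x
    have := h3 γ x
    simp only at this
    show f _ = f _ + f _
    rw [this, map_add]
  refine eq_of_isAut h2 h4 0 fun x => ?_
  simp only [map_sum, map_smul, zero_add]

end Basic

section Res

variable {Γ Γ' : Subgroup SL(2, ℤ)} {A : Type*} [AddCommGroup A]
  {R : Type*} [CommRing R] [Module R A]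

variable (R A) in
/-- restriction -/
def res (h : Γ' ≤ Γ) : HM Γ A →ₗ[R] HM Γ' A where
  toFun ψ := ψ.comp (MonoidHom.toAdditive (Subgroup.inclusion h))
  map_add' _ _ := rfl
  map_smul' _ _ := rfl

lemma res_apply (h : Γ' ≤ Γ) (ψ : HM Γ A) (g : Γ') :
    res A R h ψ (Additive.ofMul g) = ψ (Additive.ofMul (Subgroup.inclusion h g)) := rfl

lemma rep_res (h : Γ' ≤ Γ) :
    Rep (fun _ : Unit => (1 : R)) (fun _ => (1 : GG)) (res A R h) := by
  intro ψ u hu g x
  simp only [one_mul, one_smul, Finset.univ_unique, Finset.sum_const, Finset.card_singleton]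
  exact hu (Subgroup.inclusion h g) x

/-- conjugation by an element of the ambient group: `ψ ↦ (γ' ↦ ψ (g γ' g⁻¹))` -/
lemma exists_conj (g : GG) (f : Γ' →* Γ) (hf : ∀ γ' : Γ', g * emb γ' = emb (f γ') * g)
    (F : HM Γ A → HM Γ' A) (hF : ∀ ψ, F ψ = ψ.comp (MonoidHom.toAdditive f)) :
    Rep (fun _ : Unit => (1 : R)) (fun _ => g) F := by
  intro ψ u hu γ' x
  simp only [one_smul, Finset.univ_unique, Finset.sum_const, Finset.card_singleton]
  rw [← mul_assoc, hf, mul_assoc, hu, hF]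
  rfl

end Res

end Fermat.Agent.TC
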