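import Mathlib

/-!
# Cocycles on `SL(2,ℤ)` with prescribed values on the generators

`PSL(2,ℤ)` is the free product of a group of order two and a group of order three.
-/

set_option autoImplicit false

noncomputable section

namespace Fermat.Agent.TC

open Matrix.SpecialLinearGroup ModularGroup UpperHalfPlane Monoid
open scoped MatrixGroups Pointwise

section ZHom

variable {G : Type*} [Group G]

/-- the homomorphism from the cyclic group of order `n` given by an element with `g ^ n = 1`. -/
def zhom (n : ℕ) (g : G) (hg : g ^ n = 1) : Multiplicative (ZMod n) →* G :=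
  AddMonoidHom.toMultiplicativeLeft
    (ZMod.lift n ⟨zmultiplesHom (Additive G) (Additive.ofMul g), by
      rw [zmultiplesHom_apply, natCast_zsmul, ← ofMul_pow, hg, ofMul_one]⟩)

lemma zhom_apply (n : ℕ) (g : G) (hg : g ^ n = 1) (k : ℤ) :
    zhom n g hg (Multiplicative.ofAdd (k : ZMod n)) = g ^ k := by
  show Additive.toMul (ZMod.lift n _ (k : ZMod n)) = g ^ k
  rw [ZMod.lift_coe]
  rfl

end ZHom

/-- the action on the upper half plane -/
def toP : SL(2, ℤ) →* Equiv.Perm ℍ := MulAction.toPermHom SL(2, ℤ) ℍ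

lemma toP_apply (g : SL(2, ℤ)) (z : ℍ) : toP g z = g • z := rfl

lemma eq_one_or_of_toP {g : SL(2, ℤ)} (h : toP g = 1) : g = 1 ∨ g = -1 := by
  have key : ∀ z : ℍ, (((g 0 0 : ℤ) : ℂ) * z + (g 0 1 : ℤ)) = z * (((g 1 0 : ℤ) : ℂ) * z + (g 1 1 : ℤ)) := by
    intro z
    have h1 : g • z = z := by
      have := congrArg (fun σ : Equiv.Perm ℍ => σ z) h
      exact this
    have h2 := congrArg (fun w : ℍ => (w : ℂ)) h1
    simp only [specialLinearGroup_apply] at h2
    have h3 : (((g 1 0 : ℤ) : ℂ) * z + (g 1 1 : ℤ)) ≠ 0 := by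
      have := denom_ne_zero (g : GL (Fin 2) ℝ) z
      simpa [denom] using this
    rw [div_eq_iff] at h2
    · simpa using h2
    · simpa using h3
  have k1 := key I
  have k2 := key (⟨2 * Complex.I, by simp⟩ : ℍ)
  have hI : ((I : ℍ) : ℂ) = Complex.I := rfl
  rw [hI] at k1
  have h2I : (((⟨2 * Complex.I, by simp⟩ : ℍ)) : ℂ) = 2 * Complex.I := rfl
  rw [h2I] at k2
  have e1 := congrArg Complex.re k1
  have e2 := congrArg Complex.im k1
  have e3 := congrArg Complex.re k2
  simp at e1 e2 e3
  have hc : (g 1 0 : ℝ) = 0 := by linarith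
  have hb : (g 0 1 : ℝ) = 0 := by linarith
  have hc' : g 1 0 = 0 := by exact_mod_cast hc
  have hb' : g 0 1 = 0 := by exact_mod_cast hb
  have ha' : g 0 0 = g 1 1 := by exact_mod_cast e2
  have hdet := g.det_coe
  rw [Matrix.det_fin_two] at hdet
  rw [hc', hb', ha'] at hdet
  have h5 : (g 1 1 - 1) * (g 1 1 + 1) = 0 := by linarith
  rcases mul_eq_zero.mp h5 with h6 | h6
  · left
    ext i j
    fin_cases i <;> fin_cases j
    · simp; linarith
    · simp [hb']
    · simp [hc']
    · simp; linarith
  · right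
    ext i j
    fin_cases i <;> fin_cases j
    · simp; linarith
    · simp [hb']
    · simp [hc']
    · simp; linarith

lemma toP_neg_one : toP (-1) = 1 := by
  ext z
  show (((-1 : SL(2, ℤ)) • z : ℍ) : ℂ) = z
  rw [show ((-1 : SL(2, ℤ)) • z : ℍ) = z from by
    rw [ModularGroup.SL_neg_smul, one_smul]]

/-- the elliptic element of order three (modulo sign) -/
def U : SL(2, ℤ) := S * T

lemma S_sq : (S : SL(2, ℤ)) ^ 2 = -1 := by
  rw [pow_two]; decide

lemma U_cube : U ^ 3 = -1 := by
  unfold U; decide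

/-- the image group -/
abbrev Pg : Subgroup (Equiv.Perm ℍ) := toP.range

/-- the factors -/
abbrev HH (b : Bool) : Type := Multiplicative (ZMod (if b then 3 else 2))

lemma re_S_smul (z : ℍ) : (S • z).re = - z.re / Complex.normSq z := by
  rw [modular_S_smul]
  show ((-(z : ℂ))⁻¹).re = _
  rw [Complex.inv_re]
  simp

lemma re_T_smul (z : ℍ) : (T • z).re = 1 + z.re := by
  rw [modular_T_smul]
  simp

lemma toP_S_sq : (toP S) ^ 2 = 1 := by rw [← map_pow, S_sq, toP_neg_one]

lemma toP_U_cube : (toP U) ^ 3 = 1 := by rw [← map_pow, U_cube, toP_neg_one]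

/-- the elements of the image group -/
def pS : Pg := ⟨toP S, S, rfl⟩
/-- the elements of the image group -/
def pU : Pg := ⟨toP U, U, rfl⟩

lemma pS_sq : pS ^ 2 = 1 := Subtype.ext toP_S_sq
lemma pU_cube : pU ^ 3 = 1 := Subtype.ext toP_U_cube

/-- general form of the homs from the factors -/
def fam {G : Type*} [Group G] (s u : G) (hs : s ^ 2 = 1) (hu : u ^ 3 = 1) : ∀ b, HH b →* G
  | false => zhom 2 s hs
  | true => zhom 3 u hu

lemma zmod_three_cases (x : Multiplicative (ZMod 3)) :
    x = 1 ∨ x = Multiplicative.ofAdd ((1 : ℤ) : ZMod 3) ∨ x = Multiplicative.ofAdd ((-1 : ℤ) : ZMod 3) := by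
  have : ∀ y : ZMod 3, y = 0 ∨ y = ((1 : ℤ) : ZMod 3) ∨ y = ((-1 : ℤ) : ZMod 3) := by decide
  exact this x.toAdd

lemma zmod_two_cases (x : Multiplicative (ZMod 2)) :
    x = 1 ∨ x = Multiplicative.ofAdd ((1 : ℤ) : ZMod 2) := by
  have : ∀ y : ZMod 2, y = 0 ∨ y = ((1 : ℤ) : ZMod 2) := by decide
  exact this x.toAdd

lemma normSq_pos' (z : ℍ) : 0 < Complex.normSq z := Complex.normSq_pos.mpr z.ne_zero

theorem lift_injective : Function.Injective (CoprodI.lift (fam pS pU pS_sq pU_cube)) := by
  let X : Bool → Set ℍ := fun b => if b then {z | z.re < 0} else {z | 0 < z.re}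
  refine CoprodI.lift_injective_of_ping_pong (fam pS pU pS_sq pU_cube) ?_ X ?_ ?_ ?_
  · right
    refine ⟨true, ?_⟩
    show 3 ≤ Cardinal.mk (ZMod 3)
    simp
  · intro b
    cases b
    · exact ⟨⟨1 + Complex.I, by simp⟩, by show (0 : ℝ) < _; simp [UpperHalfPlane.re]⟩
    · exact ⟨⟨-1 + Complex.I, by simp⟩, by show _ < (0 : ℝ); simp [UpperHalfPlane.re]⟩
  · intro a b hab
    cases a <;> cases b
    · exact absurd rfl hab
    · show Disjoint {z : ℍ | 0 < z.re} {z : ℍ | z.re < 0}
      rw [Set.disjoint_left]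
      intro z (hz : 0 < z.re) (hz' : z.re < 0)
      linarith
    · show Disjoint {z : ℍ | z.re < 0} {z : ℍ | 0 < z.re}
      rw [Set.disjoint_left]
      intro z (hz : z.re < 0) (hz' : 0 < z.re)
      linarith
    · exact absurd rfl hab
  · intro a b hab
    cases a <;> cases b
    · exact absurd rfl hab
    · intro h hne
      rcases zmod_two_cases h with h1 | h1
      · exact absurd h1 hne
      · have h2 : fam pS pU pS_sq pU_cube false h = pS := by
          rw [h1]
          show zhom 2 pS pS_sq _ = _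
          rw [zhom_apply, zpow_one]
        rw [h2]
        rintro _ ⟨z, (hz : z.re < 0), rfl⟩
        show 0 < (S • z).re
        rw [re_S_smul]
        exact div_pos (by linarith) (normSq_pos' z)
    · intro h hne
      rcases zmod_three_cases h with h1 | h1 | h1
      · exact absurd h1 hne
      · have h2 : fam pS pU pS_sq pU_cube true h = pU := by
          rw [h1]
          show zhom 3 pU pU_cube _ = _
          rw [zhom_apply, zpow_one]
        rw [h2]
        rintro _ ⟨z, (hz : 0 < z.re), rfl⟩
        show (U • z).re < 0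
        rw [U, mul_smul, re_S_smul, re_T_smul]
        exact div_neg_of_neg_of_pos (by linarith) (normSq_pos' _)
      · have h2 : fam pS pU pS_sq pU_cube true h = pU⁻¹ := by
          rw [h1]
          show zhom 3 pU pU_cube _ = _
          rw [zhom_apply, zpow_neg_one]
        rw [h2]
        rintro _ ⟨z, (hz : 0 < z.re), rfl⟩
        show (U⁻¹ • z).re < 0
        have h3 : U⁻¹ • z = T⁻¹ • S⁻¹ • z := by rw [U, mul_inv_rev, mul_smul]
        have h4 : (T⁻¹ • (S⁻¹ • z)).re = (S⁻¹ • z).re - 1 := by
          have := re_T_smul (T⁻¹ • (S⁻¹ • z))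
          rw [smul_inv_smul] at this
          linarith
        have h5 : S⁻¹ • z = S • z := by
          have e1 : (S : SL(2, ℤ))⁻¹ = -1 * S := by
            rw [inv_eq_iff_mul_eq_one]
            decide
          have := congrArg (fun σ : Equiv.Perm ℍ => σ (S • z)) toP_neg_one
          rw [e1, mul_smul]
          exact this
        rw [h3, h4, h5, re_S_smul]
        have := div_neg_of_neg_of_pos (show -z.re < 0 by linarith) (normSq_pos' z)
        linarith
    · exact absurd rfl hab

theorem lift_surjective : Function.Surjective (CoprodI.lift (fam pS pU pS_sq pU_cube)) := by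
  have hS : pS ∈ (CoprodI.lift (fam pS pU pS_sq pU_cube)).range := by
    refine ⟨CoprodI.of (i := false) (Multiplicative.ofAdd ((1 : ℤ) : ZMod 2)), ?_⟩
    rw [CoprodI.lift_of]
    show zhom 2 pS pS_sq _ = _
    rw [zhom_apply, zpow_one]
  have hU : pU ∈ (CoprodI.lift (fam pS pU pS_sq pU_cube)).range := by
    refine ⟨CoprodI.of (i := true) (Multiplicative.ofAdd ((1 : ℤ) : ZMod 3)), ?_⟩
    rw [CoprodI.lift_of]
    show zhom 3 pU pU_cube _ = _
    rw [zhom_apply, zpow_one]
  rintro ⟨_, g, rfl⟩
  have hg : g ∈ Subgroup.closure {S, T} := by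
    rw [SpecialLinearGroup.SL2Z_generators]; trivial
  have hmem : ∀ g ∈ Subgroup.closure ({S, T} : Set SL(2, ℤ)),
      toP.rangeRestrict g ∈ (CoprodI.lift (fam pS pU pS_sq pU_cube)).range := by
    intro g hg
    have hle : Subgroup.closure ({S, T} : Set SL(2, ℤ))
        ≤ ((CoprodI.lift (fam pS pU pS_sq pU_cube)).range).comap toP.rangeRestrict := by
      rw [Subgroup.closure_le]
      rintro x (rfl | rfl)
      · exact hS
      · have h1 : T = S⁻¹ * U := by rw [U]; group
        have h2 : toP.rangeRestrict T = pS⁻¹ * pU := by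
          rw [h1, map_mul, map_inv]; rfl
        show toP.rangeRestrict T ∈ (CoprodI.lift (fam pS pU pS_sq pU_cube)).range
        rw [h2]
        exact mul_mem (inv_mem hS) hU
    exact hle hg
  exact hmem g hg

/-- `PSL(2,ℤ)` as a free product. -/
def equivP : CoprodI HH ≃* Pg :=
  MulEquiv.ofBijective (CoprodI.lift (fam pS pU pS_sq pU_cube)) ⟨lift_injective, lift_surjective⟩

lemma equivP_symm_pS :
    equivP.symm pS = CoprodI.of (i := false) (Multiplicative.ofAdd ((1 : ℤ) : ZMod 2)) := by
  rw [MulEquiv.symm_apply_eq]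
  have h1 : CoprodI.lift (fam pS pU pS_sq pU_cube)
      (CoprodI.of (i := false) (Multiplicative.ofAdd ((1 : ℤ) : ZMod 2))) = pS := by
    rw [CoprodI.lift_of]
    show zhom 2 pS pS_sq _ = _
    rw [zhom_apply, zpow_one]
  exact h1.symm

lemma equivP_symm_pU :
    equivP.symm pU = CoprodI.of (i := true) (Multiplicative.ofAdd ((1 : ℤ) : ZMod 3)) := by
  rw [MulEquiv.symm_apply_eq]
  have h1 : CoprodI.lift (fam pS pU pS_sq pU_cube)
      (CoprodI.of (i := true) (Multiplicative.ofAdd ((1 : ℤ) : ZMod 3))) = pU := by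
    rw [CoprodI.lift_of]
    show zhom 3 pU pU_cube _ = _
    rw [zhom_apply, zpow_one]
  exact h1.symm

/-- Homomorphisms out of `Pg`. -/
theorem exists_hom {G : Type*} [Group G] (s u : G) (hs : s ^ 2 = 1) (hu : u ^ 3 = 1) :
    ∃ f : Pg →* G, f pS = s ∧ f pU = u := by
  refine ⟨(CoprodI.lift (fam s u hs hu)).comp equivP.symm.toMonoidHom, ?_, ?_⟩
  · show CoprodI.lift (fam s u hs hu) (equivP.symm pS) = s
    rw [equivP_symm_pS, CoprodI.lift_of]
    show zhom 2 s hs _ = _
    rw [zhom_apply, zpow_one]
  · show CoprodI.lift (fam s u hs hu) (equivP.symm pU) = u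
    rw [equivP_symm_pU, CoprodI.lift_of]
    show zhom 3 u hu _ = _
    rw [zhom_apply, zpow_one]

/-- two homomorphisms out of `Pg` which agree on the generators are equal -/
theorem hom_ext {G : Type*} [Group G] (f f' : Pg →* G) (h1 : f pS = f' pS) (h2 : f pU = f' pU) :
    f = f' := by
  have : f.comp equivP.toMonoidHom = f'.comp equivP.toMonoidHom := by
    refine CoprodI.ext_hom _ _ fun b => ?_
    cases b
    · refine MonoidHom.ext fun x => ?_
      rcases zmod_two_cases x with rfl | rfl
      · simp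
      · show f (CoprodI.lift (fam pS pU pS_sq pU_cube) (CoprodI.of _)) = f' (CoprodI.lift (fam pS pU pS_sq pU_cube) (CoprodI.of _))
        rw [CoprodI.lift_of]
        show f (zhom 2 pS pS_sq _) = f' (zhom 2 pS pS_sq _)
        rw [zhom_apply, zpow_one, h1]
    · refine MonoidHom.ext fun x => ?_
      rcases zmod_three_cases x with rfl | rfl | rfl
      · simp
      · show f (CoprodI.lift (fam pS pU pS_sq pU_cube) (CoprodI.of _)) = f' (CoprodI.lift (fam pS pU pS_sq pU_cube) (CoprodI.of _))
        rw [CoprodI.lift_of]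
        show f (zhom 3 pU pU_cube _) = f' (zhom 3 pU pU_cube _)
        rw [zhom_apply, zpow_one, h2]
      · show f (CoprodI.lift (fam pS pU pS_sq pU_cube) (CoprodI.of _)) = f' (CoprodI.lift (fam pS pU pS_sq pU_cube) (CoprodI.of _))
        rw [CoprodI.lift_of]
        show f (zhom 3 pU pU_cube _) = f' (zhom 3 pU pU_cube _)
        rw [zhom_apply, zpow_neg_one, map_inv, map_inv, h2]
  refine MonoidHom.ext fun x => ?_
  have h := congrArg (fun F : CoprodI HH →* G => F (equivP.symm x)) this
  simpa using h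

/-- the automorphisms given by an action by additive endomorphisms -/
def toMulAutMul {G V : Type*} [Group G] [AddCommGroup V] (ρ : G →* AddMonoid.End V) :
    G →* MulAut (Multiplicative V) where
  toFun g :=
    { toFun := fun v => Multiplicative.ofAdd (ρ g v.toAdd)
      invFun := fun v => Multiplicative.ofAdd (ρ g⁻¹ v.toAdd)
      left_inv := fun v => by
        show Multiplicative.ofAdd ((ρ g⁻¹ * ρ g) v.toAdd) = v
        rw [← map_mul, inv_mul_cancel, map_one]; rfl
      right_inv := fun v => by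
        show Multiplicative.ofAdd ((ρ g * ρ g⁻¹) v.toAdd) = v
        rw [← map_mul, mul_inv_cancel, map_one]; rfl
      map_mul' := fun v w => by
        show Multiplicative.ofAdd (ρ g (v.toAdd + w.toAdd)) = _
        rw [map_add]; rfl }
  map_one' := by
    ext v
    show Multiplicative.ofAdd (ρ 1 v.toAdd) = v
    rw [map_one]; rfl
  map_mul' g h := by
    ext v
    show Multiplicative.ofAdd (ρ (g * h) v.toAdd) = Multiplicative.ofAdd (ρ g (ρ h v.toAdd))
    rw [map_mul]; rfl

/-- **Cocycles on `SL(2,ℤ)` with prescribed values.** -/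
theorem exists_cocycle {V : Type*} [AddCommGroup V] (ρ : SL(2, ℤ) →* AddMonoid.End V)
    (hneg : ρ (-1) = 1) (vS vU : V) (hS : vS + ρ S vS = 0) (hU : vU + ρ U vU + ρ U (ρ U vU) = 0) :
    ∃ c : SL(2, ℤ) → V, (∀ g h, c (g * h) = c g + ρ g (c h)) ∧ c S = vS ∧ c U = vU := by
  have hker : toP.rangeRestrict.ker ≤ (toMulAutMul ρ).ker := by
    intro g hg
    have h1 : toP g = 1 := congrArg Subtype.val hg
    rcases eq_one_or_of_toP h1 with rfl | rfl
    · exact one_mem _
    · rw [MonoidHom.mem_ker]
      ext v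
      show Multiplicative.ofAdd (ρ (-1) v.toAdd) = v
      rw [hneg]; rfl
  let φ : Pg →* MulAut (Multiplicative V) :=
    (toP.rangeRestrict).liftOfSurjective toP.rangeRestrict_surjective
      ⟨toMulAutMul ρ, hker⟩
  have hφ : ∀ g, φ (toP.rangeRestrict g) = toMulAutMul ρ g := fun g =>
    MonoidHom.liftOfRightInverse_comp_apply _ _ _ _ g
  have hφS : ∀ v : V, φ pS (Multiplicative.ofAdd v) = Multiplicative.ofAdd (ρ S v) := by
    intro v
    have := hφ S
    change φ pS = _ at this
    rw [this]
    rfl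
  have hφU : ∀ v : V, φ pU (Multiplicative.ofAdd v) = Multiplicative.ofAdd (ρ U v) := by
    intro v
    have := hφ U
    change φ pU = _ at this
    rw [this]
    rfl
  let s : Multiplicative V ⋊[φ] Pg := ⟨Multiplicative.ofAdd vS, pS⟩
  let u : Multiplicative V ⋊[φ] Pg := ⟨Multiplicative.ofAdd vU, pU⟩
  have hs : s ^ 2 = 1 := by
    rw [pow_two]
    refine SemidirectProduct.ext ?_ ?_
    · show Multiplicative.ofAdd vS * φ pS (Multiplicative.ofAdd vS) = 1
      rw [hφS]
      exact congrArg Multiplicative.ofAdd hS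
    · show pS * pS = 1
      rw [← pow_two, pS_sq]
  have hu : u ^ 3 = 1 := by
    rw [pow_succ', pow_two]
    refine SemidirectProduct.ext ?_ ?_
    · show Multiplicative.ofAdd vU * φ pU (Multiplicative.ofAdd vU * φ pU (Multiplicative.ofAdd vU)) = 1
      have h1 : Multiplicative.ofAdd vU * φ pU (Multiplicative.ofAdd vU)
          = Multiplicative.ofAdd (vU + ρ U vU) := by
        rw [hφU]; rfl
      rw [h1, hφU]
      have h2 : vU + ρ U (vU + ρ U vU) = 0 := by rw [map_add, ← add_assoc, hU]
      exact congrArg Multiplicative.ofAdd h2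
    · show pU * (pU * pU) = 1
      rw [← pow_two, ← pow_succ', pU_cube]
  obtain ⟨f, hf1, hf2⟩ := exists_hom s u hs hu
  have hsec : (SemidirectProduct.rightHom.comp f) = MonoidHom.id Pg := by
    apply hom_ext
    · show SemidirectProduct.rightHom (f pS) = pS
      rw [hf1]; rfl
    · show SemidirectProduct.rightHom (f pU) = pU
      rw [hf2]; rfl
  have hright : ∀ x, (f x).right = x := fun x => congrArg (fun F : Pg →* Pg => F x) hsec
  refine ⟨fun g => Multiplicative.toAdd (f (toP.rangeRestrict g)).left, ?_, ?_, ?_⟩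
  · intro g h
    show Multiplicative.toAdd (f (toP.rangeRestrict (g * h))).left = _
    rw [map_mul, map_mul, SemidirectProduct.mul_left, hright, hφ]
    rfl
  · show Multiplicative.toAdd (f pS).left = vS
    rw [hf1]
    rfl
  · show Multiplicative.toAdd (f pU).left = vU
    rw [hf2]
    rfl

end Fermat.Agent.TC
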