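import Mathlib
import Fermat.Agent.TC.Corr
import Fermat.Agent.TC.Present

/-!
# Lifting of homomorphisms and surjectivity of transfer
-/

set_option autoImplicit false

noncomputable section

namespace Fermat.Agent.TC

open Matrix.SpecialLinearGroup ModularGroup
open scoped MatrixGroups

/-- extension of an automorphic function on `SL(2,ℤ)` to the ambient group -/
lemma exists_isAut_ext {Γ : Subgroup SL(2, ℤ)} {A : Type*} [AddCommGroup A] (ψ : HM Γ A)
    (u : SL(2, ℤ) → A) (hu : ∀ (γ : Γ) (x : SL(2, ℤ)), u (γ * x) = ψ (Additive.ofMul γ) + u x) :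
    ∃ u' : GG → A, IsAut ψ u' ∧ ∀ g, u' (emb g) = u g := by
  classical
  obtain ⟨u0, hu0⟩ := exists_isAut ψ
  let u' : GG → A := fun x => if h : ∃ g, emb g = x then u h.choose else u0 x
  have key : ∀ g, u' (emb g) = u g := by
    intro g
    have h : ∃ g', emb g' = emb g := ⟨g, rfl⟩
    have h2 : h.choose = g := emb_injective h.choose_spec
    show (if h : ∃ g', emb g' = emb g then u h.choose else u0 (emb g)) = u g
    rw [dif_pos h, h2]
  refine ⟨u', ?_, key⟩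
  intro γ x
  by_cases h : ∃ g, emb g = x
  · obtain ⟨g, rfl⟩ := h
    rw [← map_mul, key, key, hu]
  · have h' : ¬ ∃ g, emb g = emb γ * x := by
      rintro ⟨g, hg⟩
      exact h ⟨(γ : SL(2, ℤ))⁻¹ * g, by rw [map_mul, hg, map_inv, inv_mul_cancel_left]⟩
    show (if h : ∃ g', emb g' = emb γ * x then u h.choose else u0 (emb γ * x)) = _ +
      (if h : ∃ g', emb g' = x then u h.choose else u0 x)
    rw [dif_neg h, dif_neg h', hu0]

section Cocycles

variable {V V'' : Type*} [AddCommGroup V] [AddCommGroup V'']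

/-- a (left) cocycle -/
def IsCoc (ρ : SL(2, ℤ) →* AddMonoid.End V) (c : SL(2, ℤ) → V) : Prop :=
  ∀ g h, c (g * h) = c g + ρ g (c h)

lemma IsCoc.one {ρ : SL(2, ℤ) →* AddMonoid.End V} {c : SL(2, ℤ) → V} (hc : IsCoc ρ c) :
    c 1 = 0 := by
  have h := hc 1 1
  rw [mul_one, map_one] at h
  have h2 : c 1 = c 1 + c 1 := h
  simpa using h2

lemma IsCoc.inv {ρ : SL(2, ℤ) →* AddMonoid.End V} {c : SL(2, ℤ) → V} (hc : IsCoc ρ c)
    (g : SL(2, ℤ)) : c g⁻¹ = - ρ g⁻¹ (c g) := by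
  have h := hc g⁻¹ g
  rw [inv_mul_cancel, hc.one] at h
  exact eq_neg_of_add_eq_zero_left h.symm

/-- two cocycles which agree on the generators agree -/
lemma IsCoc.ext {ρ : SL(2, ℤ) →* AddMonoid.End V} {c c' : SL(2, ℤ) → V} (hc : IsCoc ρ c)
    (hc' : IsCoc ρ c') (hS : c S = c' S) (hU : c U = c' U) : c = c' := by
  let K : Subgroup SL(2, ℤ) :=
    { carrier := {g | c g = c' g}
      one_mem' := by show c 1 = c' 1; rw [hc.one, hc'.one]
      mul_mem' := by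
        intro a b (ha : c a = c' a) (hb : c b = c' b)
        show c (a * b) = c' (a * b)
        rw [hc, hc', ha, hb]
      inv_mem' := by
        intro a (ha : c a = c' a)
        show c a⁻¹ = c' a⁻¹
        rw [hc.inv, hc'.inv, ha] }
  have hK : K = ⊤ := by
    rw [eq_top_iff, ← SpecialLinearGroup.SL2Z_generators, Subgroup.closure_le]
    have h1 : S ∈ K := hS
    have h2 : U ∈ K := hU
    rintro x (rfl | rfl)
    · exact h1
    · have h3 : T = S⁻¹ * U := by rw [U]; group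
      show T ∈ K
      rw [h3]
      exact mul_mem (inv_mem h1) h2
  funext g
  have : g ∈ K := by rw [hK]; trivial
  exact this

/-- **Lifting of cocycles.** -/
theorem lift_cocycle (ρ : SL(2, ℤ) →* AddMonoid.End V) (ρ'' : SL(2, ℤ) →* AddMonoid.End V'')
    (π : V →+ V'') (hπ : ∀ g v, π (ρ g v) = ρ'' g (π v)) (hsurj : Function.Surjective π)
    (hneg : ρ (-1) = 1) (h2 : ∀ v : V'', ∃ w, w + w = v) (h2' : ∀ v : V'', v + v = 0 → v = 0)
    (hU : ∀ v : V'', v + ρ'' U v + ρ'' U (ρ'' U v) = 0 → ∃ w, v = w - ρ'' U w)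
    (c'' : SL(2, ℤ) → V'') (hc'' : IsCoc ρ'' c'') :
    ∃ c : SL(2, ℤ) → V, IsCoc ρ c ∧ ∀ g, π (c g) = c'' g := by
  have hneg'' : ∀ v, ρ'' (-1) v = v := by
    intro v
    obtain ⟨w, rfl⟩ := hsurj v
    rw [← hπ, hneg]
    rfl
  have hneg0 : c'' (-1) = 0 := by
    apply h2'
    have h := hc'' (-1) (-1)
    rw [hneg'', neg_mul_neg, one_mul, hc''.one] at h
    exact h.symm
  have e1 : c'' S + ρ'' S (c'' S) = 0 := by
    rw [← hc'', ← pow_two, S_sq, hneg0]
  have e2 : c'' U + ρ'' U (c'' U) + ρ'' U (ρ'' U (c'' U)) = 0 := by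
    rw [add_assoc, ← map_add, ← hc'', ← hc'', ← pow_two, ← pow_succ', U_cube, hneg0]
  -- lift the value at `S`
  have hSS : ∀ v, ρ S (ρ S v) = v := by
    intro v
    have h : ρ S (ρ S v) = (ρ (S * S)) v := by rw [map_mul]; rfl
    rw [h, ← pow_two, S_sq, hneg]
    rfl
  have hUUU : ∀ v, ρ U (ρ U (ρ U v)) = v := by
    intro v
    have h : ρ U (ρ U (ρ U v)) = (ρ (U * (U * U))) v := by rw [map_mul, map_mul]; rfl
    rw [h, ← pow_two, ← pow_succ', U_cube, hneg]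
    rfl
  obtain ⟨wS'', hwS⟩ := h2 (c'' S)
  obtain ⟨wS, rfl⟩ := hsurj wS''
  obtain ⟨wU'', hwU⟩ := hU (c'' U) e2
  obtain ⟨wU, rfl⟩ := hsurj wU''
  obtain ⟨c, hc, hcS, hcU⟩ := exists_cocycle ρ hneg (wS - ρ S wS) (wU - ρ U wU)
    (by rw [map_sub, hSS]; abel) (by rw [map_sub, map_sub, hUUU]; abel)
  refine ⟨c, hc, ?_⟩
  have hc2 : IsCoc ρ'' (fun g => π (c g)) := by
    intro g h
    show π (c (g * h)) = π (c g) + ρ'' g (π (c h))
    rw [hc, map_add, hπ]
  have hfin := hc2.ext hc'' ?_ ?_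
  · exact fun g => congrFun hfin g
  · show π (c S) = c'' S
    rw [hcS, map_sub, hπ]
    have h3 : ρ'' S (π wS) = - π wS := by
      have h4 : (π wS + ρ'' S (π wS)) + (π wS + ρ'' S (π wS)) = 0 := by
        rw [← hwS, map_add] at e1
        rw [← e1]; abel
      exact eq_neg_of_add_eq_zero_right (h2' _ h4)
    rw [h3, sub_neg_eq_add, hwS]
  · show π (c U) = c'' U
    rw [hcU, map_sub, hπ, hwU]

end Cocycles

section Functions

variable (X : Type*) [MulAction SL(2, ℤ) X] (A : Type*) [AddCommGroup A]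

/-- the action on functions -/
def rhoF : SL(2, ℤ) →* AddMonoid.End (X → A) where
  toFun g :=
    { toFun := fun v x => v (g⁻¹ • x)
      map_zero' := rfl
      map_add' := fun _ _ => rfl }
  map_one' := by
    ext v x
    show v ((1 : SL(2, ℤ))⁻¹ • x) = v x
    rw [inv_one, one_smul]
  map_mul' g h := by
    ext v x
    show v ((g * h)⁻¹ • x) = v (h⁻¹ • g⁻¹ • x)
    rw [mul_inv_rev, mul_smul]

variable {X A}

lemma rhoF_apply (g : SL(2, ℤ)) (v : X → A) (x : X) : rhoF X A g v x = v (g⁻¹ • x) := rfl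

/-- The elliptic condition: either `3` is invertible on `A` or the order three elements act freely
on `X`. -/
def EllX (X : Type*) [MulAction SL(2, ℤ) X] (A : Type*) [AddCommGroup A] : Prop :=
  (∀ a : A, ∃! b : A, b + b + b = a) ∨ ∀ x : X, U • x ≠ x

lemma hU_of_free (hneg : ∀ x : X, (-1 : SL(2, ℤ)) • x = x) (hfree : ∀ x : X, U • x ≠ x)
    (v : X → A) (hv : v + rhoF X A U v + rhoF X A U (rhoF X A U v) = 0) :
    ∃ w, v = w - rhoF X A U w := by
  classical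
  let τ : X → X := fun x => U⁻¹ • x
  have hτ3 : ∀ x, τ (τ (τ x)) = x := by
    intro x
    show U⁻¹ • U⁻¹ • U⁻¹ • x = x
    rw [← mul_smul, ← mul_smul]
    have : U⁻¹ * U⁻¹ * U⁻¹ = -1 := by
      have h1 : U⁻¹ * U⁻¹ * U⁻¹ = (U ^ 3)⁻¹ := by group
      rw [h1, U_cube]
      rw [inv_eq_iff_mul_eq_one]
      simp
    rw [this, hneg]
  have hτ1 : ∀ x, τ x ≠ x := by
    intro x h
    apply hfree x
    have h2 : U⁻¹ • x = x := h
    exact (inv_smul_eq_iff.mp h2).symm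
  -- orbits
  let r : Setoid X :=
    { r := fun x y => y = x ∨ y = τ x ∨ y = τ (τ x)
      iseqv := by
        refine ⟨fun x => Or.inl rfl, ?_, ?_⟩
        · rintro x y (rfl | rfl | rfl)
          · exact Or.inl rfl
          · exact Or.inr (Or.inr (hτ3 x).symm)
          · exact Or.inr (Or.inl (hτ3 x).symm)
        · rintro x y z (rfl | rfl | rfl) (rfl | rfl | rfl)
          · exact Or.inl rfl
          · exact Or.inr (Or.inl rfl)
          · exact Or.inr (Or.inr rfl)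
          · exact Or.inr (Or.inl rfl)
          · exact Or.inr (Or.inr rfl)
          · exact Or.inl (hτ3 x)
          · exact Or.inr (Or.inr rfl)
          · exact Or.inl (hτ3 x)
          · exact Or.inr (Or.inl (by rw [hτ3])) }
  let o : X → X := fun x => (Quotient.mk r x).out
  have ho : ∀ x, o (τ x) = o x := by
    intro x
    have : Quotient.mk r (τ x) = Quotient.mk r x := by
      apply Quotient.sound
      show x = τ x ∨ x = τ (τ x) ∨ x = τ (τ (τ x))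
      exact Or.inr (Or.inr (hτ3 x).symm)
    show (Quotient.mk r (τ x)).out = (Quotient.mk r x).out
    rw [this]
  have hor : ∀ x, x = o x ∨ x = τ (o x) ∨ x = τ (τ (o x)) := fun x =>
    (Quotient.mk_out (s := r) x)
  have hv' : ∀ x, v x + v (τ x) + v (τ (τ x)) = 0 := fun x => congrFun hv x
  let w : X → A := fun x => if x = o x then 0 else if x = τ (τ (o x)) then v x else v x + v (τ x)
  refine ⟨w, ?_⟩
  funext x
  show v x = w x - w (τ x)
  have hττ : ∀ y, τ (τ y) ≠ y := by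
    intro y h
    have := hτ3 y
    rw [h] at this
    exact hτ1 y this
  rcases hor x with h | h | h
  · -- `x` is the representative
    have h1 : w x = 0 := if_pos h
    have h2 : w (τ x) = v (τ x) + v (τ (τ x)) := by
      show (if τ x = o (τ x) then 0 else if τ x = τ (τ (o (τ x))) then v (τ x)
        else v (τ x) + v (τ (τ x))) = _
      rw [ho, ← h, if_neg (hτ1 x), if_neg (fun h' => hτ1 (τ x) h'.symm)]
    rw [h1, h2, zero_sub]
    have := hv' x
    rw [add_assoc] at this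
    exact eq_neg_of_add_eq_zero_left this
  · have h0 : x ≠ o x := by
      intro h'
      have h'' : τ (o x) = o x := h.symm.trans h'
      exact hτ1 _ h''
    have h0' : x ≠ τ (τ (o x)) := by
      intro h'
      have h'' : τ (τ (o x)) = τ (o x) := h'.symm.trans h
      exact hτ1 _ h''
    have h1 : w x = v x + v (τ x) := by
      show (if x = o x then 0 else if x = τ (τ (o x)) then v x else v x + v (τ x)) = _
      rw [if_neg h0, if_neg h0']
    have h2 : w (τ x) = v (τ x) := by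
      show (if τ x = o (τ x) then 0 else if τ x = τ (τ (o (τ x))) then v (τ x)
        else v (τ x) + v (τ (τ x))) = _
      rw [ho]
      have h3 : τ x ≠ o x := by
        intro h'
        have h'' : τ (τ (o x)) = o x := by rw [← h]; exact h'
        exact hττ _ h''
      rw [if_neg h3, if_pos (by rw [← h])]
    rw [h1, h2]; abel
  · have h0 : x ≠ o x := by
      intro h'
      have h'' : τ (τ (o x)) = o x := h.symm.trans h'
      exact hττ _ h''
    have h1 : w x = v x := by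
      show (if x = o x then 0 else if x = τ (τ (o x)) then v x else v x + v (τ x)) = _
      rw [if_neg h0, if_pos h]
    have h2 : w (τ x) = 0 := by
      show (if τ x = o (τ x) then 0 else if τ x = τ (τ (o (τ x))) then v (τ x)
        else v (τ x) + v (τ (τ x))) = _
      rw [ho]
      have h3 : τ x = o x := by
        conv_lhs => rw [h]
        exact hτ3 _
      rw [if_pos h3]
    rw [h1, h2]; abel

lemma hU_of_three (hneg : ∀ x : X, (-1 : SL(2, ℤ)) • x = x)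
    (h3 : ∀ a : A, ∃! b : A, b + b + b = a)
    (v : X → A) (hv : v + rhoF X A U v + rhoF X A U (rhoF X A U v) = 0) :
    ∃ w, v = w - rhoF X A U w := by
  choose t ht ht' using h3
  have ht' : ∀ a b : A, b + b + b = a → b = t a := fun a b h => ht' a b h
  have ht : ∀ a, t a + t a + t a = a := ht
  let τ : X → X := fun x => U⁻¹ • x
  have hτ3 : ∀ x, τ (τ (τ x)) = x := by
    intro x
    show U⁻¹ • U⁻¹ • U⁻¹ • x = x
    rw [← mul_smul, ← mul_smul]
    have : U⁻¹ * U⁻¹ * U⁻¹ = -1 := by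
      have h1 : U⁻¹ * U⁻¹ * U⁻¹ = (U ^ 3)⁻¹ := by group
      rw [h1, U_cube]
      rw [inv_eq_iff_mul_eq_one]
      simp
    rw [this, hneg]
  have hv' : ∀ x, v x + v (τ x) + v (τ (τ x)) = 0 := fun x => congrFun hv x
  refine ⟨fun x => t (v x + v x + v (τ x)), ?_⟩
  funext x
  show v x = t (v x + v x + v (τ x)) - t (v (τ x) + v (τ x) + v (τ (τ x)))
  have inj : ∀ a b : A, a + a + a = b + b + b → a = b := by
    intro a b h
    rw [ht' _ a rfl, ht' _ b rfl, h]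
  apply inj
  have e1 := ht (v x + v x + v (τ x))
  have e2 := ht (v (τ x) + v (τ x) + v (τ (τ x)))
  have e3 : t (v x + v x + v (τ x)) - t (v (τ x) + v (τ x) + v (τ (τ x))) +
      (t (v x + v x + v (τ x)) - t (v (τ x) + v (τ x) + v (τ (τ x)))) +
      (t (v x + v x + v (τ x)) - t (v (τ x) + v (τ x) + v (τ (τ x))))
      = (v x + v x + v (τ x)) - (v (τ x) + v (τ x) + v (τ (τ x))) := by
    conv_rhs => rw [← e1, ← e2]
    abel
  rw [e3]
  have e4 := hv' x
  have e5 : v (τ (τ x)) = - v x - v (τ x) := by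
    have h7 : v (τ (τ x)) = - (v x + v (τ x)) := eq_neg_of_add_eq_zero_right e4
    rw [h7]; abel
  rw [e5]; abel

lemma hU_of_ell (hneg : ∀ x : X, (-1 : SL(2, ℤ)) • x = x) (h : EllX X A)
    (v : X → A) (hv : v + rhoF X A U v + rhoF X A U (rhoF X A U v) = 0) :
    ∃ w, v = w - rhoF X A U w := by
  rcases h with h | h
  · exact hU_of_three hneg h v hv
  · exact hU_of_free hneg h v hv

end Functions

section Shapiro

variable {Γ Γ' : Subgroup SL(2, ℤ)} {A : Type*} [AddCommGroup A]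

lemma neg_one_smul_coset (hΓ : (-1 : SL(2, ℤ)) ∈ Γ) (x : SL(2, ℤ) ⧸ Γ) :
    (-1 : SL(2, ℤ)) • x = x := by
  obtain ⟨g, rfl⟩ := QuotientGroup.mk_surjective x
  rw [MulAction.Quotient.smul_mk, QuotientGroup.eq]
  have h : ((-1 : SL(2, ℤ)) • g)⁻¹ * g = -1 := by
    rw [smul_eq_mul, neg_mul, one_mul]
    rw [inv_mul_eq_iff_eq_mul]
    simp
  rw [h]
  exact hΓ

/-- the cocycle attached to a homomorphism -/
lemma exists_coc (ψ : HM Γ A) : ∃ c : SL(2, ℤ) → (SL(2, ℤ) ⧸ Γ → A),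
    IsCoc (rhoF (SL(2, ℤ) ⧸ Γ) A) c ∧
      ∀ γ : Γ, c γ ((1 : SL(2, ℤ)) : SL(2, ℤ) ⧸ Γ) = ψ (Additive.ofMul γ) := by
  obtain ⟨u, hu⟩ := exists_isAut ψ
  let v : SL(2, ℤ) → A := fun x => u (emb x⁻¹)
  have hv : ∀ (x : SL(2, ℤ)) (γ : Γ), v (x * γ) = - ψ (Additive.ofMul γ) + v x := by
    intro x γ
    show u (emb (x * γ)⁻¹) = _ + u (emb x⁻¹)
    rw [mul_inv_rev, map_mul]
    have h := hu γ⁻¹ (emb x⁻¹)
    rw [ofMul_inv, map_neg] at h
    exact h
  let c : SL(2, ℤ) → (SL(2, ℤ) ⧸ Γ → A) := fun g =>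
    Quotient.lift (fun x => v (g⁻¹ * x) - v x) (by
      intro x y hxy
      have h1 : x⁻¹ * y ∈ Γ := QuotientGroup.leftRel_apply.mp hxy
      have h2 : y = x * ((⟨x⁻¹ * y, h1⟩ : Γ) : SL(2, ℤ)) := by simp
      show v (g⁻¹ * x) - v x = v (g⁻¹ * y) - v y
      have h3 : g⁻¹ * y = g⁻¹ * x * ((⟨x⁻¹ * y, h1⟩ : Γ) : SL(2, ℤ)) := by
        conv_lhs => rw [h2]
        rw [mul_assoc]
      have h4 : v (g⁻¹ * y) = - ψ (Additive.ofMul ⟨x⁻¹ * y, h1⟩) + v (g⁻¹ * x) := by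
        rw [h3, hv]
      have h5 : v y = - ψ (Additive.ofMul ⟨x⁻¹ * y, h1⟩) + v x := by
        conv_lhs => rw [h2]
        rw [hv]
      rw [h4, h5]; abel)
  refine ⟨c, ?_, ?_⟩
  · intro g h
    funext x
    obtain ⟨x, rfl⟩ := QuotientGroup.mk_surjective x
    show v ((g * h)⁻¹ * x) - v x = (v (g⁻¹ * x) - v x) + (v (h⁻¹ * (g⁻¹ * x)) - v (g⁻¹ * x))
    rw [mul_inv_rev, mul_assoc]; abel
  · intro γ
    show v ((γ : SL(2, ℤ))⁻¹ * 1) - v 1 = _
    have h := hv 1 γ⁻¹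
    rw [one_mul, ofMul_inv, map_neg, neg_neg] at h
    rw [mul_one, sub_eq_iff_eq_add]
    exact h

/-- the homomorphism attached to a cocycle -/
def homCoc (c : SL(2, ℤ) → (SL(2, ℤ) ⧸ Γ → A)) (hc : IsCoc (rhoF (SL(2, ℤ) ⧸ Γ) A) c) :
    HM Γ A :=
  AddMonoidHom.mk' (fun γ => c (γ.toMul : Γ) ((1 : SL(2, ℤ)) : SL(2, ℤ) ⧸ Γ)) (by
    intro a b
    show c ((a.toMul * b.toMul : Γ) : SL(2, ℤ)) _ = _
    rw [Subgroup.coe_mul, hc]
    show _ + c _ ((a.toMul : SL(2, ℤ))⁻¹ • _) = _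
    congr 2
    rw [MulAction.Quotient.smul_mk, smul_eq_mul, mul_one, QuotientGroup.eq, inv_inv, mul_one]
    exact a.toMul.2)

lemma homCoc_apply (c : SL(2, ℤ) → (SL(2, ℤ) ⧸ Γ → A)) (hc : IsCoc (rhoF (SL(2, ℤ) ⧸ Γ) A) c)
    (γ : Γ) : homCoc c hc (Additive.ofMul γ) = c γ ((1 : SL(2, ℤ)) : SL(2, ℤ) ⧸ Γ) := rfl

/-- the automorphic function of the homomorphism attached to a cocycle -/
lemma homCoc_aut (c : SL(2, ℤ) → (SL(2, ℤ) ⧸ Γ → A)) (hc : IsCoc (rhoF (SL(2, ℤ) ⧸ Γ) A) c)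
    (γ : Γ) (x : SL(2, ℤ)) :
    c (γ * x) ((1 : SL(2, ℤ)) : SL(2, ℤ) ⧸ Γ) = homCoc c hc (Additive.ofMul γ) +
      c x ((1 : SL(2, ℤ)) : SL(2, ℤ) ⧸ Γ) := by
  rw [hc]
  show _ + c _ ((γ : SL(2, ℤ))⁻¹ • _) = _
  rw [homCoc_apply]
  congr 2
  rw [MulAction.Quotient.smul_mk, smul_eq_mul, mul_one, QuotientGroup.eq, inv_inv, mul_one]
  exact γ.2

/-- divisibility by two -/
def Two (A : Type*) [AddCommGroup A] : Prop := ∀ a : A, ∃! b : A, b + b = a

lemma Two.fun {A : Type*} [AddCommGroup A] (h : Two A) (X : Type*) (v : X → A) :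
    ∃ w : X → A, w + w = v := by
  choose t ht using fun a => (h a).exists
  exact ⟨fun x => t (v x), funext fun x => ht (v x)⟩

lemma Two.fun' {A : Type*} [AddCommGroup A] (h : Two A) (X : Type*) (v : X → A)
    (hv : v + v = 0) : v = 0 := by
  funext x
  obtain ⟨b, _, hb⟩ := h 0
  have h1 := hb (v x) (congrFun hv x)
  have h2 := hb 0 (by simp)
  exact h1.trans h2.symm

/-- **Lifting of homomorphisms along surjections of the coefficients.** -/
theorem hom_lift {A'' : Type*} [AddCommGroup A''] (hΓ : (-1 : SL(2, ℤ)) ∈ Γ) (f : A →+ A'')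
    (hf : Function.Surjective f) (h2 : Two A'') (hE : EllX (SL(2, ℤ) ⧸ Γ) A'') (ψ : HM Γ A'') :
    ∃ φ : HM Γ A, f.comp φ = ψ := by
  obtain ⟨c'', hc'', hψ⟩ := exists_coc ψ
  obtain ⟨c, hc, hcc⟩ := lift_cocycle (rhoF (SL(2, ℤ) ⧸ Γ) A) (rhoF (SL(2, ℤ) ⧸ Γ) A'')
    (f.compLeft _) (fun _ _ => rfl) (fun v => by
      choose s hs using hf
      exact ⟨fun x => s (v x), funext fun x => hs (v x)⟩)
    (by
      ext v x
      show v ((-1 : SL(2, ℤ))⁻¹ • x) = v x
      rw [show (-1 : SL(2, ℤ))⁻¹ = -1 from by rw [inv_eq_iff_mul_eq_one]; simp,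
        neg_one_smul_coset hΓ])
    (h2.fun _) (h2.fun' _) (fun v hv => hU_of_ell (neg_one_smul_coset hΓ) hE v hv) c'' hc''
  refine ⟨homCoc c hc, ?_⟩
  refine AddMonoidHom.ext fun γ => ?_
  show f (c _ _) = _
  have := congrFun (hcc (γ.toMul : Γ)) ((1 : SL(2, ℤ)) : SL(2, ℤ) ⧸ Γ)
  exact this.trans (hψ γ.toMul)

end Shapiro

section Transfer

variable {Γ Γ' : Subgroup SL(2, ℤ)} {A : Type*} [AddCommGroup A] {R : Type*} [CommRing R]
  [Module R A]

/-- the family of the transfer -/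
def trFam (Γ Γ' : Subgroup SL(2, ℤ)) : (Γ ⧸ Γ'.subgroupOf Γ) → GG :=
  fun q => emb ((q.out : Γ) : SL(2, ℤ))⁻¹

variable [Fintype (Γ ⧸ Γ'.subgroupOf Γ)]

lemma trFam_stable : Stable Γ' Γ (fun _ => (1 : R)) (trFam Γ Γ') := by
  intro γ
  refine ⟨MulAction.toPerm γ⁻¹, fun q => ⟨rfl, ?_⟩⟩
  have h1 : (((γ⁻¹ • q).out : Γ))⁻¹ * (γ⁻¹ * q.out) ∈ Γ'.subgroupOf Γ := by
    rw [← QuotientGroup.eq]
    rw [QuotientGroup.out_eq']
    show γ⁻¹ • q = ((γ⁻¹ • q.out : Γ) : Γ ⧸ Γ'.subgroupOf Γ)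
    rw [← MulAction.Quotient.smul_mk, QuotientGroup.out_eq']
  rw [Subgroup.mem_subgroupOf] at h1
  refine ⟨⟨_, inv_mem h1⟩, ?_⟩
  show emb _ * emb _ = emb _ * emb _
  rw [← map_mul, ← map_mul]
  congr 1
  simp only [Subgroup.coe_mul, Subgroup.coe_inv, mul_inv_rev, inv_inv]
  show _ = _ * ((((γ⁻¹ • q).out : Γ) : SL(2, ℤ)))⁻¹
  group

variable (R A) in
/-- the transfer `Hom(Γ', A) → Hom(Γ, A)` -/
def tr (Γ Γ' : Subgroup SL(2, ℤ)) [Fintype (Γ ⧸ Γ'.subgroupOf Γ)] : HM Γ' A →ₗ[R] HM Γ A :=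
  op (fun _ => (1 : R)) (trFam Γ Γ') trFam_stable

lemma rep_tr : Rep (fun _ => (1 : R)) (trFam Γ Γ') (tr A R Γ Γ') := rep_op _ _ _

/-- **Surjectivity of the transfer.** -/
theorem tr_surjective [Γ'.FiniteIndex] (hle : Γ' ≤ Γ) (hΓ : (-1 : SL(2, ℤ)) ∈ Γ') (h2 : Two A)
    (hE : EllX (SL(2, ℤ) ⧸ Γ) A) : Function.Surjective (tr A R Γ Γ') := by
  classical
  intro ψ
  haveI : Fintype (SL(2, ℤ) ⧸ Γ') := Subgroup.fintypeQuotientOfFiniteIndex
  obtain ⟨c'', hc'', hψ⟩ := exists_coc ψ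
  -- the projection
  let pr : (SL(2, ℤ) ⧸ Γ') → (SL(2, ℤ) ⧸ Γ) := Subgroup.quotientMapOfLE hle
  have hpr : ∀ (g : SL(2, ℤ)) x, pr (g • x) = g • pr x := by
    intro g x
    obtain ⟨x, rfl⟩ := QuotientGroup.mk_surjective x
    rfl
  have hprs : Function.Surjective pr := by
    intro x
    obtain ⟨x, rfl⟩ := QuotientGroup.mk_surjective x
    exact ⟨(x : SL(2, ℤ) ⧸ Γ'), rfl⟩
  let π : ((SL(2, ℤ) ⧸ Γ') → A) →+ ((SL(2, ℤ) ⧸ Γ) → A) :=
    { toFun := fun v x => ∑ x' with pr x' = x, v x'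
      map_zero' := by funext x; simp
      map_add' := fun v w => by funext x; simp [Finset.sum_add_distrib] }
  have hπ : ∀ g v, π (rhoF _ A g v) = rhoF _ A g (π v) := by
    intro g v
    funext x
    show ∑ x' with pr x' = x, v (g⁻¹ • x') = ∑ x' with pr x' = g⁻¹ • x, v x'
    refine Finset.sum_bij' (fun x' _ => g⁻¹ • x') (fun x' _ => g • x') ?_ ?_ ?_ ?_ ?_
    · intro x' hx'
      simp only [Finset.mem_filter, Finset.mem_univ, true_and] at hx' ⊢
      rw [hpr, hx']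
    · intro x' hx'
      simp only [Finset.mem_filter, Finset.mem_univ, true_and] at hx' ⊢
      rw [hpr, hx', smul_inv_smul]
    · intro x' _; exact smul_inv_smul g x'
    · intro x' _; exact inv_smul_smul g x'
    · intro x' _; rfl
  have hπs : Function.Surjective π := by
    intro v
    choose s hs using hprs
    refine ⟨fun x' => if x' = s (pr x') then v (pr x') else 0, ?_⟩
    funext x
    show ∑ x' with pr x' = x, (if x' = s (pr x') then v (pr x') else 0) = v x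
    rw [Finset.sum_eq_single (s x)]
    · rw [hs, if_pos rfl]
    · intro x' hx' hne
      simp only [Finset.mem_filter, Finset.mem_univ, true_and] at hx'
      rw [hx', if_neg hne]
    · intro h
      exact absurd (by simp [hs]) h
  obtain ⟨c, hc, hcc⟩ := lift_cocycle (rhoF (SL(2, ℤ) ⧸ Γ') A) (rhoF (SL(2, ℤ) ⧸ Γ) A)
    π hπ hπs
    (by
      ext v x
      show v ((-1 : SL(2, ℤ))⁻¹ • x) = v x
      rw [show (-1 : SL(2, ℤ))⁻¹ = -1 from by rw [inv_eq_iff_mul_eq_one]; simp,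
        neg_one_smul_coset hΓ])
    (h2.fun _) (h2.fun' _) (fun v hv => hU_of_ell (neg_one_smul_coset (hle hΓ)) hE v hv) c'' hc''
  refine ⟨homCoc c hc, ?_⟩
  obtain ⟨u', hu', hu⟩ := exists_isAut_ext (homCoc c hc)
    (fun x => c x ((1 : SL(2, ℤ)) : SL(2, ℤ) ⧸ Γ')) (homCoc_aut c hc)
  have h := rep_tr (R := R) (Γ := Γ) (Γ' := Γ') _ _ hu'
  refine AddMonoidHom.ext fun γ => ?_
  have h1 := h γ.toMul 1
  have key : ∀ x : SL(2, ℤ), (∑ i, (1 : R) • u' (trFam Γ Γ' i * emb x))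
      = (∑ q : Γ ⧸ Γ'.subgroupOf Γ, c ((q.out : Γ) : SL(2, ℤ))⁻¹ ((1 : SL(2, ℤ)) : SL(2, ℤ) ⧸ Γ'))
        + c'' x ((1 : SL(2, ℤ)) : SL(2, ℤ) ⧸ Γ) := by
    intro x
    rw [← hcc x]
    have h3 : π (c x) ((1 : SL(2, ℤ)) : SL(2, ℤ) ⧸ Γ)
        = ∑ q : Γ ⧸ Γ'.subgroupOf Γ, c x ((((q.out : Γ) : SL(2, ℤ)) : SL(2, ℤ)) : SL(2, ℤ) ⧸ Γ') := by
      symm
      refine Finset.sum_bij (fun q _ => ((((q.out : Γ) : SL(2, ℤ)) : SL(2, ℤ)) : SL(2, ℤ) ⧸ Γ'))
        ?_ ?_ ?_ (fun _ _ => rfl)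
      · intro q _
        simp only [Finset.mem_filter, Finset.mem_univ, true_and]
        show (((q.out : Γ) : SL(2, ℤ)) : SL(2, ℤ) ⧸ Γ) = _
        rw [QuotientGroup.eq, mul_one]
        exact inv_mem (q.out).2
      · intro q _ q' _ hq
        rw [QuotientGroup.eq] at hq
        rw [← QuotientGroup.out_eq' q, ← QuotientGroup.out_eq' q', QuotientGroup.eq,
          Subgroup.mem_subgroupOf]
        exact hq
      · intro x' hx'
        obtain ⟨x', rfl⟩ := QuotientGroup.mk_surjective x'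
        simp only [Finset.mem_filter, Finset.mem_univ, true_and] at hx'
        have hx2 : ((x' : SL(2, ℤ)) : SL(2, ℤ) ⧸ Γ) = ((1 : SL(2, ℤ)) : SL(2, ℤ) ⧸ Γ) := hx'
        rw [QuotientGroup.eq, mul_one] at hx2
        have hx3 : x' ∈ Γ := by simpa using inv_mem hx2
        refine ⟨((⟨x', hx3⟩ : Γ) : Γ ⧸ Γ'.subgroupOf Γ), Finset.mem_univ _, ?_⟩
        rw [QuotientGroup.eq]
        have h4 := QuotientGroup.out_eq' ((⟨x', hx3⟩ : Γ) : Γ ⧸ Γ'.subgroupOf Γ)
        rw [QuotientGroup.eq, Subgroup.mem_subgroupOf] at h4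
        exact h4
    rw [h3, ← Finset.sum_add_distrib]
    refine Finset.sum_congr rfl fun q _ => ?_
    rw [one_smul, trFam, ← map_mul, hu, hc]
    show _ + c x ((((q.out : Γ) : SL(2, ℤ))⁻¹)⁻¹ • _) = _
    rw [inv_inv, MulAction.Quotient.smul_mk, smul_eq_mul, mul_one]
  simp only at h1
  have h5 : emb ((γ.toMul : Γ) : SL(2, ℤ)) * (1 : GG) = emb ((γ.toMul : Γ) : SL(2, ℤ)) := mul_one _
  have h6 : (∑ i, (1 : R) • u' (trFam Γ Γ' i * 1)) = ∑ i, (1 : R) • u' (trFam Γ Γ' i * emb 1) := by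
    rw [map_one]
  rw [h5, h6, key, key, hc''.one] at h1
  have h7 : c'' ((γ.toMul : Γ) : SL(2, ℤ)) ((1 : SL(2, ℤ)) : SL(2, ℤ) ⧸ Γ)
      = tr A R Γ Γ' (homCoc c hc) (Additive.ofMul γ.toMul) := by
    have h8 : (0 : (SL(2, ℤ) ⧸ Γ) → A) ((1 : SL(2, ℤ)) : SL(2, ℤ) ⧸ Γ) = 0 := rfl
    rw [h8, add_zero, add_comm] at h1
    exact add_right_cancel h1
  rw [hψ] at h7
  exact h7.symm

end Transfer

end Fermat.Agent.TC
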