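import Mathlib
import Fermat.Agent.TC.Lift
import Fermat.Agent.H22.GamHComm
import Fermat.Agent.H22.Linear

/-!
# Hecke operators on `Hom(Γ_H(N), A)` as correspondences
-/

set_option autoImplicit false

noncomputable section

namespace Fermat.Agent.TC

open Matrix.SpecialLinearGroup CongruenceSubgroup H22
open scoped MatrixGroups

section Change

variable {Γ Γ' : Subgroup SL(2, ℤ)} {A : Type*} [AddCommGroup A]
  {R : Type*} [CommRing R] [Module R A] {ι ι' : Type*} [Fintype ι] [Fintype ι']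

/-- Change of the family. -/
lemma Rep.change {w : ι → R} {α : ι → GG} {F : HM Γ A → HM Γ' A} (h : Rep w α F)
    {w' : ι' → R} {α' : ι' → GG} (e : ι ≃ ι') (hw : ∀ i, w i = w' (e i))
    (hα : ∀ i, ∃ γ : Γ, α i = emb γ * α' (e i)) : Rep w' α' F := by
  intro ψ u hu
  choose γ hγ using hα
  have key : ∀ x, ∑ i, w i • u (α i * x) = (∑ i, w i • ψ (Additive.ofMul (γ i))) +
      ∑ i, w' i • u (α' i * x) := by
    intro x
    have h2 : ∑ i : ι', w' i • u (α' i * x) = ∑ i : ι, w i • u (α' (e i) * x) := by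
      rw [← e.sum_comp]
      exact Finset.sum_congr rfl fun i _ => by rw [hw]
    rw [h2, ← Finset.sum_add_distrib]
    refine Finset.sum_congr rfl fun i _ => ?_
    rw [← smul_add, hγ i, mul_assoc, hu]
  intro g x
  have h1 := h ψ u hu g x
  simp only at h1 ⊢
  rw [key, key] at h1
  have h3 : (∑ i, w i • ψ (Additive.ofMul (γ i))) + ∑ i, w' i • u (α' i * (emb g * x))
      = (∑ i, w i • ψ (Additive.ofMul (γ i))) +
        (F ψ (Additive.ofMul g) + ∑ i, w' i • u (α' i * x)) := by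
    rw [h1]; abel
  exact add_left_cancel h3

lemma Rep.reindex {w : ι → R} {α : ι → GG} {F : HM Γ A → HM Γ' A} (h : Rep w α F) (e : ι' ≃ ι) :
    Rep (fun i => w (e i)) (fun i => α (e i)) F :=
  h.change (w' := fun i => w (e i)) (α' := fun i => α (e i)) e.symm
    (fun i => by simp) (fun i => ⟨1, by simp⟩)

/-- operators with the same family agree -/
lemma Rep.eq {w : ι → R} {α : ι → GG} {F F' : HM Γ A → HM Γ' A} (h : Rep w α F)
    (h' : Rep w α F') (ψ : HM Γ A) : F ψ = F' ψ :=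
  h.ext h' (Equiv.refl ι) (fun _ => rfl) (fun _ => ⟨1, by simp⟩) ψ

end Change

/-- The matrix `diag(n, 1)`. -/
def del (n : ℕ) [NeZero n] : GG :=
  Matrix.GeneralLinearGroup.mkOfDetNeZero !![(n : ℚ), 0; 0, 1] (by simp [NeZero.ne n])

lemma del_val (n : ℕ) [NeZero n] : (del n : Matrix (Fin 2) (Fin 2) ℚ) = !![(n : ℚ), 0; 0, 1] := rfl

lemma emb_val (γ : SL(2, ℤ)) : (emb γ : Matrix (Fin 2) (Fin 2) ℚ) =
    !![((γ 0 0 : ℤ) : ℚ), ((γ 0 1 : ℤ) : ℚ); ((γ 1 0 : ℤ) : ℚ), ((γ 1 1 : ℤ) : ℚ)] := by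
  ext i j
  fin_cases i <;> fin_cases j <;> simp [emb, mapGL]

lemma del_emb (n : ℕ) [NeZero n] (γ : SL(2, ℤ)) (h : (n : ℤ) ∣ γ 1 0) :
    del n * emb γ = emb (degSL n γ h) * del n := by
  have hn : (n : ℚ) ≠ 0 := by exact_mod_cast NeZero.ne n
  have h10 : (((degSL n γ h) 1 0 : ℤ) : ℚ) * n = ((γ 1 0 : ℤ) : ℚ) := by
    rw [degSL_one_zero]
    obtain ⟨c, hc⟩ := h
    rw [hc, Int.mul_ediv_cancel_left _ (by exact_mod_cast NeZero.ne n)]
    push_cast; ring
  apply Units.ext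
  rw [Units.val_mul, Units.val_mul, del_val, emb_val, emb_val]
  rw [degSL_zero_zero, degSL_zero_one, degSL_one_one]
  ext i j
  fin_cases i <;> fin_cases j
  · simp [Matrix.mul_apply, Fin.sum_univ_two, mul_comm]
  · simp [Matrix.mul_apply, Fin.sum_univ_two]
  · simp only [Matrix.mul_apply, Fin.sum_univ_two]
    simpa using h10.symm
  · simp [Matrix.mul_apply, Fin.sum_univ_two]

/-- A system of representatives of `Γ₀(N') ∩ Γ \ Γ`. -/
structure IsReps (Γ : Subgroup SL(2, ℤ)) (N' : ℕ) {J : Type*} (z : J → SL(2, ℤ)) : Prop where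
  mem : ∀ j, z j ∈ Γ
  uniq : ∀ g ∈ Γ, ∃! j, g * (z j)⁻¹ ∈ Gamma0 N'

lemma IsReps.eq_of {Γ : Subgroup SL(2, ℤ)} {N' : ℕ} {J : Type*} {z : J → SL(2, ℤ)}
    (h : IsReps Γ N' z) {i j : J} (hij : z i * (z j)⁻¹ ∈ Gamma0 N') : i = j := by
  obtain ⟨k, _, hk⟩ := h.uniq (z i) (h.mem i)
  have h1 := hk j hij
  have h2 := hk i (by simp only [mul_inv_cancel]; exact one_mem _)
  rw [h1, h2]

/-- Two systems of representatives are related by a bijection. -/
lemma IsReps.exists_equiv {Γ : Subgroup SL(2, ℤ)} {N' : ℕ} {J J' : Type*} {z : J → SL(2, ℤ)}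
    {z' : J' → SL(2, ℤ)} (h : IsReps Γ N' z) (h' : IsReps Γ N' z') :
    ∃ e : J ≃ J', ∀ j, z j * (z' (e j))⁻¹ ∈ Gamma0 N' := by
  choose f hf _ using fun j => h'.uniq (z j) (h.mem j)
  choose f' hf' _ using fun j => h.uniq (z' j) (h'.mem j)
  refine ⟨⟨f, f', ?_, ?_⟩, hf⟩
  · intro j
    apply h.eq_of
    have h1 := (Gamma0 N').mul_mem (hf j) (hf' (f j))
    have h2 : z j * (z' (f j))⁻¹ * (z' (f j) * (z (f' (f j)))⁻¹) = z j * (z (f' (f j)))⁻¹ := by
      group
    rw [h2] at h1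
    have h3 := (Gamma0 N').inv_mem h1
    rw [mul_inv_rev, inv_inv] at h3
    exact h3
  · intro j
    apply h'.eq_of
    have h1 := (Gamma0 N').mul_mem (hf' j) (hf (f' j))
    have h2 : z' j * (z (f' j))⁻¹ * (z (f' j) * (z' (f (f' j)))⁻¹) = z' j * (z' (f (f' j)))⁻¹ := by
      group
    rw [h2] at h1
    have h3 := (Gamma0 N').inv_mem h1
    rw [mul_inv_rev, inv_inv] at h3
    exact h3

/-- Counting criterion. -/
lemma IsReps.of_injective {Γ : Subgroup SL(2, ℤ)} {N' : ℕ} {J : Type*} [Finite J]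
    {z z₁ : J → SL(2, ℤ)} (h : IsReps Γ N' z) (hmem : ∀ j, z₁ j ∈ Γ)
    (hinj : ∀ i j, z₁ i * (z₁ j)⁻¹ ∈ Gamma0 N' → i = j) : IsReps Γ N' z₁ := by
  choose f hf _ using fun j => h.uniq (z₁ j) (hmem j)
  have finj : Function.Injective f := by
    intro i j hij
    apply hinj
    have h1 := (Gamma0 N').mul_mem (hf i) ((Gamma0 N').inv_mem (hf j))
    rw [hij] at h1
    have h2 : z₁ i * (z (f j))⁻¹ * (z₁ j * (z (f j))⁻¹)⁻¹ = z₁ i * (z₁ j)⁻¹ := by group
    rw [h2] at h1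
    exact h1
  have fsurj : Function.Surjective f := Finite.surjective_of_injective finj
  refine ⟨hmem, fun g hg => ?_⟩
  obtain ⟨j, hj, hj'⟩ := h.uniq g hg
  obtain ⟨i, rfl⟩ := fsurj j
  refine ⟨i, ?_, ?_⟩
  · have h1 := (Gamma0 N').mul_mem hj ((Gamma0 N').inv_mem (hf i))
    have h2 : g * (z (f i))⁻¹ * (z₁ i * (z (f i))⁻¹)⁻¹ = g * (z₁ i)⁻¹ := by group
    rw [h2] at h1
    exact h1
  · intro k hk
    apply finj
    apply hj'
    have h1 := (Gamma0 N').mul_mem hk (hf k)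
    have h2 : g * (z₁ k)⁻¹ * (z₁ k * (z (f k))⁻¹) = g * (z (f k))⁻¹ := by group
    rw [h2] at h1
    exact h1

section TH

variable (R : Type*) [CommRing R] (N : ℕ) [NeZero N] (H : Subgroup (ZMod N)ˣ) (A : Type*)
  [AddCommGroup A] [Module R A]

/-- The Hecke operator on additive characters of `Γ_H(N)`. -/
def TH (ℓ : ℕ) [NeZero ℓ] : Module.End R (HM (GamH N H) A) where
  toFun ψ := (heckeH N H ℓ ψ.toMultiplicativeRight).toAdditiveLeft
  map_add' ψ ψ' := by
    have h : (ψ + ψ').toMultiplicativeRight =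
      ψ.toMultiplicativeRight * ψ'.toMultiplicativeRight := rfl
    rw [h, heckeH_mul]
    rfl
  map_smul' r ψ := by
    let f : Multiplicative A →* Multiplicative A :=
      (DistribSMul.toAddMonoidHom A r).toMultiplicative
    have h : (r • ψ).toMultiplicativeRight = f.comp ψ.toMultiplicativeRight := rfl
    rw [h, heckeH_comp]
    rfl

/-- The diamond operator. -/
def dia (g : Gamma0 N) : Module.End R (HM (GamH N H) A) where
  toFun ψ := ψ.comp (MonoidHom.toAdditive (conjG N H g))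
  map_add' _ _ := rfl
  map_smul' _ _ := rfl

variable {R N H A}

lemma dia_eq (g : Gamma0 N) (ψ : HM (GamH N H) A) :
    dia R N H A g ψ = (diamond N H g ψ.toMultiplicativeRight).toAdditiveLeft := rfl

lemma TH_eq (ℓ : ℕ) [NeZero ℓ] (ψ : HM (GamH N H) A) :
    TH R N H A ℓ ψ = (heckeH N H ℓ ψ.toMultiplicativeRight).toAdditiveLeft := rfl

lemma TH_comm {m n : ℕ} [NeZero m] [NeZero n] (hm : m.Prime) (hn : n.Prime)
    (ψ : HM (GamH N H) A) : TH R N H A n (TH R N H A m ψ) = TH R N H A m (TH R N H A n ψ) := by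
  rw [TH_eq, TH_eq, TH_eq, TH_eq]
  exact congrArg MonoidHom.toAdditiveLeft (heckeH_comm_prime N H hm hn ψ.toMultiplicativeRight)

lemma TH_dia (ℓ : ℕ) [NeZero ℓ] (g : Gamma0 N) (ψ : HM (GamH N H) A) :
    TH R N H A ℓ (dia R N H A g ψ) = dia R N H A g (TH R N H A ℓ ψ) := by
  rw [TH_eq, dia_eq, dia_eq, TH_eq]
  exact congrArg MonoidHom.toAdditiveLeft (heckeH_diamond N H ℓ g ψ.toMultiplicativeRight)

lemma dia_mul (g g' : Gamma0 N) : dia R N H A (g * g') = dia R N H A g' * dia R N H A g :=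
  LinearMap.ext fun ψ =>
    congrArg MonoidHom.toAdditiveLeft (diamond_mul_apply N H g g' ψ.toMultiplicativeRight)

lemma dia_comm (g g' : Gamma0 N) (ψ : HM (GamH N H) A) :
    dia R N H A g (dia R N H A g' ψ) = dia R N H A g' (dia R N H A g ψ) :=
  congrArg MonoidHom.toAdditiveLeft (diamond_comm N H g g' ψ.toMultiplicativeRight)

lemma dia_one : dia R N H A 1 = 1 :=
  LinearMap.ext fun ψ => congrArg MonoidHom.toAdditiveLeft (diamond_one N H ψ.toMultiplicativeRight)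

lemma dia_of_mem (g : Gamma0 N) (hg : dChar N g ∈ H) : dia R N H A g = 1 :=
  LinearMap.ext fun ψ =>
    congrArg MonoidHom.toAdditiveLeft (diamond_of_mem N H g hg ψ.toMultiplicativeRight)

lemma dia_congr {g g' : Gamma0 N} (h : (dChar N g)⁻¹ * dChar N g' ∈ H) :
    dia R N H A g = dia R N H A g' :=
  LinearMap.ext fun ψ =>
    congrArg MonoidHom.toAdditiveLeft (diamond_congr N H h ψ.toMultiplicativeRight)

lemma rep_dia (g : Gamma0 N) :
    Rep (fun _ : Unit => (1 : R)) (fun _ => emb (g : SL(2, ℤ))) (dia R N H A g) := by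
  refine exists_conj (R := R) (emb (g : SL(2, ℤ))) (conjG N H g) ?_ _ (fun ψ => rfl)
  intro γ
  rw [← map_mul, ← map_mul]
  congr 1
  rw [coe_conjG]
  group

lemma rep_TH {J : Type*} [Fintype J] {z : J → SL(2, ℤ)} {ℓ : ℕ} [NeZero ℓ]
    (hz : IsReps (GamH N H) (N * ℓ) z) :
    Rep (fun _ : J => (1 : R)) (fun j => del ℓ * emb (z j)) (TH R N H A ℓ) := by
  intro ψ u hu γ x
  letI : MulAction (GamH N H) GG := MulAction.compHom GG (emb.comp (GamH N H).subtype)
  have hsm : ∀ (g : GamH N H) (y : GG), g • y = emb (g : SL(2, ℤ)) * y := fun _ _ => rfl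
  let v : GG → Multiplicative A := fun y => Multiplicative.ofAdd (u (del ℓ * y))
  have hv : ∀ (k : GamHl N H ℓ) (y : GG), v (inclH N H ℓ k • y) =
      MonoidHom.id (Multiplicative A) ((ψ.toMultiplicativeRight.comp (conjH N H ℓ)) k) * v y := by
    intro k y
    show Multiplicative.ofAdd (u (del ℓ * (emb (k : SL(2, ℤ)) * y))) = _
    rw [← mul_assoc, del_emb ℓ _ (dvd_of_mem k.2.2), mul_assoc]
    have h1 := hu (conjH N H ℓ k) (del ℓ * y)
    exact congrArg Multiplicative.ofAdd h1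
  let r : J → GamH N H := fun j => ⟨z j, hz.mem j⟩⁻¹
  have hr : Function.Bijective fun j => (r j : GamH N H ⧸ (inclH N H ℓ).range) := by
    constructor
    · intro i j hij
      apply hz.eq_of
      have h1 := QuotientGroup.eq.mp hij
      obtain ⟨k, hk⟩ := h1
      have h2 : ((inclH N H ℓ k : GamH N H) : SL(2, ℤ)) = z i * (z j)⁻¹ := by
        rw [hk]
        simp only [r, inv_inv, Subgroup.coe_mul, Subgroup.coe_inv]
      rw [← h2]
      exact k.2.2
    · intro q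
      obtain ⟨g, rfl⟩ := QuotientGroup.mk_surjective q
      obtain ⟨j, hj, _⟩ := hz.uniq ((g : SL(2, ℤ))⁻¹) (inv_mem g.2)
      refine ⟨j, ?_⟩
      refine (QuotientGroup.eq.mpr ?_).symm
      have hm : (g : SL(2, ℤ))⁻¹ * (z j)⁻¹ ∈ GamH N H :=
        (GamH N H).mul_mem ((GamH N H).inv_mem g.2) ((GamH N H).inv_mem (hz.mem j))
      refine ⟨⟨(g : SL(2, ℤ))⁻¹ * (z j)⁻¹, hm, hj⟩, ?_⟩
      exact Subtype.ext rfl
  have h := tr_automorphy (inclH N H ℓ) (inclH_injective N H ℓ)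
    (ψ.toMultiplicativeRight.comp (conjH N H ℓ)) r hr (MonoidHom.id _) v hv γ x
  have e : ∀ y : GG, ∑ i : J, (1 : R) • u (del ℓ * emb (z i) * y)
      = Multiplicative.toAdd (∏ i, v ((r i)⁻¹ • y)) := by
    intro y
    rw [toAdd_prod]
    refine Finset.sum_congr rfl fun i _ => ?_
    rw [one_smul, hsm]
    show _ = u (del ℓ * (emb (((⟨z i, hz.mem i⟩⁻¹ : GamH N H)⁻¹ : GamH N H) : SL(2, ℤ)) * y))
    rw [inv_inv, mul_assoc]
  simp only
  rw [e, e]
  have h2 := congrArg Multiplicative.toAdd h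
  exact h2

/-- the same for `Γ₀(N)` -/
lemma rep_heckeLin {J : Type*} [Fintype J] {z : J → SL(2, ℤ)} {ℓ : ℕ} [NeZero ℓ]
    (hz : IsReps (Gamma0 N) (N * ℓ) z) :
    Rep (fun _ : J => (1 : R)) (fun j => del ℓ * emb (z j)) (heckeLin R N A ℓ) := by
  -- the representatives given by `Quotient.out`
  let z0 : Gamma0 N ⧸ subGamma N ℓ → SL(2, ℤ) := fun q => ((q.out : Gamma0 N) : SL(2, ℤ))⁻¹
  have hz0 : IsReps (Gamma0 N) (N * ℓ) z0 := by
    refine ⟨fun q => inv_mem (q.out).2, fun g hg => ?_⟩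
    refine ⟨((⟨g, hg⟩⁻¹ : Gamma0 N) : Gamma0 N ⧸ subGamma N ℓ), ?_, ?_⟩
    · have h1 := QuotientGroup.out_eq' ((⟨g, hg⟩⁻¹ : Gamma0 N) : Gamma0 N ⧸ subGamma N ℓ)
      have h2 := QuotientGroup.eq.mp h1
      have h3 := (subGamma N ℓ).inv_mem h2
      rw [mul_inv_rev, inv_inv, inv_inv] at h3
      have h4 := Subgroup.mem_subgroupOf.mp h3
      simp only [z0, inv_inv]
      exact h4
    · intro q hq
      rw [← QuotientGroup.out_eq' q]
      refine QuotientGroup.eq.mpr ?_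
      have h1 : (q.out)⁻¹ * (⟨g, hg⟩⁻¹ : Gamma0 N) = (⟨g, hg⟩ * q.out)⁻¹ := by group
      rw [h1]
      refine (subGamma N ℓ).inv_mem (Subgroup.mem_subgroupOf.mpr ?_)
      simp only [z0, inv_inv] at hq
      exact hq
  have h0 : Rep (fun _ : Gamma0 N ⧸ subGamma N ℓ => (1 : R)) (fun j => del ℓ * emb (z0 j))
      (heckeLin R N A ℓ) := by
    intro ψ u hu γ x
    letI : MulAction (Gamma0 N) GG := MulAction.compHom GG (emb.comp (Gamma0 N).subtype)
    have hsm : ∀ (g : Gamma0 N) (y : GG), g • y = emb (g : SL(2, ℤ)) * y := fun _ _ => rfl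
    let v : GG → Multiplicative A := fun y => Multiplicative.ofAdd (u (del ℓ * y))
    have hv : ∀ (k : subGamma N ℓ) (y : GG), v ((k : Gamma0 N) • y) =
        MonoidHom.id (Multiplicative A) (ψ.toMultiplicativeRight (subDegConj N ℓ k)) * v y := by
      intro k y
      show Multiplicative.ofAdd (u (del ℓ * (emb ((k : Gamma0 N) : SL(2, ℤ)) * y))) = _
      rw [← mul_assoc, del_emb ℓ _ (dvd_of_mem (Subgroup.mem_subgroupOf.mp k.2)), mul_assoc]
      have h1 := hu (subDegConj N ℓ k) (del ℓ * y)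
      exact congrArg Multiplicative.ofAdd h1
    have h := heckeChar_automorphy N ℓ (MonoidHom.id _) ψ.toMultiplicativeRight v hv γ x
    have e : ∀ y : GG, ∑ i, (1 : R) • u (del ℓ * emb (z0 i) * y)
        = Multiplicative.toAdd (∏ q : Gamma0 N ⧸ subGamma N ℓ, v ((q.out)⁻¹ • y)) := by
      intro y
      rw [toAdd_prod]
      refine Finset.sum_congr rfl fun i _ => ?_
      rw [one_smul, hsm, mul_assoc]
      rfl
    simp only
    rw [e, e]
    exact congrArg Multiplicative.toAdd h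
  obtain ⟨e, he⟩ := hz0.exists_equiv hz
  refine h0.change e (fun _ => rfl) fun j => ?_
  refine ⟨⟨degSL ℓ _ (dvd_of_mem (he j)), degSL_mem (he j)⟩, ?_⟩
  rw [← mul_assoc, ← del_emb, mul_assoc, ← map_mul]
  congr 2
  group

/-- Functoriality in the coefficients. -/
lemma TH_map {R' : Type*} [CommRing R'] {B : Type*} [AddCommGroup B] [Module R' B]
    (f : A →+ B) (ℓ : ℕ) [NeZero ℓ] (ψ : HM (GamH N H) A) :
    TH R' N H B ℓ (f.comp ψ) = f.comp (TH R N H A ℓ ψ) := by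
  have h := heckeH_comp N H ℓ f.toMultiplicative ψ.toMultiplicativeRight
  exact congrArg MonoidHom.toAdditiveLeft h

end TH

end Fermat.Agent.TC
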