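import Mathlib
import Fermat.Agent.TC.Ops

/-!
# Representatives, restriction, transfer, descent of invariant classes
-/

set_option autoImplicit false

noncomputable section

namespace Fermat.Agent.TC

open Matrix.SpecialLinearGroup CongruenceSubgroup H22
open scoped MatrixGroups

lemma hm_ext {Γ : Subgroup SL(2, ℤ)} {A : Type*} [AddCommGroup A] {f g : HM Γ A}
    (h : ∀ γ : Γ, f (Additive.ofMul γ) = g (Additive.ofMul γ)) : f = g :=
  AddMonoidHom.ext fun γ => h γ.toMul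

section Reps

variable {N : ℕ} [NeZero N] {ℓ : ℕ} [NeZero ℓ]

lemma exists_reps (Γ : Subgroup SL(2, ℤ)) (N' : ℕ) [NeZero N'] :
    ∃ (J : Type) (_ : Fintype J) (z : J → SL(2, ℤ)), IsReps Γ N' z := by
  classical
  have hfi : ((Gamma0 N').subgroupOf Γ).FiniteIndex := inferInstance
  have : Fintype (Γ ⧸ (Gamma0 N').subgroupOf Γ) := Subgroup.fintypeQuotientOfFiniteIndex
  refine ⟨Γ ⧸ (Gamma0 N').subgroupOf Γ, this, fun q => ((q.out : Γ) : SL(2, ℤ))⁻¹,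
    fun q => inv_mem (q.out).2, fun g hg => ?_⟩
  refine ⟨((⟨g, hg⟩⁻¹ : Γ) : Γ ⧸ (Gamma0 N').subgroupOf Γ), ?_, ?_⟩
  · have h1 := QuotientGroup.out_eq' ((⟨g, hg⟩⁻¹ : Γ) : Γ ⧸ (Gamma0 N').subgroupOf Γ)
    have h2 := QuotientGroup.eq.mp h1
    have h3 := ((Gamma0 N').subgroupOf Γ).inv_mem h2
    rw [mul_inv_rev, inv_inv, inv_inv] at h3
    have h4 := Subgroup.mem_subgroupOf.mp h3
    simp only [inv_inv]
    exact h4
  · intro q hq
    rw [← QuotientGroup.out_eq' q]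
    refine QuotientGroup.eq.mpr ?_
    have h1 : (q.out)⁻¹ * (⟨g, hg⟩⁻¹ : Γ) = (⟨g, hg⟩ * q.out)⁻¹ := by group
    rw [h1]
    refine ((Gamma0 N').subgroupOf Γ).inv_mem (Subgroup.mem_subgroupOf.mpr ?_)
    simp only [inv_inv] at hq
    exact hq

/-- representatives in `Γ₁(N)` are representatives for all `Γ_H(N)` -/
lemma IsReps.of_bot {J : Type*} {z : J → SL(2, ℤ)} (h : IsReps (GamH N ⊥) (N * ℓ) z)
    (H : Subgroup (ZMod N)ˣ) : IsReps (GamH N H) (N * ℓ) z := by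
  refine ⟨fun j => GamH_mono bot_le (h.mem j), fun g hg => ?_⟩
  have hg0 := GamH_le_Gamma0 hg
  obtain ⟨g₀, h₀, h₁, h₂⟩ := exists_dChar_eq N ℓ (dChar N ⟨g, hg0⟩)
  have hm : g₀⁻¹ * g ∈ GamH N ⊥ := by
    refine mem_GamH.mpr ⟨(Gamma0 N).mul_mem ((Gamma0 N).inv_mem h₀) hg0, ?_⟩
    have e : (⟨g₀⁻¹ * g, (Gamma0 N).mul_mem ((Gamma0 N).inv_mem h₀) hg0⟩ : Gamma0 N)
        = (⟨g₀, h₀⟩ : Gamma0 N)⁻¹ * ⟨g, hg0⟩ := rfl
    rw [e, map_mul, map_inv, h₂, inv_mul_cancel]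
    exact one_mem _
  obtain ⟨j, hj, hj'⟩ := h.uniq _ hm
  refine ⟨j, ?_, ?_⟩
  · have h3 := (Gamma0 (N * ℓ)).mul_mem h₁ hj
    rw [← mul_assoc, mul_inv_cancel_left] at h3
    exact h3
  · intro k hk
    apply hj'
    have h3 := (Gamma0 (N * ℓ)).mul_mem ((Gamma0 (N * ℓ)).inv_mem h₁) hk
    rw [← mul_assoc] at h3
    exact h3

lemma GamH_top_eq : GamH N (⊤ : Subgroup (ZMod N)ˣ) = Gamma0 N := GamH_top

/-- An element of `Γ₀(N)` with upper right entry divisible by `ℓ` with given character. -/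
lemma exists_up (u : (ZMod N)ˣ) :
    ∃ (g : SL(2, ℤ)) (h : g ∈ Gamma0 N), (ℓ : ℤ) ∣ g 0 1 ∧ dChar N ⟨g, h⟩ = u := by
  have : NeZero (N * ℓ) := ⟨mul_ne_zero (NeZero.ne N) (NeZero.ne ℓ)⟩
  obtain ⟨U, hU⟩ := ZMod.unitsMap_surjective (dvd_mul_right N ℓ) u
  obtain ⟨e, he⟩ := ZMod.intCast_surjective (U : ZMod (N * ℓ))
  have h2 : IsUnit ((e : ℤ) : ZMod (N * ℓ)) := he ▸ U.isUnit
  have h3 := (ZMod.coe_int_isUnit_iff_isCoprime e (N * ℓ)).mp h2
  obtain ⟨x, y, hxy⟩ := h3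
  let g : SL(2, ℤ) := ⟨!![y, -(ℓ * x); (N : ℤ), e], by
    rw [Matrix.det_fin_two_of]
    push_cast at hxy
    linear_combination hxy⟩
  have hg : g ∈ Gamma0 N := mem_Gamma0_iff_dvd.mpr (dvd_refl _)
  refine ⟨g, hg, ⟨-x, ?_⟩, ?_⟩
  · change -((ℓ : ℤ) * x) = _
    ring
  · apply Units.ext
    rw [dChar_val, ← hU, ZMod.unitsMap_val, ← he]
    change ((e : ℤ) : ZMod N) = _
    rw [ZMod.cast_intCast (dvd_mul_right N ℓ)]

end Reps

section Commute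

variable {R : Type*} [CommRing R] {N : ℕ} [NeZero N] {H : Subgroup (ZMod N)ˣ} {A : Type*}
  [AddCommGroup A] [Module R A]

/-- Restriction to `Γ_H(N)` commutes with all Hecke operators. -/
lemma TH_res {H' : Subgroup (ZMod N)ˣ} (hH : H ≤ H') (ℓ : ℕ) [NeZero ℓ]
    (ψ : HM (GamH N H') A) :
    TH R N H A ℓ (res A R (GamH_mono hH) ψ) = res A R (GamH_mono hH) (TH R N H' A ℓ ψ) := by
  have : NeZero (N * ℓ) := ⟨mul_ne_zero (NeZero.ne N) (NeZero.ne ℓ)⟩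
  obtain ⟨J, _, z, hz⟩ := exists_reps (GamH N ⊥) (N * ℓ)
  have h1 := (rep_res (A := A) (R := R) (GamH_mono hH)).comp (rep_TH (R := R) (A := A) (hz.of_bot H))
  have h2 := (rep_TH (R := R) (A := A) (hz.of_bot H')).comp (rep_res (A := A) (R := R) (GamH_mono hH))
  refine h1.ext h2 (Equiv.prodComm _ _) (fun _ => rfl) (fun i => ⟨1, ?_⟩) ψ
  simp

section Transfer

variable {H' : Subgroup (ZMod N)ˣ}

instance fintypeQuot : Fintype (GamH N H' ⧸ (GamH N H).subgroupOf (GamH N H')) := by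
  have : ((GamH N H).subgroupOf (GamH N H')).FiniteIndex := inferInstance
  exact Subgroup.fintypeQuotientOfFiniteIndex

/-- The transfer commutes with all Hecke operators. -/
lemma TH_tr (ℓ : ℕ) [NeZero ℓ] (ψ : HM (GamH N H) A) :
    TH R N H' A ℓ (tr A R (GamH N H') (GamH N H) ψ)
      = tr A R (GamH N H') (GamH N H) (TH R N H A ℓ ψ) := by
  classical
  have : NeZero (N * ℓ) := ⟨mul_ne_zero (NeZero.ne N) (NeZero.ne ℓ)⟩
  obtain ⟨J, _, z, hz⟩ := exists_reps (GamH N ⊥) (N * ℓ)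
  let I := GamH N H' ⧸ (GamH N H).subgroupOf (GamH N H')
  -- representatives of the transfer with upper right entry divisible by `ℓ`
  have hex : ∀ q : I, ∃ (t : SL(2, ℤ)) (ht : t ∈ Gamma0 N), (ℓ : ℤ) ∣ t 0 1 ∧
      dChar N ⟨t, ht⟩ = dChar N ⟨((q.out : GamH N H') : SL(2, ℤ))⁻¹,
        inv_mem (GamH_le_Gamma0 (q.out).2)⟩ := fun q => exists_up _
  choose t ht0 htd htc using hex
  have htr : Rep (fun _ : I => (1 : R)) (fun q => emb (t q)) (tr A R (GamH N H') (GamH N H)) := by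
    refine (rep_tr (R := R) (A := A) (Γ := GamH N H') (Γ' := GamH N H)).change (Equiv.refl _)
      (fun _ => rfl) fun q => ?_
    have hm : ((q.out : GamH N H') : SL(2, ℤ))⁻¹ * (t q)⁻¹ ∈ GamH N H := by
      refine mem_GamH.mpr ⟨(Gamma0 N).mul_mem (inv_mem (GamH_le_Gamma0 (q.out).2))
        ((Gamma0 N).inv_mem (ht0 q)), ?_⟩
      have e : (⟨((q.out : GamH N H') : SL(2, ℤ))⁻¹ * (t q)⁻¹,
          (Gamma0 N).mul_mem (inv_mem (GamH_le_Gamma0 (q.out).2))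
          ((Gamma0 N).inv_mem (ht0 q))⟩ : Gamma0 N)
          = ⟨((q.out : GamH N H') : SL(2, ℤ))⁻¹, inv_mem (GamH_le_Gamma0 (q.out).2)⟩ *
            (⟨t q, ht0 q⟩ : Gamma0 N)⁻¹ := rfl
      rw [e, map_mul, map_inv, htc, mul_inv_cancel]
      exact one_mem _
    refine ⟨⟨_, hm⟩, ?_⟩
    show emb _ = emb _ * emb _
    rw [← map_mul]
    congr 1
    simp
  have h1 := htr.comp (rep_TH (R := R) (A := A) (hz.of_bot H'))
  have h2 := (rep_TH (R := R) (A := A) (hz.of_bot H)).comp htr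
  -- conjugated representatives
  have hup : ∀ q, upSL ℓ (t q) (htd q) ∈ Gamma0 (N * ℓ) := by
    intro q
    have h3 := upSL_mem (H := ⊤) (htd q) (by rw [GamH_top]; exact ht0 q)
    exact h3.2
  have hup0 : ∀ q, upSL ℓ (t q) (htd q) ∈ Gamma0 N := fun q => Gamma0_mul_le N ℓ (hup q)
  have hupc : ∀ q, dChar N ⟨upSL ℓ (t q) (htd q), hup0 q⟩ = dChar N ⟨t q, ht0 q⟩ := fun q =>
    Units.ext rfl
  have hzq : ∀ q, IsReps (GamH N H) (N * ℓ) (fun j => upSL ℓ (t q) (htd q) * z j * (t q)⁻¹) := by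
    intro q
    refine (hz.of_bot H).of_injective ?_ ?_
    · intro j
      have hzj := hz.mem j
      obtain ⟨hz0, hzc⟩ := mem_GamH.mp hzj
      refine mem_GamH.mpr ⟨(Gamma0 N).mul_mem ((Gamma0 N).mul_mem (hup0 q) hz0)
        ((Gamma0 N).inv_mem (ht0 q)), ?_⟩
      have e : (⟨upSL ℓ (t q) (htd q) * z j * (t q)⁻¹, (Gamma0 N).mul_mem
          ((Gamma0 N).mul_mem (hup0 q) hz0) ((Gamma0 N).inv_mem (ht0 q))⟩ : Gamma0 N)
          = ⟨upSL ℓ (t q) (htd q), hup0 q⟩ * ⟨z j, hz0⟩ * (⟨t q, ht0 q⟩ : Gamma0 N)⁻¹ := rfl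
      rw [e, map_mul, map_mul, map_inv, hupc, Subgroup.mem_bot.mp hzc, mul_one, mul_inv_cancel]
      exact one_mem _
    · intro i j hij
      apply hz.eq_of
      have h3 : upSL ℓ (t q) (htd q) * z i * (t q)⁻¹ * (upSL ℓ (t q) (htd q) * z j * (t q)⁻¹)⁻¹
          = upSL ℓ (t q) (htd q) * (z i * (z j)⁻¹) * (upSL ℓ (t q) (htd q))⁻¹ := by group
      rw [h3] at hij
      have h4 := (Gamma0 (N * ℓ)).mul_mem ((Gamma0 (N * ℓ)).mul_mem
        ((Gamma0 (N * ℓ)).inv_mem (hup q)) hij) (hup q)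
      have h5 : (upSL ℓ (t q) (htd q))⁻¹ * (upSL ℓ (t q) (htd q) * (z i * (z j)⁻¹) *
        (upSL ℓ (t q) (htd q))⁻¹) * upSL ℓ (t q) (htd q) = z i * (z j)⁻¹ := by group
      rwa [h5] at h4
  choose σ hσ using fun q => (hzq q).exists_equiv (hz.of_bot H)
  let e : J × I ≃ I × J :=
    { toFun := fun x => (x.2, σ x.2 x.1)
      invFun := fun y => ((σ y.1).symm y.2, y.1)
      left_inv := fun x => by simp
      right_inv := fun y => by simp }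
  refine h1.ext h2 e (fun _ => rfl) (fun x => ?_) ψ
  obtain ⟨j, q⟩ := x
  have hmem : upSL ℓ (t q) (htd q) * z j * (t q)⁻¹ * (z (σ q j))⁻¹ ∈ GamHl N H ℓ :=
    ⟨(GamH N H).mul_mem ((hzq q).mem j) ((GamH N H).inv_mem ((hz.of_bot H).mem _)), hσ q j⟩
  refine ⟨⟨_, degSL_mem_GamH N H ℓ hmem⟩, ?_⟩
  show emb (t q) * (del ℓ * emb (z j)) = emb _ * (del ℓ * emb (z (σ q j)) * emb (t q))
  have e1 : emb (t q) * del ℓ = del ℓ * emb (upSL ℓ (t q) (htd q)) := by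
    have h6 : (ℓ : ℤ) ∣ upSL ℓ (t q) (htd q) 1 0 := dvd_of_mem (hup q)
    rw [del_emb ℓ _ h6, degSL_upSL]
  rw [← mul_assoc, e1, ← mul_assoc, ← mul_assoc, ← del_emb, mul_assoc, mul_assoc, mul_assoc,
    ← map_mul, ← map_mul, ← map_mul]
  congr 2
  group

lemma inv_out_mem (q : GamH N H' ⧸ (GamH N H).subgroupOf (GamH N H')) :
    ((q.out : GamH N H') : SL(2, ℤ))⁻¹ ∈ Gamma0 N := inv_mem (GamH_le_Gamma0 (q.out).2)

/-- `res ∘ tr` is the norm. -/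
lemma res_tr (hH : H ≤ H') (ψ : HM (GamH N H) A) :
    res A R (GamH_mono hH) (tr A R (GamH N H') (GamH N H) ψ)
      = ∑ q : GamH N H' ⧸ (GamH N H).subgroupOf (GamH N H'),
        dia R N H A ⟨_, inv_out_mem q⟩ ψ := by
  obtain ⟨u, hu⟩ := exists_isAut ψ
  have h1 := rep_res (R := R) (GamH_mono hH) _ _ ((rep_tr (R := R) (Γ := GamH N H')
    (Γ' := GamH N H)) ψ u hu)
  have h2 : ∀ q : GamH N H' ⧸ (GamH N H).subgroupOf (GamH N H'),
      IsAut (dia R N H A ⟨_, inv_out_mem q⟩ ψ) (fun x => u (emb ((q.out : GamH N H') : SL(2, ℤ))⁻¹ * x)) := by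
    intro q
    have h3 := rep_dia (R := R) ⟨_, inv_out_mem q⟩ ψ u hu
    simpa using h3
  have h4 := IsAut.sum Finset.univ (fun q _ => h2 q)
  refine eq_of_isAut h1 h4 0 fun x => ?_
  simp only [Finset.univ_unique, one_smul, one_mul, Finset.sum_const, Finset.card_singleton,
    zero_add, Finset.sum_apply]
  rfl

/-- `tr ∘ res` is multiplication by the index. -/
lemma tr_res (hH : H ≤ H') (ψ : HM (GamH N H') A) :
    tr A R (GamH N H') (GamH N H) (res A R (GamH_mono hH) ψ)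
      = Fintype.card (GamH N H' ⧸ (GamH N H).subgroupOf (GamH N H')) • ψ := by
  obtain ⟨u, hu⟩ := exists_isAut ψ
  have h1 := (rep_tr (R := R) (Γ := GamH N H') (Γ' := GamH N H)) _ _
    (rep_res (R := R) (GamH_mono hH) ψ u hu)
  have h4 : IsAut (Fintype.card (GamH N H' ⧸ (GamH N H).subgroupOf (GamH N H')) • ψ)
      (fun x => Fintype.card (GamH N H' ⧸ (GamH N H).subgroupOf (GamH N H')) • u x) := by
    intro γ x
    simp only [AddMonoidHom.nsmul_apply]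
    rw [hu, smul_add]
  refine eq_of_isAut h1 h4 (∑ q : GamH N H' ⧸ (GamH N H).subgroupOf (GamH N H'),
    ψ (Additive.ofMul (q.out)⁻¹)) fun x => ?_
  simp only [Finset.univ_unique, one_smul, one_mul, Finset.sum_const, Finset.card_singleton]
  rw [← Finset.card_univ, ← Finset.sum_const, ← Finset.sum_add_distrib]
  refine Finset.sum_congr rfl fun q _ => ?_
  exact hu (q.out)⁻¹ x

/-- The transfer is invariant under diamonds. -/
lemma tr_dia (g : Gamma0 N) (hg : dChar N g ∈ H') (ψ : HM (GamH N H) A) :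
    tr A R (GamH N H') (GamH N H) (dia R N H A g ψ) = tr A R (GamH N H') (GamH N H) ψ := by
  have hg' : (g : SL(2, ℤ)) ∈ GamH N H' := mem_GamH.mpr ⟨g.2, hg⟩
  let g' : GamH N H' := ⟨g, hg'⟩
  have h1 := (rep_dia (R := R) (A := A) (H := H) g).comp
    (rep_tr (R := R) (A := A) (Γ := GamH N H') (Γ' := GamH N H))
  have h2 := rep_tr (R := R) (A := A) (Γ := GamH N H') (Γ' := GamH N H)
  -- `g (q.out)⁻¹ = (q.out g⁻¹)⁻¹`; use normality
  have hn : ((GamH N H).subgroupOf (GamH N H')).Normal := by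
    refine ⟨fun k hk x => ?_⟩
    rw [Subgroup.mem_subgroupOf] at hk ⊢
    exact conj_mem_GamH N H ⟨x, GamH_le_Gamma0 x.2⟩ hk
  let f : (GamH N H' ⧸ (GamH N H).subgroupOf (GamH N H')) → (GamH N H' ⧸ (GamH N H).subgroupOf (GamH N H')) :=
    fun q => ((q.out * g'⁻¹ : GamH N H') : GamH N H' ⧸ (GamH N H).subgroupOf (GamH N H'))
  have hf : Function.Bijective f := by
    have : ∀ q, f q = q * ((g'⁻¹ : GamH N H') : GamH N H' ⧸ (GamH N H).subgroupOf (GamH N H')) := by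
      intro q
      show ((q.out * g'⁻¹ : GamH N H') : GamH N H' ⧸ (GamH N H).subgroupOf (GamH N H')) = _
      rw [QuotientGroup.mk_mul, QuotientGroup.out_eq']
    have h3 : f = fun q => q * ((g'⁻¹ : GamH N H') : GamH N H' ⧸ (GamH N H).subgroupOf (GamH N H')) :=
      funext this
    rw [h3]
    exact (Equiv.mulRight _).bijective
  let e : (GamH N H' ⧸ (GamH N H).subgroupOf (GamH N H')) × Unit ≃ (GamH N H' ⧸ (GamH N H).subgroupOf (GamH N H')) :=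
    (Equiv.prodPUnit _).trans (Equiv.ofBijective f hf)
  refine h1.ext h2 e (fun _ => by simp) (fun x => ?_) ψ
  obtain ⟨q, _⟩ := x
  have hq : (f q).out⁻¹ * (q.out * g'⁻¹) ∈ (GamH N H).subgroupOf (GamH N H') := by
    rw [← QuotientGroup.eq, QuotientGroup.out_eq']
  have hq2 := ((GamH N H).subgroupOf (GamH N H')).inv_mem hq
  -- `(q.out g⁻¹)⁻¹ (f q).out ∈ Γ`
  rw [Subgroup.mem_subgroupOf] at hq2
  refine ⟨⟨_, hq2⟩, ?_⟩
  show emb (g : SL(2, ℤ)) * emb _ = emb _ * emb _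
  rw [← map_mul, ← map_mul]
  congr 1
  simp only [Subgroup.coe_inv, Subgroup.coe_mul, mul_inv_rev, inv_inv, g']
  show _ = _ * (((f q).out : GamH N H') : SL(2, ℤ))⁻¹
  group

end Transfer

end Commute

section Descent

variable {R : Type*} [CommRing R] {N : ℕ} [NeZero N] {H H' : Subgroup (ZMod N)ˣ} {A : Type*}
  [AddCommGroup A] [Module R A]

/-- explicit formula for the Hecke operator -/
lemma TH_formula {ℓ : ℕ} [NeZero ℓ] {J : Type*} [Fintype J] {z : J → SL(2, ℤ)}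
    (hz : IsReps (GamH N H) (N * ℓ) z) (ψ : HM (GamH N H) A) (γ : GamH N H)
    (σ : Equiv.Perm J) (b : J → GamH N H)
    (hb : ∀ j, del ℓ * emb (z j) * emb (γ : SL(2, ℤ)) = emb (b j : SL(2, ℤ)) * (del ℓ * emb (z (σ j)))) :
    TH R N H A ℓ ψ (Additive.ofMul γ) = ∑ j, ψ (Additive.ofMul (b j)) := by
  obtain ⟨u, hu⟩ := exists_isAut ψ
  have h1 := rep_TH (R := R) hz ψ u hu γ 1
  simp only [one_smul, mul_one] at h1
  have h2 : ∑ j, u (del ℓ * emb (z j) * emb (γ : SL(2, ℤ)))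
      = ∑ j, ψ (Additive.ofMul (b j)) + ∑ j, u (del ℓ * emb (z j)) := by
    rw [← Equiv.sum_comp σ (fun j => u (del ℓ * emb (z j))), ← Finset.sum_add_distrib]
    refine Finset.sum_congr rfl fun j _ => ?_
    rw [hb, hu]
  rw [h2] at h1
  exact (add_right_cancel h1).symm

/-- **Descent of invariant homomorphisms**: if `f ∈ Hom(Γ_H, A)` is invariant under `Γ_{H'}`, then
`T_ℓ f - d f` extends to `Γ_{H'}` where `d` is the degree of `T_ℓ`. -/
theorem exists_descent {ℓ : ℕ} [NeZero ℓ] {J : Type*} [Fintype J] {z : J → SL(2, ℤ)}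
    (hz : IsReps (GamH N ⊥) (N * ℓ) z) (hH : H ≤ H') (f : HM (GamH N H) A)
    (hf : ∀ g : Gamma0 N, dChar N g ∈ H' → dia R N H A g f = f) :
    ∃ F : HM (GamH N H') A, res A R (GamH_mono hH) F = TH R N H A ℓ f - Fintype.card J • f := by
  classical
  have hz' := hz.of_bot H'
  -- the permutation and the cocycle
  choose σ0 hσ0 hσu using fun (γ : GamH N H') (j : J) =>
    hz'.uniq (z j * γ) ((GamH N H').mul_mem (hz'.mem j) γ.2)
  have hσu : ∀ (γ : GamH N H') (j k : J), z j * (γ : SL(2, ℤ)) * (z k)⁻¹ ∈ Gamma0 (N * ℓ) →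
      k = σ0 γ j := fun γ j k h => hσu γ j k h
  have hσ0 : ∀ (γ : GamH N H') (j : J), z j * (γ : SL(2, ℤ)) * (z (σ0 γ j))⁻¹ ∈ Gamma0 (N * ℓ) :=
    fun γ j => hσ0 γ j
  have hσmul : ∀ (γ γ' : GamH N H') (j : J), σ0 (γ * γ') j = σ0 γ' (σ0 γ j) := by
    intro γ γ' j
    symm
    apply hσu
    have h1 := (Gamma0 (N * ℓ)).mul_mem (hσ0 γ j) (hσ0 γ' (σ0 γ j))
    have h2 : z j * (γ : SL(2, ℤ)) * (z (σ0 γ j))⁻¹ * (z (σ0 γ j) * (γ' : SL(2, ℤ)) *
        (z (σ0 γ' (σ0 γ j)))⁻¹) = z j * ((γ * γ' : GamH N H') : SL(2, ℤ)) *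
          (z (σ0 γ' (σ0 γ j)))⁻¹ := by
      rw [Subgroup.coe_mul]; group
    rwa [h2] at h1
  have hσone : ∀ j, σ0 1 j = j := by
    intro j
    symm
    apply hσu
    rw [Subgroup.coe_one, mul_one, mul_inv_cancel]
    exact one_mem _
  let σ : GamH N H' → Equiv.Perm J := fun γ =>
    { toFun := σ0 γ
      invFun := σ0 γ⁻¹
      left_inv := fun j => by rw [← hσmul, mul_inv_cancel, hσone]
      right_inv := fun j => by rw [← hσmul, inv_mul_cancel, hσone] }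
  -- the elements of `Γ₀(N)`
  let b : GamH N H' → J → SL(2, ℤ) := fun γ j => degSL ℓ _ (dvd_of_mem (hσ0 γ j))
  have hb : ∀ (γ : GamH N H') (j : J), del ℓ * emb (z j) * emb (γ : SL(2, ℤ)) =
      emb (b γ j) * (del ℓ * emb (z (σ0 γ j))) := by
    intro γ j
    rw [← mul_assoc, ← del_emb, mul_assoc, mul_assoc, ← map_mul, ← map_mul]
    congr 2
    group
  have hb0 : ∀ γ j, b γ j ∈ Gamma0 N := fun γ j => degSL_mem (hσ0 γ j)
  have hbc : ∀ γ j, dChar N ⟨b γ j, hb0 γ j⟩ = dChar N ⟨γ, GamH_le_Gamma0 γ.2⟩ := by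
    intro γ j
    have h1 : dChar N ⟨b γ j, hb0 γ j⟩
        = dChar N ⟨z j * (γ : SL(2, ℤ)) * (z (σ0 γ j))⁻¹, Gamma0_mul_le N ℓ (hσ0 γ j)⟩ := Units.ext rfl
    obtain ⟨hj0, hj⟩ := mem_GamH.mp (hz.mem j)
    obtain ⟨hk0, hk⟩ := mem_GamH.mp (hz.mem (σ0 γ j))
    have h2 : (⟨z j * (γ : SL(2, ℤ)) * (z (σ0 γ j))⁻¹, Gamma0_mul_le N ℓ (hσ0 γ j)⟩ : Gamma0 N)
        = ⟨z j, hj0⟩ * ⟨γ, GamH_le_Gamma0 γ.2⟩ * (⟨z (σ0 γ j), hk0⟩ : Gamma0 N)⁻¹ := rfl
    rw [h1, h2, map_mul, map_mul, map_inv, Subgroup.mem_bot.mp hj, Subgroup.mem_bot.mp hk,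
      one_mul, inv_one, mul_one]
  have hbmul : ∀ (γ γ' : GamH N H') (j : J), b (γ * γ') j = b γ j * b γ' (σ0 γ j) := by
    intro γ γ' j
    apply emb_injective
    have h1 := hb (γ * γ') j
    rw [Subgroup.coe_mul, map_mul, ← mul_assoc, hb, mul_assoc, hb, ← mul_assoc,
      hσmul] at h1
    rw [map_mul]
    exact (mul_right_cancel h1).symm
  have hc : ∀ γ j, b γ j * (γ : SL(2, ℤ))⁻¹ ∈ GamH N H := by
    intro γ j
    refine mem_GamH.mpr ⟨(Gamma0 N).mul_mem (hb0 γ j) ((Gamma0 N).inv_mem (GamH_le_Gamma0 γ.2)), ?_⟩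
    have h2 : (⟨b γ j * (γ : SL(2, ℤ))⁻¹, (Gamma0 N).mul_mem (hb0 γ j)
        ((Gamma0 N).inv_mem (GamH_le_Gamma0 γ.2))⟩ : Gamma0 N)
        = ⟨b γ j, hb0 γ j⟩ * (⟨γ, GamH_le_Gamma0 γ.2⟩ : Gamma0 N)⁻¹ := rfl
    rw [h2, map_mul, map_inv, hbc, mul_inv_cancel]
    exact one_mem _
  let F0 : GamH N H' → A := fun γ => ∑ j, f (Additive.ofMul ⟨_, hc γ j⟩)
  have hF0 : ∀ γ γ', F0 (γ * γ') = F0 γ + F0 γ' := by
    intro γ γ'
    have h1 : ∀ j, f (Additive.ofMul ⟨_, hc (γ * γ') j⟩) =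
        f (Additive.ofMul ⟨_, hc γ j⟩) + f (Additive.ofMul ⟨_, hc γ' (σ0 γ j)⟩) := by
      intro j
      have hγd : dChar N ⟨γ, GamH_le_Gamma0 γ.2⟩ ∈ H' := (mem_GamH.mp γ.2).2
      have h2 := hf ⟨γ, GamH_le_Gamma0 γ.2⟩ hγd
      have h3 : f (Additive.ofMul ⟨_, hc γ' (σ0 γ j)⟩) =
          f (Additive.ofMul (conjG N H ⟨γ, GamH_le_Gamma0 γ.2⟩ ⟨_, hc γ' (σ0 γ j)⟩)) := by
        conv_lhs => rw [← h2]
        rfl
      rw [h3, ← map_add, ← ofMul_mul]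
      congr 2
      apply Subtype.ext
      have h7 : b (γ * γ') j * ((γ * γ' : GamH N H') : SL(2, ℤ))⁻¹ =
          b γ j * (γ : SL(2, ℤ))⁻¹ * ((γ : SL(2, ℤ)) *
            (b γ' (σ0 γ j) * (γ' : SL(2, ℤ))⁻¹) * (γ : SL(2, ℤ))⁻¹) := by
        rw [hbmul, Subgroup.coe_mul]
        group
      exact h7
    show ∑ j, _ = ∑ j, _ + ∑ j, _
    rw [Finset.sum_congr rfl (fun j _ => h1 j), Finset.sum_add_distrib]
    congr 1
    exact Equiv.sum_comp (σ γ) (fun j => f (Additive.ofMul ⟨_, hc γ' j⟩))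
  refine ⟨AddMonoidHom.mk' (fun γ => F0 γ.toMul) (fun a b => hF0 a.toMul b.toMul), ?_⟩
  refine hm_ext fun γ => ?_
  have hbm : ∀ j, b (Subgroup.inclusion (GamH_mono hH) γ) j ∈ GamH N H := by
    intro j
    have h1 := (GamH N H).mul_mem (hc (Subgroup.inclusion (GamH_mono hH) γ) j) γ.2
    have h2 : b (Subgroup.inclusion (GamH_mono hH) γ) j *
      ((Subgroup.inclusion (GamH_mono hH) γ : GamH N H') : SL(2, ℤ))⁻¹ * (γ : SL(2, ℤ)) =
        b (Subgroup.inclusion (GamH_mono hH) γ) j := by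
      show b _ j * (γ : SL(2, ℤ))⁻¹ * (γ : SL(2, ℤ)) = _
      group
    rwa [h2] at h1
  rw [res_apply]
  show F0 (Subgroup.inclusion (GamH_mono hH) γ) = TH R N H A ℓ f (Additive.ofMul γ) -
    (Fintype.card J • f) (Additive.ofMul γ)
  rw [TH_formula (hz.of_bot H) f γ (σ (Subgroup.inclusion (GamH_mono hH) γ))
    (fun j => ⟨_, hbm j⟩) (fun j => hb (Subgroup.inclusion (GamH_mono hH) γ) j)]
  rw [AddMonoidHom.nsmul_apply, ← Finset.card_univ, ← Finset.sum_const, ← Finset.sum_sub_distrib]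
  refine Finset.sum_congr rfl fun j _ => ?_
  rw [← map_sub]
  congr 1

/-- On the kernel of the restriction, `T_ℓ` is multiplication by its degree. -/
theorem TH_of_res_eq_zero {ℓ : ℕ} [NeZero ℓ] {J : Type*} [Fintype J] {z : J → SL(2, ℤ)}
    (hz : IsReps (GamH N ⊥) (N * ℓ) z) (hH : H ≤ H') (f : HM (GamH N H') A)
    (hf : res A R (GamH_mono hH) f = 0) : TH R N H' A ℓ f = Fintype.card J • f := by
  classical
  have hz' := hz.of_bot H'
  refine hm_ext fun γ => ?_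
  have hr : IsReps (GamH N H') (N * ℓ) (fun j => z j * (γ : SL(2, ℤ))) := by
    refine hz'.of_injective (fun j => (GamH N H').mul_mem (hz'.mem j) γ.2) fun i j hij => ?_
    apply hz'.eq_of
    have : z i * (γ : SL(2, ℤ)) * (z j * (γ : SL(2, ℤ)))⁻¹ = z i * (z j)⁻¹ := by group
    rwa [this] at hij
  obtain ⟨σ, hσ⟩ := hr.exists_equiv hz'
  have hmem : ∀ j, z j * (γ : SL(2, ℤ)) * (z (σ j))⁻¹ ∈ GamHl N H' ℓ := fun j =>
    ⟨(GamH N H').mul_mem (hr.mem j) ((GamH N H').inv_mem (hz'.mem _)), hσ j⟩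
  have hb : ∀ j, del ℓ * emb (z j) * emb (γ : SL(2, ℤ)) =
      emb (degSL ℓ _ (dvd_of_mem (hmem j).2)) * (del ℓ * emb (z (σ j))) := by
    intro j
    rw [← mul_assoc, ← del_emb, mul_assoc, mul_assoc, ← map_mul, ← map_mul]
    congr 2
    group
  rw [TH_formula hz' f γ σ (fun j => ⟨_, degSL_mem_GamH N H' ℓ (hmem j)⟩) hb]
  rw [AddMonoidHom.nsmul_apply, ← Finset.card_univ, ← Finset.sum_const]
  refine Finset.sum_congr rfl fun j _ => ?_
  -- the quotient lies in `Γ_H`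
  have hγ0 := GamH_le_Gamma0 γ.2
  obtain ⟨hj0, hj⟩ := mem_GamH.mp (hz.mem j)
  obtain ⟨hk0, hk⟩ := mem_GamH.mp (hz.mem (σ j))
  have hd0 : degSL ℓ _ (dvd_of_mem (hmem j).2) ∈ Gamma0 N := degSL_mem (hmem j).2
  have h1 : dChar N ⟨degSL ℓ _ (dvd_of_mem (hmem j).2), hd0⟩
      = dChar N ⟨z j * (γ : SL(2, ℤ)) * (z (σ j))⁻¹, GamH_le_Gamma0 (hmem j).1⟩ := Units.ext rfl
  have h2 : (⟨z j * (γ : SL(2, ℤ)) * (z (σ j))⁻¹, GamH_le_Gamma0 (hmem j).1⟩ : Gamma0 N)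
      = ⟨z j, hj0⟩ * ⟨γ, hγ0⟩ * (⟨z (σ j), hk0⟩ : Gamma0 N)⁻¹ := rfl
  have h3 : degSL ℓ _ (dvd_of_mem (hmem j).2) * (γ : SL(2, ℤ))⁻¹ ∈ GamH N H := by
    refine mem_GamH.mpr ⟨(Gamma0 N).mul_mem hd0 ((Gamma0 N).inv_mem hγ0), ?_⟩
    have h4 : (⟨degSL ℓ _ (dvd_of_mem (hmem j).2) * (γ : SL(2, ℤ))⁻¹,
        (Gamma0 N).mul_mem hd0 ((Gamma0 N).inv_mem hγ0)⟩ : Gamma0 N)
        = ⟨degSL ℓ _ (dvd_of_mem (hmem j).2), hd0⟩ * (⟨γ, hγ0⟩ : Gamma0 N)⁻¹ := rfl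
    rw [h4, map_mul, map_inv, h1, h2, map_mul, map_mul, map_inv, Subgroup.mem_bot.mp hj,
      Subgroup.mem_bot.mp hk, one_mul, inv_one, mul_one, mul_inv_cancel]
    exact one_mem _
  have h5 := congrArg (fun F : HM (GamH N H) A => F (Additive.ofMul ⟨_, h3⟩)) hf
  simp only [res_apply] at h5
  have h6 : (⟨_, degSL_mem_GamH N H' ℓ (hmem j)⟩ : GamH N H')
      = Subgroup.inclusion (GamH_mono hH) ⟨_, h3⟩ * γ := by
    apply Subtype.ext
    rw [Subgroup.coe_mul]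
    show _ = degSL ℓ _ (dvd_of_mem (hmem j).2) * (γ : SL(2, ℤ))⁻¹ * (γ : SL(2, ℤ))
    group
  rw [h6, ofMul_mul, map_add, h5]
  simp

end Descent

end Fermat.Agent.TC
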