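import Mathlib
import Fermat.Agent.TC.FreeCore
import Fermat.Agent.TC.Univ
import Fermat.Agent.H22.Ihara5
import Fermat.Agent.H22.GamHLin
import Fermat.Agent.H22.Lattice
import Fermat.Agent.H14.Numerics

/-!
# The `m`-part of `Hom(Γ_H(N), O)` is free over the group ring
-/

set_option autoImplicit false

noncomputable section

universe u

namespace Fermat.Agent.TC

open Matrix.SpecialLinearGroup CongruenceSubgroup H22 IsLocalRing ModularGroup
open scoped MatrixGroups

section ActHom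

variable {σ : Type} {O M : Type u} [CommRing O] [AddCommGroup M] [Module O M]

/-- evaluation at a commuting family of endomorphisms -/
theorem exists_actHom (T : σ → Module.End O M) (h : ∀ i j, T i * T j = T j * T i) :
    ∃ τ : MvPolynomial σ O →ₐ[O] Module.End O M, ∀ i, τ (MvPolynomial.X i) = T i := by
  have hc : IsMulCommutative (Algebra.adjoin O (Set.range T)) :=
    Algebra.isMulCommutative_adjoin O (by
      rintro _ ⟨i, rfl⟩ _ ⟨j, rfl⟩
      exact h i j)
  open scoped IsMulCommutative in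
  refine ⟨(Algebra.adjoin O (Set.range T)).val.comp
    (MvPolynomial.aeval fun i =>
      (⟨T i, Algebra.subset_adjoin (Set.mem_range_self i)⟩ :
        Algebra.adjoin O (Set.range T)) :
      MvPolynomial σ O →ₐ[O] (Algebra.adjoin O (Set.range T))), fun i => ?_⟩
  change ((MvPolynomial.aeval fun i =>
      (⟨T i, Algebra.subset_adjoin (Set.mem_range_self i)⟩ :
        Algebra.adjoin O (Set.range T))) (MvPolynomial.X i) : Module.End O M) = T i
  rw [MvPolynomial.aeval_X]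

/-- evaluation at a commuting family of endomorphisms -/
def actHom (T : σ → Module.End O M) (h : ∀ i j, T i * T j = T j * T i) :
    MvPolynomial σ O →ₐ[O] Module.End O M := (exists_actHom T h).choose

lemma actHom_X (T : σ → Module.End O M) (h : ∀ i j, T i * T j = T j * T i) (i : σ) :
    actHom T h (MvPolynomial.X i) = T i := (exists_actHom T h).choose_spec i

/-- intertwining -/
lemma act_intertwine {N : Type u} [AddCommGroup N] [Module O N]
    {τ : MvPolynomial σ O →ₐ[O] Module.End O M} {τ' : MvPolynomial σ O →ₐ[O] Module.End O N}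
    (f : M →+ N) (hf : ∀ (a : O) x, f (a • x) = a • f x)
    (h : ∀ i x, f (τ (MvPolynomial.X i) x) = τ' (MvPolynomial.X i) (f x))
    (t : MvPolynomial σ O) (x : M) : f (τ t x) = τ' t (f x) := by
  induction t using MvPolynomial.induction_on generalizing x with
  | C a =>
    rw [← MvPolynomial.algebraMap_eq, AlgHom.commutes, AlgHom.commutes,
      Module.algebraMap_end_apply, Module.algebraMap_end_apply, hf]
  | add s t hs ht => rw [map_add, map_add, LinearMap.add_apply, LinearMap.add_apply, map_add, hs, ht]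
  | mul_X s i hs =>
    rw [map_mul, map_mul, Module.End.mul_apply, Module.End.mul_apply, hs, h]

end ActHom

section FG

/-- finite generation of `Hom(Γ, A)` -/
theorem finite_HM (Γ : Subgroup SL(2, ℤ)) [Γ.FiniteIndex] (O : Type u) [CommRing O]
    [IsNoetherianRing O] (A : Type u) [AddCommGroup A] [Module O A] [Module.Finite O A] :
    Module.Finite O (HM Γ A) := by
  have hfg : Group.FG Γ := inferInstance
  obtain ⟨s, hs⟩ := (Group.fg_def.mp hfg : (⊤ : Subgroup Γ).FG)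
  let f : HM Γ A →ₗ[O] (s → A) :=
    { toFun := fun φ g => φ (Additive.ofMul (g : Γ))
      map_add' := fun _ _ => rfl
      map_smul' := fun _ _ => rfl }
  have hf : Function.Injective f := by
    intro φ ψ h
    apply hm_ext
    intro γ
    have hγ : γ ∈ Subgroup.closure (s : Set Γ) := by rw [hs]; trivial
    induction hγ using Subgroup.closure_induction with
    | mem x hx => exact congrFun h ⟨x, hx⟩
    | one => rw [ofMul_one, map_zero, map_zero]
    | mul x y _ _ hx hy => rw [ofMul_mul, map_add, map_add, hx, hy]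
    | inv x _ hx => rw [ofMul_inv, map_neg, map_neg, hx]
  exact Module.Finite.of_injective f hf

end FG

section Deg

variable (N : ℕ) [NeZero N]

/-- the degree of the Hecke operator -/
def dg (ℓ : ℕ) [NeZero ℓ] : ℕ := Fintype.card (Gamma0 N ⧸ subGamma N ℓ)

lemma dg_eq {ℓ : ℕ} [NeZero ℓ] (hℓ : ℓ.Prime) (hN : ¬ ℓ ∣ N) : dg N ℓ = ℓ + 1 := by
  have : Fact ℓ.Prime := ⟨hℓ⟩
  have h := prod_const_cosets (N := N) (A := Multiplicative ℤ) hN (Multiplicative.ofAdd (1 : ℤ))
  simp only [Finset.prod_const] at h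
  have h2 := congrArg Multiplicative.toAdd h
  rw [toAdd_pow, toAdd_pow] at h2
  simp only [toAdd_ofAdd, nsmul_eq_mul, mul_one] at h2
  have h3 : Finset.card (Finset.univ : Finset (Gamma0 N ⧸ subGamma N ℓ)) = ℓ + 1 := by
    exact_mod_cast h2
  rw [dg, ← Finset.card_univ]
  convert h3

variable {N}

lemma IsReps.card_eq {ℓ : ℕ} [NeZero ℓ] {J : Type*} [Fintype J] {z : J → SL(2, ℤ)}
    (hz : IsReps (GamH N ⊥) (N * ℓ) z) : Fintype.card J = dg N ℓ := by
  let z0 : Gamma0 N ⧸ subGamma N ℓ → SL(2, ℤ) := fun q => ((q.out : Gamma0 N) : SL(2, ℤ))⁻¹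
  have hz0 : IsReps (Gamma0 N) (N * ℓ) z0 := by
    refine ⟨fun q => inv_mem (q.out).2, fun g hg => ?_⟩
    refine ⟨((⟨g, hg⟩⁻¹ : Gamma0 N) : Gamma0 N ⧸ subGamma N ℓ), ?_, ?_⟩
    · have h1 := QuotientGroup.out_eq' ((⟨g, hg⟩⁻¹ : Gamma0 N) : Gamma0 N ⧸ subGamma N ℓ)
      have h2 := QuotientGroup.eq.mp h1
      have h3 := (subGamma N ℓ).inv_mem h2
      rw [mul_inv_rev, inv_inv, inv_inv] at h3
      have h4 := Subgroup.mem_subgroupOf.mp h3
      simp only [z0, inv_inv]
      exact h4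
    · intro q hq
      rw [← QuotientGroup.out_eq' q]
      refine QuotientGroup.eq.mpr ?_
      have h1 : (q.out)⁻¹ * (⟨g, hg⟩⁻¹ : Gamma0 N) = (⟨g, hg⟩ * q.out)⁻¹ := by group
      rw [h1]
      refine (subGamma N ℓ).inv_mem (Subgroup.mem_subgroupOf.mpr ?_)
      simp only [z0, inv_inv] at hq
      exact hq
  have h1 := hz.of_bot ⊤
  rw [GamH_top] at h1
  obtain ⟨e, _⟩ := h1.exists_equiv hz0
  exact Fintype.card_congr e

/-- descent with the degree -/
theorem exists_descent' {R : Type*} [CommRing R] {H H' : Subgroup (ZMod N)ˣ} {A : Type*}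
    [AddCommGroup A] [Module R A] (ℓ : ℕ) [NeZero ℓ] (hH : H ≤ H') (f : HM (GamH N H) A)
    (hf : ∀ g : Gamma0 N, dChar N g ∈ H' → dia R N H A g f = f) :
    ∃ F : HM (GamH N H') A, res A R (GamH_mono hH) F = TH R N H A ℓ f - dg N ℓ • f := by
  have : NeZero (N * ℓ) := ⟨mul_ne_zero (NeZero.ne N) (NeZero.ne ℓ)⟩
  obtain ⟨J, _, z, hz⟩ := exists_reps (GamH N ⊥) (N * ℓ)
  rw [← hz.card_eq]
  exact exists_descent hz hH f hf

theorem TH_of_res_eq_zero' {R : Type*} [CommRing R] {H H' : Subgroup (ZMod N)ˣ} {A : Type*}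
    [AddCommGroup A] [Module R A] (ℓ : ℕ) [NeZero ℓ] (hH : H ≤ H') (f : HM (GamH N H') A)
    (hf : res A R (GamH_mono hH) f = 0) : TH R N H' A ℓ f = dg N ℓ • f := by
  have : NeZero (N * ℓ) := ⟨mul_ne_zero (NeZero.ne N) (NeZero.ne ℓ)⟩
  obtain ⟨J, _, z, hz⟩ := exists_reps (GamH N ⊥) (N * ℓ)
  rw [← hz.card_eq]
  exact TH_of_res_eq_zero hz hH f hf

end Deg

section Diamonds

variable (R : Type*) [CommRing R] (N : ℕ) [NeZero N] (H : Subgroup (ZMod N)ˣ) (A : Type*)
  [AddCommGroup A] [Module R A]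

lemma exists_gU (u : (ZMod N)ˣ) : ∃ g : Gamma0 N, dChar N g = u := by
  obtain ⟨g, h, _, hg⟩ := exists_dChar_eq N 1 u
  exact ⟨⟨g, h⟩, hg⟩

/-- a chosen element with given lower right entry -/
def gU (u : (ZMod N)ˣ) : Gamma0 N := (exists_gU N u).choose

lemma dChar_gU (u : (ZMod N)ˣ) : dChar N (gU N u) = u := (exists_gU N u).choose_spec

/-- The diamond operators as a homomorphism. -/
def diaU : (ZMod N)ˣ →* Module.End R (HM (GamH N H) A) where
  toFun u := dia R N H A (gU N u)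
  map_one' := dia_of_mem _ (by rw [dChar_gU]; exact one_mem _)
  map_mul' u v := by
    rw [← dia_mul]
    apply dia_congr
    rw [map_mul, dChar_gU, dChar_gU, dChar_gU, mul_comm v u, inv_mul_cancel]
    exact one_mem _

lemma diaU_apply (u : (ZMod N)ˣ) : diaU R N H A u = dia R N H A (gU N u) := rfl

lemma diaU_dChar (g : Gamma0 N) : diaU R N H A (dChar N g) = dia R N H A g := by
  rw [diaU_apply]
  apply dia_congr
  rw [dChar_gU, inv_mul_cancel]
  exact one_mem _

/-- The diamond operators as a homomorphism on the quotient. -/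
def diaQ : ((ZMod N)ˣ ⧸ H) →* Module.End R (HM (GamH N H) A) :=
  QuotientGroup.lift H (diaU R N H A) (fun u hu =>
    dia_of_mem _ (by rw [dChar_gU]; exact hu))

lemma diaQ_mk (u : (ZMod N)ˣ) : diaQ R N H A (u : (ZMod N)ˣ ⧸ H) = diaU R N H A u := rfl

lemma diaQ_dChar (g : Gamma0 N) :
    diaQ R N H A ((dChar N g : (ZMod N)ˣ) : (ZMod N)ˣ ⧸ H) = dia R N H A g := by
  rw [diaQ_mk, diaU_dChar]

lemma diaU_TH (u : (ZMod N)ˣ) (ℓ : ℕ) [NeZero ℓ] (x : HM (GamH N H) A) :
    diaU R N H A u (TH R N H A ℓ x) = TH R N H A ℓ (diaU R N H A u x) :=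
  (TH_dia ℓ (gU N u) x).symm

lemma diaQ_TH (g : (ZMod N)ˣ ⧸ H) (ℓ : ℕ) [NeZero ℓ] (x : HM (GamH N H) A) :
    diaQ R N H A g (TH R N H A ℓ x) = TH R N H A ℓ (diaQ R N H A g x) := by
  obtain ⟨u, rfl⟩ := QuotientGroup.mk_surjective g
  exact diaU_TH R N H A u ℓ x

instance fintypeDelta : Fintype ((ZMod N)ˣ ⧸ H) := Fintype.ofFinite _

/-- the character on `Γ₀(N)` modulo `H` -/
def Dc : GamH N ⊤ →* (ZMod N)ˣ ⧸ H :=
  (QuotientGroup.mk' H).comp ((dChar N).comp (Subgroup.inclusion GamH_le_Gamma0))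

lemma Dc_apply (γ : GamH N ⊤) : Dc N H γ = ((dChar N ⟨γ, GamH_le_Gamma0 γ.2⟩ : (ZMod N)ˣ) : (ZMod N)ˣ ⧸ H) :=
  rfl

lemma Dc_eq_one_iff (γ : GamH N ⊤) : Dc N H γ = 1 ↔ γ ∈ (GamH N H).subgroupOf (GamH N ⊤) := by
  rw [Dc_apply, QuotientGroup.eq_one_iff, Subgroup.mem_subgroupOf, mem_GamH]
  exact ⟨fun h => ⟨GamH_le_Gamma0 γ.2, h⟩, fun ⟨_, h⟩ => h⟩

/-- `res ∘ tr` is the norm over the quotient group. -/
lemma res_tr' (x : HM (GamH N H) A) :
    res A R (GamH_mono le_top) (tr A R (GamH N ⊤) (GamH N H) x)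
      = ∑ g : (ZMod N)ˣ ⧸ H, diaQ R N H A g x := by
  classical
  rw [res_tr le_top x]
  let f : (GamH N ⊤ ⧸ (GamH N H).subgroupOf (GamH N ⊤)) → (ZMod N)ˣ ⧸ H := fun q =>
    Dc N H (q.out)⁻¹
  have hf : Function.Bijective f := by
    constructor
    · intro q q' h
      have h1 : Dc N H (q.out)⁻¹ = Dc N H (q'.out)⁻¹ := h
      rw [← QuotientGroup.out_eq' q, ← QuotientGroup.out_eq' q', QuotientGroup.eq,
        ← Dc_eq_one_iff, map_mul, h1, ← map_mul, inv_mul_cancel, map_one]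
    · intro g
      obtain ⟨u, rfl⟩ := QuotientGroup.mk_surjective g
      obtain ⟨γ, hγ⟩ := exists_gU N u⁻¹
      have hγ' : (γ : SL(2, ℤ)) ∈ GamH N ⊤ := by rw [GamH_top]; exact γ.2
      refine ⟨((⟨γ, hγ'⟩ : GamH N ⊤) : GamH N ⊤ ⧸ (GamH N H).subgroupOf (GamH N ⊤)), ?_⟩
      obtain ⟨k, hk⟩ := QuotientGroup.mk_out_eq_mul ((GamH N H).subgroupOf (GamH N ⊤))
        (⟨γ, hγ'⟩ : GamH N ⊤)
      show Dc N H (Quotient.out _)⁻¹ = _
      rw [hk, Dc_apply]
      refine QuotientGroup.eq.mpr ?_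
      obtain ⟨hk0, hkH⟩ := mem_GamH.mp (Subgroup.mem_subgroupOf.mp k.2)
      have h2 : (⟨(((⟨γ, hγ'⟩ : GamH N ⊤) * (k : GamH N ⊤))⁻¹ : GamH N ⊤),
          GamH_le_Gamma0 (((⟨γ, hγ'⟩ : GamH N ⊤) * (k : GamH N ⊤))⁻¹).2⟩ : Gamma0 N)
          = ⟨_, hk0⟩⁻¹ * γ⁻¹ := by
        apply Subtype.ext
        simp
      rw [h2, map_mul, map_inv, map_inv, hγ, mul_inv_rev, inv_inv, inv_inv, mul_assoc,
        mul_comm _ u, ← mul_assoc, inv_mul_cancel, one_mul]
      exact hkH
  rw [← Equiv.sum_comp (Equiv.ofBijective f hf)]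
  refine Finset.sum_congr rfl fun q _ => ?_
  show _ = diaQ R N H A (Dc N H (q.out)⁻¹) x
  rw [Dc_apply, diaQ_dChar]
  rfl

end Diamonds

section Action

variable {O : Type u} [CommRing O] {N : ℕ} [NeZero N] {σ : Type} (pr : σ → Nat.Primes)

/-- The Hecke operators at the primes indexed by `σ` -/
def THp (O : Type u) [CommRing O] (N : ℕ) [NeZero N] (H : Subgroup (ZMod N)ˣ) (A : Type u)
    [AddCommGroup A] [Module O A] (ℓ : Nat.Primes) : Module.End O (HM (GamH N H) A) :=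
  have : NeZero (ℓ : ℕ) := ⟨ℓ.2.ne_zero⟩
  TH O N H A ℓ

lemma THp_comm (H : Subgroup (ZMod N)ˣ) (A : Type u)
    [AddCommGroup A] [Module O A] (ℓ ℓ' : Nat.Primes) :
    THp O N H A ℓ * THp O N H A ℓ' = THp O N H A ℓ' * THp O N H A ℓ := by
  have : NeZero (ℓ : ℕ) := ⟨ℓ.2.ne_zero⟩
  have : NeZero (ℓ' : ℕ) := ⟨ℓ'.2.ne_zero⟩
  refine LinearMap.ext fun ψ => ?_
  exact TH_comm ℓ'.2 ℓ.2 ψ

/-- The action of the abstract Hecke algebra `O[X_i, i : σ]` on `Hom(Γ_H(N), A)`. -/
def hAct (O : Type u) [CommRing O] (N : ℕ) [NeZero N] (H : Subgroup (ZMod N)ˣ) (A : Type u)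
    [AddCommGroup A] [Module O A] (pr : σ → Nat.Primes) :
    MvPolynomial σ O →ₐ[O] Module.End O (HM (GamH N H) A) :=
  actHom (fun i => THp O N H A (pr i)) (fun i j => THp_comm H A (pr i) (pr j))

lemma hAct_X (H : Subgroup (ZMod N)ˣ) (A : Type u) [AddCommGroup A] [Module O A] (i : σ) :
    hAct O N H A pr (MvPolynomial.X i) = THp O N H A (pr i) := actHom_X _ _ i

end Action

section Main

variable {O : Type u} [CommRing O] [IsDomain O] [IsDiscreteValuationRing O]
  [IsAdicComplete (maximalIdeal O) O] [Finite (ResidueField O)]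
  {p : ℕ} [Fact p.Prime] {N : ℕ} [NeZero N]
  {σ : Type} (pr : σ → Nat.Primes)

/-- reduction of the coefficients -/
def redH (O : Type u) [CommRing O] [IsLocalRing O] (N : ℕ) (H : Subgroup (ZMod N)ˣ) :
    HM (GamH N H) O →ₗ[O] HM (GamH N H) (ResidueField O) where
  toFun φ := (residue O).toAddMonoidHom.comp φ
  map_add' φ ψ := by
    apply hm_ext
    intro γ
    exact map_add (residue O) _ _
  map_smul' a φ := by
    apply hm_ext
    intro γ
    show residue O (a • φ (Additive.ofMul γ)) = a • residue O (φ (Additive.ofMul γ))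
    rw [smul_eq_mul, map_mul, ← smul_eq_mul, residue_smul']
where
  residue_smul' {O : Type u} [CommRing O] [IsLocalRing O] (a : O) (x : ResidueField O) :
      residue O a • x = a • x := by
    rw [← IsLocalRing.ResidueField.algebraMap_eq, algebraMap_smul]

lemma redH_apply {H : Subgroup (ZMod N)ˣ} (φ : HM (GamH N H) O) (γ : GamH N H) :
    redH O N H φ (Additive.ofMul γ) = residue O (φ (Additive.ofMul γ)) := rfl

lemma redH_TH {H : Subgroup (ZMod N)ˣ} (ℓ : Nat.Primes) (φ : HM (GamH N H) O) :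
    redH O N H (THp O N H O ℓ φ) = THp O N H (ResidueField O) ℓ (redH O N H φ) := by
  have : NeZero (ℓ : ℕ) := ⟨ℓ.2.ne_zero⟩
  exact (TH_map (R := O) (R' := O) (residue O).toAddMonoidHom ℓ φ).symm

lemma redH_hAct {H : Subgroup (ZMod N)ˣ} (t : MvPolynomial σ O) (φ : HM (GamH N H) O) :
    redH O N H (hAct O N H O pr t φ) = hAct O N H (ResidueField O) pr t (redH O N H φ) := by
  refine act_intertwine (redH O N H).toAddMonoidHom (fun a x => map_smul (redH O N H) a x) ?_ t φ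
  intro i x
  show redH O N H _ = _
  rw [hAct_X, hAct_X]
  exact redH_TH (pr i) x

lemma redH_ker {ϖ : O} (hϖ : maximalIdeal O = Ideal.span {ϖ}) {H : Subgroup (ZMod N)ˣ}
    (φ : HM (GamH N H) O) (h : redH O N H φ = 0) : ∃ ψ, φ = ϖ • ψ := by
  have h1 : ∀ γ : GamH N H, ∃ b, φ (Additive.ofMul γ) = ϖ * b := by
    intro γ
    have h2 : φ (Additive.ofMul γ) ∈ maximalIdeal O := by
      rw [← residue_eq_zero_iff]
      exact congrArg (fun F : HM (GamH N H) (ResidueField O) => F (Additive.ofMul γ)) h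
    rw [hϖ, Ideal.mem_span_singleton] at h2
    exact h2
  have hϖ0 : ϖ ≠ 0 := by
    rintro rfl
    have h3 : maximalIdeal O = ⊥ := by rw [hϖ, Ideal.span_singleton_eq_bot]
    exact IsDiscreteValuationRing.not_a_field O h3
  choose b hb using h1
  refine ⟨AddMonoidHom.mk' (fun γ => b γ.toMul) ?_, ?_⟩
  · intro γ δ
    apply mul_left_cancel₀ hϖ0
    show ϖ * b (γ.toMul * δ.toMul) = _
    rw [← hb, mul_add]
    have h4 : φ (Additive.ofMul (γ.toMul * δ.toMul)) = φ (Additive.ofMul γ.toMul) +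
      φ (Additive.ofMul δ.toMul) := map_add φ _ _
    rw [h4, hb, hb]
  · apply hm_ext
    intro γ
    exact hb γ

lemma isUnit_natCast {n : ℕ} (hpO : (p : O) ∈ maximalIdeal O) (hn : Nat.Coprime n p) :
    IsUnit (n : O) := by
  by_contra h
  have h1 : (n : O) ∈ maximalIdeal O := (mem_maximalIdeal _).mpr h
  have h2 := Nat.isCoprime_iff_coprime.mpr hn
  obtain ⟨a, b, hab⟩ := h2
  apply (IsLocalRing.maximalIdeal.isMaximal O).ne_top
  rw [Ideal.eq_top_iff_one]
  have h3 : ((a * n + b * p : ℤ) : O) = 1 := by rw [hab]; simp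
  push_cast at h3
  rw [← h3]
  exact add_mem (Ideal.mul_mem_left _ _ h1) (Ideal.mul_mem_left _ _ hpO)

omit [IsDomain O] [IsDiscreteValuationRing O] [IsAdicComplete (maximalIdeal O) O]
  [Finite (ResidueField O)] in
lemma two_of_isUnit (h : IsUnit (2 : O)) (A : Type u) [AddCommGroup A] [Module O A] : Two A := by
  obtain ⟨w, hw⟩ := h
  intro a
  refine ⟨(w⁻¹ : Oˣ) • a, ?_, ?_⟩
  · show (w⁻¹ : Oˣ) • a + (w⁻¹ : Oˣ) • a = a
    rw [← two_smul O ((w⁻¹ : Oˣ) • a), ← hw, Units.smul_def, smul_smul, Units.mul_inv, one_smul]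
  · intro b hb
    rw [← hb, ← two_smul O b, ← hw, Units.smul_def, smul_smul, Units.inv_mul, one_smul]

omit [IsDomain O] [IsDiscreteValuationRing O] [IsAdicComplete (maximalIdeal O) O]
  [Finite (ResidueField O)] in
lemma three_of_isUnit (h : IsUnit (3 : O)) (A : Type u) [AddCommGroup A] [Module O A] :
    ∀ a : A, ∃! b : A, b + b + b = a := by
  obtain ⟨w, hw⟩ := h
  have h3 : ∀ x : A, x + x + x = (3 : O) • x := by
    intro x
    rw [show (3 : O) = 1 + 1 + 1 by norm_num, add_smul, add_smul, one_smul]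
  intro a
  refine ⟨(w⁻¹ : Oˣ) • a, ?_, ?_⟩
  · show (w⁻¹ : Oˣ) • a + (w⁻¹ : Oˣ) • a + (w⁻¹ : Oˣ) • a = a
    rw [h3, ← hw, Units.smul_def, smul_smul, Units.mul_inv, one_smul]
  · intro b hb
    rw [← hb, h3, ← hw, Units.smul_def, smul_smul, Units.inv_mul, one_smul]

/-- The condition on elliptic elements of order three. -/
def Ell (p N : ℕ) : Prop := p ≠ 3 ∨ ∀ x : SL(2, ℤ) ⧸ Gamma0 N, U • x ≠ x

lemma ellX_of_ell (hpO : (p : O) ∈ maximalIdeal O) (hell : Ell p N) (H : Subgroup (ZMod N)ˣ)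
    (A : Type u) [AddCommGroup A] [Module O A] : EllX (SL(2, ℤ) ⧸ GamH N H) A := by
  rcases hell with h | h
  · left
    have h3 : IsUnit ((3 : ℕ) : O) := isUnit_natCast hpO
      ((Nat.coprime_primes Nat.prime_three Fact.out).mpr (Ne.symm h))
    exact three_of_isUnit (O := O) (by exact_mod_cast h3) A
  · right
    intro x hx
    obtain ⟨g, rfl⟩ := QuotientGroup.mk_surjective x
    apply h ((g : SL(2, ℤ)) : SL(2, ℤ) ⧸ Gamma0 N)
    rw [MulAction.Quotient.smul_mk, QuotientGroup.eq] at hx ⊢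
    exact GamH_le_Gamma0 hx

lemma neg_one_mem (hp2 : p ≠ 2) (H : Subgroup (ZMod N)ˣ) (hΔ : IsPGroup p ((ZMod N)ˣ ⧸ H)) :
    (-1 : SL(2, ℤ)) ∈ GamH N H := by
  have h0 : (-1 : SL(2, ℤ)) ∈ Gamma0 N := by
    rw [mem_Gamma0_iff_dvd]
    simp
  refine mem_GamH.mpr ⟨h0, ?_⟩
  have h1 : dChar N ⟨-1, h0⟩ = -1 := by
    apply Units.ext
    rw [dChar_val]
    simp
  rw [h1, ← QuotientGroup.eq_one_iff]
  obtain ⟨k, hk⟩ := hΔ ((-1 : (ZMod N)ˣ) : (ZMod N)ˣ ⧸ H)
  have hodd : Odd (p ^ k) := (Nat.Prime.odd_of_ne_two Fact.out hp2).pow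
  have h2 : ((-1 : (ZMod N)ˣ) : (ZMod N)ˣ ⧸ H) ^ (p ^ k) = ((-1 : (ZMod N)ˣ) : (ZMod N)ˣ ⧸ H) := by
    rw [← QuotientGroup.mk_pow, hodd.neg_one_pow]
  rw [← h2, hk]

/-- **Freeness of the `m`-part of `Hom(Γ_H(N), O)` over `O[(ℤ/N)ˣ/H]`.** -/
theorem free_of_tr_basis (hp2 : p ≠ 2) (hpO : (p : O) ∈ maximalIdeal O) (H : Subgroup (ZMod N)ˣ)
    (hΔ : IsPGroup p ((ZMod N)ˣ ⧸ H)) (hell : Ell p N) (m : Ideal (MvPolynomial σ O))
    [hm : m.IsMaximal] (hmO : ∀ x ∈ maximalIdeal O, algebraMap O (MvPolynomial σ O) x ∈ m)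
    (i₀ : σ) (hi₀ : haveI : NeZero ((pr i₀ : ℕ)) := ⟨(pr i₀).2.ne_zero⟩
      (MvPolynomial.X i₀ - MvPolynomial.C (dg N (pr i₀) : O) : MvPolynomial σ O) ∉ m)
    {ι : Type*} [Fintype ι] (v : ι → HM (GamH N H) O)
    (hv : ∀ i, v i ∈ locPart (hAct O N H O pr) m)
    (hli : LinearIndependent O (fun i => tr O O (GamH N ⊤) (GamH N H) (v i)))
    (hsp : locPart (hAct O N ⊤ O pr) m ≤
      Submodule.span O (Set.range fun i => tr O O (GamH N ⊤) (GamH N H) (v i))) :
    LinearIndependent O (fun x : ι × ((ZMod N)ˣ ⧸ H) => diaQ O N H O x.2 (v x.1)) ∧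
      locPart (hAct O N H O pr) m = Submodule.span O
        (Set.range (fun x : ι × ((ZMod N)ˣ ⧸ H) => diaQ O N H O x.2 (v x.1))) := by
  obtain ⟨ϖ, hϖi⟩ := IsDiscreteValuationRing.exists_irreducible O
  have hϖ : maximalIdeal O = Ideal.span {ϖ} := hϖi.maximalIdeal_eq
  have h2u : IsUnit ((2 : ℕ) : O) := isUnit_natCast hpO
    ((Nat.coprime_primes Nat.prime_two Fact.out).mpr (Ne.symm hp2))
  have h2u' : IsUnit (2 : O) := by exact_mod_cast h2u
  have hneg := neg_one_mem (N := N) hp2 H hΔ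
  have hneg' : (-1 : SL(2, ℤ)) ∈ GamH N ⊤ := GamH_mono le_top hneg
  have hchar : CharP (ResidueField O) p := by
    have : (p : ResidueField O) = 0 := by
      have := (residue_eq_zero_iff (p : O)).mpr hpO
      rwa [map_natCast] at this
    exact (CharP.charP_iff_prime_eq_zero Fact.out).mpr this
  have hfin : ∀ (H : Subgroup (ZMod N)ˣ) (A : Type u) [AddCommGroup A] [Module O A]
      [Module.Finite O A], Module.Finite O (HM (GamH N H) A) := fun H A _ _ _ =>
    finite_HM (GamH N H) O A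
  have := hfin H O
  have := hfin ⊤ O
  have := hfin H (ResidueField O)
  have := hfin ⊤ (ResidueField O)
  haveI hnz : NeZero ((pr i₀ : ℕ)) := ⟨(pr i₀).2.ne_zero⟩
  -- equivariance of transfer and restriction
  have htrt : ∀ (A : Type u) [AddCommGroup A] [Module O A] (t : MvPolynomial σ O) (x : HM (GamH N H) A),
      tr A O (GamH N ⊤) (GamH N H) (hAct O N H A pr t x) =
        hAct O N ⊤ A pr t (tr A O (GamH N ⊤) (GamH N H) x) := by
    intro A _ _ t x
    refine act_intertwine (tr A O (GamH N ⊤) (GamH N H)).toAddMonoidHom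
      (fun a x => map_smul (tr A O (GamH N ⊤) (GamH N H)) a x) ?_ t x
    intro i x
    show tr A O (GamH N ⊤) (GamH N H) _ = _
    rw [hAct_X, hAct_X]
    have : NeZero ((pr i : ℕ)) := ⟨(pr i).2.ne_zero⟩
    exact (TH_tr (pr i : ℕ) x).symm
  have hrest : ∀ (A : Type u) [AddCommGroup A] [Module O A] (t : MvPolynomial σ O) (x : HM (GamH N ⊤) A),
      res A O (GamH_mono le_top) (hAct O N ⊤ A pr t x) =
        hAct O N H A pr t (res A O (GamH_mono le_top) x) := by
    intro A _ _ t x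
    refine act_intertwine (res A O (GamH_mono le_top)).toAddMonoidHom
      (fun a x => map_smul (res A O (GamH_mono le_top)) a x) ?_ t x
    intro i x
    show res A O (GamH_mono le_top) _ = _
    rw [hAct_X, hAct_X]
    have : NeZero ((pr i : ℕ)) := ⟨(pr i).2.ne_zero⟩
    exact (TH_res le_top (pr i : ℕ) x).symm
  have hdia : ∀ (A : Type u) [AddCommGroup A] [Module O A] (g : (ZMod N)ˣ ⧸ H)
      (t : MvPolynomial σ O) (x : HM (GamH N H) A),
      diaQ O N H A g (hAct O N H A pr t x) = hAct O N H A pr t (diaQ O N H A g x) := by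
    intro A _ _ g t x
    refine act_intertwine (diaQ O N H A g).toAddMonoidHom
      (fun a x => map_smul (diaQ O N H A g) a x) ?_ t x
    intro i x
    show diaQ O N H A g _ = _
    rw [hAct_X]
    have : NeZero ((pr i : ℕ)) := ⟨(pr i).2.ne_zero⟩
    exact diaQ_TH O N H A g (pr i : ℕ) x
  -- the diamonds over the residue field
  have hdk : ∀ (g : (ZMod N)ˣ ⧸ H) (x : HM (GamH N H) (ResidueField O)),
      diaQ O N H (ResidueField O) g x = diaQ (ResidueField O) N H (ResidueField O) g x := by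
    intro g x
    obtain ⟨u, rfl⟩ := QuotientGroup.mk_surjective g
    rfl
  refine free_core (p := p) hΔ hϖ m hmO (hAct O N H O pr) (hAct O N ⊤ O pr)
    (hAct O N H (ResidueField O) pr) (hAct O N ⊤ (ResidueField O) pr) ?_
    (redH O N H) (redH O N ⊤) (redH_hAct pr) (redH_hAct pr) (redH_ker hϖ) (redH_ker hϖ) ?_
    (diaQ O N H O) (diaQ (ResidueField O) N H (ResidueField O)) ?_ (hdia O) ?_
    (tr O O (GamH N ⊤) (GamH N H)) (tr (ResidueField O) O (GamH N ⊤) (GamH N H)) ?_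
    (res (ResidueField O) O (GamH_mono le_top)) (hrest _) ?_
    (MvPolynomial.X i₀ - MvPolynomial.C (dg N (pr i₀) : O)) hi₀ ?_ ?_ v hv hli hsp ?_
  · intro x hx
    apply hm_ext
    intro γ
    have h1 := congrArg (fun F : HM (GamH N H) O => F (Additive.ofMul γ)) hx
    have h2 : ϖ * x (Additive.ofMul γ) = 0 := h1
    exact (mul_eq_zero.mp h2).resolve_left hϖi.ne_zero
  · intro ψ
    obtain ⟨φ, hφ⟩ := hom_lift hneg' (residue O).toAddMonoidHom residue_surjective
      (two_of_isUnit h2u' _) (ellX_of_ell hpO hell ⊤ _) ψ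
    exact ⟨φ, hφ⟩
  · intro g x
    obtain ⟨u, rfl⟩ := QuotientGroup.mk_surjective g
    rfl
  · intro g t x
    rw [← hdk, ← hdk]
    exact hdia _ g t x
  · intro x
    exact (op_comp (Algebra.linearMap O (ResidueField O)) (rep_tr (A := O) (R := O))
      (rep_tr (A := ResidueField O) (R := O)) x).symm
  · intro x
    rw [res_tr' O N H (ResidueField O) x]
    exact Finset.sum_congr rfl fun g _ => hdk g x
  · intro x hx
    have h1 := TH_of_res_eq_zero' (R := O) (pr i₀ : ℕ) (le_top (a := H)) x hx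
    rw [map_sub, hAct_X, LinearMap.sub_apply]
    have h2 : THp O N ⊤ (ResidueField O) (pr i₀) x = dg N (pr i₀) • x := h1
    rw [h2, ← MvPolynomial.algebraMap_eq, AlgHom.commutes, Module.algebraMap_end_apply,
      Nat.cast_smul_eq_nsmul, sub_self]
  · intro x hx
    obtain ⟨F, hF⟩ := exists_descent' (R := O) (H' := ⊤) (pr i₀ : ℕ) (le_top (a := H)) x (by
      intro g _
      rw [← diaQ_dChar, hdk]
      exact hx _)
    refine ⟨F, ?_⟩
    rw [hF, map_sub, hAct_X, LinearMap.sub_apply, ← MvPolynomial.algebraMap_eq, AlgHom.commutes,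
      Module.algebraMap_end_apply, Nat.cast_smul_eq_nsmul]
    rfl
  · intro i
    exact map_mem_locPart (tr O O (GamH N ⊤) (GamH N H)) (htrt O) (hv i)

end Main

end Fermat.Agent.TC
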