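import Mathlib
import Fermat.Agent.TC.Free
import Fermat.Prelude.Thm_IsLocalRing_isAdicComplete_of_module_finite

/-!
# Level change at a Taylor-Wiles prime: the algebra
-/

set_option autoImplicit false

noncomputable section

universe u

namespace Fermat.Agent.TC

open IsLocalRing MvPolynomial

section Mx

variable {O : Type u} [CommRing O] [IsLocalRing O] {σ : Type}

/-- evaluation at a residual system -/
def evR (a : σ → ResidueField O) : MvPolynomial σ O →+* ResidueField O :=
  MvPolynomial.eval₂Hom (residue O) a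

/-- The maximal ideal attached to a residual system of eigenvalues. -/
def mx (a : σ → ResidueField O) : Ideal (MvPolynomial σ O) := RingHom.ker (evR a)

@[simp] lemma evR_C (a : σ → ResidueField O) (c : O) : evR a (C c) = residue O c :=
  MvPolynomial.eval₂Hom_C _ _ _

@[simp] lemma evR_X (a : σ → ResidueField O) (i : σ) : evR a (X i) = a i :=
  MvPolynomial.eval₂Hom_X' _ _ _

lemma mem_mx (a : σ → ResidueField O) (t : MvPolynomial σ O) : t ∈ mx a ↔ evR a t = 0 :=
  RingHom.mem_ker

instance mx_isMaximal (a : σ → ResidueField O) : (mx a).IsMaximal := by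
  refine RingHom.ker_isMaximal_of_surjective (evR a) fun x => ?_
  obtain ⟨c, rfl⟩ := residue_surjective x
  exact ⟨C c, evR_C a c⟩

lemma mx_le (a : σ → ResidueField O) : ∀ x ∈ maximalIdeal O, algebraMap O (MvPolynomial σ O) x ∈ mx a := by
  intro x hx
  rw [MvPolynomial.algebraMap_eq, mem_mx, evR_C, residue_eq_zero_iff]
  exact hx

end Mx

section Root

theorem hensel_quad {E : Type*} [CommRing E] [IsLocalRing E] [hE : HenselianRing E (maximalIdeal E)]
    (T q a₀ : E) (h1 : a₀ ^ 2 - T * a₀ + q ∈ maximalIdeal E) (h2 : IsUnit (2 * a₀ - T)) :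
    ∃ A : E, A ^ 2 - T * A + q = 0 ∧ A - a₀ ∈ maximalIdeal E := by
  obtain ⟨A, hA, hAα⟩ := hE.is_henselian
    (Polynomial.X ^ 2 - (Polynomial.C T * Polynomial.X + Polynomial.C (-q)))
    (by
      apply Polynomial.Monic.sub_of_left (Polynomial.monic_X_pow 2)
      rw [Polynomial.degree_X_pow]
      exact lt_of_le_of_lt Polynomial.degree_linear_le (by norm_num)) a₀
    (by
      simp only [Polynomial.eval_sub, Polynomial.eval_pow, Polynomial.eval_X, Polynomial.eval_mul,
        Polynomial.eval_C, Polynomial.eval_add]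
      convert h1 using 1
      ring)
    (by
      simp only [Polynomial.derivative_sub, Polynomial.derivative_X_pow, Polynomial.derivative_mul,
        Polynomial.derivative_X, Polynomial.derivative_C, Polynomial.derivative_add,
        Polynomial.eval_sub, Polynomial.eval_mul, Polynomial.eval_pow, Polynomial.eval_X,
        Polynomial.eval_one, Polynomial.eval_C, Polynomial.eval_add, Polynomial.eval_zero]
      have h3 := h2.map (Ideal.Quotient.mk (maximalIdeal E))
      convert h3 using 2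
      simp)
  refine ⟨A, ?_, hAα⟩
  have h3 : Polynomial.eval A
      (Polynomial.X ^ 2 - (Polynomial.C T * Polynomial.X + Polynomial.C (-q))) = 0 := hA
  simp only [Polynomial.eval_sub, Polynomial.eval_pow, Polynomial.eval_X, Polynomial.eval_mul,
    Polynomial.eval_C, Polynomial.eval_add] at h3
  linear_combination h3

variable {O : Type u} [CommRing O] [IsNoetherianRing O] [IsLocalRing O]
  [IsAdicComplete (maximalIdeal O) O] {σ : Type} {M : Type u} [AddCommGroup M] [Module O M]
  [Module.Finite O M]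

/-- The factorisation of `X² - TX + Q` on the `m`-part. -/
theorem exists_root (τ : MvPolynomial σ O →ₐ[O] Module.End O M) (a : σ → ResidueField O) (i₀ : σ)
    (Q : O) (α β : ResidueField O) (ha : a i₀ = α + β) (hαβ : α * β = residue O Q) (hne : α ≠ β) :
    ∃ A : MvPolynomial σ O, evR a A = α ∧
      ∀ v ∈ locPart τ (mx a), τ (A * A - X i₀ * A + C Q) v = 0 := by
  obtain ⟨e, he⟩ := exists_dec τ (mx a) (mx_le a)
  obtain ⟨α', hα'⟩ := residue_surjective α
  by_cases htriv : ∀ v ∈ locPart τ (mx a), v = 0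
  · refine ⟨C α', by rw [evR_C, hα'], fun v hv => by rw [htriv v hv, map_zero]⟩
  push Not at htriv
  obtain ⟨v₀, hv₀, hv₀0⟩ := htriv
  -- the annihilator
  let I : Ideal (MvPolynomial σ O) :=
    { carrier := {t | ∀ v ∈ locPart τ (mx a), τ t v = 0}
      add_mem' := fun {s t} hs ht v hv => by
        rw [map_add, LinearMap.add_apply, hs v hv, ht v hv, add_zero]
      zero_mem' := fun v _ => by rw [map_zero, LinearMap.zero_apply]
      smul_mem' := fun c t ht v hv => by
        rw [smul_eq_mul, map_mul, Module.End.mul_apply, ht v hv, map_zero] }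
  have hmemI : ∀ t, t ∈ I ↔ ∀ v ∈ locPart τ (mx a), τ t v = 0 := fun t => Iff.rfl
  have hIm : I ≤ mx a := by
    intro t ht
    by_contra h
    exact hv₀0 (he.bij h hv₀ (ht v₀ hv₀))
  let E := MvPolynomial σ O ⧸ I
  have hunit : ∀ s : MvPolynomial σ O, s ∉ mx a → IsUnit (Ideal.Quotient.mk I s) := by
    intro s hs
    obtain ⟨t, ht⟩ := he.inv s hs
    refine IsUnit.of_mul_eq_one (Ideal.Quotient.mk I t) ?_
    rw [← map_mul, ← map_one (Ideal.Quotient.mk I), Ideal.Quotient.eq, hmemI]
    intro v hv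
    have h1 : τ s (τ t (τ e v)) = τ e v := congrArg (fun F : Module.End O M => F v) ht
    rw [he.apply_eq hv] at h1
    rw [map_sub, LinearMap.sub_apply, map_mul, Module.End.mul_apply, h1, map_one,
      Module.End.one_apply, sub_self]
  have hnt : Nontrivial E := Ideal.Quotient.nontrivial_iff.mpr (fun h => by
    apply (mx_isMaximal a).ne_top
    rw [eq_top_iff, ← h]
    exact hIm)
  have hnonunit : ∀ s : MvPolynomial σ O, s ∈ mx a → ¬ IsUnit (Ideal.Quotient.mk I s) := by
    intro s hs h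
    obtain ⟨u, hu⟩ := h
    obtain ⟨t, ht⟩ := Ideal.Quotient.mk_surjective ((u⁻¹ : Eˣ) : E)
    have h1 : Ideal.Quotient.mk I (s * t) = Ideal.Quotient.mk I 1 := by
      rw [map_mul, ht, ← hu, Units.mul_inv, map_one]
    rw [Ideal.Quotient.eq] at h1
    have h2 : (1 : MvPolynomial σ O) ∈ mx a := by
      have h3 := (mx a).sub_mem ((mx a).mul_mem_right t hs) (hIm h1)
      rwa [sub_sub_cancel] at h3
    exact (mx_isMaximal a).ne_top ((Ideal.eq_top_iff_one _).mpr h2)
  have hloc : IsLocalRing E := by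
    refine IsLocalRing.of_nonunits_add fun x y hx hy => ?_
    obtain ⟨s, rfl⟩ := Ideal.Quotient.mk_surjective x
    obtain ⟨t, rfl⟩ := Ideal.Quotient.mk_surjective y
    rw [← map_add]
    refine hnonunit _ ((mx a).add_mem ?_ ?_)
    · by_contra h
      exact hx (hunit s h)
    · by_contra h
      exact hy (hunit t h)
  have hmem : ∀ s, Ideal.Quotient.mk I s ∈ maximalIdeal E ↔ s ∈ mx a := by
    intro s
    rw [mem_maximalIdeal]
    exact ⟨fun h => by by_contra h'; exact h (hunit s h'), fun h => hnonunit s h⟩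
  have hfin : Module.Finite O E := by
    let f : E →ₗ[O] Module.End O (locPart τ (mx a)) :=
      Submodule.liftQ (I.restrictScalars O)
        { toFun := fun t => (τ t).restrict (p := locPart τ (mx a)) (q := locPart τ (mx a))
            (fun v hv => τ_mem_locPart t hv)
          map_add' := fun s t => LinearMap.ext fun v => Subtype.ext (by
            change τ (s + t) v = τ s v + τ t v
            rw [map_add, LinearMap.add_apply])
          map_smul' := fun c t => LinearMap.ext fun v => Subtype.ext (by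
            change τ (c • t) v = c • τ t v
            rw [map_smul, LinearMap.smul_apply]) }
        (fun t ht => LinearMap.ext fun v => Subtype.ext (ht v v.2))
    refine Module.Finite.of_injective f ?_
    rw [injective_iff_map_eq_zero]
    intro x hx
    obtain ⟨t, rfl⟩ := Ideal.Quotient.mk_surjective x
    rw [Ideal.Quotient.eq_zero_iff_mem, hmemI]
    intro v hv
    have h1 := congrArg (fun F : Module.End O (locPart τ (mx a)) => ((F ⟨v, hv⟩ : _) : M)) hx
    exact h1
  have hlh : IsLocalHom (algebraMap O E) := by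
    refine ⟨fun c hc => ?_⟩
    by_contra h
    have h1 : (C c : MvPolynomial σ O) ∈ mx a := mx_le a c ((mem_maximalIdeal _).mpr h)
    exact hnonunit _ h1 hc
  have hac : IsAdicComplete (maximalIdeal E) E :=
    IsLocalRing.isAdicComplete_of_module_finite (𝒪 := O)
  have hhen : HenselianRing E (maximalIdeal E) := inferInstance
  obtain ⟨A, hA, hAα⟩ := hensel_quad (Ideal.Quotient.mk I (X i₀)) (Ideal.Quotient.mk I (C Q))
    (Ideal.Quotient.mk I (C α'))
    (by
      have h1 : (Ideal.Quotient.mk I (C α')) ^ 2 - Ideal.Quotient.mk I (X i₀) *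
          Ideal.Quotient.mk I (C α') + Ideal.Quotient.mk I (C Q) =
          Ideal.Quotient.mk I (C α' ^ 2 - X i₀ * C α' + C Q) := by
        rw [map_add, map_sub, map_pow, map_mul]
      rw [h1, hmem, mem_mx]
      simp only [map_sub, map_pow, map_mul, map_add, evR_C, evR_X, hα', ha, ← hαβ]
      ring)
    (by
      have h1 : Ideal.Quotient.mk I (2 * C α' - X i₀) = 2 * Ideal.Quotient.mk I (C α') -
          Ideal.Quotient.mk I (X i₀) := by
        rw [map_sub, map_mul, map_ofNat]
      rw [← h1]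
      apply hunit
      rw [mem_mx, map_sub, map_mul, map_ofNat, evR_C, evR_X, hα', ha]
      intro h3
      apply hne
      linear_combination h3)
  obtain ⟨A, rfl⟩ := Ideal.Quotient.mk_surjective A
  refine ⟨A, ?_, ?_⟩
  · rw [← map_sub, hmem, mem_mx, map_sub, evR_C, hα', sub_eq_zero] at hAα
    exact hAα
  · have h1 : Ideal.Quotient.mk I (A * A - X i₀ * A + C Q) = 0 := by
      rw [map_add, map_sub, map_mul, map_mul, ← pow_two]
      exact hA
    rw [Ideal.Quotient.eq_zero_iff_mem] at h1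
    exact h1

end Root


section TW

variable {O : Type u} [CommRing O] [IsDomain O] [IsNoetherianRing O] [IsLocalRing O]
  [IsAdicComplete (maximalIdeal O) O] {σ : Type} [DecidableEq σ]
  {M₁ M₂ : Type u} [AddCommGroup M₁] [Module O M₁] [Module.Finite O M₁]
  [AddCommGroup M₂] [Module O M₂] [Module.Finite O M₂]

/-- The companion operator. -/
def comp2 (T : Module.End O M₁) (Q : O) : Module.End O (M₁ × M₁) :=
  LinearMap.prod (-LinearMap.snd O M₁ M₁)
    (Q • LinearMap.fst O M₁ M₁ + T ∘ₗ LinearMap.snd O M₁ M₁)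

omit [IsDomain O] [IsNoetherianRing O] [IsLocalRing O] [IsAdicComplete (maximalIdeal O) O]
  [Module.Finite O M₁] in
lemma comp2_apply (T : Module.End O M₁) (Q : O) (x y : M₁) :
    comp2 T Q (x, y) = (-y, Q • x + T y) := rfl

/-- **Level change at a Taylor-Wiles prime**, abstract form. -/
theorem tw_bijective (τ₁ : MvPolynomial σ O →ₐ[O] Module.End O M₁)
    (τ₂ : MvPolynomial σ O →ₐ[O] Module.End O M₂)
    (htf₁ : ∀ c : O, c ≠ 0 → ∀ x : M₁, c • x = 0 → x = 0)
    (htf₂ : ∀ c : O, c ≠ 0 → ∀ x : M₂, c • x = 0 → x = 0)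
    (i₀ : σ) (i₁ i₂ : M₁ →ₗ[O] M₂) (j : M₂ →ₗ[O] M₁) (Q : O)
    (hU1 : ∀ x, τ₂ (X i₀) (i₁ x) = Q • i₂ x)
    (hU2 : ∀ x, τ₂ (X i₀) (i₂ x) = i₂ (τ₁ (X i₀) x) - i₁ x)
    (hj1 : ∀ x, j (i₁ x) = (Q + 1) • x) (hj2 : ∀ x, j (i₂ x) = τ₁ (X i₀) x)
    (hi1 : ∀ i, i ≠ i₀ → ∀ x, i₁ (τ₁ (X i) x) = τ₂ (X i) (i₁ x))
    (hi2 : ∀ i, i ≠ i₀ → ∀ x, i₂ (τ₁ (X i) x) = τ₂ (X i) (i₂ x))
    (a : σ → ResidueField O) (α β : ResidueField O) (hαβ : α * β = 1) (ha : a i₀ = α + β)
    (hne : α ≠ β) (hQ : residue O Q = 1)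
    (hold : ∀ v ∈ locPart τ₂ (mx (Function.update a i₀ α)),
      ∃ c : O, c ≠ 0 ∧ ∃ x y, c • v = i₁ x + i₂ y) :
    (∀ v ∈ locPart τ₂ (mx (Function.update a i₀ α)), j v ∈ locPart τ₁ (mx a)) ∧
    (∀ v ∈ locPart τ₂ (mx (Function.update a i₀ α)), j v = 0 → v = 0) ∧
    (∀ x ∈ locPart τ₁ (mx a), ∃ v ∈ locPart τ₂ (mx (Function.update a i₀ α)), j v = x) := by
  set a' := Function.update a i₀ α with ha'
  have hα0 : α ≠ 0 := left_ne_zero_of_mul (hαβ.trans_ne one_ne_zero)
  have ha'0 : a' i₀ = α := by rw [ha', Function.update_self]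
  have ha'i : ∀ i, i ≠ i₀ → a' i = a i := fun i hi => by rw [ha', Function.update_of_ne hi]
  obtain ⟨A, hAα, hA⟩ := exists_root τ₁ a i₀ Q α β ha (by rw [hαβ, hQ]) hne
  obtain ⟨e, he⟩ := exists_dec τ₁ (mx a) (mx_le a)
  -- `A² = TA - Q` on `V₁`
  have hA2 : ∀ v ∈ locPart τ₁ (mx a), τ₁ (X i₀) (τ₁ A v) = τ₁ A (τ₁ A v) + Q • v := by
    intro v hv
    have h1 := hA v hv
    rw [map_add, map_sub, map_mul, map_mul, ← MvPolynomial.algebraMap_eq, AlgHom.commutes,
      LinearMap.add_apply, LinearMap.sub_apply, Module.End.mul_apply, Module.End.mul_apply,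
      Module.algebraMap_end_apply] at h1
    rw [sub_add_eq_add_sub, sub_eq_zero] at h1
    exact h1.symm
  let w : M₁ →ₗ[O] M₂ := i₁ - i₂ ∘ₗ (τ₁ A)
  have hw : ∀ x, w x = i₁ x - i₂ (τ₁ A x) := fun x => rfl
  -- substitution
  let sb : MvPolynomial σ O →ₐ[O] MvPolynomial σ O :=
    MvPolynomial.aeval (fun i => if i = i₀ then A else X i)
  have hsb0 : sb (X i₀) = A := by
    change MvPolynomial.aeval _ _ = _
    rw [MvPolynomial.aeval_X, if_pos rfl]
  have hsbi : ∀ i, i ≠ i₀ → sb (X i) = X i := by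
    intro i hi
    change MvPolynomial.aeval _ _ = _
    rw [MvPolynomial.aeval_X, if_neg hi]
  have hsbev : ∀ s, evR a (sb s) = evR a' s := by
    intro s
    induction s using MvPolynomial.induction_on with
    | C c => rw [← MvPolynomial.algebraMap_eq, AlgHom.commutes, MvPolynomial.algebraMap_eq,
        evR_C, evR_C]
    | add s t hs ht => rw [map_add, map_add, map_add, hs, ht]
    | mul_X s i hs =>
      rw [map_mul, map_mul, map_mul, hs, evR_X]
      by_cases hi : i = i₀
      · subst hi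
        rw [hsb0, hAα, ha'0]
      · rw [hsbi i hi, evR_X, ha'i i hi]
  have hwX : ∀ i, ∀ x ∈ locPart τ₁ (mx a), τ₂ (X i) (w x) = w (τ₁ (sb (X i)) x) := by
    intro i x hx
    by_cases hi : i = i₀
    · subst hi
      rw [hsb0, hw, hw, map_sub, hU1, hU2, hA2 x hx, map_add, map_smul]
      abel
    · rw [hsbi i hi, hw, hw, map_sub, hi1 i hi, ← hi2 i hi, τ_comm τ₁ (X i) A]
  have hwτ : ∀ s, ∀ x ∈ locPart τ₁ (mx a), τ₂ s (w x) = w (τ₁ (sb s) x) := by
    intro s
    induction s using MvPolynomial.induction_on with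
    | C c =>
      intro x _
      rw [← MvPolynomial.algebraMap_eq, AlgHom.commutes, AlgHom.commutes, AlgHom.commutes,
        Module.algebraMap_end_apply, Module.algebraMap_end_apply, map_smul]
    | add s t hs ht =>
      intro x hx
      rw [map_add, map_add, map_add, LinearMap.add_apply, LinearMap.add_apply, map_add, hs x hx,
        ht x hx]
    | mul_X s i hs =>
      intro x hx
      rw [map_mul, map_mul, map_mul, Module.End.mul_apply, Module.End.mul_apply, hwX i x hx,
        hs _ (τ_mem_locPart _ hx)]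
  have hwmem : ∀ x ∈ locPart τ₁ (mx a), w x ∈ locPart τ₂ (mx a') := by
    intro x hx
    rw [mem_locPart]
    intro s hs
    have hs' : sb s ∉ mx a := by rw [mem_mx, hsbev, ← mem_mx]; exact hs
    obtain ⟨y, hy, hyx⟩ := he.surj hs' hx
    exact ⟨w y, by rw [hwτ s y hy, hyx]⟩
  -- the composite with `j`
  have hjw : ∀ x ∈ locPart τ₁ (mx a), j (w x) = τ₁ (1 - A * A) x := by
    intro x hx
    rw [hw, map_sub, hj1, hj2, hA2 x hx, map_sub, map_one, map_mul, LinearMap.sub_apply,
      Module.End.one_apply, Module.End.mul_apply, add_smul, one_smul]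
    abel
  have hD : (1 - A * A : MvPolynomial σ O) ∉ mx a := by
    rw [mem_mx, map_sub, map_one, map_mul, hAα, sub_eq_zero]
    intro h
    apply hne
    have h2 : α * (α - β) = 0 := by rw [mul_sub, ← h, hαβ, sub_self]
    exact sub_eq_zero.mp ((mul_eq_zero.mp h2).resolve_left hα0)
  -- surjectivity of `w`
  have hwsurj : ∀ v ∈ locPart τ₂ (mx a'), ∃ x ∈ locPart τ₁ (mx a), w x = v := by
    intro v hv
    obtain ⟨c, hc, x₀, y₀, hxy⟩ := hold v hv
    -- the action on `M₁ × M₁`
    let Tf : σ → Module.End O (M₁ × M₁) := fun i =>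
      if i = i₀ then comp2 (τ₁ (X i₀)) Q else LinearMap.prodMap (τ₁ (X i)) (τ₁ (X i))
    have hTf0 : Tf i₀ = comp2 (τ₁ (X i₀)) Q := if_pos rfl
    have hTfi : ∀ i, i ≠ i₀ → Tf i = LinearMap.prodMap (τ₁ (X i)) (τ₁ (X i)) := fun i hi => if_neg hi
    have hcomm0 : ∀ s : MvPolynomial σ O, comp2 (τ₁ (X i₀)) Q * LinearMap.prodMap (τ₁ s) (τ₁ s) =
        LinearMap.prodMap (τ₁ s) (τ₁ s) * comp2 (τ₁ (X i₀)) Q := by
      intro s
      refine LinearMap.ext fun p => ?_
      obtain ⟨x, y⟩ := p
      rw [Module.End.mul_apply, Module.End.mul_apply, comp2_apply]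
      change comp2 _ Q (τ₁ s x, τ₁ s y) = (τ₁ s (-y), τ₁ s (Q • x + τ₁ (X i₀) y))
      rw [comp2_apply, map_neg, map_add, map_smul, τ_comm τ₁ s]
    have hcomm : ∀ i k, Tf i * Tf k = Tf k * Tf i := by
      intro i k
      by_cases hi : i = i₀
      · by_cases hk : k = i₀
        · rw [hi, hk]
        · rw [hi, hTf0, hTfi k hk, hcomm0]
      · by_cases hk : k = i₀
        · rw [hk, hTf0, hTfi i hi, hcomm0]
        · rw [hTfi i hi, hTfi k hk]
          refine LinearMap.ext fun p => ?_
          exact Prod.ext (τ_comm τ₁ (X i) (X k) p.1) (τ_comm τ₁ (X i) (X k) p.2)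
    obtain ⟨τ, hτ⟩ := exists_actHom Tf hcomm
    have hfinM : Module.Finite O (M₁ × M₁) := inferInstance
    let ι : M₁ × M₁ →ₗ[O] M₂ := i₁.coprod i₂
    have hι : ∀ x y, ι (x, y) = i₁ x + i₂ y := fun x y => LinearMap.coprod_apply _ _ _
    have hιτ : ∀ s p, ι (τ s p) = τ₂ s (ι p) := by
      intro s p
      refine act_intertwine ι.toAddMonoidHom (fun a x => map_smul ι a x) ?_ s p
      intro i p
      obtain ⟨x, y⟩ := p
      show ι (τ (X i) (x, y)) = τ₂ (X i) (ι (x, y))
      rw [hτ, hι x y, map_add]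
      by_cases hi : i = i₀
      · subst hi
        rw [hTf0, comp2_apply, hι, hU1, hU2, map_neg, map_add, map_smul]
        abel
      · rw [hTfi i hi]
        change ι (τ₁ (X i) x, τ₁ (X i) y) = _
        rw [hι, hi1 i hi, hi2 i hi]
    obtain ⟨e', he', he2⟩ := exists_dec₂ τ τ₂ (mx a') (mx_le a')
    -- inverse of `X i₀`
    have hX0 : (X i₀ : MvPolynomial σ O) ∉ mx a' := by
      rw [mem_mx, evR_X, ha'0]; exact hα0
    obtain ⟨t, ht, htev⟩ : ∃ t : MvPolynomial σ O,
        (∀ p ∈ locPart τ (mx a'), τ (X i₀) (τ t p) = p) ∧ evR a' t = β := by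
      obtain ⟨t, ht⟩ := he'.inv _ hX0
      have ht1 : ∀ p ∈ locPart τ (mx a'), τ (X i₀) (τ t p) = p := by
        intro p hp
        have h1 : τ (X i₀) (τ t (τ e' p)) = τ e' p :=
          congrArg (fun F : Module.End O (M₁ × M₁) => F p) ht
        rw [he'.apply_eq hp] at h1
        exact h1
      by_cases hm : X i₀ * t - 1 ∈ mx a'
      · refine ⟨t, ht1, ?_⟩
        rw [mem_mx, map_sub, map_mul, evR_X, ha'0, map_one, sub_eq_zero] at hm
        apply mul_left_cancel₀ hα0
        rw [hm, hαβ]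
      · have h0 : ∀ p ∈ locPart τ (mx a'), p = 0 := by
          intro p hp
          refine he'.bij hm hp ?_
          rw [map_sub, map_mul, map_one, LinearMap.sub_apply, Module.End.mul_apply,
            Module.End.one_apply, ht1 p hp, sub_self]
        obtain ⟨β', hβ'⟩ := residue_surjective β
        refine ⟨C β', fun p hp => ?_, by rw [evR_C, hβ']⟩
        rw [h0 p hp, map_zero, map_zero]
    -- comparison of the diagonal action
    have hcmp : ∀ s : MvPolynomial σ O, ∃ s' : MvPolynomial σ O, evR a' s' = evR a s ∧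
        ∀ p ∈ locPart τ (mx a'), LinearMap.prodMap (τ₁ s) (τ₁ s) p = τ s' p := by
      intro s
      induction s using MvPolynomial.induction_on with
      | C c =>
        refine ⟨C c, by rw [evR_C, evR_C], fun p _ => ?_⟩
        rw [← MvPolynomial.algebraMap_eq, AlgHom.commutes, AlgHom.commutes,
          Module.algebraMap_end_apply]
        rfl
      | add s t hs ht =>
        obtain ⟨s', hs', hs''⟩ := hs
        obtain ⟨t', ht', ht''⟩ := ht
        refine ⟨s' + t', by rw [map_add, map_add, hs', ht'], fun p hp => ?_⟩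
        rw [map_add, map_add, LinearMap.add_apply, ← hs'' p hp, ← ht'' p hp]
        rfl
      | mul_X s i hs =>
        obtain ⟨s', hs', hs''⟩ := hs
        by_cases hi : i = i₀
        · subst hi
          refine ⟨s' * (X i + C Q * t), ?_, fun p hp => ?_⟩
          · rw [map_mul, map_mul, map_add, map_mul, evR_X, evR_C, evR_X, htev, hQ, one_mul, hs',
              ha'0, ha]
          · have h1 : LinearMap.prodMap (τ₁ (X i)) (τ₁ (X i)) p = τ (X i + C Q * t) p := by
              have h2 : ∀ p : M₁ × M₁, LinearMap.prodMap (τ₁ (X i)) (τ₁ (X i)) (τ (X i) p) =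
                  τ (X i) (τ (X i) p) + Q • p := by
                intro p
                obtain ⟨x, y⟩ := p
                rw [hτ, hTf0, comp2_apply, comp2_apply]
                change (τ₁ (X i) (-y), τ₁ (X i) (Q • x + τ₁ (X i) y)) = _
                refine Prod.ext ?_ ?_
                · change _ = -(Q • x + τ₁ (X i) y) + Q • x
                  rw [map_neg]; abel
                · change _ = Q • (-y) + τ₁ (X i) (Q • x + τ₁ (X i) y) + Q • y
                  rw [smul_neg]; abel
              conv_lhs => rw [← ht p hp, h2, ht p hp]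
              rw [map_add, map_mul, ← MvPolynomial.algebraMap_eq, AlgHom.commutes,
                LinearMap.add_apply, Module.End.mul_apply, Module.algebraMap_end_apply]
            have h3 : LinearMap.prodMap (τ₁ (s * X i)) (τ₁ (s * X i)) p =
                LinearMap.prodMap (τ₁ s) (τ₁ s) (LinearMap.prodMap (τ₁ (X i)) (τ₁ (X i)) p) := by
              rw [map_mul]; rfl
            rw [h3, h1, hs'' _ (τ_mem_locPart _ hp), ← Module.End.mul_apply, ← map_mul]
        · refine ⟨s' * X i, by rw [map_mul, map_mul, evR_X, evR_X, hs', ha'i i hi],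
            fun p hp => ?_⟩
          have h1 : LinearMap.prodMap (τ₁ (X i)) (τ₁ (X i)) p = τ (X i) p := by
            rw [hτ, hTfi i hi]
          have h3 : LinearMap.prodMap (τ₁ (s * X i)) (τ₁ (s * X i)) p =
              LinearMap.prodMap (τ₁ s) (τ₁ s) (LinearMap.prodMap (τ₁ (X i)) (τ₁ (X i)) p) := by
            rw [map_mul]; rfl
          rw [h3, h1, hs'' _ (τ_mem_locPart _ hp), ← Module.End.mul_apply, ← map_mul]
    -- the vector
    have hp : τ e' (x₀, y₀) ∈ locPart τ (mx a') := he'.mem _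
    have hcv : ι (τ e' (x₀, y₀)) = c • v := by
      rw [hιτ, hι, ← hxy, map_smul, he2.apply_eq hv]
    obtain ⟨⟨x, y⟩, hpxy⟩ : ∃ p : M₁ × M₁, p = τ e' (x₀, y₀) := ⟨_, rfl⟩
    rw [← hpxy] at hp hcv
    have hmem : ∀ p ∈ locPart τ (mx a'), p.1 ∈ locPart τ₁ (mx a) ∧ p.2 ∈ locPart τ₁ (mx a) := by
      intro p hp
      have key : ∀ s ∉ mx a, ∃ p' : M₁ × M₁, LinearMap.prodMap (τ₁ s) (τ₁ s) p' = p := by
        intro s hs
        obtain ⟨s', hs', hs''⟩ := hcmp s
        have hs1 : s' ∉ mx a' := by rw [mem_mx, hs', ← mem_mx]; exact hs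
        obtain ⟨p', hp', hpp'⟩ := he'.surj hs1 hp
        exact ⟨p', by rw [hs'' p' hp', hpp']⟩
      constructor
      · rw [mem_locPart]
        intro s hs
        obtain ⟨p', hp'⟩ := key s hs
        exact ⟨p'.1, congrArg Prod.fst hp'⟩
      · rw [mem_locPart]
        intro s hs
        obtain ⟨p', hp'⟩ := key s hs
        exact ⟨p'.2, congrArg Prod.snd hp'⟩
    obtain ⟨hx, hy⟩ := hmem _ hp
    simp only at hx hy
    -- `y = - A x`
    have hz : y + τ₁ A x = 0 := by
      set z := y + τ₁ A x with hzdef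
      have hzm : z ∈ locPart τ₁ (mx a) := add_mem hy (τ_mem_locPart A hx)
      obtain ⟨A', -, hA'⟩ := hcmp A
      obtain ⟨B', hB'ev, hB'⟩ := hcmp (X i₀ - A)
      have hp2 : (-z, τ₁ (X i₀ - A) z) = τ (X i₀ - A') (x, y) := by
        rw [map_sub τ (X i₀) A', LinearMap.sub_apply, ← hA' _ hp, hτ, hTf0, comp2_apply]
        change _ = (-y - τ₁ A x, Q • x + τ₁ (X i₀) y - τ₁ A y)
        refine Prod.ext ?_ ?_
        · simp only [hzdef]; abel
        · simp only [hzdef]
          have h1 := hA2 x hx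
          rw [map_sub, LinearMap.sub_apply, map_add, map_add, h1]
          abel
      have hp2m : (-z, τ₁ (X i₀ - A) z) ∈ locPart τ (mx a') := by
        rw [hp2]; exact τ_mem_locPart _ hp
      have h0 : τ (X i₀ - B') (-z, τ₁ (X i₀ - A) z) = 0 := by
        rw [map_sub τ (X i₀) B', LinearMap.sub_apply, ← hB' _ hp2m, hτ, hTf0, comp2_apply]
        change (-(τ₁ (X i₀ - A) z) - τ₁ (X i₀ - A) (-z),
          Q • (-z) + τ₁ (X i₀) (τ₁ (X i₀ - A) z) - τ₁ (X i₀ - A) (τ₁ (X i₀ - A) z)) = 0
        refine Prod.ext ?_ ?_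
        · change -(τ₁ (X i₀ - A) z) - τ₁ (X i₀ - A) (-z) = 0
          rw [map_neg]; abel
        · change Q • (-z) + τ₁ (X i₀) (τ₁ (X i₀ - A) z) - τ₁ (X i₀ - A) (τ₁ (X i₀ - A) z) = 0
          have h1 := hA2 z hzm
          have h2 : ∀ u : M₁, τ₁ (X i₀ - A) u = τ₁ (X i₀) u - τ₁ A u := fun u => by
            rw [map_sub, LinearMap.sub_apply]
          have h3 : τ₁ A (τ₁ (X i₀) z) = τ₁ (X i₀) (τ₁ A z) := τ_comm τ₁ _ _ _
          rw [h2, h2, map_sub, map_sub, h3, h1, smul_neg]
          abel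
      have hne' : X i₀ - B' ∉ mx a' := by
        rw [mem_mx, map_sub, evR_X, ha'0, hB'ev, map_sub, evR_X, ha, hAα, sub_eq_zero]
        intro h
        apply hne
        rw [h]; ring
      have h1 := he'.bij hne' hp2m h0
      have h2 := congrArg Prod.fst h1
      simpa using h2
    have hcw : c • v = w x := by
      rw [← hcv, hι, hw, eq_neg_of_add_eq_zero_left hz, map_neg, sub_eq_add_neg]
    -- saturation
    have hjv : c • j v = τ₁ (1 - A * A) x := by
      rw [← map_smul, hcw, hjw x hx]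
    have hjvm : j v ∈ locPart τ₁ (mx a) := by
      rw [he.mem_iff]
      have h1 : c • (τ₁ e (j v) - j v) = 0 := by
        rw [smul_sub, ← map_smul, hjv, he.apply_eq (τ_mem_locPart _ hx), sub_self]
      exact sub_eq_zero.mp (htf₁ c hc _ h1)
    obtain ⟨x', hx', hx'v⟩ := he.surj hD hjvm
    have hxx' : x = c • x' := by
      have h1 : τ₁ (1 - A * A) (x - c • x') = 0 := by
        rw [map_sub, ← hjv, map_smul, hx'v, sub_self]
      exact sub_eq_zero.mp (he.bij hD (sub_mem hx (Submodule.smul_mem _ _ hx')) h1)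
    refine ⟨x', hx', ?_⟩
    have h1 : c • (w x' - v) = 0 := by
      rw [smul_sub, hcw, hxx', map_smul, sub_self]
    exact sub_eq_zero.mp (htf₂ c hc _ h1)
  refine ⟨?_, ?_, ?_⟩
  · intro v hv
    obtain ⟨x, hx, rfl⟩ := hwsurj v hv
    rw [hjw x hx]
    exact τ_mem_locPart _ hx
  · intro v hv h0
    obtain ⟨x, hx, rfl⟩ := hwsurj v hv
    rw [hjw x hx] at h0
    rw [he.bij hD hx h0, map_zero]
  · intro x hx
    obtain ⟨y, hy, rfl⟩ := he.surj hD hx
    exact ⟨w y, hwmem y hy, hjw y hy⟩

end TW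

end Fermat.Agent.TC
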