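import Mathlib
import Fermat.Agent.TC.Free

/-!
# Degeneracy maps between `Hom(Γ₀(M), A)` and `Hom(Γ₀(Mq), A)` and their relations
-/

set_option autoImplicit false
set_option linter.style.haveILetI false
set_option linter.unusedSectionVars false

noncomputable section

universe u

namespace Fermat.Agent.TC

open Matrix.SpecialLinearGroup CongruenceSubgroup H22 IsLocalRing ModularGroup
open scoped MatrixGroups

section General

variable {R : Type*} [CommRing R] {A : Type*} [AddCommGroup A] [Module R A]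
  {Γ Γ' Γ₁ Γ₂ Γ₃ : Subgroup SL(2, ℤ)}

instance fintypeQuotGen (Γ Γ' : Subgroup SL(2, ℤ)) [Γ'.FiniteIndex] :
    Fintype (Γ ⧸ Γ'.subgroupOf Γ) := Subgroup.fintypeQuotientOfFiniteIndex

/-- The transfer in terms of arbitrary representatives. -/
lemma rep_tr_of [Fintype (Γ ⧸ Γ'.subgroupOf Γ)] {J : Type*} [Fintype J] {z : J → SL(2, ℤ)}
    (hmem : ∀ j, z j ∈ Γ) (huniq : ∀ g ∈ Γ, ∃! j, g * (z j)⁻¹ ∈ Γ') :
    Rep (fun _ : J => (1 : R)) (fun j => emb (z j)) (tr A R Γ Γ') := by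
  classical
  choose f hf hf' using fun q : Γ ⧸ Γ'.subgroupOf Γ =>
    huniq ((q.out : SL(2, ℤ))⁻¹) (inv_mem (q.out).2)
  have hbij : Function.Bijective f := by
    constructor
    · intro q q' h
      have h1 := hf q
      have h2 := hf q'
      rw [← h] at h2
      rw [← QuotientGroup.out_eq' q, ← QuotientGroup.out_eq' q', QuotientGroup.eq,
        Subgroup.mem_subgroupOf]
      have h3 := Γ'.mul_mem h1 (Γ'.inv_mem h2)
      have h4 : ((q.out : Γ) : SL(2, ℤ))⁻¹ * (z (f q))⁻¹ *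
          (((q'.out : Γ) : SL(2, ℤ))⁻¹ * (z (f q))⁻¹)⁻¹ =
          (((q.out)⁻¹ * q'.out : Γ) : SL(2, ℤ)) := by
        rw [Subgroup.coe_mul, Subgroup.coe_inv]
        group
      rwa [h4] at h3
    · intro j
      let q : Γ ⧸ Γ'.subgroupOf Γ := ((⟨z j, hmem j⟩⁻¹ : Γ) : Γ ⧸ Γ'.subgroupOf Γ)
      refine ⟨q, ?_⟩
      refine (hf' q j ?_).symm
      have h1 : (q.out)⁻¹ * (⟨z j, hmem j⟩⁻¹ : Γ) ∈ Γ'.subgroupOf Γ := by
        rw [← QuotientGroup.eq, QuotientGroup.out_eq']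
      rw [Subgroup.mem_subgroupOf] at h1
      exact h1
  refine (rep_tr (R := R) (A := A) (Γ := Γ) (Γ' := Γ')).change (Equiv.ofBijective f hbij)
    (fun _ => rfl) fun q => ⟨⟨_, hf q⟩, ?_⟩
  show emb _ = emb _ * emb _
  rw [← map_mul]
  congr 1
  simp

/-- Transitivity of the transfer. -/
lemma tr_trans [Fintype (Γ₂ ⧸ Γ₁.subgroupOf Γ₂)] [Fintype (Γ₃ ⧸ Γ₂.subgroupOf Γ₃)]
    [Fintype (Γ₃ ⧸ Γ₁.subgroupOf Γ₃)] (h12 : Γ₁ ≤ Γ₂) (h23 : Γ₂ ≤ Γ₃) (x : HM Γ₁ A) :
    tr A R Γ₃ Γ₂ (tr A R Γ₂ Γ₁ x) = tr A R Γ₃ Γ₁ x := by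
  classical
  have ha := (rep_tr (R := R) (A := A) (Γ := Γ₂) (Γ' := Γ₁)).comp
    (rep_tr (R := R) (A := A) (Γ := Γ₃) (Γ' := Γ₂))
  let I2 := Γ₃ ⧸ Γ₂.subgroupOf Γ₃
  let I1 := Γ₂ ⧸ Γ₁.subgroupOf Γ₂
  let inc : Γ₂ →* Γ₃ := Subgroup.inclusion h23
  have hb := rep_tr_of (R := R) (A := A) (Γ := Γ₃) (Γ' := Γ₁) (J := I2 × I1)
    (z := fun x => (((x.1.out * inc x.2.out : Γ₃)⁻¹ : Γ₃) : SL(2, ℤ)))
    (fun x => ((x.1.out * inc x.2.out : Γ₃)⁻¹).2) (by
      intro g hg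
      let r : I2 := ((⟨g, hg⟩⁻¹ : Γ₃) : I2)
      have hr : (r.out : Γ₃)⁻¹ * (⟨g, hg⟩⁻¹ : Γ₃) ∈ Γ₂.subgroupOf Γ₃ := by
        rw [← QuotientGroup.eq, QuotientGroup.out_eq']
      rw [Subgroup.mem_subgroupOf] at hr
      let q : I1 := ((⟨_, hr⟩ : Γ₂) : I1)
      have hq : (q.out : Γ₂)⁻¹ * ⟨_, hr⟩ ∈ Γ₁.subgroupOf Γ₂ := by
        rw [← QuotientGroup.eq, QuotientGroup.out_eq']
      rw [Subgroup.mem_subgroupOf] at hq
      refine ⟨(r, q), ?_, ?_⟩
      · have h1 := Γ₁.inv_mem hq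
        convert h1 using 1
        simp only [Subgroup.coe_mul, Subgroup.coe_inv, inc, Subgroup.coe_inclusion, inv_inv,
          mul_inv_rev]
        group
      · rintro ⟨r', q'⟩ h
        simp only [Subgroup.coe_mul, Subgroup.coe_inv, inc, Subgroup.coe_inclusion, inv_inv] at h
        have hr' : r' = r := by
          rw [← QuotientGroup.out_eq' r']
          refine QuotientGroup.eq.mpr ?_
          rw [Subgroup.mem_subgroupOf]
          have h4 := Γ₂.mul_mem (q'.out).2 (h12 (Γ₁.inv_mem h))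
          convert h4 using 1
          simp only [Subgroup.coe_mul, Subgroup.coe_inv]
          group
        subst hr'
        refine Prod.ext rfl ?_
        rw [← QuotientGroup.out_eq' q']
        refine QuotientGroup.eq.mpr ?_
        rw [Subgroup.mem_subgroupOf]
        have h4 := Γ₁.inv_mem h
        convert h4 using 1
        simp only [Subgroup.coe_mul, Subgroup.coe_inv, mul_inv_rev]
        group)
  refine ha.ext hb (Equiv.refl _) (fun _ => by simp) (fun w => ⟨1, ?_⟩) x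
  obtain ⟨r, q⟩ := w
  show emb _ * emb _ = emb _ * emb _
  rw [← map_mul, ← map_mul]
  congr 1
  simp [inc]

/-- the scalar matrix `n` -/
def sc (n : ℕ) [NeZero n] : GG :=
  Matrix.GeneralLinearGroup.mkOfDetNeZero !![(n : ℚ), 0; 0, (n : ℚ)] (by simp [NeZero.ne n])

lemma sc_val (n : ℕ) [NeZero n] : (sc n : Matrix (Fin 2) (Fin 2) ℚ) = !![(n : ℚ), 0; 0, (n : ℚ)] := rfl

lemma sc_comm (n : ℕ) [NeZero n] (g : GG) : sc n * g = g * sc n := by
  apply Units.ext
  rw [Units.val_mul, Units.val_mul, sc_val]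
  ext i j
  fin_cases i <;> fin_cases j <;> simp [Matrix.mul_apply, Fin.sum_univ_two, mul_comm]

lemma rep_res_sc (h : Γ' ≤ Γ) (n : ℕ) [NeZero n] :
    Rep (fun _ : Unit => (1 : R)) (fun _ => sc n) (res A R h) := by
  intro ψ u hu g x
  simp only [one_smul, Finset.univ_unique, Finset.sum_const, Finset.card_singleton]
  rw [← mul_assoc, sc_comm, mul_assoc]
  exact hu (Subgroup.inclusion h g) (sc n * x)

end General

section Reps

variable {N : ℕ} [NeZero N]

lemma dg_eq_of_dvd {ℓ : ℕ} [NeZero ℓ] (hℓ : ℓ.Prime) (hN : ℓ ∣ N) : dg N ℓ = ℓ := by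
  have : Fact ℓ.Prime := ⟨hℓ⟩
  have h := prod_cosets (N := N) (ℓ := ℓ) (Y := Multiplicative ℤ)
    (fun _ => Multiplicative.ofAdd (1 : ℤ))
  rw [if_pos hN, mul_one] at h
  simp only [Finset.prod_const, Finset.card_range] at h
  have h2 := congrArg Multiplicative.toAdd h
  rw [toAdd_pow, toAdd_pow] at h2
  simp only [toAdd_ofAdd, nsmul_eq_mul, mul_one] at h2
  have h3 : Finset.card (Finset.univ : Finset (Gamma0 N ⧸ subGamma N ℓ)) = ℓ := by
    exact_mod_cast h2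
  rw [dg, ← Finset.card_univ]
  convert h3

/-- counting criterion for representatives -/
lemma IsReps.of_card {ℓ : ℕ} [NeZero ℓ] {J : Type*} [Fintype J] (z : J → SL(2, ℤ))
    (hcard : Fintype.card J = dg N ℓ) (hmem : ∀ j, z j ∈ GamH N ⊤)
    (hinj : ∀ i j, z i * (z j)⁻¹ ∈ Gamma0 (N * ℓ) → i = j) : IsReps (GamH N ⊤) (N * ℓ) z := by
  have : NeZero (N * ℓ) := ⟨mul_ne_zero (NeZero.ne N) (NeZero.ne ℓ)⟩
  obtain ⟨J₀, _, z₀, hz₀⟩ := exists_reps (GamH N ⊥) (N * ℓ)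
  have h1 : Fintype.card J = Fintype.card J₀ := by rw [hcard, hz₀.card_eq]
  let e : J ≃ J₀ := Fintype.equivOfCardEq h1
  have h2 := hz₀.of_bot ⊤
  have h3 : IsReps (GamH N ⊤) (N * ℓ) (fun j : J => z₀ (e j)) := by
    refine ⟨fun j => h2.mem _, fun g hg => ?_⟩
    obtain ⟨j, hj, hj'⟩ := h2.uniq g hg
    refine ⟨e.symm j, by simpa using hj, fun k hk => ?_⟩
    rw [Equiv.eq_symm_apply]
    exact hj' _ hk
  exact h3.of_injective hmem hinj

/-- `(1 0; c 1)` -/
def low (c : ℤ) : SL(2, ℤ) := ⟨!![1, 0; c, 1], by rw [Matrix.det_fin_two_of]; ring⟩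

@[simp] lemma low_00 (c : ℤ) : low c 0 0 = 1 := rfl
@[simp] lemma low_01 (c : ℤ) : low c 0 1 = 0 := rfl
@[simp] lemma low_10 (c : ℤ) : low c 1 0 = c := rfl
@[simp] lemma low_11 (c : ℤ) : low c 1 1 = 1 := rfl

lemma low_add (c d : ℤ) : low (c + d) = low c * low d := by
  ext i j
  fin_cases i <;> fin_cases j <;>
    simp [low, Matrix.SpecialLinearGroup.coe_mul, Matrix.mul_apply, Fin.sum_univ_two]

lemma low_zero : low 0 = 1 := by
  ext i j
  fin_cases i <;> fin_cases j <;> simp [low]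

lemma low_inv (c : ℤ) : (low c)⁻¹ = low (-c) := by
  rw [inv_eq_iff_mul_eq_one, ← low_add, add_neg_cancel, low_zero]

omit [NeZero N] in
lemma low_mem {c : ℤ} : low c ∈ Gamma0 N ↔ (N : ℤ) ∣ c := by
  rw [mem_Gamma0_iff_dvd, low_10]

lemma low_mul_inv (c d : ℤ) : low c * (low d)⁻¹ = low (c - d) := by
  rw [low_inv, ← low_add, sub_eq_add_neg]

lemma low_inj {q : ℕ} (i j : Fin q) (hij : low (N * (i : ℕ)) * (low (N * (j : ℕ)))⁻¹ ∈
    Gamma0 (N * q)) : i = j := by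
  rw [low_mul_inv, low_mem, ← mul_sub] at hij
  push_cast at hij
  have h1 : (q : ℤ) ∣ ((i : ℕ) : ℤ) - ((j : ℕ) : ℤ) :=
    (mul_dvd_mul_iff_left (by exact_mod_cast NeZero.ne N : (N : ℤ) ≠ 0)).mp hij
  have h2 := i.2
  have h3 := j.2
  apply Fin.ext
  obtain ⟨k, hk⟩ := h1
  rcases lt_trichotomy k 0 with h | h | h
  · nlinarith
  · rw [h, mul_zero] at hk
    omega
  · nlinarith

lemma reps_dvd {q : ℕ} [NeZero q] (hq : q.Prime) (h : q ∣ N) :
    IsReps (GamH N ⊤) (N * q) (fun j : Fin q => low (N * (j : ℕ))) := by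
  refine IsReps.of_card _ ?_ ?_ ?_
  · rw [Fintype.card_fin, dg_eq_of_dvd hq h]
  · intro j
    rw [GamH_top, low_mem]
    exact dvd_mul_right _ _
  · intro i j hij
    exact low_inj i j hij

/-- the extra representative -/
def zinf (N q : ℕ) (x y : ℤ) (h : x * q - y * N = 1) : SL(2, ℤ) :=
  ⟨!![x, y; (N : ℤ), (q : ℤ)], by rw [Matrix.det_fin_two_of, ← h]⟩

/-- representatives for `q ∤ N` -/
def zrep (N q : ℕ) (x y : ℤ) (h : x * q - y * N = 1) : Option (Fin q) → SL(2, ℤ)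
  | none => zinf N q x y h
  | some j => low (N * (j : ℕ))

lemma reps_ndvd {q : ℕ} [NeZero q] (hq : q.Prime) (hN : ¬ q ∣ N) (x y : ℤ)
    (h : x * q - y * N = 1) : IsReps (GamH N ⊤) (N * q) (zrep N q x y h) := by
  have hN0 : (N : ℤ) ≠ 0 := by exact_mod_cast NeZero.ne N
  have hq1 : 1 < q := hq.one_lt
  refine IsReps.of_card _ ?_ ?_ ?_
  · rw [Fintype.card_option, Fintype.card_fin, dg_eq N hq hN]
  · rintro (_ | j)
    · rw [GamH_top, mem_Gamma0_iff_dvd]
      exact dvd_refl _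
    · rw [GamH_top]
      exact low_mem.mpr (dvd_mul_right _ _)
  · have key : ∀ j : Fin q, ¬ (zinf N q x y h * (low (N * (j : ℕ)))⁻¹ ∈ Gamma0 (N * q)) := by
      intro j hj
      rw [low_inv, mem_Gamma0_iff_dvd] at hj
      have h1 : (zinf N q x y h * low (-(N * (j : ℕ)))) 1 0 = N * (1 - q * (j : ℕ)) := by
        simp only [Matrix.SpecialLinearGroup.coe_mul, Matrix.mul_apply, Fin.sum_univ_two]
        change (N : ℤ) * 1 + q * (-(N * (j : ℕ))) = _
        ring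
      rw [h1] at hj
      push_cast at hj
      have h2 : (q : ℤ) ∣ 1 - q * ((j : ℕ) : ℤ) := (mul_dvd_mul_iff_left hN0).mp hj
      have h3 : (q : ℤ) ∣ 1 := by
        have := dvd_add h2 (dvd_mul_right (q : ℤ) ((j : ℕ) : ℤ))
        rwa [sub_add_cancel] at this
      have h4 := Int.eq_one_of_dvd_one (by positivity) h3
      omega
    rintro (_ | i) (_ | j) hij
    · rfl
    · exact absurd hij (key j)
    · have h2 := (Gamma0 (N * q)).inv_mem hij
      rw [mul_inv_rev, inv_inv] at h2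
      exact absurd h2 (key i)
    · rw [low_inj i j hij]

end Reps

section Degeneracy

variable {R : Type*} [CommRing R] {M q : ℕ} [NeZero M] [NeZero q] {A : Type*} [AddCommGroup A]
  [Module R A]

omit [NeZero M] [NeZero q] in
lemma GamHq_le : GamH (M * q) ⊤ ≤ GamH M ⊤ := by
  rw [GamH_top, GamH_top]
  exact Gamma0_mul_le M q

omit [NeZero M] [NeZero q] in
lemma GamHq_le' : GamH (M * q) ⊤ ≤ GamHl M ⊤ q := fun γ hγ =>
  ⟨GamHq_le hγ, by rw [GamH_top] at hγ; exact hγ⟩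

variable (R M q A) in
/-- The second degeneracy map. -/
def Bdeg : HM (GamH M ⊤) A →ₗ[R] HM (GamH (M * q) ⊤) A where
  toFun ψ := ψ.comp (MonoidHom.toAdditive ((conjH M ⊤ q).comp (Subgroup.inclusion GamHq_le')))
  map_add' _ _ := rfl
  map_smul' _ _ := rfl

lemma rep_Bdeg : Rep (fun _ : Unit => (1 : R)) (fun _ => del q) (Bdeg R M q A) := by
  refine exists_conj (R := R) (del q) ((conjH M ⊤ q).comp (Subgroup.inclusion GamHq_le')) ?_ _
    (fun ψ => rfl)
  intro γ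
  rw [del_emb q _ (dvd_of_mem (GamHq_le' γ.2).2)]
  rfl

/-- collapsing a family -/
lemma Rep.collapse {Γ Γ' : Subgroup SL(2, ℤ)} {ι : Type*} [Fintype ι] {w : ι → R} {α : ι → GG}
    {F : HM Γ A → HM Γ' A} (h : Rep w α F) (α₀ : GG) (hα : ∀ i, ∃ γ : Γ, α i = emb γ * α₀) :
    Rep (fun _ : Unit => ∑ i, w i) (fun _ => α₀) F := by
  intro ψ u hu
  choose γ hγ using hα
  have key : ∀ x, ∑ i, w i • u (α i * x) = (∑ i, w i • ψ (Additive.ofMul (γ i))) +
      (∑ i, w i) • u (α₀ * x) := by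
    intro x
    rw [Finset.sum_smul, ← Finset.sum_add_distrib]
    refine Finset.sum_congr rfl fun i _ => ?_
    rw [← smul_add, hγ i, mul_assoc, hu]
  intro g x
  have h1 := h ψ u hu g x
  simp only [Finset.univ_unique, Finset.sum_const, Finset.card_singleton, one_smul] at h1 ⊢
  rw [key, key] at h1
  have h3 : (∑ i, w i • ψ (Additive.ofMul (γ i))) + (∑ i, w i) • u (α₀ * (emb g * x))
      = (∑ i, w i • ψ (Additive.ofMul (γ i))) +
        (F ψ (Additive.ofMul g) + (∑ i, w i) • u (α₀ * x)) := by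
    rw [h1]; abel
  exact add_left_cancel h3

omit [NeZero M] in
lemma degSL_low (c : ℤ) (h : (q : ℤ) ∣ low (q * c) 1 0) : degSL q (low (q * c)) h = low c := by
  have hq : (q : ℤ) ≠ 0 := by exact_mod_cast NeZero.ne q
  ext i j
  fin_cases i <;> fin_cases j
  · rfl
  · change (q : ℤ) * 0 = 0
    rw [mul_zero]
  · change (q : ℤ) * c / q = c
    rw [Int.mul_ediv_cancel_left _ hq]
  · rfl

lemma del_low (c : ℤ) : del q * emb (low (q * c)) = emb (low c) * del q := by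
  have h : (q : ℤ) ∣ low (q * c) 1 0 := dvd_mul_right _ _
  rw [del_emb q _ h, degSL_low]

/-- `U_q ∘ res = q · B` -/
lemma U_res (hq : q.Prime) (ψ : HM (GamH M ⊤) A) :
    haveI : NeZero (M * q) := ⟨mul_ne_zero (NeZero.ne M) (NeZero.ne q)⟩
    TH R (M * q) ⊤ A q (res A R GamHq_le ψ) = (q : R) • Bdeg R M q A ψ := by
  haveI : NeZero (M * q) := ⟨mul_ne_zero (NeZero.ne M) (NeZero.ne q)⟩
  have hz := reps_dvd (N := M * q) hq (dvd_mul_left q M)
  have h1 := (rep_res (R := R) (A := A) (GamHq_le (M := M) (q := q))).comp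
    (rep_TH (R := R) (A := A) hz)
  have h2 := h1.collapse (del q) (by
    rintro ⟨j, _⟩
    refine ⟨⟨low (M * (j : ℕ)), ?_⟩, ?_⟩
    · rw [GamH_top, low_mem]; exact dvd_mul_right _ _
    · simp only [one_mul]
      have e : ((M * q : ℕ) : ℤ) * (j : ℕ) = q * (M * (j : ℕ)) := by push_cast; ring
      rw [e, del_low])
  have h3 := (rep_Bdeg (R := R) (M := M) (q := q) (A := A)).smul (q : R)
  refine h2.ext h3 (Equiv.refl _) (fun _ => ?_) (fun _ => ⟨1, by simp⟩) ψ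
  simp

lemma scq (x y : ℤ) (h : x * q - y * M = 1) : ∃ γ : GamH M ⊤,
    del q * emb (zinf M q x y h) * del q = emb γ * sc q := by
  refine ⟨⟨⟨!![(q : ℤ) * x, y; (M : ℤ), 1], ?_⟩, ?_⟩, ?_⟩
  · rw [Matrix.det_fin_two_of]; linear_combination h
  · rw [GamH_top, mem_Gamma0_iff_dvd]
    exact dvd_refl _
  · apply Units.ext
    rw [Units.val_mul, Units.val_mul, Units.val_mul, del_val, sc_val, emb_val, emb_val]
    ext i j
    fin_cases i <;> fin_cases j <;>
      simp [zinf, Matrix.mul_apply, Fin.sum_univ_two] <;> ring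

/-- `U_q ∘ B + res = B ∘ T_q` -/
lemma U_B (hq : q.Prime) (hM : ¬ q ∣ M) (ψ : HM (GamH M ⊤) A) :
    haveI : NeZero (M * q) := ⟨mul_ne_zero (NeZero.ne M) (NeZero.ne q)⟩
    TH R (M * q) ⊤ A q (Bdeg R M q A ψ) + res A R GamHq_le ψ =
      Bdeg R M q A (TH R M ⊤ A q ψ) := by
  haveI : NeZero (M * q) := ⟨mul_ne_zero (NeZero.ne M) (NeZero.ne q)⟩
  have hz := reps_dvd (N := M * q) hq (dvd_mul_left q M)
  obtain ⟨x, y, hxy⟩ : ∃ x y : ℤ, x * q - y * M = 1 := by
    have hcop : IsCoprime (q : ℤ) (M : ℤ) := by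
      rw [Nat.isCoprime_iff_coprime]
      exact (Nat.Prime.coprime_iff_not_dvd hq).mpr hM
    obtain ⟨a, b, hab⟩ := hcop
    exact ⟨a, -b, by linear_combination hab⟩
  have hz' := reps_ndvd (N := M) hq hM x y hxy
  have h1 := ((rep_Bdeg (R := R) (M := M) (q := q) (A := A)).comp
    (rep_TH (R := R) (A := A) hz)).add (rep_res_sc (R := R) (A := A) (GamHq_le (M := M) (q := q)) q)
  have h2 := (rep_TH (R := R) (A := A) hz').comp (rep_Bdeg (R := R) (M := M) (q := q) (A := A))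
  let e : (Fin q × Unit) ⊕ Unit ≃ Unit × Option (Fin q) :=
    { toFun := fun x => Sum.elim (fun y => ((), some y.1)) (fun _ => ((), none)) x
      invFun := fun x => match x with
        | ((), some j) => Sum.inl (j, ())
        | ((), none) => Sum.inr ()
      left_inv := by rintro (⟨j, _⟩ | _) <;> rfl
      right_inv := by rintro ⟨_, (_ | j)⟩ <;> rfl }
  refine h1.ext h2 e ?_ ?_ ψ
  · rintro (⟨j, _⟩ | _)
    · show (1 : R) * 1 = 1 * 1
      rfl
    · show (1 : R) = 1 * 1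
      rw [mul_one]
  · rintro (⟨j, _⟩ | _)
    · refine ⟨1, ?_⟩
      show del q * (del q * emb (low ((M * q : ℕ) * (j : ℕ)))) =
        emb ((1 : GamH M ⊤) : SL(2, ℤ)) * (del q * emb (low (M * (j : ℕ))) * del q)
      have e : ((M * q : ℕ) : ℤ) * (j : ℕ) = q * (M * (j : ℕ)) := by push_cast; ring
      rw [e, del_low, Subgroup.coe_one, map_one, one_mul, mul_assoc]
    · obtain ⟨γ, hγ⟩ := scq (M := M) (q := q) x y hxy
      refine ⟨γ⁻¹, ?_⟩
      show sc q = emb ((γ⁻¹ : GamH M ⊤) : SL(2, ℤ)) * (del q * emb (zinf M q x y hxy) * del q)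
      rw [hγ, Subgroup.coe_inv, map_inv, inv_mul_cancel_left]

lemma uniq_of_reps {J : Type*} {z : J → SL(2, ℤ)} (hz : IsReps (GamH M ⊤) (M * q) z) :
    ∀ g ∈ GamH M ⊤, ∃! j, g * (z j)⁻¹ ∈ GamH (M * q) ⊤ := by
  intro g hg
  rw [GamH_top]
  exact hz.uniq g hg

/-- `tr ∘ B = T_q` -/
lemma tr_B [Fintype (GamH M ⊤ ⧸ (GamH (M * q) ⊤).subgroupOf (GamH M ⊤))]
    (ψ : HM (GamH M ⊤) A) :
    tr A R (GamH M ⊤) (GamH (M * q) ⊤) (Bdeg R M q A ψ) = TH R M ⊤ A q ψ := by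
  haveI : NeZero (M * q) := ⟨mul_ne_zero (NeZero.ne M) (NeZero.ne q)⟩
  obtain ⟨J, _, z, hz⟩ := exists_reps (GamH M ⊤) (M * q)
  have h1 := (rep_Bdeg (R := R) (M := M) (q := q) (A := A)).comp
    (rep_tr_of (R := R) (A := A) hz.mem (uniq_of_reps hz))
  have h2 := rep_TH (R := R) (A := A) hz
  refine h1.ext h2 (Equiv.prodPUnit _) (fun _ => ?_) (fun i => ⟨1, ?_⟩) ψ
  · exact mul_one _
  · obtain ⟨j, _⟩ := i
    show del q * emb (z j) = emb ((1 : GamH M ⊤) : SL(2, ℤ)) * (del q * emb (z j))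
    rw [Subgroup.coe_one, map_one, one_mul]

/-- `tr ∘ res = q + 1` -/
lemma tr_res' [Fintype (GamH M ⊤ ⧸ (GamH (M * q) ⊤).subgroupOf (GamH M ⊤))]
    (hq : q.Prime) (hM : ¬ q ∣ M) (ψ : HM (GamH M ⊤) A) :
    tr A R (GamH M ⊤) (GamH (M * q) ⊤) (res A R GamHq_le ψ) = ((q : R) + 1) • ψ := by
  haveI : NeZero (M * q) := ⟨mul_ne_zero (NeZero.ne M) (NeZero.ne q)⟩
  obtain ⟨x, y, hxy⟩ : ∃ x y : ℤ, x * q - y * M = 1 := by
    have hcop : IsCoprime (q : ℤ) (M : ℤ) := by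
      rw [Nat.isCoprime_iff_coprime]
      exact (Nat.Prime.coprime_iff_not_dvd hq).mpr hM
    obtain ⟨a, b, hab⟩ := hcop
    exact ⟨a, -b, by linear_combination hab⟩
  have hz := reps_ndvd (N := M) hq hM x y hxy
  have h1 := (rep_res (R := R) (A := A) (GamHq_le (M := M) (q := q))).comp
    (rep_tr_of (R := R) (A := A) hz.mem (uniq_of_reps hz))
  have h2 := h1.collapse 1 (by
    rintro ⟨j, _⟩
    refine ⟨⟨_, hz.mem j⟩, ?_⟩
    simp)
  have h3 := (rep_res (R := R) (A := A) (le_refl (GamH M ⊤))).smul ((q : R) + 1)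
  have h4 : (fun ψ => ((q : R) + 1) • (res A R (le_refl (GamH M ⊤))) ψ) ψ = ((q : R) + 1) • ψ := rfl
  rw [← h4]
  refine h2.ext h3 (Equiv.refl _) (fun _ => ?_) (fun _ => ⟨1, by simp⟩) ψ
  simp [Fintype.card_option]

/-- `T_ℓ ∘ B = B ∘ T_ℓ` for `ℓ ≠ q` -/
lemma TH_B {ℓ : ℕ} [NeZero ℓ] (hℓ : ℓ.Prime) (hq : q.Prime) (hne : ℓ ≠ q)
    (ψ : HM (GamH M ⊤) A) :
    haveI : NeZero (M * q) := ⟨mul_ne_zero (NeZero.ne M) (NeZero.ne q)⟩
    TH R (M * q) ⊤ A ℓ (Bdeg R M q A ψ) = Bdeg R M q A (TH R M ⊤ A ℓ ψ) := by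
  haveI : NeZero (M * q) := ⟨mul_ne_zero (NeZero.ne M) (NeZero.ne q)⟩
  haveI : NeZero (M * q * ℓ) := ⟨mul_ne_zero (NeZero.ne _) (NeZero.ne ℓ)⟩
  obtain ⟨J, _, z, hz⟩ := exists_reps (GamH (M * q) ⊥) (M * q * ℓ)
  have hz1 := hz.of_bot ⊤
  have hcard : Fintype.card J = dg M ℓ := by
    rw [hz.card_eq]
    by_cases h : ℓ ∣ M
    · rw [dg_eq_of_dvd hℓ h, dg_eq_of_dvd hℓ (h.mul_right q)]
    · rw [dg_eq M hℓ h, dg_eq (M * q) hℓ]
      intro h2
      rcases (Nat.Prime.dvd_mul hℓ).mp h2 with h3 | h3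
      · exact h h3
      · exact hne ((Nat.prime_dvd_prime_iff_eq hℓ hq).mp h3)
  have hdvd : ∀ j, (q : ℤ) ∣ z j 1 0 := fun j =>
    dvd_of_mem (GamHq_le' (hz1.mem j)).2
  have hz2 : IsReps (GamH M ⊤) (M * ℓ) (fun j => degSL q (z j) (hdvd j)) := by
    refine IsReps.of_card _ hcard ?_ ?_
    · intro j
      exact degSL_mem_GamH M ⊤ q (GamHq_le' (hz1.mem j))
    · intro i j hij
      apply hz1.eq_of
      have hd : (q : ℤ) ∣ (z i * (z j)⁻¹) 1 0 := by
        have := (GamH (M * q) ⊤).mul_mem (hz1.mem i) ((GamH (M * q) ⊤).inv_mem (hz1.mem j))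
        exact dvd_of_mem (GamHq_le' this).2
      have h1 : degSL q (z i) (hdvd i) * (degSL q (z j) (hdvd j))⁻¹ =
          degSL q (z i * (z j)⁻¹) hd := by
        apply emb_injective
        have e1 := del_emb q (z i * (z j)⁻¹) hd
        have e2 := del_emb q (z i) (hdvd i)
        have e3 := del_emb q (z j) (hdvd j)
        rw [map_mul, map_inv] at e1 ⊢
        have e4 : emb (degSL q (z i * (z j)⁻¹) hd) = del q * (emb (z i) * (emb (z j))⁻¹) * (del q)⁻¹ := by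
          rw [e1, mul_inv_cancel_right]
        have e5 : emb (degSL q (z i) (hdvd i)) = del q * emb (z i) * (del q)⁻¹ := by
          rw [e2, mul_inv_cancel_right]
        have e6 : emb (degSL q (z j) (hdvd j)) = del q * emb (z j) * (del q)⁻¹ := by
          rw [e3, mul_inv_cancel_right]
        rw [e4, e5, e6]
        group
      rw [h1, mem_Gamma0_iff_dvd, degSL_one_zero] at hij
      rw [mem_Gamma0_iff_dvd]
      obtain ⟨c, hc⟩ := hij
      obtain ⟨d, hd'⟩ := hd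
      rw [hd', Int.mul_ediv_cancel_left _ (by exact_mod_cast NeZero.ne q : (q : ℤ) ≠ 0)] at hc
      refine ⟨c, ?_⟩
      rw [hd', hc]
      push_cast
      ring
  have h1 := (rep_Bdeg (R := R) (M := M) (q := q) (A := A)).comp (rep_TH (R := R) (A := A) hz1)
  have h2 := (rep_TH (R := R) (A := A) hz2).comp (rep_Bdeg (R := R) (M := M) (q := q) (A := A))
  refine h1.ext h2 (Equiv.prodComm _ _) (fun _ => rfl) (fun i => ⟨1, ?_⟩) ψ
  obtain ⟨j, _⟩ := i
  show del q * (del ℓ * emb (z j)) = emb ((1 : GamH M ⊤) : SL(2, ℤ)) *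
    (del ℓ * emb (degSL q (z j) (hdvd j)) * del q)
  rw [Subgroup.coe_one, map_one, one_mul, mul_assoc, ← del_emb, ← mul_assoc, ← mul_assoc]
  congr 1
  apply Units.ext
  rw [Units.val_mul, Units.val_mul, del_val, del_val]
  ext i j
  fin_cases i <;> fin_cases j <;> simp [Matrix.mul_apply, Fin.sum_univ_two, mul_comm]

end Degeneracy

section Levels

variable {R : Type*} [CommRing R] {N M : ℕ} [NeZero N] [NeZero M] {H : Subgroup (ZMod N)ˣ}
  {H' : Subgroup (ZMod M)ˣ} {A : Type*} [AddCommGroup A] [Module R A] {ℓ : ℕ} [NeZero ℓ]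

/-- restriction commutes with `T_ℓ` across levels -/
lemma TH_res_level (h : GamH M H' ≤ GamH N H) {m : ℕ} (hM : M = N * m) (hℓ : ℓ.Prime)
    (hℓm : ¬ ℓ ∣ m) (ψ : HM (GamH N H) A) :
    TH R M H' A ℓ (res A R h ψ) = res A R h (TH R N H A ℓ ψ) :=
  (congrArg MonoidHom.toAdditiveLeft (resH_heckeH h hM hℓ hℓm ψ.toMultiplicativeRight)).symm

lemma rep_corHL (h : GamH M H' ≤ GamH N H) :
    Rep (fun _ => (1 : R)) (trFam (GamH N H) (GamH M H')) (corHL R h A) := by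
  intro ψ u hu γ x
  letI : MulAction (GamH N H) GG := MulAction.compHom GG (emb.comp (GamH N H).subtype)
  have hsm : ∀ (g : GamH N H) (y : GG), g • y = emb (g : SL(2, ℤ)) * y := fun _ _ => rfl
  let v : GG → Multiplicative A := fun y => Multiplicative.ofAdd (u y)
  have hv : ∀ (k : GamH M H') (y : GG), v (Subgroup.inclusion h k • y) =
      MonoidHom.id (Multiplicative A) (ψ.toMultiplicativeRight k) * v y := by
    intro k y
    exact congrArg Multiplicative.ofAdd (hu k y)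
  let r : (GamH N H ⧸ (GamH M H').subgroupOf (GamH N H)) → GamH N H := fun q => q.out
  have hr : Function.Bijective fun q => (r q : GamH N H ⧸ (Subgroup.inclusion h).range) := by
    constructor
    · intro i j hij
      obtain ⟨k, hk⟩ := QuotientGroup.eq.mp hij
      rw [← QuotientGroup.out_eq' i, ← QuotientGroup.out_eq' j, QuotientGroup.eq,
        Subgroup.mem_subgroupOf]
      rw [← show ((Subgroup.inclusion h k : GamH N H) : SL(2, ℤ)) = _ from congrArg Subtype.val hk]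
      exact k.2
    · intro q
      obtain ⟨g, rfl⟩ := QuotientGroup.mk_surjective q
      refine ⟨(g : GamH N H ⧸ (GamH M H').subgroupOf (GamH N H)), ?_⟩
      refine QuotientGroup.eq.mpr ?_
      have h1 : ((g : GamH N H ⧸ (GamH M H').subgroupOf (GamH N H)).out)⁻¹ * g ∈
          (GamH M H').subgroupOf (GamH N H) := by
        rw [← QuotientGroup.eq, QuotientGroup.out_eq']
      rw [Subgroup.mem_subgroupOf] at h1
      exact ⟨⟨_, h1⟩, Subtype.ext rfl⟩
  have h1 := tr_automorphy (Subgroup.inclusion h) (Subgroup.inclusion_injective h)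
    ψ.toMultiplicativeRight r hr (MonoidHom.id _) v hv γ x
  have e : ∀ y : GG, ∑ i, (1 : R) • u (trFam (GamH N H) (GamH M H') i * y)
      = Multiplicative.toAdd (∏ i, v ((r i)⁻¹ • y)) := by
    intro y
    rw [toAdd_prod]
    refine Finset.sum_congr rfl fun i _ => ?_
    rw [one_smul, hsm]
    show u (emb ((i.out : GamH N H) : SL(2, ℤ))⁻¹ * y) = u (emb ((((r i)⁻¹ : GamH N H)) : SL(2, ℤ)) * y)
    rw [Subgroup.coe_inv]
  simp only
  rw [e, e]
  exact congrArg Multiplicative.toAdd h1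

lemma tr_eq_corHL (h : GamH M H' ≤ GamH N H) (ψ : HM (GamH M H') A) :
    tr A R (GamH N H) (GamH M H') ψ = corHL R h A ψ :=
  (rep_tr (R := R) (A := A) (Γ := GamH N H) (Γ' := GamH M H')).eq (rep_corHL h) ψ

/-- transfer commutes with `T_ℓ` across levels -/
lemma TH_tr_level (h : GamH M H' ≤ GamH N H) (hNM : N ∣ M)
    (hℓ : ∀ p : ℕ, p.Prime → p ∣ ℓ → p ∣ M → p ∣ N) (ψ : HM (GamH M H') A) :
    TH R N H A ℓ (tr A R (GamH N H) (GamH M H') ψ) =
      tr A R (GamH N H) (GamH M H') (TH R M H' A ℓ ψ) := by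
  rw [tr_eq_corHL h, tr_eq_corHL h]
  exact (corHL_heckeHL R h A hNM hℓ ψ).symm

end Levels

end Fermat.Agent.TC
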