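import Mathlib
import Fermat.Agent.TC.Deg

/-!
# `T_ℓ - (ℓ + 1)` maps `Hom(Γ₀(N), A)` to parabolic homomorphisms for `ℓ ≡ 1 mod N`
-/

set_option autoImplicit false
set_option linter.style.haveILetI false
set_option linter.unusedSectionVars false

noncomputable section

namespace Fermat.Agent.TC

open Matrix.SpecialLinearGroup CongruenceSubgroup H22
open scoped MatrixGroups

/-- the unipotent element `1 + t v v^⊥`, `v = (a, c)` -/
def upar (a c t : ℤ) : SL(2, ℤ) :=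
  ⟨!![1 - t * a * c, t * a ^ 2; -(t * c ^ 2), 1 + t * a * c], by
    rw [Matrix.det_fin_two_of]; ring⟩

@[simp] lemma upar_00 (a c t : ℤ) : upar a c t 0 0 = 1 - t * a * c := rfl
@[simp] lemma upar_01 (a c t : ℤ) : upar a c t 0 1 = t * a ^ 2 := rfl
@[simp] lemma upar_10 (a c t : ℤ) : upar a c t 1 0 = -(t * c ^ 2) := rfl
@[simp] lemma upar_11 (a c t : ℤ) : upar a c t 1 1 = 1 + t * a * c := rfl

lemma upar_add (a c s t : ℤ) : upar a c (s + t) = upar a c s * upar a c t := by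
  ext i j
  fin_cases i <;> fin_cases j <;>
    simp [Matrix.SpecialLinearGroup.coe_mul, Matrix.mul_apply, Fin.sum_univ_two] <;> ring

lemma upar_zero (a c : ℤ) : upar a c 0 = 1 := by
  ext i j
  fin_cases i <;> fin_cases j <;> simp

lemma upar_pow (a c t : ℤ) (n : ℕ) : upar a c t ^ n = upar a c (n * t) := by
  induction n with
  | zero => simp [upar_zero]
  | succ n ih =>
    rw [pow_succ, ih, ← upar_add]
    congr 1
    push_cast; ring

/-- conjugation -/
lemma conj_upar (h : SL(2, ℤ)) (a c t : ℤ) :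
    h * upar a c t * h⁻¹ = upar (h 0 0 * a + h 0 1 * c) (h 1 0 * a + h 1 1 * c) t := by
  rw [mul_inv_eq_iff_eq_mul]
  have hd : h 0 0 * h 1 1 - h 0 1 * h 1 0 = 1 := det_eq h
  ext i j
  fin_cases i <;> fin_cases j
  · simp only [Fin.zero_eta, Fin.isValue, Matrix.SpecialLinearGroup.coe_mul, Matrix.mul_apply,
      Fin.sum_univ_two, upar_00, upar_01, upar_10, upar_11]
    linear_combination (t * c * (h 0 0 * a + h 0 1 * c)) * hd
  · simp only [Fin.zero_eta, Fin.mk_one, Fin.isValue, Matrix.SpecialLinearGroup.coe_mul,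
      Matrix.mul_apply, Fin.sum_univ_two, upar_00, upar_01, upar_10, upar_11]
    linear_combination (-(t * a * (h 0 0 * a + h 0 1 * c))) * hd
  · simp only [Fin.zero_eta, Fin.mk_one, Fin.isValue, Matrix.SpecialLinearGroup.coe_mul,
      Matrix.mul_apply, Fin.sum_univ_two, upar_00, upar_01, upar_10, upar_11]
    linear_combination (t * c * (h 1 0 * a + h 1 1 * c)) * hd
  · simp only [Fin.mk_one, Fin.isValue, Matrix.SpecialLinearGroup.coe_mul, Matrix.mul_apply,
      Fin.sum_univ_two, upar_00, upar_01, upar_10, upar_11]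
    linear_combination (-(t * a * (h 1 0 * a + h 1 1 * c))) * hd

/-- an element of trace two is of this form -/
lemma exists_upar {γ : SL(2, ℤ)} (h : γ 0 0 + γ 1 1 = 2) :
    ∃ a c t : ℤ, IsCoprime a c ∧ γ = upar a c t := by
  have hd : γ 0 0 * γ 1 1 - γ 0 1 * γ 1 0 = 1 := det_eq γ
  obtain ⟨A, hA⟩ : ∃ A, γ 0 0 = 1 + A := ⟨γ 0 0 - 1, by ring⟩
  have hA' : γ 1 1 = 1 - A := by linear_combination h - hA
  have hq : A ^ 2 + γ 0 1 * γ 1 0 = 0 := by
    rw [hA, hA'] at hd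
    linear_combination -hd
  by_cases hB : γ 0 1 = 0
  · rw [hB, zero_mul, add_zero] at hq
    have hA0 : A = 0 := by simpa using hq
    refine ⟨0, 1, -γ 1 0, isCoprime_one_right, ?_⟩
    ext i j
    fin_cases i <;> fin_cases j
    · simp [hA, hA0]
    · simp [hB]
    · simp
    · simp [hA', hA0]
  · -- `g = gcd`
    obtain ⟨g, a, c, hg0, hcop, hga, hgc⟩ : ∃ g a c : ℤ, g ≠ 0 ∧ IsCoprime a c ∧ γ 0 1 = g * a ∧
        -A = g * c := by
      have hg : (Int.gcd (γ 0 1) (-A) : ℤ) ≠ 0 := by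
        intro h0
        have := Int.gcd_eq_zero_iff.mp (by exact_mod_cast h0)
        exact hB this.1
      obtain ⟨a, ha⟩ := Int.gcd_dvd_left (γ 0 1) (-A)
      obtain ⟨c, hc⟩ := Int.gcd_dvd_right (γ 0 1) (-A)
      refine ⟨_, a, c, hg, ?_, ha, hc⟩
      refine ⟨Int.gcdA (γ 0 1) (-A), Int.gcdB (γ 0 1) (-A), ?_⟩
      have hb := Int.gcd_eq_gcd_ab (γ 0 1) (-A)
      apply mul_left_cancel₀ hg
      have e1 : (Int.gcd (γ 0 1) (-A) : ℤ) * (Int.gcdA (γ 0 1) (-A) * a + Int.gcdB (γ 0 1) (-A) * c)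
          = (Int.gcd (γ 0 1) (-A) * a) * Int.gcdA (γ 0 1) (-A) +
            (Int.gcd (γ 0 1) (-A) * c) * Int.gcdB (γ 0 1) (-A) := by ring
      rw [e1, ← ha, ← hc, ← hb, mul_one]
    have ha0 : a ≠ 0 := by
      rintro rfl
      rw [mul_zero] at hga
      exact hB hga
    have hAc : A = -(g * c) := by linear_combination -hgc
    have h1 : a * γ 1 0 = -(g * c ^ 2) := by
      apply mul_left_cancel₀ hg0
      rw [hga, hAc] at hq
      linear_combination hq
    have h2 : a ∣ g := by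
      have h3 : a ∣ g * c ^ 2 := by
        rw [← dvd_neg, ← h1]
        exact dvd_mul_right _ _
      exact (hcop.pow_right (n := 2)).dvd_of_dvd_mul_right h3
    obtain ⟨t, rfl⟩ := h2
    refine ⟨a, c, t, hcop, ?_⟩
    have h4 : γ 1 0 = -(t * c ^ 2) := by
      apply mul_left_cancel₀ ha0
      rw [h1]; ring
    ext i j
    fin_cases i <;> fin_cases j
    · simp only [Fin.zero_eta, Fin.isValue, upar_00]
      rw [hA, hAc]; ring
    · simp only [Fin.zero_eta, Fin.mk_one, Fin.isValue, upar_01]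
      rw [hga]; ring
    · simp only [Fin.zero_eta, Fin.mk_one, Fin.isValue, upar_10]
      exact h4
    · simp only [Fin.mk_one, Fin.isValue, upar_11]
      rw [hA', hAc]; ring

variable {N : ℕ}

lemma upar_mem (a c t : ℤ) (h : (N : ℤ) ∣ t) : upar a c t ∈ Gamma0 N := by
  rw [mem_Gamma0_iff_dvd, upar_10]
  exact (h.mul_right _).neg_right

/-- congruent primitive vectors are equivalent under `Γ₀(N)` -/
lemma exists_transport {a c a' c' : ℤ} (h : IsCoprime a c) (h' : IsCoprime a' c')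
    (ha : (N : ℤ) ∣ a' - a) (hc : (N : ℤ) ∣ c' - c) :
    ∃ g ∈ Gamma0 N, g 0 0 * a + g 0 1 * c = a' ∧ g 1 0 * a + g 1 1 * c = c' := by
  obtain ⟨x, y, hxy⟩ := h
  obtain ⟨x', y', hxy'⟩ := h'
  set b := y * x' - x * y' with hb
  -- `σ' T^{-b} σ⁻¹`
  let g : SL(2, ℤ) := ⟨!![a' * x + (y' + b * a') * c, a' * y - (y' + b * a') * a;
      c' * x - (x' - b * c') * c, c' * y + (x' - b * c') * a], by
    rw [Matrix.det_fin_two_of]
    have : (a' * x + (y' + b * a') * c) * (c' * y + (x' - b * c') * a) -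
        (a' * y - (y' + b * a') * a) * (c' * x - (x' - b * c') * c) =
        (x * a + y * c) * (x' * a' + y' * c') := by ring
    rw [this, hxy, hxy', mul_one]⟩
  refine ⟨g, ?_, ?_, ?_⟩
  · rw [mem_Gamma0_iff_dvd]
    change (N : ℤ) ∣ c' * x - (x' - b * c') * c
    have e : c' * x - (x' - b * c') * c =
        x * x' * (c' * (a' - a) + a * (c' - c)) + (c' - c) * (x * y' * c' + x' * y * c) := by
      have e1 : c' * x - (x' - b * c') * c = c' * x * (x' * a' + y' * c') -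
          x' * c * (x * a + y * c) + b * c' * c := by rw [hxy, hxy']; ring
      rw [e1, hb]; ring
    rw [e]
    exact dvd_add (Dvd.dvd.mul_left (dvd_add (ha.mul_left _) (hc.mul_left _)) _) (hc.mul_right _)
  · change (a' * x + (y' + b * a') * c) * a + (a' * y - (y' + b * a') * a) * c = a'
    linear_combination a' * hxy
  · change (c' * x - (x' - b * c') * c) * a + (c' * y + (x' - b * c') * a) * c = c'
    linear_combination c' * hxy

variable {A : Type*} [AddCommGroup A]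

/-- conjugation invariance of homomorphisms -/
lemma hm_conj {Γ : Subgroup SL(2, ℤ)} (φ : HM Γ A) (g γ : Γ) :
    φ (Additive.ofMul (g * γ * g⁻¹)) = φ (Additive.ofMul γ) := by
  rw [ofMul_mul, ofMul_mul, map_add, map_add, ofMul_inv, map_neg]
  abel

lemma hm_upar (φ : HM (Gamma0 N) A) {a c a' c' t : ℤ} (h : IsCoprime a c) (h' : IsCoprime a' c')
    (ha : (N : ℤ) ∣ a' - a) (hc : (N : ℤ) ∣ c' - c) (ht : (N : ℤ) ∣ t) :
    φ (Additive.ofMul ⟨upar a' c' t, upar_mem a' c' t ht⟩) =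
      φ (Additive.ofMul ⟨upar a c t, upar_mem a c t ht⟩) := by
  obtain ⟨g, hg, h1, h2⟩ := exists_transport h h' ha hc
  have := hm_conj φ ⟨g, hg⟩ ⟨upar a c t, upar_mem a c t ht⟩
  rw [← this]
  congr 2
  apply Subtype.ext
  change upar a' c' t = g * upar a c t * g⁻¹
  rw [conj_upar, h1, h2]

variable {ℓ : ℕ} [NeZero N] [NeZero ℓ]

/-- conjugation by `diag(ℓ,1)` -/
lemma del_upar (a c s : ℤ) : del ℓ * emb (upar a c (ℓ * s)) = emb (upar (ℓ * a) c s) * del ℓ := by
  have hd : (ℓ : ℤ) ∣ upar a c (ℓ * s) 1 0 := by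
    rw [upar_10]
    exact ((dvd_mul_right _ _).mul_right _).neg_right
  rw [del_emb ℓ _ hd]
  congr 2
  have hℓ : (ℓ : ℤ) ≠ 0 := by exact_mod_cast NeZero.ne ℓ
  ext i j
  fin_cases i <;> fin_cases j
  · change upar a c (ℓ * s) 0 0 = upar (ℓ * a) c s 0 0
    simp only [upar_00]; ring
  · change (ℓ : ℤ) * upar a c (ℓ * s) 0 1 = upar (ℓ * a) c s 0 1
    simp only [upar_01]; ring
  · change upar a c (ℓ * s) 1 0 / (ℓ : ℤ) = upar (ℓ * a) c s 1 0
    simp only [upar_10]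
    rw [show -((ℓ : ℤ) * s * c ^ 2) = ℓ * (-(s * c ^ 2)) by ring, Int.mul_ediv_cancel_left _ hℓ]
  · change upar a c (ℓ * s) 1 1 = upar (ℓ * a) c s 1 1
    simp only [upar_11]; ring

lemma upar_scale (a c s : ℤ) : upar (ℓ * a) (ℓ * c) s = upar a c (ℓ * ℓ * s) := by
  ext i j
  fin_cases i <;> fin_cases j
  · simp only [Fin.zero_eta, Fin.isValue, upar_00]; ring
  · simp only [Fin.zero_eta, Fin.mk_one, Fin.isValue, upar_01]; ring
  · simp only [Fin.zero_eta, Fin.mk_one, Fin.isValue, upar_10]; ring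
  · simp only [Fin.mk_one, Fin.isValue, upar_11]; ring

/-- the value of `T_ℓ φ` at a unipotent element -/
theorem heckeLin_upar {R : Type*} [CommRing R] [Module R A] (hℓ : ℓ.Prime)
    (hℓN : (N : ℤ) ∣ (ℓ : ℤ) - 1) (φ : HM (Gamma0 N) A)
    {a c s : ℤ} (hac : IsCoprime a c) (hs : (N : ℤ) ∣ s) :
    heckeLin R N A ℓ φ (Additive.ofMul ⟨upar a c (ℓ * s), upar_mem a c _ (hs.mul_left _)⟩) =
      (ℓ * (ℓ + 1)) • φ (Additive.ofMul ⟨upar a c s, upar_mem a c s hs⟩) := by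
  have hND : ¬ ℓ ∣ N := by
    intro h
    have h1 : (ℓ : ℤ) ∣ (ℓ : ℤ) - 1 := (Int.natCast_dvd_natCast.mpr h).trans hℓN
    have h2 : (ℓ : ℤ) ∣ 1 := by
      have := dvd_sub (dvd_refl (ℓ : ℤ)) h1
      rwa [sub_sub_cancel] at this
    have h3 := Int.eq_one_of_dvd_one (by positivity) h2
    exact hℓ.one_lt.ne' (by exact_mod_cast h3)
  obtain ⟨x, y, hxy⟩ : ∃ x y : ℤ, x * ℓ - y * N = 1 := by
    have hcop : IsCoprime (ℓ : ℤ) (N : ℤ) := by
      rw [Nat.isCoprime_iff_coprime]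
      exact (Nat.Prime.coprime_iff_not_dvd hℓ).mpr hND
    obtain ⟨a, b, hab⟩ := hcop
    exact ⟨a, -b, by linear_combination hab⟩
  have hz := reps_ndvd (N := N) hℓ hND x y hxy
  rw [GamH_top] at hz
  obtain ⟨u, hu⟩ := exists_isAut φ
  have h1 := rep_heckeLin (R := R) (A := A) hz φ u hu
  set z := zrep N ℓ x y hxy with hzdef
  let w1 : Option (Fin ℓ) → ℤ := fun j => z j 0 0 * a + z j 0 1 * c
  let w2 : Option (Fin ℓ) → ℤ := fun j => z j 1 0 * a + z j 1 1 * c
  have hwcop : ∀ j, IsCoprime (w1 j) (w2 j) := by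
    intro j
    obtain ⟨p, r, hpr⟩ := hac
    have hd : z j 0 0 * z j 1 1 - z j 0 1 * z j 1 0 = 1 := det_eq (z j)
    refine ⟨p * z j 1 1 - r * z j 1 0, r * z j 0 0 - p * z j 0 1, ?_⟩
    simp only [w1, w2]
    linear_combination hpr + (p * a + r * c) * hd
  have hinv : ∀ j, ∃ g : Gamma0 N, del ℓ * emb (z j) * emb (upar a c (ℓ * s)) =
      emb (g : SL(2, ℤ)) * (del ℓ * emb (z j)) ∧
      φ (Additive.ofMul g) = (if (ℓ : ℤ) ∣ w2 j then ℓ * ℓ else 1) •
        φ (Additive.ofMul ⟨upar a c s, upar_mem a c s hs⟩) := by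
    intro j
    have e1 : emb (z j) * emb (upar a c (ℓ * s)) = emb (upar (w1 j) (w2 j) (ℓ * s)) * emb (z j) := by
      rw [← map_mul, ← map_mul, ← conj_upar, inv_mul_cancel_right]
    have e2 : del ℓ * emb (z j) * emb (upar a c (ℓ * s)) =
        emb (upar (ℓ * w1 j) (w2 j) s) * (del ℓ * emb (z j)) := by
      rw [mul_assoc, e1, ← mul_assoc, del_upar, mul_assoc]
    have e3 : φ (Additive.ofMul ⟨upar (w1 j) (w2 j) s, upar_mem _ _ s hs⟩) =
        φ (Additive.ofMul ⟨upar a c s, upar_mem a c s hs⟩) := by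
      have h2 := hm_conj φ ⟨z j, hz.mem j⟩ ⟨upar a c s, upar_mem a c s hs⟩
      rw [← h2]
      congr 2
      apply Subtype.ext
      change upar (w1 j) (w2 j) s = z j * upar a c s * (z j)⁻¹
      rw [conj_upar]
    refine ⟨⟨upar (ℓ * w1 j) (w2 j) s, upar_mem _ _ s hs⟩, e2, ?_⟩
    by_cases hdv : (ℓ : ℤ) ∣ w2 j
    · rw [if_pos hdv]
      obtain ⟨c', hc'⟩ := hdv
      have hcop' : IsCoprime (w1 j) c' := by
        have := hwcop j
        rw [hc'] at this
        exact this.of_mul_right_right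
      have h3 : ∀ n : ℕ, φ (Additive.ofMul ⟨upar (w1 j) c' (n * s), upar_mem _ _ _ (hs.mul_left _)⟩) =
          n • φ (Additive.ofMul ⟨upar (w1 j) c' s, upar_mem _ _ s hs⟩) := by
        intro n
        rw [← map_nsmul, ← ofMul_pow]
        congr 2
        apply Subtype.ext
        rw [Subgroup.coe_pow]
        exact (upar_pow _ _ _ _).symm
      have h4 := hm_upar φ hcop' (hwcop j) (by rw [sub_self]; exact dvd_zero _)
        (by rw [hc']; have : (ℓ : ℤ) * c' - c' = (ℓ - 1) * c' := by ring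
            rw [this]; exact hℓN.mul_right _) hs
      rw [← e3, h4, ← h3]
      congr 2
      apply Subtype.ext
      change upar (ℓ * w1 j) (w2 j) s = upar (w1 j) c' (((ℓ * ℓ : ℕ) : ℤ) * s)
      rw [hc', upar_scale]
      push_cast; rfl
    · rw [if_neg hdv, one_smul, ← e3]
      refine hm_upar φ (hwcop j) ?_ ?_ (by rw [sub_self]; exact dvd_zero _) hs
      · refine IsCoprime.mul_left ?_ (hwcop j)
        exact (Prime.coprime_iff_not_dvd (Nat.prime_iff_prime_int.mp hℓ)).mpr hdv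
      · have : (ℓ : ℤ) * w1 j - w1 j = (ℓ - 1) * w1 j := by ring
        rw [this]; exact hℓN.mul_right _
  choose g hg hφg using hinv
  have h2 := h1 ⟨upar a c (ℓ * s), upar_mem a c _ (hs.mul_left _)⟩ 1
  simp only [one_smul] at h2
  have h3 : ∑ j, u (del ℓ * emb (z j) * (emb (upar a c (ℓ * s)) * 1)) =
      (∑ j, φ (Additive.ofMul (g j))) + ∑ j, u (del ℓ * emb (z j) * 1) := by
    rw [← Finset.sum_add_distrib]
    refine Finset.sum_congr rfl fun j _ => ?_
    rw [← mul_assoc, hg, mul_assoc, hu]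
  rw [h3] at h2
  rw [← add_right_cancel h2]
  simp only [hφg]
  rw [← Finset.sum_smul]
  congr 1
  -- counting
  have hN0 : ¬ (ℓ : ℤ) ∣ N := fun h => hND (Int.natCast_dvd_natCast.mp h)
  have hpr : Prime (ℓ : ℤ) := Nat.prime_iff_prime_int.mp hℓ
  obtain ⟨j0, hj0, hj0'⟩ : ∃ j0, (ℓ : ℤ) ∣ w2 j0 ∧ ∀ j, (ℓ : ℤ) ∣ w2 j → j = j0 := by
    have hnone : w2 none = N * a + ℓ * c := rfl
    have hsome : ∀ j : Fin ℓ, w2 (some j) = N * (j : ℕ) * a + 1 * c := fun j => rfl
    have huniq : ∀ i j, (ℓ : ℤ) ∣ w2 i → (ℓ : ℤ) ∣ w2 j → i = j := by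
      intro i j hi hj
      apply hz.eq_of
      rw [mem_Gamma0_iff_dvd]
      have e : (z i * (z j)⁻¹) 1 0 = z i 1 0 * z j 1 1 - z i 1 1 * z j 1 0 := by
        rw [Matrix.SpecialLinearGroup.coe_mul, Matrix.mul_apply, Fin.sum_univ_two,
          Matrix.SpecialLinearGroup.coe_inv, Matrix.adjugate_fin_two]
        simp
        ring
      rw [e]
      have hNd : (N : ℤ) ∣ z i 1 0 * z j 1 1 - z i 1 1 * z j 1 0 :=
        dvd_sub ((mem_Gamma0_iff_dvd.mp (hz.mem i)).mul_right _)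
          ((mem_Gamma0_iff_dvd.mp (hz.mem j)).mul_left _)
      have hℓd : (ℓ : ℤ) ∣ z i 1 0 * z j 1 1 - z i 1 1 * z j 1 0 := by
        obtain ⟨p, r, hpr'⟩ := hac
        obtain ⟨k1, hk1⟩ := hi
        obtain ⟨k2, hk2⟩ := hj
        simp only [w2] at hk1 hk2
        -- `(z i)₂ · v = 0`, `(z j)₂ · v = 0` mod `ℓ`
        have e1 : (z i 1 0 * z j 1 1 - z i 1 1 * z j 1 0) * a =
            ℓ * (k1 * z j 1 1 - k2 * z i 1 1) := by
          linear_combination z j 1 1 * hk1 - z i 1 1 * hk2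
        have e2 : (z i 1 0 * z j 1 1 - z i 1 1 * z j 1 0) * c =
            ℓ * (k2 * z i 1 0 - k1 * z j 1 0) := by
          linear_combination z i 1 0 * hk2 - z j 1 0 * hk1
        refine ⟨p * (k1 * z j 1 1 - k2 * z i 1 1) + r * (k2 * z i 1 0 - k1 * z j 1 0), ?_⟩
        linear_combination p * e1 + r * e2 - (z i 1 0 * z j 1 1 - z i 1 1 * z j 1 0) * hpr'
      have hcop : IsCoprime (N : ℤ) (ℓ : ℤ) :=
        ((Prime.coprime_iff_not_dvd hpr).mpr hN0).symm
      push_cast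
      exact hcop.mul_dvd hNd hℓd
    by_cases ha : (ℓ : ℤ) ∣ a
    · refine ⟨none, ?_, fun j hj => huniq _ _ hj ?_⟩ <;>
      · rw [hnone]
        exact dvd_add (ha.mul_left _) (dvd_mul_right _ _)
    · have hNa : IsCoprime ((N : ℤ) * a) (ℓ : ℤ) :=
        (IsCoprime.mul_right ((Prime.coprime_iff_not_dvd hpr).mpr hN0)
          ((Prime.coprime_iff_not_dvd hpr).mpr ha)).symm
      obtain ⟨p, r, hpr'⟩ := hNa
      have hℓpos : (0 : ℤ) < ℓ := by exact_mod_cast hℓ.pos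
      let k : ℤ := (-(p * c)) % ℓ
      have hk0 : 0 ≤ k := Int.emod_nonneg _ hℓpos.ne'
      have hkl : k < ℓ := Int.emod_lt_of_pos _ hℓpos
      have hk : (ℓ : ℤ) ∣ k + p * c := by
        have := Int.emod_add_mul_ediv (-(p * c)) ℓ
        exact ⟨-(-(p * c) / ℓ), by linear_combination this⟩
      let j : Fin ℓ := ⟨k.toNat, by omega⟩
      have hj : ((j : ℕ) : ℤ) = k := Int.toNat_of_nonneg hk0
      have hdj : (ℓ : ℤ) ∣ w2 (some j) := by
        rw [hsome, hj]
        have e : (N : ℤ) * k * a + 1 * c = N * a * (k + p * c) + ℓ * (r * c) := by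
          linear_combination (-c) * hpr'
        rw [e]
        exact dvd_add (hk.mul_left _) (dvd_mul_right _ _)
      exact ⟨some j, hdj, fun i hi => huniq _ _ hi hdj⟩
  have hsum : (∑ j, if (ℓ : ℤ) ∣ w2 j then ℓ * ℓ else 1) =
      ∑ j, (1 + if j = j0 then (ℓ * ℓ - 1) else 0) := by
    refine Finset.sum_congr rfl fun j _ => ?_
    have hℓℓ : 1 ≤ ℓ * ℓ := Nat.one_le_iff_ne_zero.mpr (mul_ne_zero hℓ.ne_zero hℓ.ne_zero)
    by_cases hj : j = j0
    · subst hj
      rw [if_pos hj0, if_pos rfl]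
      omega
    · rw [if_neg hj, if_neg (fun h => hj (hj0' j h))]
  rw [hsum, Finset.sum_add_distrib, Finset.sum_ite_eq' Finset.univ j0]
  simp only [Finset.sum_const, Finset.card_univ, Fintype.card_option, Fintype.card_fin,
    Finset.mem_univ, if_true, smul_eq_mul, mul_one]
  have hℓℓ : 1 ≤ ℓ * ℓ := Nat.one_le_iff_ne_zero.mpr (mul_ne_zero hℓ.ne_zero hℓ.ne_zero)
  rw [mul_add, mul_one]
  omega

/-- **The boundary is Eisenstein.** -/
theorem heckeLin_parabolic {R : Type*} [CommRing R] [Module R A]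
    (hA : ∀ n : ℕ, n ≠ 0 → ∀ x : A, n • x = 0 → x = 0) (hℓ : ℓ.Prime)
    (hℓN : (N : ℤ) ∣ (ℓ : ℤ) - 1) (φ : HM (Gamma0 N) A) {γ : Gamma0 N}
    (hγ : ((γ : SL(2, ℤ)) 0 0 + (γ : SL(2, ℤ)) 1 1) ^ 2 = 4) :
    heckeLin R N A ℓ φ (Additive.ofMul γ) = (ℓ + 1) • φ (Additive.ofMul γ) := by
  have htr : ((γ : SL(2, ℤ)) * γ) 0 0 + ((γ : SL(2, ℤ)) * γ) 1 1 = 2 := by
    have hd := det_eq (γ : SL(2, ℤ))
    simp only [Matrix.SpecialLinearGroup.coe_mul, Matrix.mul_apply, Fin.sum_univ_two]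
    linear_combination hγ - 2 * hd
  obtain ⟨a, c, t, hac, ht⟩ := exists_upar htr
  -- powers
  have h1 : (⟨upar a c (ℓ * (N * t)), upar_mem a c _ ((dvd_mul_right _ _).mul_left _)⟩ : Gamma0 N) =
      γ ^ (2 * N * ℓ) := by
    apply Subtype.ext
    rw [Subgroup.coe_pow]
    change upar a c (ℓ * (N * t)) = _
    rw [mul_assoc, pow_mul, pow_two, ht, upar_pow]
    congr 1
    push_cast; ring
  have h2 : (⟨upar a c (N * t), upar_mem a c _ (dvd_mul_right _ _)⟩ : Gamma0 N) =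
      γ ^ (2 * N) := by
    apply Subtype.ext
    rw [Subgroup.coe_pow]
    change upar a c (N * t) = _
    rw [pow_mul, pow_two, ht, upar_pow]
  have h3 := heckeLin_upar (R := R) hℓ hℓN φ hac (dvd_mul_right (N : ℤ) t)
  rw [h1, h2, ofMul_pow, ofMul_pow, map_nsmul, map_nsmul] at h3
  have h4 : (2 * N * ℓ) • (heckeLin R N A ℓ φ (Additive.ofMul γ) -
      (ℓ + 1) • φ (Additive.ofMul γ)) = 0 := by
    rw [smul_sub, h3, smul_smul, smul_smul]
    rw [show 2 * N * ℓ * (ℓ + 1) = ℓ * (ℓ + 1) * (2 * N) by ring, sub_self]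
  exact sub_eq_zero.mp (hA _ (mul_ne_zero (mul_ne_zero two_ne_zero (NeZero.ne N)) (NeZero.ne ℓ)) _ h4)

end Fermat.Agent.TC
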