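import Mathlib
import Fermat.Agent.TC.Old
import Fermat.Agent.H22.ES
import Fermat.Agent.H05.TransferAut
import Fermat.Agent.H22.GamH

/-!
# Periods of degenerate forms
-/

set_option autoImplicit false
set_option linter.style.haveILetI false
set_option linter.unusedSectionVars false

noncomputable section

namespace Fermat.Agent.TC

open UpperHalfPlane hiding I
open CongruenceSubgroup ModularForm Matrix.SpecialLinearGroup ModularCurve H22 H16 AL IntStr
open ModularCurve.Period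
open scoped MatrixGroups

section Maps

variable (R : Type*) [CommRing R] (M q : ℕ) [NeZero M] [NeZero q] (A : Type*) [AddCommGroup A]
  [Module R A]

/-- restriction from `Γ₀(M)` to `Γ₀(Mq)` -/
def res0 : (Additive (Gamma0 M) →+ A) →ₗ[R] (Additive (Gamma0 (M * q)) →+ A) where
  toFun ψ := ψ.comp (MonoidHom.toAdditive (Subgroup.inclusion (Gamma0_mul_le M q)))
  map_add' _ _ := rfl
  map_smul' _ _ := rfl

/-- the second degeneracy map from `Γ₀(M)` to `Γ₀(Mq)` -/
def deg0 : (Additive (Gamma0 M) →+ A) →ₗ[R] (Additive (Gamma0 (M * q)) →+ A) where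
  toFun ψ := ψ.comp (MonoidHom.toAdditive (degConj M q))
  map_add' _ _ := rfl
  map_smul' _ _ := rfl

variable {R M q A}

lemma res0_apply (ψ : Additive (Gamma0 M) →+ A) (γ : Gamma0 (M * q)) :
    res0 R M q A ψ (Additive.ofMul γ) =
      ψ (Additive.ofMul (Subgroup.inclusion (Gamma0_mul_le M q) γ)) := rfl

lemma deg0_apply (ψ : Additive (Gamma0 M) →+ A) (γ : Gamma0 (M * q)) :
    deg0 R M q A ψ (Additive.ofMul γ) = ψ (Additive.ofMul (degConj M q γ)) := rfl

lemma wConj_degConj (γ : Gamma0 (M * q)) :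
    haveI : NeZero (M * q) := ⟨mul_ne_zero (NeZero.ne M) (NeZero.ne q)⟩
    degConj M q (wConj (M * q) γ) = wConj M (Subgroup.inclusion (Gamma0_mul_le M q) γ) := by
  haveI : NeZero (M * q) := ⟨mul_ne_zero (NeZero.ne M) (NeZero.ne q)⟩
  have hM : (M : ℤ) ≠ 0 := by exact_mod_cast NeZero.ne M
  have hq : (q : ℤ) ≠ 0 := by exact_mod_cast NeZero.ne q
  obtain ⟨c, hc⟩ := H22.mem_Gamma0_iff_dvd.mp γ.2
  apply Subtype.ext
  apply Subtype.ext
  change degMat q (wMat (M * q) ((γ : SL(2, ℤ)) : Matrix (Fin 2) (Fin 2) ℤ)) =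
    wMat M ((γ : SL(2, ℤ)) : Matrix (Fin 2) (Fin 2) ℤ)
  ext i j
  fin_cases i <;> fin_cases j
  · simp [wMat, degMat]
  · simp only [wMat, degMat, Fin.mk_one, Fin.zero_eta, Matrix.of_apply, Matrix.cons_val',
      Matrix.cons_val_zero, Matrix.cons_val_one, Matrix.cons_val_fin_one, Fin.isValue]
    rw [hc]
    push_cast
    rw [Int.mul_ediv_cancel_left _ (mul_ne_zero hM hq), mul_assoc, Int.mul_ediv_cancel_left _ hM]
    ring
  · simp only [wMat, degMat, Fin.mk_one, Fin.zero_eta, Matrix.of_apply, Matrix.cons_val',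
      Matrix.cons_val_zero, Matrix.cons_val_one, Matrix.cons_val_fin_one, Fin.isValue]
    push_cast
    rw [show -((γ : SL(2, ℤ)) 0 1 * ((M : ℤ) * q)) = q * (-((γ : SL(2, ℤ)) 0 1 * M)) by ring,
      Int.mul_ediv_cancel_left _ hq]
  · simp [wMat, degMat]

lemma degConj_jConj (γ : Gamma0 (M * q)) :
    degConj M q (jConjGamma0 (M * q) γ) = jConjGamma0 M (degConj M q γ) := by
  apply Subtype.ext
  apply Subtype.ext
  change degMat q (jConjMat ((γ : SL(2, ℤ)) : Matrix (Fin 2) (Fin 2) ℤ)) =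
    jConjMat (degMat q ((γ : SL(2, ℤ)) : Matrix (Fin 2) (Fin 2) ℤ))
  obtain ⟨c, hc⟩ := H22.dvd_of_mem (N := M) (ℓ := q) γ.2
  have hq : (q : ℤ) ≠ 0 := by exact_mod_cast NeZero.ne q
  ext i j
  fin_cases i <;> fin_cases j
  · simp [degMat, jConjMat]
  · simp [degMat, jConjMat]
  · simp only [degMat, jConjMat, Fin.mk_one, Fin.zero_eta, Matrix.of_apply, Matrix.cons_val',
      Matrix.cons_val_zero, Matrix.cons_val_one, Matrix.cons_val_fin_one, Fin.isValue]
    rw [hc, Int.mul_ediv_cancel_left _ hq, ← mul_neg, Int.mul_ediv_cancel_left _ hq]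
  · simp [degMat, jConjMat]

lemma wLin_deg0 [NeZero (M * q)] (ψ : Additive (Gamma0 M) →+ A) :
    wLin R (M * q) A (deg0 R M q A ψ) = res0 R M q A (wLin R M A ψ) := by
  refine AddMonoidHom.ext fun γ => ?_
  change ψ (Additive.ofMul (degConj M q (wConj (M * q) γ.toMul))) =
    ψ (Additive.ofMul (wConj M (Subgroup.inclusion (Gamma0_mul_le M q) γ.toMul)))
  rw [wConj_degConj]

lemma wLin_res0 [NeZero (M * q)] (ψ : Additive (Gamma0 M) →+ A) :
    wLin R (M * q) A (res0 R M q A ψ) = deg0 R M q A (wLin R M A ψ) := by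
  have h := wLin_deg0 (R := R) (q := q) (wLin R M A ψ)
  rw [wLin_wLin] at h
  rw [← h, wLin_wLin]

lemma charInv_res0 (ψ : Additive (Gamma0 M) →+ A) :
    charInvolution (M * q) R A (res0 R M q A ψ) = res0 R M q A (charInvolution M R A ψ) := rfl

lemma charInv_deg0 (ψ : Additive (Gamma0 M) →+ A) :
    charInvolution (M * q) R A (deg0 R M q A ψ) = deg0 R M q A (charInvolution M R A ψ) := by
  refine AddMonoidHom.ext fun γ => ?_
  change ψ (Additive.ofMul (degConj M q (jConjGamma0 (M * q) γ.toMul))) =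
    ψ (Additive.ofMul (jConjGamma0 M (degConj M q γ.toMul)))
  rw [degConj_jConj]

end Maps

section Periods

variable {M q : ℕ} [NeZero M] [NeZero q] [NeZero (M * q)]

lemma aff_one (z : ℍ) : aff 1 1 0 z = z := by
  apply UpperHalfPlane.ext
  rw [coe_aff one_pos one_pos]
  simp

lemma aff_smul {d : ℕ} [NeZero d] (γ : SL(2, ℤ)) (h : (d : ℤ) ∣ γ 1 0) (z : ℍ) :
    aff d 1 0 (γ • z) = degSL d γ h • aff d 1 0 z := by
  have hd : 0 < d := Nat.pos_of_ne_zero (NeZero.ne d)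
  have hd0 : (d : ℂ) ≠ 0 := by exact_mod_cast hd.ne'
  apply UpperHalfPlane.ext
  obtain ⟨c, hc⟩ := h
  have e3 : degSL d γ ⟨c, hc⟩ 1 0 = c := by
    rw [degSL_one_zero, hc, Int.mul_ediv_cancel_left _ (by exact_mod_cast hd.ne' : (d : ℤ) ≠ 0)]
  have n1 : (γ 1 0 : ℂ) * z + γ 1 1 ≠ 0 := by
    have := denom_ne_zero γ z
    rwa [ModularGroup.denom_apply] at this
  have n2 : (degSL d γ ⟨c, hc⟩ 1 0 : ℂ) * (aff d 1 0 z : ℂ) + degSL d γ ⟨c, hc⟩ 1 1 ≠ 0 := by
    have := denom_ne_zero (degSL d γ ⟨c, hc⟩) (aff d 1 0 z)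
    rwa [ModularGroup.denom_apply] at this
  rw [coe_aff hd one_pos, coe_specialLinearGroup_apply, coe_specialLinearGroup_apply]
  simp only [algebraMap_int_eq, eq_intCast, Complex.ofReal_intCast]
  rw [coe_aff hd one_pos] at n2 ⊢
  rw [e3, degSL_one_one] at n2 ⊢
  rw [degSL_zero_zero, degSL_zero_one]
  rw [hc] at n1 ⊢
  push_cast at n1 n2 ⊢
  rw [add_zero, div_one] at n2 ⊢
  rw [add_zero, div_one, mul_div_assoc', div_eq_div_iff n1 n2]
  ring

lemma periodMap_degen_one (f : CuspForm (Gamma0 M) 2) (h : M * 1 ∣ M * q) :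
    periodMap (M * q) (degen (N := M * q) one_pos h 2 f) = res0 ℂ M q ℂ (periodMap M f) := by
  refine AddMonoidHom.ext fun γ => ?_
  change periodMap (M * q) _ (Additive.ofMul γ.toMul) = periodMap M f
    (Additive.ofMul (Subgroup.inclusion (Gamma0_mul_le M q) γ.toMul))
  rw [periodMap_apply, periodMap_apply]
  have e : (⇑(degen (N := M * q) one_pos h 2 f) : ℍ → ℂ) = ⇑f := by
    funext z
    rw [degen_apply, aff_one]
  rw [e]
  rfl

lemma periodMap_degen_q (f : CuspForm (Gamma0 M) 2) (hq : 0 < q) (h : M * q ∣ M * q) :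
    periodMap (M * q) (degen (N := M * q) hq h 2 f) =
      (q : ℂ)⁻¹ • deg0 ℂ M q ℂ (periodMap M f) := by
  refine AddMonoidHom.ext fun γ' => ?_
  obtain ⟨γ, rfl⟩ := Additive.ofMul.surjective γ'
  change periodMap (M * q) _ (Additive.ofMul γ) = (q : ℂ)⁻¹ * periodMap M f
    (Additive.ofMul (degConj M q γ))
  set g := degen (N := M * q) hq h 2 f with hg
  have hq0 : (q : ℂ) ≠ 0 := by exact_mod_cast hq.ne'
  have hper : ∀ {N : ℕ} [NeZero N] (f : CuspForm (Gamma0 N) 2) (γ : Gamma0 N) (z : ℍ),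
      prim (⇑f) ((γ : SL(2, ℤ)) • z) - prim (⇑f) z = periodMap N f (Additive.ofMul γ) := by
    intro N _ f γ z
    rw [periodMap_apply, ← prim_smul_sub f γ.2 z]
  have h1 : ∀ τ : ℍ, HasDerivAt ((fun z : ℍ => (q : ℂ)⁻¹ * prim (⇑f) (aff q 1 0 z)) ∘ ofComplex)
      (g τ) τ := by
    intro τ
    have h2 := (cuspidal_coe f).hasPrim.isPrim.deriv (aff q 1 0 τ)
    have h3 : HasDerivAt (fun w : ℂ => (q : ℂ) * w) ((q : ℂ) * 1) (τ : ℂ) :=
      (hasDerivAt_id (τ : ℂ)).const_mul (q : ℂ)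
    rw [coe_aff hq one_pos] at h2
    have e1 : ((q : ℂ) * (τ : ℂ) + ((0 : ℤ) : ℂ)) / ((1 : ℕ) : ℂ) = (q : ℂ) * (τ : ℂ) := by simp
    rw [e1] at h2
    have h4 := (h2.comp (τ : ℂ) h3).const_mul ((q : ℂ)⁻¹)
    have e2 : (q : ℂ)⁻¹ * (f (aff q 1 0 τ) * ((q : ℂ) * 1)) = g τ := by
      rw [hg, degen_apply]
      field_simp
    rw [e2] at h4
    refine h4.congr_of_eventuallyEq ?_
    filter_upwards [isOpen_upperHalfPlaneSet.mem_nhds τ.im_pos] with w hw
    simp only [Function.comp_apply]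
    congr 2
    rw [aff]
    congr 1
    rw [ofComplex_apply_of_im_pos hw]
    simp
  have h5 := exists_const_of_deriv_eq h1 (cuspidal_coe g).hasPrim.isPrim.deriv
    ((γ : SL(2, ℤ)) • UpperHalfPlane.I) UpperHalfPlane.I
  have h6 := hper g γ UpperHalfPlane.I
  have h7 := hper f (degConj M q γ) (aff q 1 0 UpperHalfPlane.I)
  have h8 : ((degConj M q γ : Gamma0 M) : SL(2, ℤ)) = degSL q γ (dvd_of_mem γ.2) := rfl
  rw [h8, ← aff_smul] at h7
  rw [← h6, ← h7]
  linear_combination -h5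

end Periods

end Fermat.Agent.TC
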