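import Mathlib
import Fermat.Agent.TC.TWAlg
import Fermat.Agent.TC.Deg

/-!
# Level change at a Taylor-Wiles prime for `Hom(Γ₀(M), O)`
-/

set_option autoImplicit false
set_option linter.style.haveILetI false
set_option linter.unusedSectionVars false

noncomputable section

universe u

namespace Fermat.Agent.TC

open Matrix.SpecialLinearGroup CongruenceSubgroup H22 IsLocalRing ModularGroup
open scoped MatrixGroups

variable {O : Type u} [CommRing O] [IsDomain O] [IsDiscreteValuationRing O]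
  [IsAdicComplete (maximalIdeal O) O] [Finite (ResidueField O)] {σ : Type} (pr : σ → Nat.Primes)

omit [IsDiscreteValuationRing O] [IsAdicComplete (maximalIdeal O) O] [Finite (ResidueField O)] in
lemma hm_torsionFree {Γ : Subgroup SL(2, ℤ)} (c : O) (hc : c ≠ 0) (x : HM Γ O) (h : c • x = 0) :
    x = 0 := by
  apply hm_ext
  intro γ
  have h1 : c * x (Additive.ofMul γ) = 0 :=
    congrArg (fun F : HM Γ O => F (Additive.ofMul γ)) h
  exact (mul_eq_zero.mp h1).resolve_left hc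

/-- **Level change at a Taylor-Wiles prime.** -/
theorem tw_level {M q : ℕ} [NeZero M] [NeZero q] [NeZero (M * q)] (hq : q.Prime) (hM : ¬ q ∣ M)
    (hpr : Function.Injective pr) (i₀ : σ) (hi₀ : (pr i₀ : ℕ) = q) (a : σ → ResidueField O)
    (α β : ResidueField O) (hαβ : α * β = 1) (ha : a i₀ = α + β) (hne : α ≠ β)
    (hq1 : ((q : ℕ) : ResidueField O) = 1) [DecidableEq σ]
    (hold : ∀ v ∈ locPart (hAct O (M * q) ⊤ O pr) (mx (Function.update a i₀ α)),
      ∃ c : O, c ≠ 0 ∧ ∃ x y : HM (GamH M ⊤) O,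
        c • v = res O O GamHq_le x + Bdeg O M q O y) :
    (∀ v ∈ locPart (hAct O (M * q) ⊤ O pr) (mx (Function.update a i₀ α)),
      tr O O (GamH M ⊤) (GamH (M * q) ⊤) v ∈ locPart (hAct O M ⊤ O pr) (mx a)) ∧
    (∀ v ∈ locPart (hAct O (M * q) ⊤ O pr) (mx (Function.update a i₀ α)),
      tr O O (GamH M ⊤) (GamH (M * q) ⊤) v = 0 → v = 0) ∧
    (∀ x ∈ locPart (hAct O M ⊤ O pr) (mx a),
      ∃ v ∈ locPart (hAct O (M * q) ⊤ O pr) (mx (Function.update a i₀ α)),
        tr O O (GamH M ⊤) (GamH (M * q) ⊤) v = x) := by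
  have hf1 : Module.Finite O (HM (GamH M ⊤) O) := finite_HM _ O O
  have hf2 : Module.Finite O (HM (GamH (M * q) ⊤) O) := finite_HM _ O O
  have hpri : ∀ i, i ≠ i₀ → ((pr i : ℕ)) ≠ q := by
    intro i hi h
    apply hi
    apply hpr
    apply Subtype.ext
    exact h.trans hi₀.symm
  have hX0 : ∀ {N : ℕ} [NeZero N] (x : HM (GamH N ⊤) O),
      hAct O N ⊤ O pr (MvPolynomial.X i₀) x = TH O N ⊤ O q x := by
    intro N _ x
    rw [hAct_X]
    subst hi₀
    rfl
  have hXi : ∀ {N : ℕ} [NeZero N] (i : σ) (x : HM (GamH N ⊤) O),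
      hAct O N ⊤ O pr (MvPolynomial.X i) x =
        haveI : NeZero ((pr i : ℕ)) := ⟨(pr i).2.ne_zero⟩; TH O N ⊤ O (pr i : ℕ) x := by
    intro N _ i x
    rw [hAct_X]
    rfl
  refine tw_bijective (hAct O M ⊤ O pr) (hAct O (M * q) ⊤ O pr)
    (fun c hc x => hm_torsionFree c hc x) (fun c hc x => hm_torsionFree c hc x) i₀
    (res O O GamHq_le) (Bdeg O M q O) (tr O O (GamH M ⊤) (GamH (M * q) ⊤)) (q : O)
    (fun x => ?_) (fun x => ?_) (fun x => ?_) (fun x => ?_) (fun i hi x => ?_) (fun i hi x => ?_)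
    a α β hαβ ha hne (by rw [map_natCast]; exact hq1) hold
  · rw [hX0]
    exact U_res hq x
  · rw [hX0, hX0]
    exact eq_sub_of_add_eq (U_B hq hM x)
  · exact tr_res' hq hM x
  · rw [hX0]
    exact tr_B x
  · rw [hXi, hXi]
    have : NeZero ((pr i : ℕ)) := ⟨(pr i).2.ne_zero⟩
    refine (TH_res_level GamHq_le rfl (pr i).2 ?_ x).symm
    intro h
    exact hpri i hi ((Nat.prime_dvd_prime_iff_eq (pr i).2 hq).mp h)
  · rw [hXi, hXi]
    have : NeZero ((pr i : ℕ)) := ⟨(pr i).2.ne_zero⟩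
    exact (TH_B (pr i).2 hq (hpri i hi) x).symm

end Fermat.Agent.TC
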