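import Mathlib
import Fermat.Agent.TC.PerDeg
import Fermat.Agent.TC.TW
import Fermat.Agent.TC.Boundary

/-!
# The rank input of the level change: new forms at `q` do not contribute
-/

set_option autoImplicit false
set_option linter.style.haveILetI false
set_option linter.unusedSectionVars false

noncomputable section

namespace Fermat.Agent.TC

open CongruenceSubgroup ModularForm Matrix.SpecialLinearGroup ModularCurve H22 H16 AL
open ModularCurve.Period
open scoped MatrixGroups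
open ModularFormClass (qCoeff)

section Actions

variable {D : ℕ}

/-- the action of polynomials in the Hecke operators away from `D` on homomorphisms -/
def evH (D : ℕ) (R : Type*) [CommRing R] (N : ℕ) [NeZero N] (A : Type*) [AddCommGroup A]
    [Module R A] : MvPolynomial (Pr D) ℤ →+* Module.End R (Additive (Gamma0 N) →+ A) :=
  evalComm (fun ℓ : Pr D => heckeOpL R N A ⟨ℓ.1, ℓ.2.1⟩)
    (fun _ _ => heckeOpL_comm R N A _ _)

/-- the action of polynomials in the Hecke operators away from `D` on cusp forms -/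
def evF {N : ℕ} [NeZero N] (h : N ∣ D) :
    MvPolynomial (Pr D) ℤ →+* Module.End ℂ (CuspForm (Gamma0 N) 2) :=
  evalComm (TD h) (fun i j => (TD_comm h i j).eq)

lemma esMap_evF {N : ℕ} [NeZero N] (h : N ∣ D) (s : MvPolynomial (Pr D) ℤ)
    (f : CuspForm (Gamma0 N) 2) :
    esMap N (evF h s f) = evH D ℂ N ℂ s (esMap N f) := by
  refine evalComm_intertwine (evF h) (evH D ℂ N ℂ) (esMap N).toAddMonoidHom (fun ℓ f => ?_) s f
  rw [evF, evH, evalComm_X, evalComm_X]
  have h1 := esMap_heckeGen (N := N) ⟨ℓ.1, ℓ.2.1⟩ f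
  have h2 : ((CuspForm.heckeFormsGen N 2 ⟨ℓ.1, ℓ.2.1⟩ :
      Module.End ℂ (CuspForm (Gamma0 N) 2)) f) = TD h ℓ f := by
    rw [CuspForm.heckeFormsGen_of_not_dvd (fun hh => ℓ.2.2 (hh.trans h))]
    rfl
  rw [h2] at h1
  exact h1

lemma evF_simEig {N : ℕ} [NeZero N] (h : N ∣ D) (χ : Pr D → ℂ) (s : MvPolynomial (Pr D) ℤ)
    {f : CuspForm (Gamma0 N) 2} (hf : f ∈ simEig (TD h) χ) :
    evF h s f = MvPolynomial.aeval χ s • f := by
  rw [mem_simEig] at hf
  induction s using MvPolynomial.induction_on with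
  | C n =>
    rw [← MvPolynomial.algebraMap_eq, eq_intCast, map_intCast, map_intCast, Module.End.intCast_apply,
      Int.cast_smul_eq_zsmul]
  | add P Q hP hQ => rw [map_add, map_add, LinearMap.add_apply, hP, hQ, add_smul]
  | mul_X P i hP =>
    rw [map_mul, map_mul, Module.End.mul_apply, MvPolynomial.aeval_X]
    have h1 : evF h (MvPolynomial.X i) f = χ i • f := by
      rw [evF, evalComm_X]; exact hf i
    rw [h1, map_smul, hP, smul_smul, mul_comm]

/-- the old subspace of cusp forms -/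
def OldF (M q : ℕ) [NeZero M] [NeZero q] [NeZero (M * q)] :
    Submodule ℂ (CuspForm (Gamma0 (M * q)) 2) :=
  LinearMap.range (degen (N := M * q) (M := M) one_pos
    (by rw [mul_one]; exact dvd_mul_right M q) 2) ⊔
  LinearMap.range (degen (N := M * q) (M := M) (Nat.pos_of_ne_zero (NeZero.ne q)) dvd_rfl 2)

/-- the old subspace of homomorphisms -/
def OldH (R : Type*) [CommRing R] (M q : ℕ) [NeZero M] [NeZero q] (A : Type*) [AddCommGroup A]
    [Module R A] : Submodule R (Additive (Gamma0 (M * q)) →+ A) :=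
  LinearMap.range (res0 R M q A) ⊔ LinearMap.range (deg0 R M q A)

variable {M q : ℕ} [NeZero M] [NeZero q] [NeZero (M * q)]

lemma esMap_old {f : CuspForm (Gamma0 (M * q)) 2} (hf : f ∈ OldF M q) :
    esMap (M * q) f ∈ OldH ℂ M q ℂ := by
  unfold OldF at hf
  rw [Submodule.mem_sup] at hf
  obtain ⟨_, ⟨f₁, rfl⟩, _, ⟨f₂, rfl⟩, rfl⟩ := hf
  rw [map_add]
  refine add_mem ?_ ?_
  · rw [esMap_apply, periodMap_degen_one, wLin_res0]
    exact Submodule.mem_sup_right ⟨_, rfl⟩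
  · rw [esMap_apply, periodMap_degen_q, map_smul, wLin_deg0]
    exact Submodule.mem_sup_left (Submodule.smul_mem _ _ ⟨_, rfl⟩)

lemma charInv_old {R : Type*} [CommRing R] {A : Type*} [AddCommGroup A] [Module R A]
    {φ : Additive (Gamma0 (M * q)) →+ A} (hφ : φ ∈ OldH R M q A) :
    charInvolution (M * q) R A φ ∈ OldH R M q A := by
  unfold OldH at hφ
  rw [Submodule.mem_sup] at hφ
  obtain ⟨_, ⟨f₁, rfl⟩, _, ⟨f₂, rfl⟩, rfl⟩ := hφ
  rw [map_add, charInv_res0, charInv_deg0]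
  exact add_mem (Submodule.mem_sup_left ⟨_, rfl⟩) (Submodule.mem_sup_right ⟨_, rfl⟩)

lemma evH_charInv {R : Type*} [CommRing R] {N : ℕ} [NeZero N] {A : Type*} [AddCommGroup A]
    [Module R A] (s : MvPolynomial (Pr D) ℤ) (φ : Additive (Gamma0 N) →+ A) :
    evH D R N A s (charInvolution N R A φ) = charInvolution N R A (evH D R N A s φ) := by
  refine (evalComm_intertwine (evH D R N A) (evH D R N A) (charInvolution N R A).toAddMonoidHom
    (fun ℓ φ => ?_) s φ).symm
  rw [evH, evalComm_X]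
  exact (H05.heckeOpL_charInvolution R N A ⟨ℓ.1, ℓ.2.1⟩ φ).symm

/-- every parabolic homomorphism comes from two cusp forms -/
lemma exists_esMap_pair {N : ℕ} [NeZero N] {ψ : Additive (Gamma0 N) →+ ℂ}
    (hψ : ψ ∈ parabolicHoms ℂ (Gamma0 N) ℂ) :
    ∃ f g : CuspForm (Gamma0 N) 2, ψ = esMap N f + charInvolution N ℂ ℂ (esMap N g) := by
  have h1 := H05.wLin_mem_parabolicHoms ℂ N ℂ hψ
  rw [← (ES.eichlerShimura N).2] at h1
  obtain ⟨⟨f, g⟩, hfg⟩ := h1
  obtain ⟨pml, hpml, hdef⟩ := ModularCurve.periodHomPair_def N H16.existsPeriodMapLinear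
  rw [hdef] at hfg
  simp only [LinearMap.coprod_apply, LinearMap.comp_apply, LinearMap.add_apply,
    LinearMap.sub_apply, LinearMap.id_apply, hpml] at hfg
  have h2 := congrArg (H22.wLin ℂ N ℂ) hfg
  rw [H22.wLin_wLin, map_add, map_add, map_sub, H05.wLin_charInvolution, H05.wLin_charInvolution,
    ← H22.esMap_apply, ← H22.esMap_apply] at h2
  refine ⟨f + g, f - g, ?_⟩
  rw [← h2, map_add, map_sub, map_sub]
  abel

/-- **Killing newforms.** -/
theorem evF_mem_old (hD : D ≠ 0) (hq : q.Prime) (hqM : ¬ q ∣ M) (hND : M * q ∣ D)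
    (s : MvPolynomial (Pr D) ℤ)
    (hs : ∀ χ : Pr D → ℂ, simEig (TD hND) χ ≠ ⊥ →
      (∃ (L : ℕ) (_ : NeZero L) (g : CuspForm (Gamma0 L) 2), L ∣ M * q ∧ q ∣ L ∧ g.IsNewform ∧
        ∀ ℓ : Pr D, qCoeff g ℓ = χ ℓ) → MvPolynomial.aeval χ s = 0)
    (f : CuspForm (Gamma0 (M * q)) 2) : evF hND s f ∈ OldF M q := by
  have hf : f ∈ ⨆ χ, simEig (TD hND) χ := by rw [iSup_simEig]; trivial
  refine Submodule.iSup_induction (fun χ => simEig (TD hND) χ)
    (motive := fun f => evF hND s f ∈ OldF M q) hf ?_ ?_ ?_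
  · intro χ f hf
    rw [evF_simEig hND χ s hf]
    by_cases hbot : simEig (TD hND) χ = ⊥
    · rw [hbot, Submodule.mem_bot] at hf
      rw [hf, smul_zero]
      exact zero_mem _
    by_cases hnew : ∃ (L : ℕ) (_ : NeZero L) (g : CuspForm (Gamma0 L) 2), L ∣ M * q ∧ q ∣ L ∧
        g.IsNewform ∧ ∀ ℓ : Pr D, qCoeff g ℓ = χ ℓ
    · rw [hs χ hbot hnew, zero_smul]
      exact zero_mem _
    · refine Submodule.smul_mem _ _ ?_
      exact exists_old hD hq χ M (M * q) rfl hND hqM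
        (fun L hL g h1 h2 h3 h4 => hnew ⟨L, hL, g, h1, h2, h3, h4⟩) f hf
  · rw [map_zero]; exact zero_mem _
  · intro f g hf hg
    rw [map_add]
    exact add_mem hf hg

theorem evH_mem_old (hD : D ≠ 0) (hq : q.Prime) (hqM : ¬ q ∣ M) (hND : M * q ∣ D)
    (s : MvPolynomial (Pr D) ℤ)
    (hs : ∀ χ : Pr D → ℂ, simEig (TD hND) χ ≠ ⊥ →
      (∃ (L : ℕ) (_ : NeZero L) (g : CuspForm (Gamma0 L) 2), L ∣ M * q ∧ q ∣ L ∧ g.IsNewform ∧
        ∀ ℓ : Pr D, qCoeff g ℓ = χ ℓ) → MvPolynomial.aeval χ s = 0)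
    {ψ : Additive (Gamma0 (M * q)) →+ ℂ} (hψ : ψ ∈ parabolicHoms ℂ (Gamma0 (M * q)) ℂ) :
    evH D ℂ (M * q) ℂ s ψ ∈ OldH ℂ M q ℂ := by
  obtain ⟨f, g, rfl⟩ := exists_esMap_pair hψ
  rw [map_add, evH_charInv, ← esMap_evF hND, ← esMap_evF hND]
  exact add_mem (esMap_old (evF_mem_old hD hq hqM hND s hs f))
    (charInv_old (esMap_old (evF_mem_old hD hq hqM hND s hs g)))

end Actions

end Fermat.Agent.TC
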