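import Mathlib
import Fermat.Agent.TC.Rank

/-!
# The rank input of the level change: descent of coefficients
-/

set_option autoImplicit false
set_option linter.style.haveILetI false
set_option linter.unusedSectionVars false

noncomputable section

universe u

namespace Fermat.Agent.TC

open CongruenceSubgroup ModularForm Matrix.SpecialLinearGroup ModularCurve H22 H16 AL
open ModularCurve.Period
open scoped MatrixGroups
open ModularFormClass (qCoeff)

section Functoriality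

variable {D : ℕ}

lemma evH_map {R : Type*} [CommRing R] {N : ℕ} [NeZero N] {A : Type*} [AddCommGroup A] [Module R A]
    {R' : Type*} [CommRing R'] {B : Type*} [AddCommGroup B] [Module R' B]
    (f : A →+ B) (s : MvPolynomial (Pr D) ℤ) (ψ : Additive (Gamma0 N) →+ A) :
    evH D R' N B s (f.comp ψ) = f.comp (evH D R N A s ψ) := by
  let Φ : (Additive (Gamma0 N) →+ A) →+ (Additive (Gamma0 N) →+ B) :=
    { toFun := fun ψ => f.comp ψ
      map_zero' := by ext; simp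
      map_add' := fun a b => by ext; simp }
  refine (evalComm_intertwine (evH D R N A) (evH D R' N B) Φ (fun ℓ ψ => ?_) s ψ).symm
  rw [evH, evH, evalComm_X, evalComm_X]
  have : NeZero (ℓ : ℕ) := ⟨ℓ.2.1.ne_zero⟩
  exact (heckeLin_map f (ℓ : ℕ) ψ).symm

/-- the Eisenstein polynomial `T_ℓ - (ℓ + 1)` -/
def eisP (ℓ : Pr D) : MvPolynomial (Pr D) ℤ := MvPolynomial.X ℓ - MvPolynomial.C ((ℓ : ℤ) + 1)

lemma evH_eisP {R : Type*} [CommRing R] {N : ℕ} [NeZero N] {A : Type*} [AddCommGroup A]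
    [Module R A] (hA : ∀ n : ℕ, n ≠ 0 → ∀ x : A, n • x = 0 → x = 0) (ℓ : Pr D)
    (hℓN : (N : ℤ) ∣ (ℓ : ℤ) - 1) (φ : Additive (Gamma0 N) →+ A) :
    evH D R N A (eisP ℓ) φ ∈ parabolicHoms R (Gamma0 N) A := by
  intro γ hγ
  have : NeZero (ℓ : ℕ) := ⟨ℓ.2.1.ne_zero⟩
  rw [eisP, map_sub, LinearMap.sub_apply, evH, evalComm_X, ← MvPolynomial.algebraMap_eq, eq_intCast,
    map_intCast, Module.End.intCast_apply]
  rw [Matrix.trace_fin_two] at hγ
  have h1 := heckeLin_parabolic (R := R) hA ℓ.2.1 hℓN φ hγ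
  change heckeLin R N A (ℓ : ℕ) φ (Additive.ofMul γ) - ((ℓ : ℤ) + 1) • φ (Additive.ofMul γ) = 0
  rw [h1, sub_eq_zero, ← natCast_zsmul]
  congr 1

lemma evH_mem_parabolic {R : Type*} [CommRing R] {N : ℕ} [NeZero N] {A : Type*} [AddCommGroup A]
    [Module R A] (s : MvPolynomial (Pr D) ℤ) {φ : Additive (Gamma0 N) →+ A}
    (h : φ ∈ parabolicHoms R (Gamma0 N) A) : evH D R N A s φ ∈ parabolicHoms R (Gamma0 N) A := by
  induction s using MvPolynomial.induction_on generalizing φ with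
  | C n =>
    rw [← MvPolynomial.algebraMap_eq, eq_intCast, map_intCast]
    have h1 : ((n : Module.End R (Additive (Gamma0 N) →+ A)) φ) = (n : R) • φ := by
      rw [Module.End.intCast_apply, Int.cast_smul_eq_zsmul]
    rw [h1]
    exact Submodule.smul_mem _ _ h
  | add P Q hP hQ =>
    rw [map_add, LinearMap.add_apply]
    exact Submodule.add_mem _ (hP h) (hQ h)
  | mul_X P ℓ hP =>
    rw [map_mul, Module.End.mul_apply]
    have h1 : evH D R N A (MvPolynomial.X ℓ) = heckeOpL R N A ⟨ℓ.1, ℓ.2.1⟩ := by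
      rw [evH, evalComm_X]
    rw [h1]
    have : NeZero (ℓ : ℕ) := ⟨ℓ.2.1.ne_zero⟩
    exact hP (heckeLin_mem_parabolicHoms R N A ℓ h)

variable {M q : ℕ} [NeZero M] [NeZero q] [NeZero (M * q)]

lemma old_comp {R : Type*} [CommRing R] {A : Type*} [AddCommGroup A] [Module R A]
    {R' : Type*} [CommRing R'] {B : Type*} [AddCommGroup B] [Module R' B] (f : A →+ B)
    {φ : Additive (Gamma0 (M * q)) →+ A} (hφ : φ ∈ OldH R M q A) :
    f.comp φ ∈ OldH R' M q B := by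
  unfold OldH at hφ
  rw [Submodule.mem_sup] at hφ
  obtain ⟨_, ⟨x, rfl⟩, _, ⟨y, rfl⟩, rfl⟩ := hφ
  rw [AddMonoidHom.comp_add]
  exact add_mem (Submodule.mem_sup_left ⟨f.comp x, rfl⟩) (Submodule.mem_sup_right ⟨f.comp y, rfl⟩)

lemma exists_den {G : Type*} [Group G] [Group.FG G] (X : Additive G →+ ℚ) :
    ∃ (c : ℤ) (_ : c ≠ 0) (X' : Additive G →+ ℤ), c • X = (Int.castAddHom ℚ).comp X' := by
  obtain ⟨n, b, φ, _, hφ⟩ := exists_decomposition X
  obtain ⟨c, hc⟩ := IsLocalization.exist_integer_multiples_of_finite (nonZeroDivisors ℤ) b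
  choose m hm using hc
  refine ⟨c, nonZeroDivisors.coe_ne_zero c, ∑ i, m i • φ i, ?_⟩
  refine AddMonoidHom.ext fun g => ?_
  have h1 : (c : ℤ) • X g = ∑ i, φ i g • (((m i : ℤ)) : ℚ) := by
    rw [hφ, Finset.smul_sum]
    refine Finset.sum_congr rfl fun i _ => ?_
    rw [smul_comm, ← show algebraMap ℤ ℚ (m i) = ((m i : ℤ) : ℚ) from eq_intCast _ _, hm i]
  change (c : ℤ) • X g = (((∑ i, m i • φ i : Additive G →+ ℤ) g : ℤ) : ℚ)
  rw [h1, AddMonoidHom.finsetSum_apply]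
  push_cast
  refine Finset.sum_congr rfl fun i _ => ?_
  change φ i g • ((m i : ℤ) : ℚ) = ((m i * φ i g : ℤ) : ℚ)
  rw [zsmul_eq_mul]
  push_cast
  ring

/-- descent from `ℂ` to `ℤ` -/
lemma old_descent {ψ : Additive (Gamma0 (M * q)) →+ ℤ}
    (h : (Int.castAddHom ℂ).comp ψ ∈ OldH ℂ M q ℂ) :
    ∃ c : ℤ, c ≠ 0 ∧ c • ψ ∈ OldH ℤ M q ℤ := by
  unfold OldH at h
  rw [Submodule.mem_sup] at h
  obtain ⟨_, ⟨X, rfl⟩, _, ⟨Y, rfl⟩, hXY⟩ := h
  obtain ⟨r, hr⟩ := LinearMap.exists_leftInverse_of_injective (Algebra.linearMap ℚ ℂ)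
    (LinearMap.ker_eq_bot.mpr (algebraMap ℚ ℂ).injective)
  have hr1 : ∀ x : ℤ, r (x : ℂ) = x := by
    intro x
    have := DFunLike.congr_fun hr (x : ℚ)
    simpa using this
  obtain ⟨c₁, hc₁, X', hX'⟩ := exists_den (r.toAddMonoidHom.comp X)
  obtain ⟨c₂, hc₂, Y', hY'⟩ := exists_den (r.toAddMonoidHom.comp Y)
  refine ⟨c₁ * c₂, mul_ne_zero hc₁ hc₂, ?_⟩
  have key : (c₁ * c₂) • ψ = res0 ℤ M q ℤ (c₂ • X') + deg0 ℤ M q ℤ (c₁ • Y') := by
    refine AddMonoidHom.ext fun γ' => ?_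
    obtain ⟨γ, rfl⟩ := Additive.ofMul.surjective γ'
    have h1 := DFunLike.congr_fun hXY (Additive.ofMul γ)
    have h2 := congrArg r h1
    change r (X (Additive.ofMul (Subgroup.inclusion (Gamma0_mul_le M q) γ)) +
      Y (Additive.ofMul (degConj M q γ))) = r ((ψ (Additive.ofMul γ) : ℤ) : ℂ) at h2
    rw [map_add, hr1] at h2
    have h3 := DFunLike.congr_fun hX' (Additive.ofMul (Subgroup.inclusion (Gamma0_mul_le M q) γ))
    have h4 := DFunLike.congr_fun hY' (Additive.ofMul (degConj M q γ))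
    change c₁ • r (X _) = ((X' _ : ℤ) : ℚ) at h3
    change c₂ • r (Y _) = ((Y' _ : ℤ) : ℚ) at h4
    rw [zsmul_eq_mul] at h3 h4
    change (c₁ * c₂) * ψ (Additive.ofMul γ) =
      c₂ * X' (Additive.ofMul (Subgroup.inclusion (Gamma0_mul_le M q) γ)) +
      c₁ * Y' (Additive.ofMul (degConj M q γ))
    have h5 : (((c₁ * c₂) * ψ (Additive.ofMul γ) : ℤ) : ℚ) =
      ((c₂ * X' (Additive.ofMul (Subgroup.inclusion (Gamma0_mul_le M q) γ)) +
      c₁ * Y' (Additive.ofMul (degConj M q γ)) : ℤ) : ℚ) := by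
      push_cast
      rw [← h3, ← h4, ← h2]
      ring
    exact_mod_cast h5
  rw [key]
  exact add_mem (Submodule.mem_sup_left ⟨_, rfl⟩) (Submodule.mem_sup_right ⟨_, rfl⟩)

/-- The rank input over `Γ₀(Mq)` with torsion free coefficients. -/
theorem evH_old {R : Type*} [CommRing R] {A : Type*} [AddCommGroup A]
    [Module R A] [Module.IsTorsionFree ℤ A] (w : MvPolynomial (Pr D) ℤ)
    (hw : ∀ ψ : Additive (Gamma0 (M * q)) →+ ℂ, evH D ℂ (M * q) ℂ w ψ ∈ OldH ℂ M q ℂ)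
    (φ : Additive (Gamma0 (M * q)) →+ A) :
    ∃ c : ℤ, c ≠ 0 ∧ c • evH D R (M * q) A w φ ∈ OldH R M q A := by
  obtain ⟨n, b, ψ, _, hφ⟩ := exists_decomposition φ
  have hdecomp : φ = ∑ i, ((smulAddHom ℤ A).flip (b i)).comp (ψ i) := by
    refine AddMonoidHom.ext fun g => ?_
    rw [hφ g, AddMonoidHom.finsetSum_apply]
    rfl
  have h1 : evH D R (M * q) A w φ =
      ∑ i, ((smulAddHom ℤ A).flip (b i)).comp (evH D ℤ (M * q) ℤ w (ψ i)) := by
    rw [hdecomp, map_sum]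
    exact Finset.sum_congr rfl fun i _ => evH_map _ _ _
  rw [h1]
  refine Finset.sum_induction _
    (fun x : Additive (Gamma0 (M * q)) →+ A => ∃ c : ℤ, c ≠ 0 ∧ c • x ∈ OldH R M q A) ?_ ?_ ?_
  · rintro x y ⟨c, hc, hx⟩ ⟨d, hd, hy⟩
    refine ⟨c * d, mul_ne_zero hc hd, ?_⟩
    have h2 : (c * d) • (x + y) = (d : R) • (c • x) + (c : R) • (d • y) := by
      rw [smul_add, Int.cast_smul_eq_zsmul, Int.cast_smul_eq_zsmul, smul_smul, smul_smul,
        mul_comm d c]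
    rw [h2]
    exact add_mem (Submodule.smul_mem _ _ hx) (Submodule.smul_mem _ _ hy)
  · exact ⟨1, one_ne_zero, by rw [smul_zero]; exact zero_mem _⟩
  · intro i _
    have h3 : (Int.castAddHom ℂ).comp (evH D ℤ (M * q) ℤ w (ψ i)) ∈ OldH ℂ M q ℂ := by
      rw [← evH_map (R := ℤ) (R' := ℂ)]
      exact hw _
    obtain ⟨c, hc, h4⟩ := old_descent h3
    refine ⟨c, hc, ?_⟩
    have h5 := old_comp (R' := R) ((smulAddHom ℤ A).flip (b i)) h4
    have h6 : ((smulAddHom ℤ A).flip (b i)).comp (c • evH D ℤ (M * q) ℤ w (ψ i)) =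
        c • ((smulAddHom ℤ A).flip (b i)).comp (evH D ℤ (M * q) ℤ w (ψ i)) := by
      refine AddMonoidHom.ext fun g => ?_
      change (c * (evH D ℤ (M * q) ℤ w (ψ i)) g) • b i = c • ((evH D ℤ (M * q) ℤ w (ψ i)) g • b i)
      rw [mul_smul]
    rwa [h6] at h5

end Functoriality

section Transport

variable {R : Type*} [CommRing R] {N : ℕ} {A : Type*} [AddCommGroup A] [Module R A] [NeZero N]

variable (R N A) in
/-- transport from `Γ₀(N)` to `Γ_⊤(N)` -/
def eT [NeZero N] : (Additive (Gamma0 N) →+ A) →ₗ[R] HM (GamH N ⊤) A :=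
  res A R (GamH_top (N := N)).le

lemma eT_apply (ψ : Additive (Gamma0 N) →+ A) (γ : GamH N ⊤) :
    eT R N A ψ (Additive.ofMul γ) =
      ψ (Additive.ofMul (⟨(γ : SL(2, ℤ)), (GamH_top (N := N)).le γ.2⟩ : Gamma0 N)) := rfl

lemma eT_surjective (x : HM (GamH N ⊤) A) : ∃ ψ : Additive (Gamma0 N) →+ A, eT R N A ψ = x := by
  refine ⟨res A R (GamH_top (N := N)).ge x, ?_⟩
  apply hm_ext
  intro γ
  rfl

lemma TH_eT {ℓ : ℕ} [NeZero ℓ] (ψ : Additive (Gamma0 N) →+ A) :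
    TH R N ⊤ A ℓ (eT R N A ψ) = eT R N A (heckeLin R N A ℓ ψ) := by
  obtain ⟨J, _, z, hz⟩ := exists_reps (GamH N ⊤) (N * ℓ)
  have hz' : IsReps (Gamma0 N) (N * ℓ) z :=
    ⟨fun j => (GamH_top (N := N)).le (hz.mem j),
      fun g hg => hz.uniq g ((GamH_top (N := N)).ge hg)⟩
  have h1 := (rep_res (R := R) (A := A) (GamH_top (N := N)).le).comp (rep_TH (R := R) (A := A) hz)
  have h2 := (rep_heckeLin (R := R) (A := A) hz').comp
    (rep_res (R := R) (A := A) (GamH_top (N := N)).le)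
  refine h1.ext h2 (Equiv.prodComm _ _) (fun _ => ?_) (fun i => ⟨1, ?_⟩) ψ
  · rfl
  · obtain ⟨j, _⟩ := i
    simp

end Transport

end Fermat.Agent.TC
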