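import Mathlib
import Fermat.Agent.TC.Rank2

/-!
# Level change at a Taylor-Wiles prime, final form
-/

set_option autoImplicit false
set_option linter.style.haveILetI false
set_option linter.unusedSectionVars false

noncomputable section

universe u

namespace Fermat.Agent.TC

open CongruenceSubgroup ModularForm Matrix.SpecialLinearGroup ModularCurve H22 H16 AL
open ModularCurve.Period IsLocalRing
open scoped MatrixGroups
open ModularFormClass (qCoeff)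

section Poly

variable {D : ℕ}

/-- the image of an integral polynomial in the abstract Hecke algebra over `O` -/
def toO (O : Type*) [CommRing O] {σ : Type} (ι : Pr D → σ) :
    MvPolynomial (Pr D) ℤ →+* MvPolynomial σ O :=
  (MvPolynomial.map (Int.castRingHom O)).comp
    (MvPolynomial.rename ι : MvPolynomial (Pr D) ℤ →ₐ[ℤ] MvPolynomial σ ℤ).toRingHom

lemma toO_X (O : Type*) [CommRing O] {σ : Type} (ι : Pr D → σ) (ℓ : Pr D) :
    toO O ι (MvPolynomial.X ℓ) = MvPolynomial.X (ι ℓ) := by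
  change MvPolynomial.map (Int.castRingHom O) (MvPolynomial.rename ι (MvPolynomial.X ℓ)) = _
  rw [MvPolynomial.rename_X, MvPolynomial.map_X]

lemma evR_toO {O : Type*} [CommRing O] [IsLocalRing O] {σ : Type} (ι : Pr D → σ)
    (a : σ → ResidueField O) (s : MvPolynomial (Pr D) ℤ) :
    evR a (toO O ι s) = MvPolynomial.aeval (fun ℓ => a (ι ℓ)) s := by
  have h : (evR a).comp (toO O ι) =
      ((MvPolynomial.aeval (fun ℓ => a (ι ℓ)) : MvPolynomial (Pr D) ℤ →ₐ[ℤ] ResidueField O) :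
        MvPolynomial (Pr D) ℤ →+* ResidueField O) := by
    refine MvPolynomial.ringHom_ext (fun n => ?_) (fun ℓ => ?_)
    · have h1 : (MvPolynomial.C n : MvPolynomial (Pr D) ℤ) = (n : MvPolynomial (Pr D) ℤ) := by
        rw [← MvPolynomial.algebraMap_eq, eq_intCast]
      rw [h1, map_intCast, map_intCast]
    · rw [RingHom.comp_apply, toO_X, evR_X]
      exact (MvPolynomial.aeval_X (R := ℤ) (fun ℓ => a (ι ℓ)) ℓ).symm
  exact DFunLike.congr_fun h s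

lemma hAct_toO {O : Type u} [CommRing O] {σ : Type} (pr : σ → Nat.Primes) (ι : Pr D → σ)
    (hι : ∀ ℓ, ((pr (ι ℓ) : ℕ)) = ℓ) {N : ℕ} [NeZero N] {A : Type u} [AddCommGroup A] [Module O A]
    (s : MvPolynomial (Pr D) ℤ) (ψ : Additive (Gamma0 N) →+ A) :
    hAct O N ⊤ A pr (toO O ι s) (eT O N A ψ) = eT O N A (evH D O N A s ψ) := by
  refine (evalComm_intertwine (evH D O N A)
    ((hAct O N ⊤ A pr).toRingHom.comp (toO O ι))
    (eT O N A).toAddMonoidHom (fun ℓ ψ => ?_) s ψ).symm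
  rw [RingHom.comp_apply, toO_X]
  change eT O N A (evH D O N A (MvPolynomial.X ℓ) ψ) =
    hAct O N ⊤ A pr (MvPolynomial.X (ι ℓ)) (eT O N A ψ)
  rw [hAct_X, evH, evalComm_X]
  have : NeZero (ℓ : ℕ) := ⟨ℓ.2.1.ne_zero⟩
  have h1 := TH_eT (R := O) (ℓ := (ℓ : ℕ)) ψ
  have h2 : pr (ι ℓ) = ⟨ℓ.1, ℓ.2.1⟩ := Subtype.ext (hι ℓ)
  rw [h2]
  exact h1.symm

end Poly

section Main

variable {O : Type u} [CommRing O] [IsDomain O] [IsDiscreteValuationRing O] [CharZero O]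
  [IsAdicComplete (maximalIdeal O) O] [Finite (ResidueField O)] {σ : Type} (pr : σ → Nat.Primes)
  {D : ℕ} {M q : ℕ} [NeZero M] [NeZero q] [NeZero (M * q)]

/-- a single polynomial killing all the systems that are new at `q` -/
lemma exists_killer (hND : M * q ∣ D) (k : Type*) [Field k] (b : Pr D → k)
    (hnew : ∀ (L : ℕ) (_ : NeZero L) (g : CuspForm (Gamma0 L) 2), L ∣ M * q → q ∣ L →
      g.IsNewform → ∃ s : MvPolynomial (Pr D) ℤ,
        MvPolynomial.aeval (fun ℓ : Pr D => qCoeff g ℓ) s = 0 ∧ MvPolynomial.aeval b s ≠ 0) :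
    ∃ s : MvPolynomial (Pr D) ℤ, MvPolynomial.aeval b s ≠ 0 ∧
      ∀ χ : Pr D → ℂ, simEig (TD hND) χ ≠ ⊥ →
      (∃ (L : ℕ) (_ : NeZero L) (g : CuspForm (Gamma0 L) 2), L ∣ M * q ∧ q ∣ L ∧ g.IsNewform ∧
        ∀ ℓ : Pr D, qCoeff g ℓ = χ ℓ) → MvPolynomial.aeval χ s = 0 := by
  classical
  have hfd : FiniteDimensional ℂ (CuspForm (Gamma0 (M * q)) 2) :=
    H22.finiteDimensional_cuspForm (M * q) 2
  have hfin : {χ | simEig (TD hND) χ ≠ ⊥}.Finite :=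
    WellFoundedGT.finite_ne_bot_of_iSupIndep (simEig_indep _ (TD_comm hND))
  have hex : ∀ χ : Pr D → ℂ, ∃ s : MvPolynomial (Pr D) ℤ, MvPolynomial.aeval b s ≠ 0 ∧
      ((∃ (L : ℕ) (_ : NeZero L) (g : CuspForm (Gamma0 L) 2), L ∣ M * q ∧ q ∣ L ∧ g.IsNewform ∧
        ∀ ℓ : Pr D, qCoeff g ℓ = χ ℓ) → MvPolynomial.aeval χ s = 0) := by
    intro χ
    by_cases h : ∃ (L : ℕ) (_ : NeZero L) (g : CuspForm (Gamma0 L) 2), L ∣ M * q ∧ q ∣ L ∧
        g.IsNewform ∧ ∀ ℓ : Pr D, qCoeff g ℓ = χ ℓ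
    · obtain ⟨L, hL, g, h1, h2, h3, h4⟩ := h
      obtain ⟨s, hs, hs'⟩ := hnew L hL g h1 h2 h3
      refine ⟨s, hs', fun _ => ?_⟩
      rw [← hs]
      congr 2
      funext ℓ
      exact (h4 ℓ).symm
    · exact ⟨1, by rw [map_one]; exact one_ne_zero, fun h' => absurd h' h⟩
  choose s hs hs' using hex
  refine ⟨∏ χ ∈ hfin.toFinset, s χ, ?_, ?_⟩
  · rw [map_prod]
    exact Finset.prod_ne_zero_iff.mpr fun χ _ => hs χ
  · intro χ hχ hnewχ
    rw [map_prod]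
    exact Finset.prod_eq_zero (hfin.mem_toFinset.mpr hχ) (hs' χ hnewχ)

/-- **The rank input.** -/
theorem hold_of (hD : D ≠ 0) (hq : q.Prime) (hM : ¬ q ∣ M) (hND : M * q ∣ D)
    (ι : Pr D → σ) (hι : ∀ ℓ, ((pr (ι ℓ) : ℕ)) = ℓ) (a : σ → ResidueField O)
    (hnew : ∀ (L : ℕ) (_ : NeZero L) (g : CuspForm (Gamma0 L) 2), L ∣ M * q → q ∣ L →
      g.IsNewform → ∃ s : MvPolynomial (Pr D) ℤ,
        MvPolynomial.aeval (fun ℓ : Pr D => qCoeff g ℓ) s = 0 ∧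
        MvPolynomial.aeval (fun ℓ : Pr D => a (ι ℓ)) s ≠ 0)
    (ℓ₀ : Pr D) (hℓ₀ : ((M * q : ℕ) : ℤ) ∣ (ℓ₀ : ℤ) - 1)
    (hℓ₀' : a (ι ℓ₀) ≠ ((ℓ₀ : ℕ) : ResidueField O) + 1) :
    ∀ v ∈ locPart (hAct O (M * q) ⊤ O pr) (mx a),
      ∃ c : O, c ≠ 0 ∧ ∃ x y : HM (GamH M ⊤) O,
        c • v = res O O GamHq_le x + Bdeg O M q O y := by
  intro v hv
  obtain ⟨s, hs, hs'⟩ := exists_killer hND (ResidueField O) (fun ℓ : Pr D => a (ι ℓ)) hnew
  set w : MvPolynomial (Pr D) ℤ := s * eisP ℓ₀ with hw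
  have hwC : ∀ ψ : Additive (Gamma0 (M * q)) →+ ℂ, evH D ℂ (M * q) ℂ w ψ ∈ OldH ℂ M q ℂ := by
    intro ψ
    rw [hw, map_mul, Module.End.mul_apply]
    refine evH_mem_old hD hq hM hND s hs' (evH_eisP (fun n hn x hx => ?_) ℓ₀ hℓ₀ ψ)
    exact (smul_eq_zero.mp hx).resolve_left hn
  have hwm : toO O ι w ∉ mx a := by
    rw [mem_mx, evR_toO, hw, map_mul]
    refine mul_ne_zero hs ?_
    rw [eisP, map_sub, MvPolynomial.aeval_X, MvPolynomial.aeval_C]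
    rw [sub_ne_zero]
    convert hℓ₀' using 1
    simp
  obtain ⟨y, hy⟩ := mem_locPart.mp hv _ hwm
  obtain ⟨ψ, rfl⟩ := eT_surjective (R := O) y
  rw [hAct_toO pr ι hι] at hy
  haveI : Module.IsTorsionFree ℤ O := inferInstance
  obtain ⟨c, hc, hcm⟩ := evH_old (R := O) (A := O) w hwC ψ
  unfold OldH at hcm
  rw [Submodule.mem_sup] at hcm
  obtain ⟨_, ⟨x, rfl⟩, _, ⟨z, rfl⟩, hxz⟩ := hcm
  refine ⟨(c : O), by exact_mod_cast hc, eT O M O x, eT O M O z, ?_⟩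
  rw [← hy, Int.cast_smul_eq_zsmul, ← map_zsmul, ← hxz, map_add]
  congr 1

/-- **Level change at a Taylor-Wiles prime.** -/
theorem tw_level' (hD : D ≠ 0) (hq : q.Prime) (hM : ¬ q ∣ M) (hND : M * q ∣ D)
    (hpr : Function.Injective pr) (ι : Pr D → σ) (hι : ∀ ℓ, ((pr (ι ℓ) : ℕ)) = ℓ)
    (i₀ : σ) (hi₀ : (pr i₀ : ℕ) = q) (a : σ → ResidueField O)
    (α β : ResidueField O) (hαβ : α * β = 1) (ha : a i₀ = α + β) (hne : α ≠ β)
    (hq1 : ((q : ℕ) : ResidueField O) = 1) [DecidableEq σ]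
    (hnew : ∀ (L : ℕ) (_ : NeZero L) (g : CuspForm (Gamma0 L) 2), L ∣ M * q → q ∣ L →
      g.IsNewform → ∃ s : MvPolynomial (Pr D) ℤ,
        MvPolynomial.aeval (fun ℓ : Pr D => qCoeff g ℓ) s = 0 ∧
        MvPolynomial.aeval (fun ℓ : Pr D => a (ι ℓ)) s ≠ 0)
    (ℓ₀ : Pr D) (hℓ₀ : ((M * q : ℕ) : ℤ) ∣ (ℓ₀ : ℤ) - 1)
    (hℓ₀' : a (ι ℓ₀) ≠ ((ℓ₀ : ℕ) : ResidueField O) + 1) :
    (∀ v ∈ locPart (hAct O (M * q) ⊤ O pr) (mx (Function.update a i₀ α)),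
      tr O O (GamH M ⊤) (GamH (M * q) ⊤) v ∈ locPart (hAct O M ⊤ O pr) (mx a)) ∧
    (∀ v ∈ locPart (hAct O (M * q) ⊤ O pr) (mx (Function.update a i₀ α)),
      tr O O (GamH M ⊤) (GamH (M * q) ⊤) v = 0 → v = 0) ∧
    (∀ x ∈ locPart (hAct O M ⊤ O pr) (mx a),
      ∃ v ∈ locPart (hAct O (M * q) ⊤ O pr) (mx (Function.update a i₀ α)),
        tr O O (GamH M ⊤) (GamH (M * q) ⊤) v = x) := by
  have hne₀ : ∀ ℓ : Pr D, ι ℓ ≠ i₀ := by
    intro ℓ h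
    have h1 := hι ℓ
    rw [h, hi₀] at h1
    exact ℓ.2.2 (h1 ▸ (dvd_mul_left q M).trans hND)
  refine tw_level pr hq hM hpr i₀ hi₀ a α β hαβ ha hne hq1 ?_
  refine hold_of pr hD hq hM hND ι hι (Function.update a i₀ α) ?_ ℓ₀ hℓ₀ ?_
  · intro L hL g h1 h2 h3
    obtain ⟨s, hs, hs'⟩ := hnew L hL g h1 h2 h3
    refine ⟨s, hs, ?_⟩
    have h4 : (fun ℓ : Pr D => Function.update a i₀ α (ι ℓ)) = fun ℓ : Pr D => a (ι ℓ) := by
      funext ℓ
      exact Function.update_of_ne (hne₀ ℓ) _ _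
    rw [h4]
    exact hs'
  · rw [Function.update_of_ne (hne₀ ℓ₀)]
    exact hℓ₀'

end Main

end Fermat.Agent.TC
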