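import Mathlib
import Fermat.Agent.TC.Rank3

/-!
# Level change at several Taylor-Wiles primes
-/

set_option autoImplicit false
set_option linter.style.haveILetI false
set_option linter.unusedSectionVars false

noncomputable section

universe u

namespace Fermat.Agent.TC

open CongruenceSubgroup ModularForm Matrix.SpecialLinearGroup ModularCurve H22 H16 AL
open IsLocalRing
open scoped MatrixGroups
open ModularFormClass (qCoeff)

variable {O : Type u} [CommRing O] [IsDomain O] [IsDiscreteValuationRing O] [CharZero O]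
  [IsAdicComplete (maximalIdeal O) O] [Finite (ResidueField O)] {σ : Type} (pr : σ → Nat.Primes)
  {D : ℕ}

/-- the transfer identifies the `m`-parts -/
def TrIso (O : Type u) [CommRing O] [IsDomain O] [IsDiscreteValuationRing O] {σ : Type}
    (pr : σ → Nat.Primes) (N M : ℕ) [NeZero N] [NeZero M] (a a' : σ → ResidueField O) : Prop :=
    (∀ v ∈ locPart (hAct O M ⊤ O pr) (mx a'),
      tr O O (GamH N ⊤) (GamH M ⊤) v ∈ locPart (hAct O N ⊤ O pr) (mx a)) ∧
    (∀ v ∈ locPart (hAct O M ⊤ O pr) (mx a'),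
      tr O O (GamH N ⊤) (GamH M ⊤) v = 0 → v = 0) ∧
    (∀ x ∈ locPart (hAct O N ⊤ O pr) (mx a),
      ∃ v ∈ locPart (hAct O M ⊤ O pr) (mx a'),
        tr O O (GamH N ⊤) (GamH M ⊤) v = x)

lemma GamH_top_le {N M : ℕ} (h : N ∣ M) : GamH M ⊤ ≤ GamH N ⊤ := by
  obtain ⟨m, rfl⟩ := h
  exact GamHq_le

lemma TrIso.trans {N M L : ℕ} [NeZero N] [NeZero M] [NeZero L] {a b c : σ → ResidueField O}
    (hNM : N ∣ M) (hML : M ∣ L) (h1 : TrIso O pr N M a b) (h2 : TrIso O pr M L b c) :
    TrIso O pr N L a c := by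
  have key : ∀ v : HM (GamH L ⊤) O, tr O O (GamH N ⊤) (GamH L ⊤) v =
      tr O O (GamH N ⊤) (GamH M ⊤) (tr O O (GamH M ⊤) (GamH L ⊤) v) := fun v =>
    (tr_trans (GamH_top_le hML) (GamH_top_le hNM) v).symm
  refine ⟨fun v hv => ?_, fun v hv h0 => ?_, fun x hx => ?_⟩
  · rw [key]
    exact h1.1 _ (h2.1 v hv)
  · rw [key] at h0
    exact h2.2.1 v hv (h1.2.1 _ (h2.1 v hv) h0)
  · obtain ⟨y, hy, rfl⟩ := h1.2.2 x hx
    obtain ⟨v, hv, rfl⟩ := h2.2.2 y hy
    exact ⟨v, hv, key v⟩

lemma TrIso.refl (N : ℕ) [NeZero N] (a : σ → ResidueField O) : TrIso O pr N N a a := by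
  have key : ∀ v : HM (GamH N ⊤) O, tr O O (GamH N ⊤) (GamH N ⊤) v = v := by
    intro v
    have h1 := rep_tr_of (R := O) (A := O) (Γ := GamH N ⊤) (Γ' := GamH N ⊤) (J := Unit)
      (z := fun _ => 1) (fun _ => one_mem _) (fun g hg => ⟨(), by simpa using hg, fun _ _ => rfl⟩)
    have h2 := rep_res (R := O) (A := O) (le_refl (GamH N ⊤))
    exact h1.ext h2 (Equiv.refl _) (fun _ => rfl) (fun _ => ⟨1, by simp⟩) v
  refine ⟨fun v hv => ?_, fun v hv h0 => ?_, fun x hx => ?_⟩
  · rw [key]; exact hv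
  · rw [key] at h0; exact h0
  · exact ⟨x, hx, key x⟩

/-- **Level change at several Taylor-Wiles primes.** -/
theorem tw_levels (hD : D ≠ 0) (hpr : Function.Injective pr)
    (ι : Pr D → σ) (hι : ∀ ℓ, ((pr (ι ℓ) : ℕ)) = ℓ) (N : ℕ) [NeZero N] :
    ∀ (r : ℕ) (q : Fin r → ℕ) (M : ℕ) [NeZero M] (_ : M = N * ∏ j, q j) (_ : M ∣ D)
      (_ : ∀ j, (q j).Prime) (_ : ∀ j, ¬ q j ∣ N) (_ : Function.Injective q)
      (_ : ∀ j, ((q j : ℕ) : ResidueField O) = 1)
      (i : Fin r → σ) (_ : ∀ j, (pr (i j) : ℕ) = q j)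
      (a a' : σ → ResidueField O) (_ : ∀ x, (∀ j, i j ≠ x) → a' x = a x)
      (β : Fin r → ResidueField O) (_ : ∀ j, a' (i j) * β j = 1) (_ : ∀ j, a (i j) = a' (i j) + β j)
      (_ : ∀ j, a' (i j) ≠ β j)
      (_ : ∀ (L : ℕ) (_ : NeZero L) (g : CuspForm (Gamma0 L) 2), L ∣ M → (∃ j, q j ∣ L) →
        g.IsNewform → ∃ s : MvPolynomial (Pr D) ℤ,
          MvPolynomial.aeval (fun ℓ : Pr D => qCoeff g ℓ) s = 0 ∧
          MvPolynomial.aeval (fun ℓ : Pr D => a (ι ℓ)) s ≠ 0)
      (ℓ₀ : Pr D) (_ : (M : ℤ) ∣ (ℓ₀ : ℤ) - 1)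
      (_ : a (ι ℓ₀) ≠ ((ℓ₀ : ℕ) : ResidueField O) + 1),
      TrIso O pr N M a a' := by
  intro r
  induction r with
  | zero =>
    intro q M _ hM _ _ _ _ _ i _ a a' ha' _ _ _ _ _ _ _ _
    have h1 : M = N := by rw [hM]; simp
    have h2 : a' = a := funext fun x => ha' x (fun j => j.elim0)
    subst h1
    rw [h2]
    exact TrIso.refl pr _ a
  | succ r ih =>
    intro q M _ hM hMD hq hqN hqinj hq1 i hi a a' ha' β hβ haβ hne hnew ℓ₀ hℓ₀ hℓ₀'
    classical
    set M₁ := N * ∏ j : Fin r, q j.castSucc with hM₁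
    have hM' : M = M₁ * q (Fin.last r) := by
      rw [hM, Fin.prod_univ_castSucc, hM₁, mul_assoc]
    have hM₁0 : M₁ ≠ 0 := by
      intro h
      exact NeZero.ne M (by rw [hM', h, zero_mul])
    haveI : NeZero M₁ := ⟨hM₁0⟩
    haveI : NeZero (q (Fin.last r)) := ⟨(hq _).ne_zero⟩
    have hdvd : M₁ ∣ M := by rw [hM']; exact dvd_mul_right _ _
    have hqM₁ : ¬ q (Fin.last r) ∣ M₁ := by
      intro h
      rw [hM₁] at h
      rcases (Nat.Prime.dvd_mul (hq _)).mp h with h | h
      · exact hqN _ h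
      · rw [(Nat.Prime.prime (hq _)).dvd_finsetProd_iff] at h
        obtain ⟨j, _, hj⟩ := h
        have h2 := (Nat.prime_dvd_prime_iff_eq (hq _) (hq _)).mp hj
        have h3 := hqinj h2
        exact (Fin.castSucc_lt_last j).ne h3.symm
    have hiinj : Function.Injective i := by
      intro j j' h
      apply hqinj
      rw [← hi, ← hi, h]
    -- the intermediate system
    set b : σ → ResidueField O := Function.update a' (i (Fin.last r)) (a (i (Fin.last r))) with hb
    have hb1 : ∀ x, x ≠ i (Fin.last r) → b x = a' x := fun x hx => Function.update_of_ne hx _ _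
    have hb2 : b (i (Fin.last r)) = a (i (Fin.last r)) := Function.update_self _ _ _
    have hne' : ∀ j : Fin r, i j.castSucc ≠ i (Fin.last r) := fun j h =>
      (Fin.castSucc_lt_last j).ne (hiinj h)
    have hba' : Function.update b (i (Fin.last r)) (a' (i (Fin.last r))) = a' := by
      funext x
      by_cases hx : x = i (Fin.last r)
      · rw [hx, Function.update_self]
      · rw [Function.update_of_ne hx, hb1 x hx]
    have hιi : ∀ (ℓ : Pr D) (j : Fin (r + 1)), ι ℓ ≠ i j := by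
      intro ℓ j h
      have h1 := hι ℓ
      rw [h, hi] at h1
      apply ℓ.2.2
      rw [← h1]
      refine dvd_trans ?_ hMD
      rw [hM]
      exact (Finset.dvd_prod_of_mem q (Finset.mem_univ j)).mul_left N
    have hbι : ∀ ℓ : Pr D, b (ι ℓ) = a (ι ℓ) := by
      intro ℓ
      rw [hb1 _ (hιi ℓ _)]
      exact ha' _ fun j => (hιi ℓ j).symm
    have hlow : TrIso O pr N M₁ a b := by
      refine ih (fun j => q j.castSucc) M₁ hM₁ (hdvd.trans hMD) (fun j => hq _) (fun j => hqN _)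
        (fun j j' h => Fin.castSucc_injective r (hqinj h)) (fun j => hq1 _)
        (fun j => i j.castSucc) (fun j => hi _) a b ?_ (fun j => β j.castSucc) ?_ ?_ ?_ ?_ ℓ₀
        ((Int.natCast_dvd_natCast.mpr hdvd).trans hℓ₀) hℓ₀'
      · intro x hx
        by_cases h : x = i (Fin.last r)
        · rw [h, hb2]
        · rw [hb1 x h]
          refine ha' x fun j => ?_
          induction j using Fin.lastCases with
          | last => exact Ne.symm h
          | cast j => exact hx j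
      · intro j
        rw [hb1 _ (hne' j)]
        exact hβ _
      · intro j
        rw [hb1 _ (hne' j)]
        exact haβ _
      · intro j
        rw [hb1 _ (hne' j)]
        exact hne _
      · intro L hL g h1 h2 h3
        obtain ⟨j, hj⟩ := h2
        exact hnew L hL g (h1.trans hdvd) ⟨_, hj⟩ h3
    have hhigh : TrIso O pr M₁ M b a' := by
      have h1 : TrIso O pr M₁ (M₁ * q (Fin.last r)) b
          (Function.update b (i (Fin.last r)) (a' (i (Fin.last r)))) := by
        refine tw_level' pr hD (hq _) hqM₁ (by rw [← hM']; exact hMD) hpr ι hι (i (Fin.last r))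
          (hi _) b (a' (i (Fin.last r))) (β (Fin.last r)) (hβ _) ?_ (hne _) (hq1 _) ?_ ℓ₀ ?_ ?_
        · rw [hb2]; exact haβ _
        · intro L hL g h1 h2 h3
          obtain ⟨s, hs, hs'⟩ := hnew L hL g (by rw [hM']; exact h1) ⟨_, h2⟩ h3
          refine ⟨s, hs, ?_⟩
          have h4 : (fun ℓ : Pr D => b (ι ℓ)) = fun ℓ : Pr D => a (ι ℓ) := funext hbι
          rw [h4]
          exact hs'
        · rw [← hM']; exact hℓ₀
        · rw [hbι]; exact hℓ₀'
      rw [hba'] at h1
      subst hM'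
      exact h1
    exact TrIso.trans pr (dvd_mul_right _ _) hdvd hlow hhigh

end Fermat.Agent.TC
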