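import Mathlib
import Fermat.Agent.TC.Levels

/-!
# Control theorem for the `m`-parts of `Hom(Γ_H(N), O)`
-/

set_option autoImplicit false
set_option linter.style.haveILetI false
set_option linter.unusedSectionVars false

noncomputable section

universe u

namespace Fermat.Agent.TC

open Matrix.SpecialLinearGroup CongruenceSubgroup H22 IsLocalRing ModularGroup
open scoped MatrixGroups

section Tr

variable {R : Type*} [CommRing R] {N : ℕ} [NeZero N] {H H' H'' : Subgroup (ZMod N)ˣ} {A : Type*}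
  [AddCommGroup A] [Module R A]

/-- transitivity of the transfer -/
lemma tr_tr' (h1 : H ≤ H') (h2 : H' ≤ H'') (x : HM (GamH N H) A) :
    tr A R (GamH N H'') (GamH N H') (tr A R (GamH N H') (GamH N H) x)
      = tr A R (GamH N H'') (GamH N H) x := by
  classical
  let I1 := GamH N H' ⧸ (GamH N H).subgroupOf (GamH N H')
  let I2 := GamH N H'' ⧸ (GamH N H').subgroupOf (GamH N H'')
  let I3 := GamH N H'' ⧸ (GamH N H).subgroupOf (GamH N H'')
  have ha := (rep_tr (R := R) (A := A) (Γ := GamH N H') (Γ' := GamH N H)).comp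
    (rep_tr (R := R) (A := A) (Γ := GamH N H'') (Γ' := GamH N H'))
  have hb := rep_tr (R := R) (A := A) (Γ := GamH N H'') (Γ' := GamH N H)
  let inc : GamH N H' →* GamH N H'' := Subgroup.inclusion (GamH_mono h2)
  let f : I2 × I1 → I3 := fun x => ((x.1.out * inc x.2.out : GamH N H'') : I3)
  have hf : Function.Bijective f := by
    constructor
    · rintro ⟨r, q⟩ ⟨r', q'⟩ h
      have h3 := QuotientGroup.eq.mp h
      rw [Subgroup.mem_subgroupOf] at h3
      -- first the classes in `I2`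
      have hr : r = r' := by
        rw [← QuotientGroup.out_eq' r, ← QuotientGroup.out_eq' r', QuotientGroup.eq,
          Subgroup.mem_subgroupOf]
        have h4 := GamH_mono h1 h3
        have h5 : ((((r.out : GamH N H''))⁻¹ * r'.out : GamH N H'') : SL(2, ℤ)) =
            ((q.out : GamH N H') : SL(2, ℤ)) *
            (((r.out * inc q.out)⁻¹ * (r'.out * inc q'.out) : GamH N H'') : SL(2, ℤ)) *
            ((q'.out : GamH N H') : SL(2, ℤ))⁻¹ := by
          simp only [Subgroup.coe_mul, Subgroup.coe_inv, inc, Subgroup.coe_inclusion]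
          group
        rw [h5]
        exact (GamH N H').mul_mem ((GamH N H').mul_mem (q.out).2 h4) ((GamH N H').inv_mem (q'.out).2)
      subst hr
      have hq : q = q' := by
        rw [← QuotientGroup.out_eq' q, ← QuotientGroup.out_eq' q', QuotientGroup.eq,
          Subgroup.mem_subgroupOf]
        have h5 : ((((q.out : GamH N H'))⁻¹ * q'.out : GamH N H') : SL(2, ℤ)) =
            (((r.out * inc q.out)⁻¹ * (r.out * inc q'.out) : GamH N H'') : SL(2, ℤ)) := by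
          simp only [Subgroup.coe_mul, Subgroup.coe_inv, inc, Subgroup.coe_inclusion]
          group
        rw [h5]
        exact h3
      rw [hq]
    · intro w
      obtain ⟨g, rfl⟩ := QuotientGroup.mk_surjective w
      let r : I2 := (g : I2)
      have hr : (r.out : GamH N H'')⁻¹ * g ∈ (GamH N H').subgroupOf (GamH N H'') := by
        rw [← QuotientGroup.eq, QuotientGroup.out_eq']
      rw [Subgroup.mem_subgroupOf] at hr
      let q : I1 := ((⟨_, hr⟩ : GamH N H') : I1)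
      refine ⟨(r, q), ?_⟩
      refine QuotientGroup.eq.mpr ?_
      rw [Subgroup.mem_subgroupOf]
      have hq : (q.out : GamH N H')⁻¹ * ⟨_, hr⟩ ∈ (GamH N H).subgroupOf (GamH N H') := by
        rw [← QuotientGroup.eq, QuotientGroup.out_eq']
      rw [Subgroup.mem_subgroupOf] at hq
      convert hq using 1
      simp only [Subgroup.coe_mul, Subgroup.coe_inv, inc, Subgroup.coe_inclusion]
      group
  refine ha.ext hb (Equiv.ofBijective f hf) (fun _ => by simp) (fun w => ?_) x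
  obtain ⟨r, q⟩ := w
  have h3 : ((f (r, q)).out : GamH N H'')⁻¹ * (r.out * inc q.out) ∈
      (GamH N H).subgroupOf (GamH N H'') := by
    rw [← QuotientGroup.eq, QuotientGroup.out_eq']
  have h4 := ((GamH N H).subgroupOf (GamH N H'')).inv_mem h3
  rw [Subgroup.mem_subgroupOf] at h4
  refine ⟨⟨_, h4⟩, ?_⟩
  show emb _ * emb _ = emb _ * emb _
  rw [← map_mul, ← map_mul]
  congr 1
  simp only [Subgroup.coe_mul, Subgroup.coe_inv, inc, Subgroup.coe_inclusion, mul_inv_rev, inv_inv]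
  show _ = _ * (((f (r, q)).out : GamH N H'') : SL(2, ℤ))⁻¹
  group

/-- the transfer commutes with diamonds -/
lemma tr_dia_comm (g : Gamma0 N) (x : HM (GamH N H) A) :
    tr A R (GamH N H') (GamH N H) (dia R N H A g x)
      = dia R N H' A g (tr A R (GamH N H') (GamH N H) x) := by
  have h1 := (rep_dia (R := R) (A := A) (H := H) g).comp
    (rep_tr (R := R) (A := A) (Γ := GamH N H') (Γ' := GamH N H))
  have h2 := (rep_tr (R := R) (A := A) (Γ := GamH N H') (Γ' := GamH N H)).comp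
    (rep_dia (R := R) (A := A) (H := H') g)
  refine h1.ext h2 (Equiv.prodComm _ _) (fun _ => by simp) (fun w => ?_) x
  obtain ⟨q, _⟩ := w
  have hq0 := GamH_le_Gamma0 (q.out).2
  have hm : (g : SL(2, ℤ)) * ((q.out : GamH N H') : SL(2, ℤ))⁻¹ * (g : SL(2, ℤ))⁻¹ *
      ((q.out : GamH N H') : SL(2, ℤ)) ∈ GamH N H := by
    refine mem_GamH.mpr ⟨(Gamma0 N).mul_mem ((Gamma0 N).mul_mem ((Gamma0 N).mul_mem g.2
      ((Gamma0 N).inv_mem hq0)) ((Gamma0 N).inv_mem g.2)) hq0, ?_⟩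
    have e : (⟨(g : SL(2, ℤ)) * ((q.out : GamH N H') : SL(2, ℤ))⁻¹ * (g : SL(2, ℤ))⁻¹ *
      ((q.out : GamH N H') : SL(2, ℤ)), (Gamma0 N).mul_mem ((Gamma0 N).mul_mem
      ((Gamma0 N).mul_mem g.2 ((Gamma0 N).inv_mem hq0)) ((Gamma0 N).inv_mem g.2)) hq0⟩ : Gamma0 N)
        = g * ⟨_, hq0⟩⁻¹ * g⁻¹ * ⟨_, hq0⟩ := rfl
    rw [e, map_mul, map_mul, map_mul, map_inv, map_inv, mul_right_comm, mul_assoc (dChar N g),
      inv_mul_cancel, mul_one, mul_inv_cancel]
    exact one_mem _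
  refine ⟨⟨_, hm⟩, ?_⟩
  show emb (g : SL(2, ℤ)) * emb ((q.out : GamH N H') : SL(2, ℤ))⁻¹ = emb _ * (emb ((q.out : GamH N H') : SL(2, ℤ))⁻¹ * emb (g : SL(2, ℤ)))
  rw [← map_mul, ← map_mul, ← map_mul]
  congr 1
  group

end Tr

section Maps

variable {N M : ℕ} [NeZero N] [NeZero M] (hNM : N ∣ M) {H₀ : Subgroup (ZMod N)ˣ}
  {H : Subgroup (ZMod M)ˣ}

lemma unitsMap_dChar (γ : SL(2, ℤ)) (h : γ ∈ Gamma0 M) (h' : γ ∈ Gamma0 N) :
    ZMod.unitsMap hNM (dChar M ⟨γ, h⟩) = dChar N ⟨γ, h'⟩ := by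
  apply Units.ext
  rw [ZMod.unitsMap_val, dChar_val, dChar_val]
  exact ZMod.cast_intCast hNM _

lemma Gamma0_le_of_dvd {N M : ℕ} (hNM : N ∣ M) : Gamma0 M ≤ Gamma0 N := by
  obtain ⟨m, rfl⟩ := hNM
  exact Gamma0_mul_le N m

lemma GamH_le_of_comap (hH : H ≤ H₀.comap (ZMod.unitsMap hNM)) : GamH M H ≤ GamH N H₀ := by
  intro γ hγ
  obtain ⟨h1, h2⟩ := mem_GamH.mp hγ
  refine mem_GamH.mpr ⟨Gamma0_le_of_dvd hNM h1, ?_⟩
  rw [← unitsMap_dChar hNM γ h1]
  exact hH h2

/-- the projection of diamond groups -/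
def prQ (hH : H ≤ H₀.comap (ZMod.unitsMap hNM)) : (ZMod M)ˣ ⧸ H →* (ZMod N)ˣ ⧸ H₀ :=
  QuotientGroup.map H H₀ (ZMod.unitsMap hNM) hH

lemma prQ_surjective (hH : H ≤ H₀.comap (ZMod.unitsMap hNM)) :
    Function.Surjective (prQ hNM hH) := by
  intro x
  obtain ⟨u, rfl⟩ := QuotientGroup.mk_surjective x
  obtain ⟨w, rfl⟩ := ZMod.unitsMap_surjective hNM u
  exact ⟨(w : (ZMod M)ˣ ⧸ H), rfl⟩

variable {R : Type*} [CommRing R] {A : Type*} [AddCommGroup A] [Module R A]

lemma tr_diaQ (hH : H ≤ H₀.comap (ZMod.unitsMap hNM)) (g : (ZMod M)ˣ ⧸ H) (x : HM (GamH M H) A) :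
    tr A R (GamH N H₀) (GamH M H) (diaQ R M H A g x) =
      diaQ R N H₀ A (prQ hNM hH g) (tr A R (GamH N H₀) (GamH M H) x) := by
  obtain ⟨u, rfl⟩ := QuotientGroup.mk_surjective g
  obtain ⟨γ, rfl⟩ := exists_gU M u
  have hγ' : (γ : SL(2, ℤ)) ∈ Gamma0 N := Gamma0_le_of_dvd hNM γ.2
  have h1 : prQ hNM hH ((dChar M γ : (ZMod M)ˣ) : (ZMod M)ˣ ⧸ H) =
      ((dChar N ⟨γ, hγ'⟩ : (ZMod N)ˣ) : (ZMod N)ˣ ⧸ H₀) := by
    rw [← unitsMap_dChar hNM (γ : SL(2, ℤ)) γ.2]
    rfl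
  rw [h1, diaQ_dChar, diaQ_dChar, tr_eq_corHL (GamH_le_of_comap hNM hH),
    tr_eq_corHL (GamH_le_of_comap hNM hH)]
  exact corHL_diamondL R (GamH_le_of_comap hNM hH) A (γ : SL(2, ℤ)) hγ' γ.2 x

end Maps

end Fermat.Agent.TC
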