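import Mathlib
import Fermat.Agent.TC.Control

/-!
# Compatible bases at the levels `Γ_H(M)` and `Γ_{H₀}(N)`
-/

set_option autoImplicit false
set_option linter.style.haveILetI false
set_option linter.unusedSectionVars false

noncomputable section

universe u

namespace Fermat.Agent.TC

open Matrix.SpecialLinearGroup CongruenceSubgroup H22 IsLocalRing ModularGroup
open scoped MatrixGroups

section Lemmas

variable {O : Type u} [CommRing O] {N : ℕ} [NeZero N] {σ : Type} (pr : σ → Nat.Primes)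
  {H : Subgroup (ZMod N)ˣ} {A : Type u} [AddCommGroup A] [Module O A]

lemma diaQ_hAct (g : (ZMod N)ˣ ⧸ H) (t : MvPolynomial σ O) (x : HM (GamH N H) A) :
    diaQ O N H A g (hAct O N H A pr t x) = hAct O N H A pr t (diaQ O N H A g x) := by
  refine act_intertwine (diaQ O N H A g).toAddMonoidHom
    (fun a x => map_smul (diaQ O N H A g) a x) ?_ t x
  intro i x
  show diaQ O N H A g _ = _
  rw [hAct_X]
  have : NeZero ((pr i : ℕ)) := ⟨(pr i).2.ne_zero⟩
  exact diaQ_TH O N H A g (pr i : ℕ) x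

lemma tr_hAct (t : MvPolynomial σ O) (x : HM (GamH N H) A) :
    tr A O (GamH N ⊤) (GamH N H) (hAct O N H A pr t x) =
      hAct O N ⊤ A pr t (tr A O (GamH N ⊤) (GamH N H) x) := by
  refine act_intertwine (tr A O (GamH N ⊤) (GamH N H)).toAddMonoidHom
    (fun a x => map_smul (tr A O (GamH N ⊤) (GamH N H)) a x) ?_ t x
  intro i x
  show tr A O (GamH N ⊤) (GamH N H) _ = _
  rw [hAct_X, hAct_X]
  have : NeZero ((pr i : ℕ)) := ⟨(pr i).2.ne_zero⟩
  exact (TH_tr (pr i : ℕ) x).symm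

end Lemmas

section Main

variable {O : Type u} [CommRing O] [IsDomain O] [IsDiscreteValuationRing O]
  [IsAdicComplete (maximalIdeal O) O] [Finite (ResidueField O)]
  {p : ℕ} [Fact p.Prime] {N M : ℕ} [NeZero N] [NeZero M] {σ : Type} (pr : σ → Nat.Primes)

/-- The control map: transfer followed by the projection to the `m`-part. -/
def ctl (O : Type u) [CommRing O] {N M : ℕ} [NeZero N] [NeZero M] {σ : Type}
    (pr : σ → Nat.Primes) (H₀ : Subgroup (ZMod N)ˣ) (H : Subgroup (ZMod M)ˣ)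
    (e : MvPolynomial σ O) : HM (GamH M H) O →ₗ[O] HM (GamH N H₀) O :=
  (hAct O N H₀ O pr e).comp (tr O O (GamH N H₀) (GamH M H))

lemma ctl_apply (H₀ : Subgroup (ZMod N)ˣ) (H : Subgroup (ZMod M)ˣ)
    (e : MvPolynomial σ O) (x : HM (GamH M H) O) :
    ctl O pr H₀ H e x = hAct O N H₀ O pr e (tr O O (GamH N H₀) (GamH M H) x) := rfl

lemma locPart_fg {M' : Type u} [AddCommGroup M'] [Module O M'] [Module.Finite O M']
    (hM : ∀ (c : O) (x : M'), c ≠ 0 → c • x = 0 → x = 0) (S : Submodule O M') :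
    Module.Free O S ∧ Module.Finite O S := by
  haveI : Module.IsTorsionFree O M' := Module.isTorsionFree_iff_smul_eq_zero.mpr fun c x h => by
    by_contra hcon
    push Not at hcon
    exact hcon.2 (hM c x hcon.1 h)
  haveI : Module.Finite O S := inferInstance
  exact ⟨inferInstance, inferInstance⟩

lemma X_sub_C_nmem (a : σ → ResidueField O) (i₀ : σ) {L : ℕ} [NeZero L] (hi₀ : ¬ (pr i₀ : ℕ) ∣ L)
    (ha₀ : a i₀ ≠ ((pr i₀ : ℕ) : ResidueField O) + 1) :
    haveI : NeZero ((pr i₀ : ℕ)) := ⟨(pr i₀).2.ne_zero⟩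
    (MvPolynomial.X i₀ - MvPolynomial.C (dg L (pr i₀) : O) : MvPolynomial σ O) ∉ mx a := by
  haveI : NeZero ((pr i₀ : ℕ)) := ⟨(pr i₀).2.ne_zero⟩
  rw [mem_mx, map_sub, evR_X, evR_C, dg_eq L (pr i₀).2 hi₀, map_natCast, sub_eq_zero]
  intro h
  apply ha₀
  rw [h]
  push_cast
  rfl

/-- **Compatible bases.** -/
theorem exists_bases (hp2 : p ≠ 2) (hpO : (p : O) ∈ maximalIdeal O) (hNM : N ∣ M)
    {H₀ : Subgroup (ZMod N)ˣ} {H : Subgroup (ZMod M)ˣ} (hH : H ≤ H₀.comap (ZMod.unitsMap hNM))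
    (hΔ : IsPGroup p ((ZMod M)ˣ ⧸ H)) (hellN : Ell p N) (hellM : Ell p M)
    {a a' : σ → ResidueField O} (hTr : TrIso O pr N M a a') (i₀ : σ) (hi₀ : ¬ (pr i₀ : ℕ) ∣ M)
    (ha₀ : a i₀ ≠ ((pr i₀ : ℕ) : ResidueField O) + 1)
    (ha₀' : a' i₀ ≠ ((pr i₀ : ℕ) : ResidueField O) + 1)
    {e : MvPolynomial σ O} (he : Dec (hAct O N H₀ O pr) (mx a) e)
    (he' : Dec (hAct O N ⊤ O pr) (mx a) e)
    {d : ℕ} (b : Fin d → HM (GamH N ⊤) O) (hb : LinearIndependent O b)
    (hb' : locPart (hAct O N ⊤ O pr) (mx a) = Submodule.span O (Set.range b)) :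
    ∃ v : Fin d → HM (GamH M H) O, (∀ i, v i ∈ locPart (hAct O M H O pr) (mx a')) ∧
      (∀ i, tr O O (GamH N ⊤) (GamH N H₀) (ctl O pr H₀ H e (v i)) = b i) ∧
      (LinearIndependent O (fun x : Fin d × ((ZMod M)ˣ ⧸ H) => diaQ O M H O x.2 (v x.1)) ∧
        locPart (hAct O M H O pr) (mx a') = Submodule.span O (Set.range
          (fun x : Fin d × ((ZMod M)ˣ ⧸ H) => diaQ O M H O x.2 (v x.1)))) ∧
      (LinearIndependent O (fun x : Fin d × ((ZMod N)ˣ ⧸ H₀) =>
          diaQ O N H₀ O x.2 (ctl O pr H₀ H e (v x.1))) ∧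
        locPart (hAct O N H₀ O pr) (mx a) = Submodule.span O (Set.range
          (fun x : Fin d × ((ZMod N)ˣ ⧸ H₀) => diaQ O N H₀ O x.2 (ctl O pr H₀ H e (v x.1))))) := by
  have hΔ₀ : IsPGroup p ((ZMod N)ˣ ⧸ H₀) := hΔ.of_surjective (prQ hNM hH) (prQ_surjective hNM hH)
  have h2u : IsUnit ((2 : ℕ) : O) := isUnit_natCast hpO
    ((Nat.coprime_primes Nat.prime_two Fact.out).mpr (Ne.symm hp2))
  have h2u' : IsUnit (2 : O) := by exact_mod_cast h2u
  have hf1 : Module.Finite O (HM (GamH M H) O) := finite_HM _ O O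
  have hf2 : Module.Finite O (HM (GamH M ⊤) O) := finite_HM _ O O
  have hf3 : Module.Finite O (HM (GamH N H₀) O) := finite_HM _ O O
  have hf4 : Module.Finite O (HM (GamH N ⊤) O) := finite_HM _ O O
  obtain ⟨hT1, hT2, hT3⟩ := hTr
  have hbm : ∀ i, b i ∈ locPart (hAct O N ⊤ O pr) (mx a) := fun i => by
    rw [hb']; exact Submodule.subset_span ⟨i, rfl⟩
  choose u hu hub using fun i => hT3 (b i) (hbm i)
  -- lift to level `H`
  have htrs : Function.Surjective (tr O O (GamH M ⊤) (GamH M H)) :=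
    tr_surjective (GamH_mono le_top) (neg_one_mem hp2 H hΔ) (two_of_isUnit h2u' _)
      (ellX_of_ell hpO hellM ⊤ _)
  choose v hv hvu using fun i => locPart_surj (mx_le a') (tr O O (GamH M ⊤) (GamH M H))
    (tr_hAct pr) htrs (hu i)
  -- the basis at level `(M, ⊤)`
  have hvul : (fun i => tr O O (GamH M ⊤) (GamH M H) (v i)) = u := funext hvu
  have hul : LinearIndependent O (fun i => tr O O (GamH M ⊤) (GamH M H) (v i)) := by
    rw [hvul]
    refine LinearIndependent.of_comp (tr O O (GamH N ⊤) (GamH M ⊤)) ?_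
    have : (tr O O (GamH N ⊤) (GamH M ⊤)) ∘ u = b := funext hub
    rw [this]
    exact hb
  have hus : locPart (hAct O M ⊤ O pr) (mx a') ≤
      Submodule.span O (Set.range fun i => tr O O (GamH M ⊤) (GamH M H) (v i)) := by
    rw [hvul]
    intro x hx
    have h1 := hT1 x hx
    rw [hb', Submodule.mem_span_range_iff_exists_fun] at h1
    obtain ⟨c, hc⟩ := h1
    have h2 : x - ∑ i, c i • u i ∈ locPart (hAct O M ⊤ O pr) (mx a') :=
      sub_mem hx (Submodule.sum_mem _ fun i _ => Submodule.smul_mem _ _ (hu i))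
    have h3 := hT2 _ h2 (by
      rw [map_sub, map_sum, ← hc, sub_eq_zero]
      refine Finset.sum_congr rfl fun i _ => ?_
      rw [map_smul, hub])
    rw [sub_eq_zero] at h3
    rw [h3]
    exact Submodule.sum_mem _ fun i _ => Submodule.smul_mem _ _ (Submodule.subset_span ⟨i, rfl⟩)
  have hfree := free_of_tr_basis pr hp2 hpO H hΔ hellM (mx a') (mx_le a') i₀
    (X_sub_C_nmem pr a' i₀ hi₀ ha₀') v hv hul hus
  -- the lower level
  have hi₀N : ¬ (pr i₀ : ℕ) ∣ N := fun h => hi₀ (h.trans hNM)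
  have hle : GamH M H ≤ GamH N H₀ := GamH_le_of_comap hNM hH
  have htop : ∀ x : HM (GamH M H) O, tr O O (GamH N ⊤) (GamH N H₀)
      (tr O O (GamH N H₀) (GamH M H) x) =
      tr O O (GamH N ⊤) (GamH M ⊤) (tr O O (GamH M ⊤) (GamH M H) x) := by
    intro x
    rw [tr_trans hle (GamH_mono le_top), tr_trans (GamH_mono le_top) (GamH_top_le hNM)]
  have hwb : ∀ i, tr O O (GamH N ⊤) (GamH N H₀) (ctl O pr H₀ H e (v i)) = b i := by
    intro i
    rw [ctl_apply, tr_hAct, htop, hvu, hub]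
    exact he'.apply_eq (hbm i)
  have hw : (fun i => tr O O (GamH N ⊤) (GamH N H₀) (ctl O pr H₀ H e (v i))) = b := funext hwb
  have hfree₀ := free_of_tr_basis pr hp2 hpO H₀ hΔ₀ hellN (mx a) (mx_le a) i₀
    (X_sub_C_nmem pr a i₀ hi₀N ha₀) (fun i => ctl O pr H₀ H e (v i)) (fun i => he.mem _)
    (by rw [hw]; exact hb) (by rw [hw, hb'])
  exact ⟨v, hv, hwb, hfree, hfree₀⟩

end Main

end Fermat.Agent.TC
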