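import Mathlib
import Fermat.Agent.TC.Control2
import Fermat.Agent.H25.TWSys3

/-!
# Taylor-Wiles data and their diamond groups
-/

set_option autoImplicit false
set_option linter.style.haveILetI false
set_option linter.unusedSectionVars false

noncomputable section

universe u

namespace Fermat.Agent.TC

open CongruenceSubgroup Matrix.SpecialLinearGroup H22 IsLocalRing
open Fermat.Agent.H25.TWM
open scoped MatrixGroups

/-- the diamond group at the bottom level -/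
def SQ (N : ℕ) (H₀ : Subgroup (ZMod N)ˣ) : Type := (ZMod N)ˣ ⧸ H₀

instance {N : ℕ} {H₀ : Subgroup (ZMod N)ˣ} : CommGroup (SQ N H₀) :=
  QuotientGroup.Quotient.commGroup H₀

instance {N : ℕ} [NeZero N] {H₀ : Subgroup (ZMod N)ˣ} : Finite (SQ N H₀) :=
  (inferInstance : Finite ((ZMod N)ˣ ⧸ H₀))

/-- the projection -/
def SQ.mk {N : ℕ} (H₀ : Subgroup (ZMod N)ˣ) : (ZMod N)ˣ →* SQ N H₀ where
  toFun u := (u : (ZMod N)ˣ ⧸ H₀)
  map_one' := rfl
  map_mul' _ _ := rfl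

lemma SQ.mk_surjective {N : ℕ} (H₀ : Subgroup (ZMod N)ˣ) : Function.Surjective (SQ.mk H₀) :=
  QuotientGroup.mk_surjective

lemma SQ.mk_eq_one {N : ℕ} {H₀ : Subgroup (ZMod N)ˣ} {u : (ZMod N)ˣ} :
    SQ.mk H₀ u = 1 ↔ u ∈ H₀ := QuotientGroup.eq_one_iff u

/-- identification with the quotient -/
def SQ.equiv (N : ℕ) (H₀ : Subgroup (ZMod N)ˣ) : ((ZMod N)ˣ ⧸ H₀) ≃* SQ N H₀ where
  toFun u := u
  invFun u := u
  left_inv _ := rfl
  right_inv _ := rfl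
  map_mul' _ _ := rfl

/-- Taylor-Wiles data -/
structure QDat (p N M r : ℕ) where
  q : Fin r → ℕ
  hM : M = N * ∏ j, q j
  prime : ∀ j, (q j).Prime
  inj : Function.Injective q
  ndvd : ∀ j, ¬ q j ∣ N
  e : Fin r → ℕ
  κ : ∀ j, (ZMod (q j))ˣ →* Multiplicative (ZMod (p ^ e j))
  κ_surj : ∀ j, Function.Surjective (κ j)

namespace QDat

variable {p N M r : ℕ} (Q : QDat p N M r)

include Q in
lemma dvd_M : N ∣ M := ⟨_, Q.hM⟩

lemma q_dvd (j : Fin r) : Q.q j ∣ M :=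
  ((Finset.dvd_prod_of_mem Q.q (Finset.mem_univ j)).mul_left N).trans (dvd_of_eq Q.hM.symm)

lemma prod_ne_zero : ∏ j, Q.q j ≠ 0 := Finset.prod_ne_zero_iff.mpr fun j _ => (Q.prime j).ne_zero

instance (j : Fin r) : NeZero (Q.q j) := ⟨(Q.prime j).ne_zero⟩

/-- the characters of the Taylor-Wiles primes -/
def kap : (ZMod M)ˣ →* Dl p Q.e :=
  MonoidHom.pi fun j => (Q.κ j).comp (ZMod.unitsMap (Q.q_dvd j))

lemma kap_apply (u : (ZMod M)ˣ) (j : Fin r) :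
    Q.kap u j = Q.κ j (ZMod.unitsMap (Q.q_dvd j) u) := rfl

variable (H₀ : Subgroup (ZMod N)ˣ)

/-- the map to `S × Δ` -/
def toSD : (ZMod M)ˣ →* SQ N H₀ × Dl p Q.e :=
  MonoidHom.prod ((SQ.mk H₀).comp (ZMod.unitsMap Q.dvd_M)) Q.kap

lemma toSD_apply (u : (ZMod M)ˣ) :
    Q.toSD H₀ u = (SQ.mk H₀ (ZMod.unitsMap Q.dvd_M u), Q.kap u) := rfl

/-- CRT -/
lemma exists_unit [NeZero N] (u : (ZMod N)ˣ) (w : ∀ j, (ZMod (Q.q j))ˣ) :
    ∃ x : (ZMod M)ˣ, ZMod.unitsMap Q.dvd_M x = u ∧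
      ∀ j, ZMod.unitsMap (Q.q_dvd j) x = w j := by
  classical
  let s : Option (Fin r) → ℕ := fun o => o.elim N Q.q
  let a : Option (Fin r) → ℕ := fun o => match o with
    | none => (u : ZMod N).val
    | some j => (w j : ZMod (Q.q j)).val
  have hs : ∀ o ∈ (Finset.univ : Finset (Option (Fin r))), s o ≠ 0 := by
    rintro (_ | j) _
    · exact NeZero.ne N
    · exact (Q.prime j).ne_zero
  have hpp : Set.Pairwise (↑(Finset.univ : Finset (Option (Fin r))))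
      (Function.onFun Nat.Coprime s) := by
    rintro (_ | j) _ (_ | j') _ hne
    · exact absurd rfl hne
    · exact ((Nat.Prime.coprime_iff_not_dvd (Q.prime j')).mpr (Q.ndvd j')).symm
    · exact (Nat.Prime.coprime_iff_not_dvd (Q.prime j)).mpr (Q.ndvd j)
    · refine (Nat.coprime_primes (Q.prime j) (Q.prime j')).mpr fun h => hne ?_
      rw [Q.inj h]
  obtain ⟨z, hz⟩ := Nat.chineseRemainderOfFinset a s Finset.univ hs hpp
  have hzN : z ≡ (u : ZMod N).val [MOD N] := hz none (Finset.mem_univ _)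
  have hzq : ∀ j, z ≡ (w j : ZMod (Q.q j)).val [MOD Q.q j] := fun j =>
    hz (some j) (Finset.mem_univ _)
  have hcN : ((z : ℕ) : ZMod N) = u := by
    rw [(ZMod.natCast_eq_natCast_iff _ _ _).mpr hzN, ZMod.natCast_zmod_val]
  have hcq : ∀ j, ((z : ℕ) : ZMod (Q.q j)) = w j := fun j => by
    rw [(ZMod.natCast_eq_natCast_iff _ _ _).mpr (hzq j), ZMod.natCast_zmod_val]
  have hcop : Nat.Coprime z M := by
    rw [Q.hM]
    refine Nat.Coprime.mul_right ?_ (Nat.Coprime.prod_right fun j _ => ?_)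
    · rw [← ZMod.isUnit_iff_coprime, hcN]
      exact u.isUnit
    · rw [← ZMod.isUnit_iff_coprime, hcq]
      exact (w j).isUnit
  refine ⟨ZMod.unitOfCoprime z hcop, ?_, fun j => ?_⟩
  · apply Units.ext
    rw [ZMod.unitsMap_val, ZMod.coe_unitOfCoprime, ← hcN]
    exact ZMod.cast_natCast Q.dvd_M _
  · apply Units.ext
    rw [ZMod.unitsMap_val, ZMod.coe_unitOfCoprime, ← hcq]
    exact ZMod.cast_natCast (Q.q_dvd j) _

lemma toSD_surjective [NeZero N] : Function.Surjective (Q.toSD H₀) := by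
  rintro ⟨s, d⟩
  obtain ⟨u, rfl⟩ := SQ.mk_surjective H₀ s
  choose w hw using fun j => Q.κ_surj j (d j)
  obtain ⟨x, hx, hx'⟩ := Q.exists_unit u w
  refine ⟨x, ?_⟩
  rw [toSD_apply, hx]
  refine Prod.ext rfl (funext fun j => ?_)
  change Q.kap x j = d j
  rw [kap_apply, hx', hw]

/-- the subgroup `H` -/
def H : Subgroup (ZMod M)ˣ := (Q.toSD H₀).ker

lemma H_le : Q.H H₀ ≤ H₀.comap (ZMod.unitsMap Q.dvd_M) := by
  intro u hu
  have h1 : (Q.toSD H₀ u).1 = 1 := by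
    have : Q.toSD H₀ u = 1 := hu
    rw [this]; rfl
  exact (SQ.mk_eq_one (u := ZMod.unitsMap Q.dvd_M u)).mp h1

variable [NeZero N]

/-- the map to the diamond group -/
def Eh : (ZMod M)ˣ ⧸ Q.H H₀ →* SQ N H₀ × Dl p Q.e :=
  QuotientGroup.lift (Q.H H₀) (Q.toSD H₀) (fun _ hu => hu)

lemma Eh_bijective : Function.Bijective (Q.Eh H₀) := by
  constructor
  · rw [injective_iff_map_eq_one]
    intro g hg
    obtain ⟨u, rfl⟩ := QuotientGroup.mk_surjective g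
    exact (QuotientGroup.eq_one_iff u).mpr hg
  · intro x
    obtain ⟨u, hu⟩ := Q.toSD_surjective H₀ x
    exact ⟨(u : (ZMod M)ˣ ⧸ Q.H H₀), hu⟩

/-- the diamond group -/
def E : (ZMod M)ˣ ⧸ Q.H H₀ ≃* SQ N H₀ × Dl p Q.e :=
  MulEquiv.ofBijective (Q.Eh H₀) (Q.Eh_bijective H₀)

lemma E_mk (u : (ZMod M)ˣ) :
    Q.E H₀ (u : (ZMod M)ˣ ⧸ Q.H H₀) = Q.toSD H₀ u := rfl

lemma prQ_eq (g : (ZMod M)ˣ ⧸ Q.H H₀) :
    SQ.equiv N H₀ (prQ Q.dvd_M (Q.H_le H₀) g) = (Q.E H₀ g).1 := by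
  obtain ⟨u, rfl⟩ := QuotientGroup.mk_surjective g
  rfl

lemma prQ_symm (s : SQ N H₀) (k : Dl p Q.e) :
    prQ Q.dvd_M (Q.H_le H₀) ((Q.E H₀).symm (s, k)) = (SQ.equiv N H₀).symm s := by
  rw [MulEquiv.eq_symm_apply, prQ_eq, MulEquiv.apply_symm_apply]

lemma isPGroup [Fact p.Prime] {H₀ : Subgroup (ZMod N)ˣ} (hΔ₀ : IsPGroup p (SQ N H₀)) :
    IsPGroup p ((ZMod M)ˣ ⧸ Q.H H₀) := by
  have h1 : IsPGroup p (SQ N H₀ × Dl p Q.e) := by
    rintro ⟨s, d⟩
    obtain ⟨a, ha⟩ := hΔ₀ s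
    obtain ⟨b, hb⟩ := isPGroup_Dl (p := p) (e := Q.e) d
    refine ⟨a + b, Prod.ext ?_ ?_⟩
    · change s ^ p ^ (a + b) = 1
      rw [pow_add, pow_mul, ha, one_pow]
    · change d ^ p ^ (a + b) = 1
      rw [pow_add, mul_comm, pow_mul, hb, one_pow]
  exact h1.of_equiv (Q.E H₀).symm

end QDat

/-- the condition on elliptic elements passes to multiples -/
lemma Ell.of_dvd {p N M : ℕ} [NeZero N] [NeZero M] (hNM : N ∣ M) (h : Ell p N) : Ell p M := by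
  rcases h with h | h
  · exact Or.inl h
  · right
    intro x hx
    obtain ⟨g, rfl⟩ := QuotientGroup.mk_surjective x
    apply h ((g : SL(2, ℤ)) : SL(2, ℤ) ⧸ Gamma0 N)
    have h1 : (U * g)⁻¹ * g ∈ Gamma0 M := QuotientGroup.eq.mp hx
    exact QuotientGroup.eq.mpr (Gamma0_le_of_dvd hNM h1)

end Fermat.Agent.TC
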