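import Mathlib
import Fermat.Agent.TC.QDat

/-!
# Taylor-Wiles data independent of the level
-/

set_option autoImplicit false

noncomputable section

namespace Fermat.Agent.TC

open Fermat.Agent.H25.TWM

/-- Taylor-Wiles primes with their `p`-power characters (independent of the level) -/
structure TWCore (p r : ℕ) where
  q : Fin r → ℕ
  prime : ∀ j, (q j).Prime
  inj : Function.Injective q
  e : Fin r → ℕ
  κ : ∀ j, (ZMod (q j))ˣ →* Multiplicative (ZMod (p ^ e j))
  κ_surj : ∀ j, Function.Surjective (κ j)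

/-- the Taylor-Wiles data at level `N`; `(c.Q hM hnd).e` is `c.e` by `rfl` -/
@[reducible] def TWCore.Q {p r : ℕ} (c : TWCore p r) {N M : ℕ} (hM : M = N * ∏ j, c.q j)
    (hnd : ∀ j, ¬ c.q j ∣ N) : QDat p N M r where
  q := c.q
  hM := hM
  prime := c.prime
  inj := c.inj
  ndvd := hnd
  e := c.e
  κ := c.κ
  κ_surj := c.κ_surj

section Test

variable {p r N M : ℕ} (c : TWCore p r) (hM : M = N * ∏ j, c.q j) (hnd : ∀ j, ¬ c.q j ∣ N)

lemma TWCore.Q_e : (c.Q hM hnd).e = c.e := rfl

lemma TWCore.Q_q : (c.Q hM hnd).q = c.q := rfl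

example : Dl p (c.Q hM hnd).e = Dl p c.e := rfl

end Test

end Fermat.Agent.TC
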