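import Mathlib

/-!
# The `χ`-part of a module with compatible group bases
-/

set_option autoImplicit false
set_option linter.unusedSectionVars false

noncomputable section

namespace Fermat.Agent.TC

section Chi

variable {O V : Type*} [CommRing O] [AddCommGroup V] [Module O V] {S K : Type*}
  [CommGroup S] [Fintype S] [CommGroup K] [Fintype K] (ρ : S × K →* Module.End O V) (χ : S →* Oˣ)

/-- The `χ`-part. -/
def chiPart (W : Submodule O V) : Submodule O V where
  carrier := {x | x ∈ W ∧ ∀ s, ρ (s, 1) x = (χ s : O) • x}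
  zero_mem' := ⟨zero_mem _, fun s => by rw [map_zero, smul_zero]⟩
  add_mem' {x y} hx hy := ⟨add_mem hx.1 hy.1, fun s => by rw [map_add, hx.2, hy.2, smul_add]⟩
  smul_mem' c x hx := ⟨Submodule.smul_mem _ _ hx.1, fun s => by
    rw [map_smul, hx.2, smul_comm]⟩

lemma mem_chiPart {W : Submodule O V} {x : V} :
    x ∈ chiPart ρ χ W ↔ x ∈ W ∧ ∀ s, ρ (s, 1) x = (χ s : O) • x := Iff.rfl

/-- The projector to the `χ`-part (up to a scalar). -/
def Nx : V →ₗ[O] V := ∑ s, ((χ s)⁻¹ : Oˣ) • ρ (s, 1)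

lemma Nx_apply (x : V) : Nx ρ χ x = ∑ s, (((χ s)⁻¹ : Oˣ) : O) • ρ (s, 1) x := by
  rw [Nx, LinearMap.sum_apply]
  rfl

lemma ρ_mul_apply (g h : S × K) (x : V) : ρ g (ρ h x) = ρ (g * h) x := by
  rw [map_mul]; rfl

lemma ρ_Nx (s : S) (x : V) : ρ (s, 1) (Nx ρ χ x) = (χ s : O) • Nx ρ χ x := by
  rw [Nx_apply, map_sum, Finset.smul_sum]
  have h1 : ∀ t : S, ρ (s, 1) ((((χ t)⁻¹ : Oˣ) : O) • ρ (t, 1) x) =
      (χ s : O) • (((χ (s * t))⁻¹ : Oˣ) : O) • ρ (s * t, 1) x := by
    intro t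
    rw [map_smul, ρ_mul_apply, Prod.mk_mul_mk, one_mul, smul_smul, map_mul, mul_inv,
      Units.val_mul, ← mul_assoc, Units.mul_inv, one_mul]
  rw [Finset.sum_congr rfl fun t _ => h1 t]
  exact Fintype.sum_equiv (Equiv.mulLeft s) _ _ fun t => rfl

lemma Nx_ρ (k : K) (x : V) : Nx ρ χ (ρ (1, k) x) = ρ (1, k) (Nx ρ χ x) := by
  rw [Nx_apply, Nx_apply, map_sum]
  refine Finset.sum_congr rfl fun s _ => ?_
  rw [map_smul, ρ_mul_apply, ρ_mul_apply, mul_comm]

variable {ρ χ}

lemma Nx_mem {W : Submodule O V} (hW : ∀ g, ∀ x ∈ W, ρ g x ∈ W) {x : V} (hx : x ∈ W) :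
    Nx ρ χ x ∈ chiPart ρ χ W := by
  refine ⟨?_, fun s => ρ_Nx ρ χ s x⟩
  rw [Nx_apply]
  exact Submodule.sum_mem _ fun s _ => Submodule.smul_mem _ _ (hW _ _ hx)

lemma ρ_mem_chiPart {W : Submodule O V} (hW : ∀ g, ∀ x ∈ W, ρ g x ∈ W) {x : V}
    (hx : x ∈ chiPart ρ χ W) (g : S × K) : ρ g x ∈ chiPart ρ χ W := by
  refine ⟨hW _ _ hx.1, fun s => ?_⟩
  rw [ρ_mul_apply, mul_comm, ← ρ_mul_apply, hx.2, map_smul]

variable {ι : Type*} [Fintype ι] {v : ι → V} {W : Submodule O V}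

/-- stability of `W` -/
lemma span_stable (hs : W = Submodule.span O (Set.range fun x : ι × (S × K) => ρ x.2 (v x.1))) :
    ∀ g, ∀ x ∈ W, ρ g x ∈ W := by
  intro g x hx
  rw [hs] at hx ⊢
  have h1 : Submodule.span O (Set.range fun x : ι × (S × K) => ρ x.2 (v x.1)) ≤
      (Submodule.span O (Set.range fun x : ι × (S × K) => ρ x.2 (v x.1))).comap (ρ g) := by
    rw [Submodule.span_le]
    rintro _ ⟨⟨i, h⟩, rfl⟩
    rw [SetLike.mem_coe, Submodule.mem_comap, ρ_mul_apply]
    exact Submodule.subset_span ⟨(i, g * h), rfl⟩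
  exact h1 hx

/-- **Basis of the `χ`-part.** -/
theorem chi_basis (hl : LinearIndependent O (fun x : ι × (S × K) => ρ x.2 (v x.1)))
    (hs : W = Submodule.span O (Set.range fun x : ι × (S × K) => ρ x.2 (v x.1))) :
    LinearIndependent O (fun x : ι × K => ρ (1, x.2) (Nx ρ χ (v x.1))) ∧
      chiPart ρ χ W = Submodule.span O
        (Set.range fun x : ι × K => ρ (1, x.2) (Nx ρ χ (v x.1))) := by
  have hstab := span_stable hs
  have hexp : ∀ c : ι × K → O, ∑ x : ι × K, c x • ρ (1, x.2) (Nx ρ χ (v x.1)) =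
      ∑ y : ι × (S × K), (c (y.1, y.2.2) * (((χ y.2.1)⁻¹ : Oˣ) : O)) • ρ y.2 (v y.1) := by
    intro c
    rw [Fintype.sum_prod_type, Fintype.sum_prod_type]
    refine Finset.sum_congr rfl fun i _ => ?_
    rw [Fintype.sum_prod_type_right]
    refine Finset.sum_congr rfl fun k _ => ?_
    rw [Nx_apply, map_sum, Finset.smul_sum]
    refine Finset.sum_congr rfl fun s _ => ?_
    rw [map_smul, ρ_mul_apply, smul_smul]
    congr 2
    simp
  constructor
  · rw [Fintype.linearIndependent_iff] at hl ⊢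
    intro c hc x
    rw [hexp] at hc
    have h1 := hl _ hc (x.1, (1, x.2))
    simpa using h1
  · apply le_antisymm
    · intro x hx
      obtain ⟨hxW, hxχ⟩ := hx
      rw [hs, Submodule.mem_span_range_iff_exists_fun] at hxW
      obtain ⟨c, hc⟩ := hxW
      have key : ∀ (i : ι) (s : S) (k : K), c (i, (s, k)) = c (i, (1, k)) * (((χ s)⁻¹ : Oˣ) : O) := by
        intro i s k
        have h1 := hxχ s⁻¹
        rw [← hc, map_sum, Finset.smul_sum] at h1
        have h2 : ∑ y : ι × (S × K), ρ (s⁻¹, 1) (c y • ρ y.2 (v y.1)) =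
            ∑ y : ι × (S × K), c (y.1, (s, 1) * y.2) • ρ y.2 (v y.1) := by
          refine Fintype.sum_equiv (Equiv.prodCongr (Equiv.refl ι)
            (Equiv.mulLeft ((s⁻¹, 1) : S × K))) _ _ fun y => ?_
          obtain ⟨i', s', k'⟩ := y
          rw [map_smul, ρ_mul_apply]
          change c (i', s', k') • (ρ ((s⁻¹, 1) * (s', k'))) (v i') =
            c (i', (s, 1) * ((s⁻¹, 1) * (s', k'))) • (ρ ((s⁻¹, 1) * (s', k'))) (v i')
          have e1 : ((s, 1) : S × K) * ((s⁻¹, 1) * (s', k')) = (s', k') := by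
            simp
          rw [e1]
        rw [h2, ← sub_eq_zero, ← Finset.sum_sub_distrib] at h1
        have h3 : ∑ y : ι × (S × K), (c (y.1, (s, 1) * y.2) - (χ s⁻¹ : O) * c y) • ρ y.2 (v y.1)
            = 0 := by
          rw [← h1]
          refine Finset.sum_congr rfl fun y _ => ?_
          rw [sub_smul, smul_smul]
        have h4 := (Fintype.linearIndependent_iff.mp hl) _ h3 (i, (1, k))
        simp only [Prod.mk_mul_mk, mul_one, one_mul] at h4
        rw [sub_eq_zero] at h4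
        rw [h4, map_inv, mul_comm]
      have h5 : x = ∑ y : ι × K, c (y.1, (1, y.2)) • ρ (1, y.2) (Nx ρ χ (v y.1)) := by
        rw [hexp (fun y => c (y.1, (1, y.2))), ← hc]
        refine Finset.sum_congr rfl fun y _ => ?_
        obtain ⟨i, s, k⟩ := y
        rw [key]
      rw [h5]
      exact Submodule.sum_mem _ fun y _ => Submodule.smul_mem _ _ (Submodule.subset_span ⟨y, rfl⟩)
    · rw [Submodule.span_le]
      rintro _ ⟨⟨i, k⟩, rfl⟩
      refine ρ_mem_chiPart hstab (Nx_mem hstab ?_) _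
      rw [hs]
      exact Submodule.subset_span ⟨(i, 1), by simp⟩

end Chi

end Fermat.Agent.TC
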