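import Mathlib
import Fermat.Agent.TC.Chi
import Fermat.Agent.H25.TWFree

/-!
# The `χ`-part: control and congruences
-/

set_option autoImplicit false
set_option linter.unusedSectionVars false

noncomputable section

namespace Fermat.Agent.TC

section Ctl

variable {O V V₀ : Type*} [CommRing O] [AddCommGroup V] [Module O V] [AddCommGroup V₀]
  [Module O V₀] {S K : Type*} [CommGroup S] [Fintype S] [CommGroup K] [Fintype K]
  {ρ : S × K →* Module.End O V} {χ : S →* Oˣ} {ρ₀ : S →* Module.End O V₀}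
  {T : V →ₗ[O] V₀} (hT : ∀ s k x, T (ρ (s, k) x) = ρ₀ s (T x))
  {ι : Type*} [Fintype ι] {v : ι → V} {W : Submodule O V} {W₀ : Submodule O V₀}

/-- the action of `S × 1` -/
abbrev ext1 (ρ₀ : S →* Module.End O V₀) : S × Unit →* Module.End O V₀ :=
  ρ₀.comp (MonoidHom.fst S Unit)

include hT in
lemma T_Nx (x : V) : T (Nx ρ χ x) = Nx (ext1 ρ₀) χ (T x) := by
  rw [Nx_apply, Nx_apply, map_sum]
  refine Finset.sum_congr rfl fun s _ => ?_
  rw [map_smul, hT]
  rfl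

variable (hs : W = Submodule.span O (Set.range fun x : ι × (S × K) => ρ x.2 (v x.1)))
  (hl : LinearIndependent O (fun x : ι × (S × K) => ρ x.2 (v x.1)))
  (hl₀ : LinearIndependent O (fun x : ι × S => ρ₀ x.2 (T (v x.1))))
  (hs₀ : W₀ = Submodule.span O (Set.range fun x : ι × S => ρ₀ x.2 (T (v x.1))))

include hT hs hs₀ in
lemma T_mem {x : V} (hx : x ∈ W) : T x ∈ W₀ := by
  have h1 : W ≤ W₀.comap T := by
    rw [hs, Submodule.span_le]
    rintro _ ⟨⟨i, s, k⟩, rfl⟩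
    rw [SetLike.mem_coe, Submodule.mem_comap, hT, hs₀]
    exact Submodule.subset_span ⟨(i, s), rfl⟩
  exact h1 hx

include hT hs hs₀ in
lemma T_mem_chiPart {x : V} (hx : x ∈ chiPart ρ χ W) : T x ∈ chiPart (ext1 ρ₀) χ W₀ := by
  refine ⟨T_mem hT hs hs₀ hx.1, fun s => ?_⟩
  have h1 := hT s 1 x
  rw [hx.2, map_smul] at h1
  exact h1.symm

omit [CommGroup K] [Fintype K] in
include hl₀ hs₀ in
lemma chi_basis₀ : LinearIndependent O (fun i : ι => Nx (ext1 ρ₀) χ (T (v i))) ∧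
    chiPart (ext1 ρ₀) χ W₀ = Submodule.span O (Set.range fun i : ι => Nx (ext1 ρ₀) χ (T (v i))) := by
  generalize hw : (fun i : ι => T (v i)) = w
  have hw' : ∀ i, T (v i) = w i := fun i => congrFun hw i
  simp only [hw'] at hl₀ hs₀ ⊢
  clear hw hw'
  let f : ι × S → V₀ := fun x => ρ₀ x.2 (w x.1)
  let f' : ι × (S × Unit) → V₀ := fun x => ext1 ρ₀ x.2 (w x.1)
  let e : ι × (S × Unit) → ι × S := fun x => (x.1, x.2.1)
  have he : Function.Bijective e := by
    constructor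
    · rintro ⟨i, s, ⟨⟩⟩ ⟨i', s', ⟨⟩⟩ h
      have h' : (i, s) = (i', s') := h
      rw [Prod.mk.injEq] at h'
      rw [h'.1, h'.2]
    · rintro ⟨i, s⟩
      exact ⟨(i, s, ()), rfl⟩
  have hf : f' = f ∘ e := rfl
  have hl' : LinearIndependent O f' := by
    rw [hf]; exact hl₀.comp e he.1
  have hs' : W₀ = Submodule.span O (Set.range f') := by
    rw [hf, he.2.range_comp]; exact hs₀
  obtain ⟨h1, h2⟩ := chi_basis (χ := χ) hl' hs'
  let g : ι → V₀ := fun i => Nx (ext1 ρ₀) χ (w i)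
  let g' : ι × Unit → V₀ := fun x => ext1 ρ₀ (1, x.2) (Nx (ext1 ρ₀) χ (w x.1))
  have h3 : g' = g ∘ Prod.fst := by
    funext x
    obtain ⟨i, ⟨⟩⟩ := x
    have : (ext1 ρ₀) ((1 : S), ()) = 1 := (ext1 ρ₀).map_one
    change ext1 ρ₀ (1, ()) (Nx (ext1 ρ₀) χ (w i)) = Nx (ext1 ρ₀) χ (w i)
    rw [this]
    rfl
  have h1' : LinearIndependent O g' := h1
  have h2' : chiPart (ext1 ρ₀) χ W₀ = Submodule.span O (Set.range g') := h2
  refine ⟨?_, ?_⟩
  · have h4 : g = g' ∘ fun i => (i, ()) := by rw [h3]; rfl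
    change LinearIndependent O g
    rw [h4]
    exact h1'.comp _ fun i j h => (Prod.mk.inj h).1
  · have h5 : Function.Surjective (Prod.fst : ι × Unit → ι) := fun i => ⟨(i, ()), rfl⟩
    rw [h2', h3, h5.range_comp]

include hT hl hs hl₀ hs₀ in
/-- surjectivity of the control map -/
theorem ctl_surj {y : V₀} (hy : y ∈ chiPart (ext1 ρ₀) χ W₀) :
    ∃ x ∈ chiPart ρ χ W, T x = y := by
  rw [(chi_basis₀ hl₀ hs₀).2, Submodule.mem_span_range_iff_exists_fun] at hy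
  obtain ⟨c, rfl⟩ := hy
  refine ⟨∑ i, c i • Nx ρ χ (v i), Submodule.sum_mem _ fun i _ => Submodule.smul_mem _ _
    (Nx_mem (span_stable hs) ?_), ?_⟩
  · rw [hs]
    exact Submodule.subset_span ⟨(i, 1), by simp⟩
  · rw [map_sum]
    exact Finset.sum_congr rfl fun i _ => by rw [map_smul, T_Nx hT]

include hT hl hs hl₀ hs₀ in
/-- the kernel of the control map -/
theorem ctl_ker {x : V} (hx : x ∈ chiPart ρ χ W) (h0 : T x = 0) :
    x ∈ Submodule.span O {z | ∃ (k : K) (y : V), y ∈ chiPart ρ χ W ∧ z = ρ (1, k) y - y} := by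
  obtain ⟨h1, h2⟩ := chi_basis (χ := χ) hl hs
  obtain ⟨h3, h4⟩ := chi_basis₀ (χ := χ) hl₀ hs₀
  have hx' := hx
  rw [h2, Submodule.mem_span_range_iff_exists_fun] at hx'
  obtain ⟨c, hc⟩ := hx'
  have h5 : ∑ i, (∑ k, c (i, k)) • Nx (ext1 ρ₀) χ (T (v i)) = 0 := by
    rw [← h0, ← hc, map_sum, Fintype.sum_prod_type]
    refine Finset.sum_congr rfl fun i _ => ?_
    rw [Finset.sum_smul]
    refine Finset.sum_congr rfl fun k _ => ?_
    rw [map_smul, hT, map_one, Module.End.one_apply, T_Nx hT]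
  have h6 := Fintype.linearIndependent_iff.mp h3 _ h5
  have h7 : x = ∑ y : ι × K, c y • (ρ (1, y.2) (Nx ρ χ (v y.1)) - Nx ρ χ (v y.1)) := by
    simp only [smul_sub, Finset.sum_sub_distrib]
    rw [hc, eq_comm, sub_eq_self, Fintype.sum_prod_type]
    refine Finset.sum_eq_zero fun i _ => ?_
    change ∑ k, c (i, k) • Nx ρ χ (v i) = 0
    rw [← Finset.sum_smul, h6, zero_smul]
  rw [h7]
  refine Submodule.sum_mem _ fun y _ => Submodule.smul_mem _ _ (Submodule.subset_span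
    ⟨y.2, Nx ρ χ (v y.1), Nx_mem (span_stable hs) ?_, rfl⟩)
  rw [hs]
  exact Submodule.subset_span ⟨(y.1, 1), by simp⟩

end Ctl

section Congr

variable {O V : Type*} [CommRing O] [AddCommGroup V] [Module O V] {S K : Type*}
  [CommGroup S] [Fintype S] [CommGroup K] [Fintype K] {ρ : S × K →* Module.End O V}
  {χ χ' : S →* Oˣ} {ι : Type*} [Fintype ι] {v : ι → V} {W : Submodule O V}
  (hl : LinearIndependent O (fun x : ι × (S × K) => ρ x.2 (v x.1)))
  (hs : W = Submodule.span O (Set.range fun x : ι × (S × K) => ρ x.2 (v x.1)))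

/-- the basis of the `χ`-part -/
def chiBasis (χ : S →* Oˣ) : Module.Basis (ι × K) O (chiPart ρ χ W) :=
  (Module.Basis.span (chi_basis (χ := χ) hl hs).1).map
    (LinearEquiv.ofEq _ _ (chi_basis (χ := χ) hl hs).2.symm)

lemma chiBasis_apply (x : ι × K) :
    (chiBasis hl hs χ x : V) = ρ (1, x.2) (Nx ρ χ (v x.1)) := by
  rw [chiBasis, Module.Basis.map_apply]
  change ((Module.Basis.span (chi_basis (χ := χ) hl hs).1 x : _) : V) = _
  rw [Module.Basis.span_apply]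

/-- the comparison of two `χ`-parts -/
def chiCmp (χ χ' : S →* Oˣ) : chiPart ρ χ W ≃ₗ[O] chiPart ρ χ' W :=
  (chiBasis hl hs χ).equiv (chiBasis hl hs χ') (Equiv.refl _)

lemma chiCmp_basis (x : ι × K) :
    chiCmp hl hs χ χ' (chiBasis hl hs χ x) = chiBasis hl hs χ' x := by
  rw [chiCmp, Module.Basis.equiv_apply, Equiv.refl_apply]

/-- the congruence `g x ≡ x` -/
theorem chiCmp_congr {ϖ : O} (hχ : ∀ s, ∃ c : O, (χ s : O) = 1 + ϖ * c)
    (hχ' : ∀ s, ∃ c : O, (χ' s : O) = 1 + ϖ * c) (x : chiPart ρ χ W) :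
    ∃ y ∈ W, (chiCmp hl hs χ χ' x : V) - x = ϖ • y := by
  choose c hc using fun s => hχ s⁻¹
  choose c' hc' using fun s => hχ' s⁻¹
  have hb : ∀ z : ι × K, ∃ y ∈ W, (chiCmp hl hs χ χ' (chiBasis hl hs χ z) : V) -
      chiBasis hl hs χ z = ϖ • y := by
    intro z
    rw [chiCmp_basis, chiBasis_apply, chiBasis_apply, ← map_sub, Nx_apply, Nx_apply,
      ← Finset.sum_sub_distrib]
    refine ⟨ρ (1, z.2) (∑ s, (c' s - c s) • ρ (s, 1) (v z.1)), span_stable hs _ _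
      (Submodule.sum_mem _ fun s _ => Submodule.smul_mem _ _ (span_stable hs _ _ ?_)), ?_⟩
    · rw [hs]
      exact Submodule.subset_span ⟨(z.1, 1), by simp⟩
    · rw [← map_smul, Finset.smul_sum]
      congr 1
      refine Finset.sum_congr rfl fun s _ => ?_
      rw [← sub_smul, smul_smul, ← map_inv, ← map_inv, hc, hc']
      congr 1
      ring
  choose y hy hy' using hb
  refine ⟨∑ z, (chiBasis hl hs χ).repr x z • y z,
    Submodule.sum_mem _ fun z _ => Submodule.smul_mem _ _ (hy z), ?_⟩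
  conv_lhs => rw [← (chiBasis hl hs χ).sum_repr x]
  rw [map_sum, Finset.smul_sum]
  simp only [Submodule.coe_sum, map_smul, Submodule.coe_smul]
  rw [← Finset.sum_sub_distrib]
  refine Finset.sum_congr rfl fun z _ => ?_
  rw [← smul_sub, hy' z, smul_comm]

/-- divisible elements -/
lemma mem_chiPart_of_smul {ϖ : O} (hϖ : ∀ x : V, ϖ • x = 0 → x = 0) {y : V} (hy : y ∈ W)
    (h : ϖ • y ∈ chiPart ρ χ W) : y ∈ chiPart ρ χ W := by
  refine ⟨hy, fun s => ?_⟩
  rw [← sub_eq_zero]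
  apply hϖ
  rw [smul_sub, ← map_smul, h.2 s, smul_comm, sub_self]

/-- **Equivariance modulo `ϖ`.** -/
theorem chiCmp_equivariant {ϖ : O} (hϖ : ∀ x : V, ϖ • x = 0 → x = 0)
    (hχ : ∀ s, ∃ c : O, (χ s : O) = 1 + ϖ * c)
    (hχ' : ∀ s, ∃ c : O, (χ' s : O) = 1 + ϖ * c) (X : Module.End O V)
    (hXW : ∀ x ∈ W, X x ∈ W) (x x' : chiPart ρ χ W) (hx' : (x' : V) = X x)
    (y' : chiPart ρ χ' W) (hy' : (y' : V) = X (chiCmp hl hs χ χ' x)) :
    ∃ z : chiPart ρ χ' W, chiCmp hl hs χ χ' x' - y' = ϖ • z := by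
  obtain ⟨a, ha, ha'⟩ := chiCmp_congr hl hs hχ hχ' x'
  obtain ⟨b, hb, hb'⟩ := chiCmp_congr hl hs hχ hχ' x
  have h1 : ((chiCmp hl hs χ χ' x' - y' : chiPart ρ χ' W) : V) = ϖ • (a - X b) := by
    rw [Submodule.coe_sub, hy', smul_sub, ← map_smul, ← ha', ← hb', map_sub, hx']
    abel
  have h2 : a - X b ∈ W := sub_mem ha (hXW b hb)
  have h3 : a - X b ∈ chiPart ρ χ' W := mem_chiPart_of_smul hϖ h2 (by
    rw [← h1]; exact Subtype.mem _)
  exact ⟨⟨_, h3⟩, Subtype.ext h1⟩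

end Congr

end Fermat.Agent.TC
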