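import Mathlib
import Fermat.Agent.TC.TWAlg
import Fermat.Agent.TC.Free

/-!
# Hecke algebras as quotients of polynomial rings
-/

set_option autoImplicit false
set_option linter.unusedSectionVars false
set_option linter.style.haveILetI false

noncomputable section

universe u

namespace Fermat.Agent.TC

open IsLocalRing MvPolynomial

section Basic

variable {O : Type u} [CommRing O] {M : Type u} [AddCommGroup M] [Module O M]
  {τ : Type} (act : MvPolynomial τ O →ₐ[O] Module.End O M)

/-- The Hecke algebra. -/
abbrev HT : Type u := MvPolynomial τ O ⧸ RingHom.ker act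

/-- The faithful action. -/
def HT.toEnd : HT act →ₐ[O] Module.End O M := Ideal.kerLiftAlg act

lemma HT.toEnd_mk (P : MvPolynomial τ O) :
    HT.toEnd act (Ideal.Quotient.mk _ P) = act P := rfl

lemma HT.toEnd_injective : Function.Injective (HT.toEnd act) := Ideal.kerLiftAlg_injective act

lemma HT.exists_rep (b : HT act) : ∃ P, Ideal.Quotient.mk _ P = b := Ideal.Quotient.mk_surjective b

instance HT.finite [IsNoetherianRing O] [Module.Finite O M] : Module.Finite O (HT act) :=
  Module.Finite.of_injective (HT.toEnd act).toLinearMap (HT.toEnd_injective act)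

end Basic

section Loc

variable {O : Type u} [CommRing O] [IsLocalRing O] {M : Type u} [AddCommGroup M] [Module O M]
  {τ : Type} (act : MvPolynomial τ O →ₐ[O] Module.End O M) (c : τ → ResidueField O)

/-- All polynomials not in the maximal ideal act invertibly. -/
def LocAct : Prop := ∀ P, evR c P ≠ 0 → Function.Surjective (act P)

variable {act c} [IsNoetherianRing O] [Module.Finite O M]

lemma LocAct.injective (h : LocAct act c) {P : MvPolynomial τ O} (hP : evR c P ≠ 0) :
    Function.Injective (act P) := by
  haveI : IsNoetherian O M := inferInstance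
  exact (IsNoetherian.bijective_of_surjective_endomorphism (act P) (h P hP)).1

lemma LocAct.ker_le (h : LocAct act c) [Nontrivial M] : RingHom.ker act ≤ mx c := by
  intro P hP
  rw [mem_mx]
  by_contra hne
  obtain ⟨m, hm⟩ := exists_ne (0 : M)
  obtain ⟨y, hy⟩ := h P hne m
  have h1 : act P = 0 := hP
  rw [h1, LinearMap.zero_apply] at hy
  exact hm hy.symm

variable (h : LocAct act c)

/-- The residue map. -/
def resT [Nontrivial M] : HT act →+* ResidueField O :=
  Ideal.Quotient.lift (RingHom.ker act) (evR c) (fun P hP => (mem_mx c P).mp (h.ker_le hP))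

lemma resT_mk [Nontrivial M] (P : MvPolynomial τ O) :
    resT h (Ideal.Quotient.mk _ P) = evR c P := rfl

lemma resT_X [Nontrivial M] (i : τ) : resT h (Ideal.Quotient.mk _ (X i)) = c i := by
  rw [resT_mk, evR_X]

lemma resT_algebraMap [Nontrivial M] (a : O) : resT h (algebraMap O (HT act) a) = residue O a := by
  change resT h (Ideal.Quotient.mk _ (C a)) = _
  rw [resT_mk, evR_C]

include h in
theorem isUnit_mk {P : MvPolynomial τ O} (hP : evR c P ≠ 0) :
    IsUnit (Ideal.Quotient.mk (RingHom.ker act) P : HT act) := by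
  by_contra hcon
  obtain ⟨𝔫, hn, hPn⟩ := exists_max_ideal_of_mem_nonunits hcon
  letI : Module (HT act) M := Module.compHom M (HT.toEnd act).toRingHom
  have hsm : ∀ (b : HT act) (m : M), b • m = HT.toEnd act b m := fun _ _ => rfl
  haveI : IsScalarTower O (HT act) M := ⟨fun a b m => by
    rw [hsm, hsm, map_smul, LinearMap.smul_apply]⟩
  haveI : Module.Finite (HT act) M := Module.Finite.of_restrictScalars_finite O (HT act) M
  have hle : (⊤ : Submodule (HT act) M) ≤ 𝔫 • ⊤ := by
    intro m _
    obtain ⟨y, rfl⟩ := h P hP m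
    exact Submodule.smul_mem_smul hPn (show y ∈ (⊤ : Submodule (HT act) M) from trivial)
  obtain ⟨r, hr, hr'⟩ := Submodule.exists_sub_one_mem_and_smul_eq_zero_of_fg_of_le_smul 𝔫 ⊤
    Module.Finite.fg_top hle
  have hr0 : r = 0 := by
    apply HT.toEnd_injective act
    refine LinearMap.ext fun m => ?_
    rw [map_zero, LinearMap.zero_apply]
    exact hr' m trivial
  rw [hr0, zero_sub] at hr
  exact hn.ne_top ((Ideal.eq_top_iff_one _).mpr (by simpa using neg_mem hr))

include h in
theorem isUnit_of_resT [Nontrivial M] (b : HT act) (hb : resT h b ≠ 0) : IsUnit b := by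
  obtain ⟨P, rfl⟩ := HT.exists_rep act b
  exact isUnit_mk h (by rwa [resT_mk] at hb)

include h in
theorem isLocalRing_HT [Nontrivial M] : IsLocalRing (HT act) := by
  haveI : Nontrivial (HT act) := by
    refine ⟨⟨0, 1, fun h01 => ?_⟩⟩
    have h1 := congrArg (resT h) h01
    rw [map_zero, map_one] at h1
    exact zero_ne_one h1
  refine IsLocalRing.of_nonunits_add fun a b ha hb => ?_
  have key : ∀ x : HT act, x ∈ nonunits (HT act) ↔ resT h x = 0 := by
    intro x
    constructor
    · intro hx
      by_contra hne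
      exact hx (isUnit_of_resT h x hne)
    · intro hx hu
      exact (hu.map (resT h)).ne_zero hx
  rw [key] at ha hb ⊢
  rw [map_add, ha, hb, add_zero]

omit [IsNoetherianRing O] [Module.Finite O M] in
lemma evR_comp {τ' : Type} {c' : τ' → ResidueField O}
    (f : MvPolynomial τ' O →ₐ[O] MvPolynomial τ O) (hf : ∀ i, evR c (f (X i)) = c' i)
    (P : MvPolynomial τ' O) : evR c (f P) = evR c' P := by
  have h1 : (evR c).comp (f : MvPolynomial τ' O →+* MvPolynomial τ O) = evR c' := by
    refine MvPolynomial.ringHom_ext (fun a => ?_) (fun i => ?_)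
    · rw [evR_C, RingHom.comp_apply]
      have : (f : MvPolynomial τ' O →+* MvPolynomial τ O) (C a) = C a := by
        change f (C a) = C a
        rw [← MvPolynomial.algebraMap_eq, AlgHom.commutes, MvPolynomial.algebraMap_eq]
      rw [this, evR_C]
    · rw [evR_X, RingHom.comp_apply]
      exact hf i
  exact DFunLike.congr_fun h1 P

omit [IsNoetherianRing O] [Module.Finite O M] in
/-- pull back to another polynomial ring -/
lemma LocAct.comp (h : LocAct act c) {τ' : Type} {c' : τ' → ResidueField O}
    (f : MvPolynomial τ' O →ₐ[O] MvPolynomial τ O) (hf : ∀ i, evR c (f (X i)) = c' i) :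
    LocAct (act.comp f) c' := by
  intro P hP
  exact h (f P) (by rwa [evR_comp f hf])

end Loc

section Unip

variable {O : Type u} [CommRing O] [IsLocalRing O] [IsNoetherianRing O] {M : Type u}
  [AddCommGroup M] [Module O M] [Module.Finite O M] {σ G : Type} [Group G] [Finite G]
  (act : MvPolynomial (σ ⊕ G) O →ₐ[O] Module.End O M) (ρ : G →* Module.End O M)
  (hρ : ∀ g, act (X (Sum.inr g)) = ρ g) (a : σ → ResidueField O)
  {p : ℕ} (hp : p.Prime) (hpO : (p : O) ∈ maximalIdeal O) (hG : IsPGroup p G)

omit [IsNoetherianRing O] in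
/-- maximal ideals of finite algebras over local rings contain the maximal ideal -/
lemma algebraMap_mem_of_isMaximal {B : Type u} [CommRing B] [Algebra O B] [Module.Finite O B]
    (𝔫 : Ideal B) [hn : 𝔫.IsMaximal] {x : O} (hx : x ∈ maximalIdeal O) : algebraMap O B x ∈ 𝔫 := by
  have h1 : (𝔫.comap (algebraMap O B)).IsMaximal := by
    haveI : Algebra.IsIntegral O B := inferInstance
    exact Ideal.isMaximal_comap_of_isIntegral_of_isMaximal 𝔫
  have h2 := IsLocalRing.eq_maximalIdeal h1
  have h3 : x ∈ 𝔫.comap (algebraMap O B) := by rw [h2]; exact hx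
  exact h3

include hρ hp hpO hG in
/-- Adding the operators of a `p`-group. -/
theorem LocAct.unip (h : LocAct (act.comp (rename Sum.inl)) a) :
    LocAct act (Sum.elim a (fun _ => 1)) := by
  intro P hP
  -- it suffices that `P` is a unit in the Hecke algebra
  have hunit : IsUnit (Ideal.Quotient.mk (RingHom.ker act) P : HT act) := by
    by_contra hcon
    obtain ⟨𝔫, hn, hPn⟩ := exists_max_ideal_of_mem_nonunits hcon
    haveI := hn
    have hpn : ((p : ℕ) : HT act) ∈ 𝔫 := by
      have := algebraMap_mem_of_isMaximal (O := O) 𝔫 hpO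
      rwa [map_natCast] at this
    -- group elements
    have hg : ∀ g : G, (Ideal.Quotient.mk (RingHom.ker act) (X (Sum.inr g)) : HT act) - 1 ∈ 𝔫 := by
      intro g
      obtain ⟨k, hk⟩ := hG g
      set y : HT act := Ideal.Quotient.mk (RingHom.ker act) (X (Sum.inr g)) with hy
      have hy1 : y ^ p ^ k = 1 := by
        apply HT.toEnd_injective act
        rw [map_pow, map_one, hy, HT.toEnd_mk, hρ, ← map_pow, hk, map_one]
      have hfield : Ideal.Quotient.mk 𝔫 y = 1 := by
        letI : Field (HT act ⧸ 𝔫) := Ideal.Quotient.field 𝔫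
        haveI : CharP (HT act ⧸ 𝔫) p := by
          refine (CharP.charP_iff_prime_eq_zero hp).mpr ?_
          rw [← map_natCast (Ideal.Quotient.mk 𝔫), Ideal.Quotient.eq_zero_iff_mem]
          exact hpn
        haveI : Fact p.Prime := ⟨hp⟩
        haveI : ExpChar (HT act ⧸ 𝔫) p := ExpChar.prime hp
        have h1 : (Ideal.Quotient.mk 𝔫 y) ^ p ^ k = 1 ^ p ^ k := by
          rw [← map_pow, hy1, map_one, one_pow]
        exact iterateFrobenius_inj (HT act ⧸ 𝔫) p k h1
      rw [← Ideal.Quotient.eq_zero_iff_mem, map_sub, hfield, map_one, sub_self]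
    -- reduction to a polynomial in the first variables
    let f : MvPolynomial (σ ⊕ G) O →ₐ[O] MvPolynomial σ O := aeval (Sum.elim X (fun _ => 1))
    have hPs : (Ideal.Quotient.mk (RingHom.ker act) P : HT act) -
        Ideal.Quotient.mk (RingHom.ker act) (rename Sum.inl (f P)) ∈ 𝔫 := by
      have h1 : ((Ideal.Quotient.mk 𝔫).comp (Ideal.Quotient.mk (RingHom.ker act))) =
          ((Ideal.Quotient.mk 𝔫).comp (Ideal.Quotient.mk (RingHom.ker act))).comp
            (((rename Sum.inl : MvPolynomial σ O →ₐ[O] MvPolynomial (σ ⊕ G) O).comp f :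
              MvPolynomial (σ ⊕ G) O →ₐ[O] MvPolynomial (σ ⊕ G) O) :
              MvPolynomial (σ ⊕ G) O →+* MvPolynomial (σ ⊕ G) O) := by
        refine MvPolynomial.ringHom_ext (fun a => ?_) (fun i => ?_)
        · change Ideal.Quotient.mk 𝔫 (Ideal.Quotient.mk (RingHom.ker act) (C a)) =
            Ideal.Quotient.mk 𝔫 (Ideal.Quotient.mk (RingHom.ker act) (rename Sum.inl (f (C a))))
          have h2 : f (C a) = C a := by
            rw [← MvPolynomial.algebraMap_eq, AlgHom.commutes, MvPolynomial.algebraMap_eq]
          rw [h2, rename_C]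
        · rcases i with i | g
          · change Ideal.Quotient.mk 𝔫 (Ideal.Quotient.mk (RingHom.ker act) (X (Sum.inl i))) =
              Ideal.Quotient.mk 𝔫 (Ideal.Quotient.mk (RingHom.ker act)
                (rename Sum.inl (f (X (Sum.inl i)))))
            rw [aeval_X, Sum.elim_inl, rename_X]
          · change Ideal.Quotient.mk 𝔫 (Ideal.Quotient.mk (RingHom.ker act) (X (Sum.inr g))) =
              Ideal.Quotient.mk 𝔫 (Ideal.Quotient.mk (RingHom.ker act)
                (rename Sum.inl (f (X (Sum.inr g)))))
            rw [aeval_X, Sum.elim_inr, map_one, map_one, Ideal.Quotient.eq]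
            exact hg g
      rw [← Ideal.Quotient.eq]
      exact DFunLike.congr_fun h1 P
    have hev : evR a (f P) ≠ 0 := by
      rw [evR_comp (c := a) (c' := Sum.elim a (fun _ => 1)) f]
      · exact hP
      · rintro (i | g)
        · rw [aeval_X, Sum.elim_inl, Sum.elim_inl, evR_X]
        · rw [aeval_X, Sum.elim_inr, Sum.elim_inr, map_one]
    have hmem : (Ideal.Quotient.mk (RingHom.ker act) (rename Sum.inl (f P)) : HT act) ∈ 𝔫 := by
      have := 𝔫.sub_mem hPn hPs
      rwa [sub_sub_cancel] at this
    -- contradiction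
    letI : Module (HT act) M := Module.compHom M (HT.toEnd act).toRingHom
    have hsm : ∀ (b : HT act) (m : M), b • m = HT.toEnd act b m := fun _ _ => rfl
    haveI : IsScalarTower O (HT act) M := ⟨fun a b m => by
      rw [hsm, hsm, map_smul, LinearMap.smul_apply]⟩
    haveI : Module.Finite (HT act) M := Module.Finite.of_restrictScalars_finite O (HT act) M
    have hle : (⊤ : Submodule (HT act) M) ≤ 𝔫 • ⊤ := by
      intro m _
      obtain ⟨y, rfl⟩ := h (f P) hev m
      exact Submodule.smul_mem_smul hmem (show y ∈ (⊤ : Submodule (HT act) M) from trivial)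
    obtain ⟨r, hr, hr'⟩ := Submodule.exists_sub_one_mem_and_smul_eq_zero_of_fg_of_le_smul 𝔫 ⊤
      Module.Finite.fg_top hle
    have hr0 : r = 0 := by
      apply HT.toEnd_injective act
      refine LinearMap.ext fun m => ?_
      rw [map_zero, LinearMap.zero_apply]
      exact hr' m trivial
    rw [hr0, zero_sub] at hr
    exact hn.ne_top ((Ideal.eq_top_iff_one _).mpr (by simpa using neg_mem hr))
  obtain ⟨u, hu⟩ := hunit
  intro m
  refine ⟨HT.toEnd act ((u⁻¹ : (HT act)ˣ) : HT act) m, ?_⟩
  have h1 : act P = HT.toEnd act u := by rw [hu, HT.toEnd_mk]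
  rw [h1, ← Module.End.mul_apply, ← map_mul, Units.mul_inv, map_one, Module.End.one_apply]

end Unip

end Fermat.Agent.TC
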