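import Mathlib
import Fermat.Agent.H22.TwistC

/-!
# Conductors of characters of `(ℤ/N)ˣ`
-/

set_option autoImplicit false
set_option linter.unusedSectionVars false

noncomputable section

namespace Fermat.Agent.TC

open Fermat.Agent.H22

variable {K : Type*} [Field K]

/-- the kernel of reduction -/
lemma exists_char_of_trivial {N Q : ℕ} [NeZero N] (h : Q ∣ N) (χ : (ZMod N)ˣ →* Kˣ)
    (hχ : ∀ u : (ZMod N)ˣ, ZMod.unitsMap h u = 1 → χ u = 1) :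
    ∃ χ' : (ZMod Q)ˣ →* Kˣ, ∀ u : (ZMod N)ˣ, χ' (ZMod.unitsMap h u) = χ u := by
  have hs := ZMod.unitsMap_surjective h
  refine ⟨(ZMod.unitsMap h).liftOfSurjective hs ⟨χ, fun u hu => ?_⟩, fun u => ?_⟩
  · exact hχ u hu
  · exact MonoidHom.liftOfRightInverse_comp_apply _ _ _ ⟨χ, _⟩ u

/-- **The conductor.** -/
theorem exists_cond {N Q₀ : ℕ} [NeZero N] (h₀ : Q₀ ∣ N) (χ : (ZMod N)ˣ →* Kˣ)
    (hχ : ∀ u : (ZMod N)ˣ, ZMod.unitsMap h₀ u = 1 → χ u = 1) (hf : ℕ)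
    (hhf : ∀ u, χ u ^ (2 * hf) = χ u) :
    ∃ (Q : ℕ) (hQ : Q ∣ Q₀) (w : MulChar (ZMod Q) K), NT Q w ∧
      ∀ u : (ZMod N)ˣ, w ((ZMod.unitsMap (hQ.trans h₀) u : (ZMod Q)ˣ) : ZMod Q) =
        ((χ u ^ hf : Kˣ) : K) := by
  classical
  -- the minimal `Q`
  let P : ℕ → Prop := fun Q => Q ≠ 0 ∧ ∃ hQ : Q ∣ Q₀, ∀ u : (ZMod N)ˣ,
    ZMod.unitsMap (hQ.trans h₀) u = 1 → χ u = 1
  have hQ₀0 : Q₀ ≠ 0 := by
    rintro rfl
    exact NeZero.ne N (Nat.eq_zero_of_zero_dvd h₀)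
  have hP : ∃ Q, P Q := ⟨Q₀, hQ₀0, dvd_rfl, hχ⟩
  obtain ⟨hQ0, hQ, hQχ⟩ := Nat.find_spec hP
  set Q := Nat.find hP with hQdef
  obtain ⟨χ', hχ'⟩ := exists_char_of_trivial (hQ.trans h₀) χ hQχ
  refine ⟨Q, hQ, MulChar.ofUnitHom (χ' ^ hf), ?_, ?_⟩
  · intro q hq b hb
    have hb0 : b ≠ 0 := by
      rintro rfl
      exact hQ0 (by rw [hb, mul_zero])
    have hbQ : b ∣ Q := ⟨q, by rw [hb, mul_comm]⟩
    have hblt : b < Q := by
      rw [hb]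
      exact (Nat.lt_mul_iff_one_lt_left (Nat.pos_of_ne_zero hb0)).mpr hq.one_lt
    have hnP : ¬ P b := Nat.find_min hP hblt
    have h1 : ∃ x : (ZMod N)ˣ, ZMod.unitsMap ((hbQ.trans hQ).trans h₀) x = 1 ∧ χ x ≠ 1 := by
      by_contra hcon
      push Not at hcon
      exact hnP ⟨hb0, hbQ.trans hQ, fun u hu => hcon u hu⟩
    obtain ⟨x, hx1, hx2⟩ := h1
    have hxQ : ((((x : ZMod N)).val : ℤ) : ZMod Q) =
        ((ZMod.unitsMap (hQ.trans h₀) x : (ZMod Q)ˣ) : ZMod Q) := by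
      rw [ZMod.unitsMap_val]
      push_cast
      rw [ZMod.cast_eq_val]
    have hxb : ((((x : ZMod N)).val : ℤ) : ZMod b) = 1 := by
      have h2 := congrArg (fun y : (ZMod b)ˣ => (y : ZMod b)) hx1
      simp only [Units.val_one] at h2
      rw [← h2, ZMod.unitsMap_val]
      push_cast
      rw [ZMod.cast_eq_val]
    refine ⟨((x : ZMod N)).val, hxb, ?_, ?_⟩
    · rw [hxQ, MulChar.ofUnitHom_coe]
      exact Units.ne_zero _
    · rw [hxQ, MulChar.ofUnitHom_coe]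
      change ((χ' (ZMod.unitsMap (hQ.trans h₀) x) ^ hf : Kˣ) : K) ^ 2 ≠ 1
      rw [hχ']
      intro h3
      apply hx2
      rw [← hhf x, mul_comm, pow_mul]
      apply Units.ext
      rw [Units.val_pow_eq_pow_val, h3, Units.val_one]
  · intro u
    rw [MulChar.ofUnitHom_coe]
    change ((χ' (ZMod.unitsMap (hQ.trans h₀) u) ^ hf : Kˣ) : K) = _
    rw [hχ']

end Fermat.Agent.TC
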