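import Mathlib
import Fermat.Agent.TC.Rank2

/-!
# Squarefree polynomials killing Hecke operators on parabolic homomorphisms
-/

set_option autoImplicit false
set_option linter.style.haveILetI false
set_option linter.unusedSectionVars false

noncomputable section

namespace Fermat.Agent.TC

open CongruenceSubgroup ModularForm Matrix.SpecialLinearGroup ModularCurve H22 H16 AL
open ModularCurve.Period Polynomial
open scoped MatrixGroups

section General

/-- intertwining of polynomials in operators -/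
lemma aeval_intertwine {V W : Type*} [AddCommGroup V] [AddCommGroup W] {R R' : Type*}
    [CommRing R] [CommRing R'] [Module R V] [Module R' W] {T : Module.End R V}
    {T' : Module.End R' W} (f : V →+ W) (h : ∀ v, f (T v) = T' (f v)) (r : ℤ[X]) (v : V) :
    f (aeval T r v) = aeval T' r (f v) := by
  induction r using Polynomial.induction_on' generalizing v with
  | add p q hp hq => rw [map_add, map_add, LinearMap.add_apply, LinearMap.add_apply, map_add,
      hp, hq]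
  | monomial n a =>
    rw [aeval_monomial, aeval_monomial]
    have h1 : ∀ (n : ℕ) (v : V), f ((T ^ n) v) = (T' ^ n) (f v) := by
      intro n
      induction n with
      | zero => intro v; simp
      | succ n ih =>
        intro v
        rw [pow_succ, pow_succ, Module.End.mul_apply, Module.End.mul_apply, ih, h]
    rw [Module.End.mul_apply, Module.End.mul_apply]
    have h2 : ∀ w : V, (algebraMap ℤ (Module.End R V) a) w = a • w := by
      intro w
      rw [eq_intCast, Module.End.intCast_apply]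
    have h3 : ∀ w : W, (algebraMap ℤ (Module.End R' W) a) w = a • w := by
      intro w
      rw [eq_intCast, Module.End.intCast_apply]
    rw [h2, h3, map_zsmul, h1]

/-- nilpotent polynomials in a diagonalizable operator vanish -/
lemma aeval_eq_zero_of_nilpotent {V : Type*} [AddCommGroup V] [Module ℂ V] (T : Module.End ℂ V)
    {v : V} (hv : v ∈ ⨆ μ : ℂ, T.eigenspace μ) (P : ℂ[X]) (n : ℕ) (h : (aeval T P ^ n) v = 0) :
    aeval T P v = 0 := by
  set S := aeval T P with hS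
  have hle : ∀ μ : ℂ, T.eigenspace μ ≤ S.eigenspace (P.eval μ) := by
    intro μ x hx
    rw [Module.End.mem_eigenspace_iff] at hx ⊢
    rw [hS]
    by_cases hx0 : x = 0
    · rw [hx0, map_zero, smul_zero]
    · exact Module.End.aeval_apply_of_hasEigenvector ⟨Module.End.mem_eigenspace_iff.mpr hx, hx0⟩
  have hv' : v ∈ ⨆ μ : ℂ, S.eigenspace μ :=
    (iSup_le fun μ => (hle μ).trans (le_iSup (fun ν => S.eigenspace ν) _)) hv
  have hv0 : v ∈ S.maxGenEigenspace 0 := by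
    rw [Module.End.mem_maxGenEigenspace]
    exact ⟨n, by simpa using h⟩
  rw [iSup_split_single (fun μ : ℂ => S.eigenspace μ) 0, Submodule.mem_sup] at hv'
  obtain ⟨x, hx, y, hy, rfl⟩ := hv'
  have hx' := hx
  have h1 : y ∈ S.maxGenEigenspace 0 := by
    have h2 := (S.maxGenEigenspace 0).sub_mem hv0 (Module.End.eigenspace_le_maxGenEigenspace hx)
    rwa [add_sub_cancel_left] at h2
  have h2 : y ∈ ⨆ (μ : ℂ) (_ : μ ≠ 0), S.maxGenEigenspace μ :=
    (iSup₂_mono fun μ _ => Module.End.eigenspace_le_maxGenEigenspace) hy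
  have h3 := (Submodule.disjoint_def.mp (Module.End.independent_maxGenEigenspace S 0)) y h1 h2
  rw [h3, add_zero]
  rw [Module.End.mem_eigenspace_iff, zero_smul] at hx'
  exact hx'

end General

section Hecke

variable {N : ℕ} [NeZero N]

/-- diagonalizability on parabolic homomorphisms over `ℂ` -/
lemma mem_iSup_eigenspace (ℓ : Nat.Primes) (hℓN : ¬ (ℓ : ℕ) ∣ N)
    {ψ : Additive (Gamma0 N) →+ ℂ} (hψ : ψ ∈ parabolicHoms ℂ (Gamma0 N) ℂ) :
    ψ ∈ ⨆ μ : ℂ, (heckeOpL ℂ N ℂ ℓ).eigenspace μ := by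
  obtain ⟨f, g, rfl⟩ := exists_esMap_pair hψ
  have key : ∀ f : CuspForm (Gamma0 N) 2,
      esMap N f ∈ ⨆ μ : ℂ, (heckeOpL ℂ N ℂ ℓ).eigenspace μ ∧
      charInvolution N ℂ ℂ (esMap N f) ∈ ⨆ μ : ℂ, (heckeOpL ℂ N ℂ ℓ).eigenspace μ := by
    intro f
    have hf : f ∈ ⨆ μ : ℂ, Module.End.eigenspace (CuspForm.heckeTLin (N := N) 2 ℓ.2 hℓN) μ := by
      rw [H24.iSup_eigenspace_heckeT N 2 ℓ.2 hℓN]; trivial
    refine Submodule.iSup_induction
      (fun μ : ℂ => Module.End.eigenspace (CuspForm.heckeTLin (N := N) 2 ℓ.2 hℓN) μ)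
      (motive := fun f => esMap N f ∈ ⨆ μ : ℂ, (heckeOpL ℂ N ℂ ℓ).eigenspace μ ∧
        charInvolution N ℂ ℂ (esMap N f) ∈ ⨆ μ : ℂ, (heckeOpL ℂ N ℂ ℓ).eigenspace μ) hf ?_ ?_ ?_
    · intro μ f hf
      rw [Module.End.mem_eigenspace_iff] at hf
      have h1 := esMap_heckeGen (N := N) ℓ f
      have h2 : ((CuspForm.heckeFormsGen N 2 ℓ :
          Module.End ℂ (CuspForm (Gamma0 N) 2)) f) = μ • f := by
        rw [CuspForm.heckeFormsGen_of_not_dvd hℓN]
        exact hf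
      rw [h2, map_smul] at h1
      have h3 : esMap N f ∈ (heckeOpL ℂ N ℂ ℓ).eigenspace μ :=
        Module.End.mem_eigenspace_iff.mpr h1.symm
      refine ⟨Submodule.mem_iSup_of_mem μ h3, Submodule.mem_iSup_of_mem μ ?_⟩
      rw [Module.End.mem_eigenspace_iff, H05.heckeOpL_charInvolution, ← h1, map_smul]
    · rw [map_zero, map_zero]
      exact ⟨zero_mem _, zero_mem _⟩
    · intro f g hf hg
      rw [map_add, map_add]
      exact ⟨add_mem hf.1 hg.1, add_mem hf.2 hg.2⟩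
  exact add_mem (key f).1 (key g).2

/-- **Squarefree annihilator.** -/
theorem exists_sqfree (ℓ : Nat.Primes) (hℓN : ¬ (ℓ : ℕ) ∣ N) :
    ∃ r : ℤ[X], (r.map (Int.castRingHom ℚ)).Separable ∧
      ∀ ψ : Additive (Gamma0 N) →+ ℤ, ψ ∈ parabolicHoms ℤ (Gamma0 N) ℤ →
        aeval (heckeOpL ℤ N ℤ ℓ) r ψ = 0 := by
  classical
  haveI : Module.Finite ℤ (Module.End ℤ (Additive (Gamma0 N) →+ ℤ)) := inferInstance
  have hint : IsIntegral ℤ (heckeOpL ℤ N ℤ ℓ) := IsIntegral.of_finite ℤ _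
  obtain ⟨χ, hχm, hχ⟩ := hint
  have hχ0 : χ.map (Int.castRingHom ℚ) ≠ 0 := (hχm.map _).ne_zero
  obtain ⟨n, hn⟩ := UniqueFactorizationMonoid.exists_dvd_radical_self_pow hχ0
  set r₀ := UniqueFactorizationMonoid.radical (χ.map (Int.castRingHom ℚ)) with hr₀
  have hsq : Squarefree r₀ := UniqueFactorizationMonoid.squarefree_radical
  have hr₀0 : r₀ ≠ 0 := UniqueFactorizationMonoid.radical_ne_zero
  -- clear denominators
  obtain ⟨c, r, hc, hr⟩ : ∃ (c : ℤ) (r : ℤ[X]), c ≠ 0 ∧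
      r.map (Int.castRingHom ℚ) = C (c : ℚ) * r₀ := by
    obtain ⟨b, hb⟩ := IsLocalization.integerNormalization_map_to_map (nonZeroDivisors ℤ) r₀
    refine ⟨b, IsLocalization.integerNormalization (nonZeroDivisors ℤ) r₀,
      nonZeroDivisors.coe_ne_zero b, ?_⟩
    have h1 : algebraMap ℤ ℚ = Int.castRingHom ℚ := rfl
    rw [← h1, hb]
    change (b : ℤ) • r₀ = C (((b : ℤ) : ℚ)) * r₀
    rw [zsmul_eq_mul]
    congr 1
  have hsep : (r.map (Int.castRingHom ℚ)).Separable := by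
    rw [hr]
    have h1 : IsUnit (C (c : ℚ) : ℚ[X]) := Polynomial.isUnit_C.mpr (by
      rw [isUnit_iff_ne_zero]; exact_mod_cast hc)
    exact Polynomial.Separable.unit_mul h1 (PerfectField.separable_iff_squarefree.mpr hsq)
  refine ⟨r, hsep, fun ψ hψ => ?_⟩
  -- pass to `ℂ`
  have hC : (Int.castAddHom ℂ).comp ψ ∈ parabolicHoms ℂ (Gamma0 N) ℂ := by
    intro γ hγ
    have := hψ γ hγ
    change ((ψ (Additive.ofMul γ) : ℤ) : ℂ) = 0
    rw [this, Int.cast_zero]
  let Φ : (Additive (Gamma0 N) →+ ℤ) →+ (Additive (Gamma0 N) →+ ℂ) :=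
    { toFun := fun ψ => (Int.castAddHom ℂ).comp ψ
      map_zero' := by ext; simp
      map_add' := fun a b => by ext; simp }
  have hΦ : ∀ ψ, Φ (heckeOpL ℤ N ℤ ℓ ψ) = heckeOpL ℂ N ℂ ℓ (Φ ψ) := by
    intro ψ
    have : NeZero (ℓ : ℕ) := ⟨ℓ.2.ne_zero⟩
    exact (heckeLin_map (Int.castAddHom ℂ) (ℓ : ℕ) ψ).symm
  have hΦr : ∀ (s : ℤ[X]) ψ, Φ (aeval (heckeOpL ℤ N ℤ ℓ) s ψ) =
      aeval (heckeOpL ℂ N ℂ ℓ) s (Φ ψ) := fun s ψ => aeval_intertwine Φ hΦ s ψ
  have hconv : ∀ s : ℤ[X], aeval (heckeOpL ℂ N ℂ ℓ) s =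
      aeval (heckeOpL ℂ N ℂ ℓ) (s.map (Int.castRingHom ℂ)) := by
    intro s
    have h1 : algebraMap ℤ ℂ = Int.castRingHom ℂ := rfl
    rw [← h1, Polynomial.aeval_map_algebraMap]
  have hnil : (aeval (heckeOpL ℂ N ℂ ℓ) (r.map (Int.castRingHom ℂ)) ^ n) (Φ ψ) = 0 := by
    have hdvd : (χ.map (Int.castRingHom ℂ)) ∣ (r.map (Int.castRingHom ℂ)) ^ n := by
      have h1 : (χ.map (Int.castRingHom ℚ)) ∣ (r.map (Int.castRingHom ℚ)) ^ n := by
        rw [hr, mul_pow]
        exact hn.mul_left _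
      have h2 := Polynomial.map_dvd (algebraMap ℚ ℂ) h1
      rw [Polynomial.map_pow, Polynomial.map_map, Polynomial.map_map] at h2
      have h3 : (algebraMap ℚ ℂ).comp (Int.castRingHom ℚ) = Int.castRingHom ℂ := RingHom.ext_int _ _
      rwa [h3] at h2
    obtain ⟨t, ht⟩ := hdvd
    rw [← map_pow, ht, mul_comm, map_mul, Module.End.mul_apply, ← hconv, ← hΦr]
    have h1 : aeval (heckeOpL ℤ N ℤ ℓ) χ = 0 := hχ
    rw [h1, LinearMap.zero_apply, map_zero, map_zero]
  have h0 : aeval (heckeOpL ℂ N ℂ ℓ) (r.map (Int.castRingHom ℂ)) (Φ ψ) = 0 :=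
    aeval_eq_zero_of_nilpotent _ (mem_iSup_eigenspace ℓ hℓN hC) _ n hnil
  rw [← hconv, ← hΦr] at h0
  refine AddMonoidHom.ext fun γ => ?_
  have h4 := DFunLike.congr_fun h0 γ
  have h5 : ((aeval (heckeOpL ℤ N ℤ ℓ) r ψ γ : ℤ) : ℂ) = 0 := h4
  exact_mod_cast h5

/-- the same with arbitrary torsion free coefficients -/
theorem sqfree_coeff {ℓ : Nat.Primes} {r : ℤ[X]}
    (hr : ∀ ψ : Additive (Gamma0 N) →+ ℤ, ψ ∈ parabolicHoms ℤ (Gamma0 N) ℤ →
      aeval (heckeOpL ℤ N ℤ ℓ) r ψ = 0)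
    {R : Type*} [CommRing R] {A : Type*} [AddCommGroup A] [Module R A] [Module.IsTorsionFree ℤ A]
    {ψ : Additive (Gamma0 N) →+ A} (hψ : ψ ∈ parabolicHoms R (Gamma0 N) A) :
    aeval (heckeOpL R N A ℓ) r ψ = 0 := by
  obtain ⟨n, b, φ, hb, hφ⟩ := exists_decomposition ψ
  have hpar : ∀ i, φ i ∈ parabolicHoms ℤ (Gamma0 N) ℤ := by
    intro i γ hγ
    have h1 := hψ γ hγ
    rw [hφ] at h1
    exact linearIndependent_iff'.mp hb Finset.univ (fun i => φ i (Additive.ofMul γ)) h1 i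
      (Finset.mem_univ i)
  let Φ : Fin n → (Additive (Gamma0 N) →+ ℤ) →+ (Additive (Gamma0 N) →+ A) := fun i =>
    { toFun := fun ψ => ((smulAddHom ℤ A).flip (b i)).comp ψ
      map_zero' := by ext; simp
      map_add' := fun a b => by ext; simp }
  have hdecomp : ψ = ∑ i, Φ i (φ i) := by
    refine AddMonoidHom.ext fun g => ?_
    rw [hφ g, AddMonoidHom.finsetSum_apply]
    rfl
  have hΦ : ∀ i ψ, Φ i (heckeOpL ℤ N ℤ ℓ ψ) = heckeOpL R N A ℓ (Φ i ψ) := by
    intro i ψ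
    have : NeZero (ℓ : ℕ) := ⟨ℓ.2.ne_zero⟩
    exact (heckeLin_map ((smulAddHom ℤ A).flip (b i)) (ℓ : ℕ) ψ).symm
  rw [hdecomp, map_sum]
  refine Finset.sum_eq_zero fun i _ => ?_
  rw [← aeval_intertwine (Φ i) (hΦ i), hr _ (hpar i), map_zero]

end Hecke

end Fermat.Agent.TC
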