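import Mathlib
import Fermat.Agent.TC.Semi
import Fermat.Agent.TC.Cond
import Fermat.Agent.H22.TwistR

/-!
# Twisted Hecke operators on `Hom(Γ_H(N), K)` and semisimplicity
-/

set_option autoImplicit false
set_option linter.style.haveILetI false
set_option linter.unusedSectionVars false

noncomputable section

universe u

namespace Fermat.Agent.TC

open CongruenceSubgroup Matrix.SpecialLinearGroup ModularCurve H22 Polynomial
open ModularCurve.Period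
open scoped MatrixGroups

section Defs

/-- the unit given by a number (or `1`) -/
def uP (N ℓ : ℕ) : (ZMod N)ˣ := if h : ℓ.Coprime N then ZMod.unitOfCoprime ℓ h else 1

lemma uP_val {N ℓ : ℕ} (h : ℓ.Coprime N) : ((uP N ℓ : (ZMod N)ˣ) : ZMod N) = (ℓ : ZMod N) := by
  rw [uP, dif_pos h, ZMod.coe_unitOfCoprime]

variable (R : Type u) [CommRing R] (N : ℕ) [NeZero N] (H : Subgroup (ZMod N)ˣ) (A : Type u)
  [AddCommGroup A] [Module R A]

/-- the exponent of the square root -/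
def hfx : ℕ := (Nat.card ((ZMod N)ˣ ⧸ H) + 1) / 2

/-- The twisted Hecke operator `T_ℓ ⟨ℓ⟩^{1/2}`. -/
def TP (ℓ : Nat.Primes) : Module.End R (HM (GamH N H) A) :=
  diaQ R N H A (((uP N ℓ : (ZMod N)ˣ) : (ZMod N)ˣ ⧸ H) ^ hfx N H) * THp R N H A ℓ

variable {R N H A}

lemma diaQ_THp (g : (ZMod N)ˣ ⧸ H) (ℓ : Nat.Primes) (x : HM (GamH N H) A) :
    diaQ R N H A g (THp R N H A ℓ x) = THp R N H A ℓ (diaQ R N H A g x) := by
  have : NeZero (ℓ : ℕ) := ⟨ℓ.2.ne_zero⟩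
  exact diaQ_TH R N H A g (ℓ : ℕ) x

lemma diaQ_comm (g g' : (ZMod N)ˣ ⧸ H) (x : HM (GamH N H) A) :
    diaQ R N H A g (diaQ R N H A g' x) = diaQ R N H A g' (diaQ R N H A g x) := by
  have h1 : ∀ a b : (ZMod N)ˣ ⧸ H, diaQ R N H A a (diaQ R N H A b x) = diaQ R N H A (a * b) x := by
    intro a b
    rw [map_mul]
    rfl
  have h2 : g * g' = g' * g := mul_comm g g'
  rw [h1, h1, h2]

lemma diaQ_TP (g : (ZMod N)ˣ ⧸ H) (ℓ : Nat.Primes) (x : HM (GamH N H) A) :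
    diaQ R N H A g (TP R N H A ℓ x) = TP R N H A ℓ (diaQ R N H A g x) := by
  rw [TP, Module.End.mul_apply, Module.End.mul_apply, diaQ_comm, diaQ_THp]

lemma TP_comm (ℓ ℓ' : Nat.Primes) (x : HM (GamH N H) A) :
    TP R N H A ℓ (TP R N H A ℓ' x) = TP R N H A ℓ' (TP R N H A ℓ x) := by
  have h1 : ∀ x, THp R N H A ℓ (THp R N H A ℓ' x) = THp R N H A ℓ' (THp R N H A ℓ x) := fun x =>
    congrArg (fun F : Module.End R (HM (GamH N H) A) => F x) (THp_comm H A ℓ ℓ')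
  simp only [TP, Module.End.mul_apply]
  rw [← diaQ_THp, ← diaQ_THp, h1, diaQ_comm]

lemma TP_map {R' : Type u} [CommRing R'] {B : Type u} [AddCommGroup B] [Module R' B] (f : A →+ B)
    (ℓ : Nat.Primes) (x : HM (GamH N H) A) :
    TP R' N H B ℓ (f.comp x) = f.comp (TP R N H A ℓ x) := by
  have : NeZero (ℓ : ℕ) := ⟨ℓ.2.ne_zero⟩
  have h1 : THp R' N H B ℓ (f.comp x) = f.comp (THp R N H A ℓ x) :=
    TH_map (R := R) (R' := R') f (ℓ : ℕ) x
  rw [TP, TP, Module.End.mul_apply, Module.End.mul_apply, h1]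
  obtain ⟨u, hu⟩ := QuotientGroup.mk_surjective
    (((uP N ℓ : (ZMod N)ˣ) : (ZMod N)ˣ ⧸ H) ^ hfx N H)
  rw [← hu]
  rfl

lemma diaQ_map {R' : Type u} [CommRing R'] {B : Type u} [AddCommGroup B] [Module R' B] (f : A →+ B)
    (g : (ZMod N)ˣ ⧸ H) (x : HM (GamH N H) A) :
    diaQ R' N H B g (f.comp x) = f.comp (diaQ R N H A g x) := by
  obtain ⟨u, rfl⟩ := QuotientGroup.mk_surjective g
  rfl

lemma pow_hfx (hodd : Odd (Nat.card ((ZMod N)ˣ ⧸ H))) (g : (ZMod N)ˣ ⧸ H) :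
    g ^ (2 * hfx N H) = g := by
  have h1 : 2 * hfx N H = Nat.card ((ZMod N)ˣ ⧸ H) + 1 := by
    obtain ⟨k, hk⟩ := hodd
    rw [hfx, hk]
    omega
  rw [h1, pow_succ, pow_card_eq_one']
  exact one_mul g

end Defs

section Joint

variable {K : Type u} [Field K] [CharZero K] [IsAlgClosed K] {N : ℕ} [NeZero N]
  {H : Subgroup (ZMod N)ˣ}

/-- The simultaneous eigenspace of the diamond operators. -/
def diaEig (K : Type u) [Field K] (N : ℕ) [NeZero N] (H : Subgroup (ZMod N)ˣ)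
    (χ : (ZMod N)ˣ ⧸ H → K) : Submodule K (HM (GamH N H) K) :=
  ⨅ g, (diaQ K N H K g).eigenspace (χ g)

omit [CharZero K] [IsAlgClosed K] in
lemma mem_diaEig {χ : (ZMod N)ˣ ⧸ H → K} {x : HM (GamH N H) K} :
    x ∈ diaEig K N H χ ↔ ∀ g, diaQ K N H K g x = χ g • x := by
  simp only [diaEig, Submodule.mem_iInf, Module.End.mem_eigenspace_iff]

theorem iSup_diaEig : ⨆ χ : (ZMod N)ˣ ⧸ H → K, diaEig K N H χ = ⊤ := by
  have hfd : FiniteDimensional K (HM (GamH N H) K) := finite_HM _ K K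
  have hss : ∀ g : (ZMod N)ˣ ⧸ H, (diaQ K N H K g).IsSemisimple := by
    intro g
    have hn : (Nat.card ((ZMod N)ˣ ⧸ H) : K) ≠ 0 := by
      exact_mod_cast Nat.card_pos.ne'
    refine Module.End.isSemisimple_of_squarefree_aeval_eq_zero
      (p := X ^ Nat.card ((ZMod N)ˣ ⧸ H) - 1) ?_ ?_
    · exact (Polynomial.separable_X_pow_sub_C (1 : K) hn one_ne_zero).squarefree
    · rw [map_sub, map_pow, aeval_X, map_one, ← map_pow, pow_card_eq_one', map_one, sub_self]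
  have h1 := Module.End.iSup_iInf_maxGenEigenspace_eq_top_of_iSup_maxGenEigenspace_eq_top_of_commute
    (diaQ K N H K) (fun g g' _ => LinearMap.ext fun x => diaQ_comm g g' x)
    (fun g => Module.End.iSup_maxGenEigenspace_eq_top _)
  rw [← h1]
  refine iSup_congr fun χ => iInf_congr fun g => ?_
  rw [(hss g).isFinitelySemisimple.maxGenEigenspace_eq_eigenspace]

omit [CharZero K] [IsAlgClosed K] in
/-- the character of a nonzero simultaneous eigenvector -/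
lemma exists_char {χ : (ZMod N)ˣ ⧸ H → K} {x : HM (GamH N H) K} (hx : x ∈ diaEig K N H χ)
    (hx0 : x ≠ 0) : ∃ ψ : (ZMod N)ˣ ⧸ H →* Kˣ, ∀ g, (ψ g : K) = χ g := by
  rw [mem_diaEig] at hx
  have hone : χ 1 = 1 := by
    have h1 := hx 1
    rw [map_one, Module.End.one_apply] at h1
    have h2 : (χ 1 - 1) • x = 0 := by rw [sub_smul, one_smul, ← h1, sub_self]
    exact sub_eq_zero.mp ((smul_eq_zero.mp h2).resolve_right hx0)
  have hmul : ∀ g g', χ (g * g') = χ g * χ g' := by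
    intro g g'
    have h1 := hx (g * g')
    rw [map_mul, Module.End.mul_apply, hx g', map_smul, hx g, smul_smul] at h1
    have h2 : (χ (g * g') - χ g * χ g') • x = 0 := by
      rw [sub_smul, ← h1, mul_comm, sub_self]
    exact sub_eq_zero.mp ((smul_eq_zero.mp h2).resolve_right hx0)
  let ψ' : (ZMod N)ˣ ⧸ H →* K := { toFun := χ, map_one' := hone, map_mul' := hmul }
  exact ⟨ψ'.toHomUnits, fun g => rfl⟩

end Joint

section Cond

variable {K : Type u} [Field K] {N Q₀ : ℕ} [NeZero N] {H : Subgroup (ZMod N)ˣ} (h₀ : Q₀ ∣ N)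
  (hH : ∀ u : (ZMod N)ˣ, ZMod.unitsMap h₀ u = 1 → u ∈ H)
  (hodd : Odd (Nat.card ((ZMod N)ˣ ⧸ H)))

include hH hodd in
/-- the conductor of the diamond character -/
theorem exists_cond_eig {χ : (ZMod N)ˣ ⧸ H → K} {x : HM (GamH N H) K} (hx : x ∈ diaEig K N H χ)
    (hx0 : x ≠ 0) :
    ∃ (Q : ℕ) (hQ : Q ∣ Q₀) (w : MulChar (ZMod Q) K), NT Q w ∧
      (diaEig K N H χ ≤ psiPart N Q H w) ∧
      ∀ (u : (ZMod N)ˣ), ∀ y ∈ diaEig K N H χ, diaQ K N H K ((u : (ZMod N)ˣ ⧸ H) ^ hfx N H) y =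
        w ((ZMod.unitsMap (hQ.trans h₀) u : (ZMod Q)ˣ) : ZMod Q) • y := by
  obtain ⟨ψ, hψ⟩ := exists_char hx hx0
  have hψpow : ∀ (g : (ZMod N)ˣ ⧸ H), ψ g ^ (2 * hfx N H) = ψ g := by
    intro g
    rw [← map_pow, pow_hfx hodd]
  obtain ⟨Q, hQ, w, hNT, hw⟩ := exists_cond h₀ (ψ.comp (QuotientGroup.mk' H)) (by
    intro u hu
    have h1 : QuotientGroup.mk' H u = 1 := (QuotientGroup.eq_one_iff u).mpr (hH u hu)
    rw [MonoidHom.comp_apply, h1, map_one]) (hfx N H) (fun u => hψpow _)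
  have hval : ∀ (u : (ZMod N)ˣ), w ((ZMod.unitsMap (hQ.trans h₀) u : (ZMod Q)ˣ) : ZMod Q) =
      χ ((u : (ZMod N)ˣ ⧸ H) ^ hfx N H) := by
    intro u
    rw [hw, ← hψ, map_pow]
    rfl
  refine ⟨Q, hQ, w, hNT, ?_, ?_⟩
  · intro y hy g
    rw [mem_diaEig] at hy
    rw [← diaQ_dChar, hy]
    congr 1
    have h1 : (((g : SL(2, ℤ)) 1 1 : ℤ) : ZMod Q) =
        ((ZMod.unitsMap (hQ.trans h₀) (dChar N g) : (ZMod Q)ˣ) : ZMod Q) := by
      rw [ZMod.unitsMap_val, dChar_val]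
      exact (ZMod.cast_intCast (hQ.trans h₀) _).symm
    rw [h1, hw, ← hψ]
    rw [← Units.val_pow_eq_pow_val, ← pow_mul, mul_comm]
    exact congrArg Units.val (hψpow ((dChar N g : (ZMod N)ˣ) : (ZMod N)ˣ ⧸ H)).symm
  · intro u y hy
    rw [mem_diaEig] at hy
    rw [hy, hval]

lemma dChar_unitsMap_uP {Q : ℕ} (hQ : Q ∣ N) {ℓ : ℕ} (hℓ : ℓ.Coprime N) :
    ((ZMod.unitsMap hQ (uP N ℓ) : (ZMod Q)ˣ) : ZMod Q) = ((ℓ : ℕ) : ZMod Q) := by
  rw [ZMod.unitsMap_val, uP_val hℓ]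
  exact ZMod.cast_natCast hQ _

include hH hodd in
/-- **The twisting operator on an eigenspace of the diamonds.** -/
theorem exists_R [CharZero K] {M₀ : ℕ} (hN : N = Q₀ * M₀) (hsq : Squarefree Q₀)
    (hcop : Nat.Coprime Q₀ M₀) {χ : (ZMod N)ˣ ⧸ H → K} {x : HM (GamH N H) K}
    (hx : x ∈ diaEig K N H χ) (hx0 : x ≠ 0) :
    ∃ (Q : ℕ) (_ : Q ∣ Q₀) (_ : NeZero (N * Q))
      (Rt : diaEig K N H χ →ₗ[K] (Additive (Gamma0 (N * Q)) →+ K)), Function.Injective Rt ∧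
      ∀ (ℓ : Nat.Primes), ¬ (ℓ : ℕ) ∣ N → ∀ y y' : diaEig K N H χ,
        (y' : HM (GamH N H) K) = TP K N H K ℓ y →
        Rt y' = heckeOpL K (N * Q) K ℓ (Rt y) := by
  obtain ⟨Q, hQ, w, hNT, hle, hw⟩ := exists_cond_eig h₀ hH hodd hx hx0
  have hN0 : N ≠ 0 := NeZero.ne N
  have hQN : Q ∣ N := hQ.trans h₀
  have hQ0 : Q ≠ 0 := by
    rintro rfl
    exact hN0 (Nat.eq_zero_of_zero_dvd hQN)
  haveI : NeZero Q := ⟨hQ0⟩
  haveI hNQ : NeZero (N * Q) := ⟨mul_ne_zero hN0 hQ0⟩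
  obtain ⟨b, hb⟩ := hQ
  have hN' : N = Q * (b * M₀) := by rw [hN, hb, mul_assoc]
  have hcop' : Nat.Coprime Q (b * M₀) := by
    refine Nat.Coprime.mul_right ?_ ?_
    · rw [hb] at hsq
      exact Nat.coprime_of_squarefree_mul hsq
    · exact Nat.Coprime.coprime_dvd_left ⟨b, hb⟩ hcop
  obtain ⟨R, hR, hgerm⟩ := exists_twistR hN' (Squarefree.squarefree_of_dvd ⟨b, hb⟩ hsq) hcop' H hNT
  refine ⟨Q, ⟨b, hb⟩, hNQ, R.comp (Submodule.inclusion hle), ?_, ?_⟩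
  · exact hR.comp (Submodule.inclusion_injective hle)
  · intro ℓ hℓ y y' hy'
    haveI : Fact (ℓ : ℕ).Prime := ⟨ℓ.2⟩
    haveI : NeZero (ℓ : ℕ) := ⟨ℓ.2.ne_zero⟩
    have hcopℓ : Nat.Coprime (ℓ : ℕ) N := (Nat.Prime.coprime_iff_not_dvd ℓ.2).mpr hℓ
    apply germ_injective
    change germ K (R (Submodule.inclusion hle y')) =
      germ K (heckeLin K (N * Q) K (ℓ : ℕ) (R (Submodule.inclusion hle y)))
    rw [twistR_hecke hQN (Submodule.inclusion hle y).2 (hgerm _) hℓ, hgerm, ← rw'_smul,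
      ← map_smul]
    congr 2
    change (y' : HM (GamH N H) K) = _
    rw [hy', TP, Module.End.mul_apply, ← diaQ_TH' , ← dChar_unitsMap_uP hQN hcopℓ,
      ← map_smul, hw (uP N ℓ) y y.2]
    rfl
where
  diaQ_TH' {K : Type u} [Field K] {N : ℕ} [NeZero N] {H : Subgroup (ZMod N)ˣ}
      {g : (ZMod N)ˣ ⧸ H} {ℓ : Nat.Primes} {x : HM (GamH N H) K} :
      THp K N H K ℓ (diaQ K N H K g x) = diaQ K N H K g (THp K N H K ℓ x) :=
    (diaQ_THp g ℓ x).symm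

omit [NeZero N] in
lemma TP_mem_diaEig [NeZero N] (ℓ : Nat.Primes) {χ : (ZMod N)ˣ ⧸ H → K} {x : HM (GamH N H) K}
    (hx : x ∈ diaEig K N H χ) : TP K N H K ℓ x ∈ diaEig K N H χ := by
  rw [mem_diaEig] at hx ⊢
  intro g
  rw [diaQ_TP, hx, map_smul]

/-- the operator on the eigenspace -/
def TPE (K : Type u) [Field K] (N : ℕ) [NeZero N] (H : Subgroup (ZMod N)ˣ)
    (χ : (ZMod N)ˣ ⧸ H → K) (ℓ : Nat.Primes) : Module.End K (diaEig K N H χ) :=
  (TP K N H K ℓ).restrict fun _ hx => TP_mem_diaEig ℓ hx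

lemma isTorsionFree_int_field [CharZero K] : Module.IsTorsionFree ℤ K := inferInstance

include hH hodd in
/-- **Semisimplicity of the twisted Hecke operators.** -/
theorem exists_semi {M₀ : ℕ} (hN : N = Q₀ * M₀) (hsq : Squarefree Q₀)
    (hcop : Nat.Coprime Q₀ M₀) (ℓ : Nat.Primes) (hℓ : ¬ (ℓ : ℕ) ∣ N)
    (ℓ₀ : Nat.Primes) (hℓ₀ : ((N * Q₀ : ℕ) : ℤ) ∣ (ℓ₀ : ℤ) - 1) :
    ∃ r : ℤ[X], (r.map (Int.castRingHom ℚ)).Separable ∧
      ∀ (K : Type u) [Field K] [CharZero K] [IsAlgClosed K] (φ : HM (GamH N H) K),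
        aeval (TP K N H K ℓ) r (TP K N H K ℓ₀ φ - ((ℓ₀ : ℕ) + 1) • φ) = 0 := by
  classical
  have hN0 : N ≠ 0 := NeZero.ne N
  have hQ₀0 : Q₀ ≠ 0 := by
    rintro rfl
    exact hN0 (by rw [hN, zero_mul])
  have hℓ₀N : ¬ (ℓ₀ : ℕ) ∣ N := by
    intro h
    have h1 : ((ℓ₀ : ℕ) : ℤ) ∣ (ℓ₀ : ℤ) - 1 :=
      (Int.natCast_dvd_natCast.mpr (h.mul_right Q₀)).trans hℓ₀
    have h2 : ((ℓ₀ : ℕ) : ℤ) ∣ 1 := by
      have := (Int.dvd_iff_dvd_of_dvd_sub h1).mp (dvd_refl _)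
      exact this
    have h3 := Int.eq_one_of_dvd_one (by positivity) h2
    exact ℓ₀.2.one_lt.ne' (by exact_mod_cast h3)
  -- annihilators at the levels `N Q`
  have hex : ∀ Q : ℕ, ∃ r : ℤ[X], (r.map (Int.castRingHom ℚ)).Separable ∧
      (∀ (_ : NeZero (N * Q)), Q ∣ Q₀ → ∀ ψ : Additive (Gamma0 (N * Q)) →+ ℤ,
        ψ ∈ parabolicHoms ℤ (Gamma0 (N * Q)) ℤ → aeval (heckeOpL ℤ (N * Q) ℤ ℓ) r ψ = 0) := by
    intro Q
    by_cases hQ : Q ∣ Q₀
    · have hQ0 : Q ≠ 0 := by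
        rintro rfl
        exact hQ₀0 (Nat.eq_zero_of_zero_dvd hQ)
      haveI : NeZero (N * Q) := ⟨mul_ne_zero hN0 hQ0⟩
      have hℓQ : ¬ (ℓ : ℕ) ∣ N * Q := by
        intro h
        rcases (Nat.Prime.dvd_mul ℓ.2).mp h with h1 | h1
        · exact hℓ h1
        · exact hℓ (h1.trans (hQ.trans h₀))
      obtain ⟨r, hr, hr'⟩ := exists_sqfree (N := N * Q) ℓ hℓQ
      exact ⟨r, hr, fun _ _ ψ hψ => hr' ψ hψ⟩
    · exact ⟨1, by rw [Polynomial.map_one]; exact Polynomial.separable_one, fun _ h => absurd h hQ⟩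
  choose rQ hrQ hrQ' using hex
  set P : ℚ[X] := ∏ Q ∈ Nat.divisors Q₀, (rQ Q).map (Int.castRingHom ℚ) with hP
  have hP0 : P ≠ 0 := Finset.prod_ne_zero_iff.mpr fun Q _ => (hrQ Q).ne_zero
  set r₀ := UniqueFactorizationMonoid.radical P with hr₀
  obtain ⟨c, r, hc, hr⟩ : ∃ (c : ℤ) (r : ℤ[X]), c ≠ 0 ∧
      r.map (Int.castRingHom ℚ) = C (c : ℚ) * r₀ := by
    obtain ⟨b, hb⟩ := IsLocalization.integerNormalization_map_to_map (nonZeroDivisors ℤ) r₀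
    refine ⟨b, IsLocalization.integerNormalization (nonZeroDivisors ℤ) r₀,
      nonZeroDivisors.coe_ne_zero b, ?_⟩
    have h1 : algebraMap ℤ ℚ = Int.castRingHom ℚ := rfl
    rw [← h1, hb]
    change (b : ℤ) • r₀ = C (((b : ℤ) : ℚ)) * r₀
    rw [zsmul_eq_mul]
    congr 1
  have hcu : IsUnit (C (c : ℚ) : ℚ[X]) := Polynomial.isUnit_C.mpr (by
    rw [isUnit_iff_ne_zero]; exact_mod_cast hc)
  refine ⟨r, ?_, ?_⟩
  · rw [hr]
    exact Polynomial.Separable.unit_mul hcu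
      (PerfectField.separable_iff_squarefree.mpr UniqueFactorizationMonoid.squarefree_radical)
  have hdvd : ∀ Q ∈ Nat.divisors Q₀, (rQ Q).map (Int.castRingHom ℚ) ∣
      r.map (Int.castRingHom ℚ) := by
    intro Q hQ
    rw [hr]
    refine Dvd.dvd.mul_left ?_ _
    exact (UniqueFactorizationMonoid.dvd_radical_iff (hrQ Q).squarefree.isRadical hP0).mpr
      (Finset.dvd_prod_of_mem _ hQ)
  intro K _ _ _ φ
  have hφ : φ ∈ ⨆ χ : (ZMod N)ˣ ⧸ H → K, diaEig K N H χ := by rw [iSup_diaEig]; trivial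
  refine Submodule.iSup_induction (fun χ : (ZMod N)ˣ ⧸ H → K => diaEig K N H χ)
    (motive := fun φ => aeval (TP K N H K ℓ) r (TP K N H K ℓ₀ φ - ((ℓ₀ : ℕ) + 1) • φ) = 0) hφ
    ?_ ?_ ?_
  · intro χ y hy
    by_cases hy0 : y = 0
    · rw [hy0, map_zero, smul_zero, sub_zero, map_zero]
    obtain ⟨Q, hQ, hNQ, Rt, hRt, hR⟩ := exists_R h₀ hH hodd hN hsq hcop hy hy0
    have hR' : ∀ (ℓ : Nat.Primes), ¬ (ℓ : ℕ) ∣ N → ∀ y : diaEig K N H χ,
        Rt (TPE K N H χ ℓ y) = heckeOpL K (N * Q) K ℓ (Rt y) := fun ℓ hℓ y => hR ℓ hℓ y _ rfl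
    set Y : diaEig K N H χ := ⟨y, hy⟩ with hY
    set v : diaEig K N H χ := TPE K N H χ ℓ₀ Y - ((ℓ₀ : ℕ) + 1) • Y with hv
    have hpar : Rt v ∈ parabolicHoms K (Gamma0 (N * Q)) K := by
      intro γ hγ
      haveI : NeZero (ℓ₀ : ℕ) := ⟨ℓ₀.2.ne_zero⟩
      rw [Matrix.trace_fin_two] at hγ
      have h1 := heckeLin_parabolic (R := K) (N := N * Q) (A := K) (fun n hn x hx => by
        have := smul_eq_zero.mp hx
        exact this.resolve_left hn) ℓ₀.2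
        ((Int.natCast_dvd_natCast.mpr (mul_dvd_mul_left N hQ)).trans hℓ₀) (Rt Y) hγ
      rw [hv, map_sub, map_nsmul, hR' ℓ₀ hℓ₀N]
      change heckeLin K (N * Q) K (ℓ₀ : ℕ) (Rt Y) (Additive.ofMul γ) -
        ((ℓ₀ : ℕ) + 1) • Rt Y (Additive.ofMul γ) = 0
      rw [h1, sub_self]
    have hkill : aeval (heckeOpL K (N * Q) K ℓ) (rQ Q) (Rt v) = 0 := by
      haveI : Module.IsTorsionFree ℤ K := inferInstance
      exact sqfree_coeff (hrQ' Q hNQ hQ) hpar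
    have hkill2 : aeval (TPE K N H χ ℓ) (rQ Q) v = 0 := by
      apply hRt
      rw [map_zero, ← hkill]
      exact aeval_intertwine Rt.toAddMonoidHom (fun y => hR' ℓ hℓ y) (rQ Q) v
    have hconv : ∀ s : ℤ[X], aeval (TPE K N H χ ℓ) s =
        aeval (TPE K N H χ ℓ) (s.map (Int.castRingHom K)) := by
      intro s
      have h1 : algebraMap ℤ K = Int.castRingHom K := rfl
      rw [← h1, Polynomial.aeval_map_algebraMap]
    have hkill3 : aeval (TPE K N H χ ℓ) r v = 0 := by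
      have h1 := Polynomial.map_dvd (algebraMap ℚ K)
        (hdvd Q (Nat.mem_divisors.mpr ⟨hQ, hQ₀0⟩))
      rw [Polynomial.map_map, Polynomial.map_map] at h1
      have h3 : (algebraMap ℚ K).comp (Int.castRingHom ℚ) = Int.castRingHom K :=
        RingHom.ext_int _ _
      rw [h3] at h1
      obtain ⟨t, ht⟩ := h1
      rw [hconv, ht, mul_comm, map_mul, Module.End.mul_apply, ← hconv, hkill2, map_zero]
    have h4 := aeval_intertwine (diaEig K N H χ).subtype.toAddMonoidHom (T' := TP K N H K ℓ)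
      (T := TPE K N H χ ℓ) (fun y => rfl) r v
    have h5 : (aeval (TP K N H K ℓ) r) ((v : HM (GamH N H) K)) = 0 := by
      change (diaEig K N H χ).subtype.toAddMonoidHom (aeval (TPE K N H χ ℓ) r v) = _ at h4
      rw [hkill3, map_zero] at h4
      exact h4.symm
    exact h5
  · rw [map_zero, smul_zero, sub_zero, map_zero]
  · intro a b ha hb
    rw [map_add, smul_add]
    have h1 : TP K N H K ℓ₀ a + TP K N H K ℓ₀ b - (((ℓ₀ : ℕ) + 1) • a + ((ℓ₀ : ℕ) + 1) • b) =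
        (TP K N H K ℓ₀ a - ((ℓ₀ : ℕ) + 1) • a) + (TP K N H K ℓ₀ b - ((ℓ₀ : ℕ) + 1) • b) := by
      abel
    rw [h1, map_add, ha, hb, add_zero]

end Cond

end Fermat.Agent.TC
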