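import Mathlib
import Fermat.Agent.TC.HAlg
import Fermat.Agent.TC.Twist

/-!
# Hecke algebras acting on stable submodules of `Hom(Γ_H(N), O)`
-/

set_option autoImplicit false
set_option linter.style.haveILetI false
set_option linter.unusedSectionVars false

noncomputable section

universe u

namespace Fermat.Agent.TC

open CongruenceSubgroup Matrix.SpecialLinearGroup H22 IsLocalRing
open scoped MatrixGroups

section Act

variable {O : Type u} [CommRing O] {N : ℕ} [NeZero N] {H : Subgroup (ZMod N)ˣ} {σ : Type}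
  (pr : σ → Nat.Primes)

/-- stability under Hecke and diamond operators -/
structure Stab (O : Type u) [CommRing O] {N : ℕ} [NeZero N] {H : Subgroup (ZMod N)ˣ} {σ : Type}
    (pr : σ → Nat.Primes) (W : Submodule O (HM (GamH N H) O)) : Prop where
  T : ∀ i, ∀ x ∈ W, THp O N H O (pr i) x ∈ W
  dia : ∀ g, ∀ x ∈ W, diaQ O N H O g x ∈ W

variable {pr} {W : Submodule O (HM (GamH N H) O)} (hW : Stab O pr W)

/-- the family of operators -/
def famW : σ ⊕ ((ZMod N)ˣ ⧸ H) → Module.End O W
  | Sum.inl i => (THp O N H O (pr i)).restrict (hW.T i)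
  | Sum.inr g => (diaQ O N H O g).restrict (hW.dia g)

lemma famW_comm (i j : σ ⊕ ((ZMod N)ˣ ⧸ H)) :
    famW hW i * famW hW j = famW hW j * famW hW i := by
  refine LinearMap.ext fun x => Subtype.ext ?_
  rcases i with i | g <;> rcases j with j | g'
  · exact LinearMap.congr_fun (THp_comm (O := O) H O (pr i) (pr j)) (x : HM (GamH N H) O)
  · exact (diaQ_THp g' (pr i) (x : HM (GamH N H) O)).symm
  · exact diaQ_THp g (pr j) (x : HM (GamH N H) O)
  · exact diaQ_comm g g' (x : HM (GamH N H) O)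

/-- the action of polynomials in Hecke and diamond operators on `W` -/
def actW : MvPolynomial (σ ⊕ ((ZMod N)ˣ ⧸ H)) O →ₐ[O] Module.End O W :=
  actHom (famW hW) (famW_comm hW)

lemma actW_inl (i : σ) (x : W) :
    ((actW hW (MvPolynomial.X (Sum.inl i)) x : W) : HM (GamH N H) O) =
      THp O N H O (pr i) x := by
  rw [actW, actHom_X]; rfl

lemma actW_inr (g : (ZMod N)ˣ ⧸ H) (x : W) :
    ((actW hW (MvPolynomial.X (Sum.inr g)) x : W) : HM (GamH N H) O) = diaQ O N H O g x := by
  rw [actW, actHom_X]; rfl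

lemma actW_rename (P : MvPolynomial σ O) (x : W) :
    ((actW hW (MvPolynomial.rename Sum.inl P) x : W) : HM (GamH N H) O) =
      hAct O N H O pr P x := by
  let τ : MvPolynomial σ O →ₐ[O] Module.End O W := (actW hW).comp (MvPolynomial.rename Sum.inl)
  refine act_intertwine (τ := τ) W.subtype.toAddMonoidHom (fun a x => rfl) ?_ P x
  intro i x
  change ((actW hW (MvPolynomial.rename Sum.inl (MvPolynomial.X i)) x : W) : HM (GamH N H) O) = _
  rw [MvPolynomial.rename_X, actW_inl, hAct_X]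
  rfl

/-- the diamond operators as a homomorphism -/
def rhoW : ((ZMod N)ˣ ⧸ H) →* Module.End O W where
  toFun g := actW hW (MvPolynomial.X (Sum.inr g))
  map_one' := by
    refine LinearMap.ext fun x => Subtype.ext ?_
    rw [actW_inr, map_one]; rfl
  map_mul' g g' := by
    refine LinearMap.ext fun x => Subtype.ext ?_
    rw [actW_inr, map_mul, Module.End.mul_apply, Module.End.mul_apply, actW_inr, actW_inr]

end Act

section LocA

variable {O : Type u} [CommRing O] [IsLocalRing O] [IsNoetherianRing O] {N : ℕ} [NeZero N]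
  {H : Subgroup (ZMod N)ˣ} {σ : Type} {pr : σ → Nat.Primes} {W : Submodule O (HM (GamH N H) O)}
  (hW : Stab O pr W) {a : σ → ResidueField O}

/-- local action of the Hecke operators on `W` -/
def LocW (O : Type u) [CommRing O] [IsLocalRing O] {N : ℕ} [NeZero N]
    {H : Subgroup (ZMod N)ˣ} {σ : Type} (pr : σ → Nat.Primes) (a : σ → ResidueField O)
    (W : Submodule O (HM (GamH N H) O)) : Prop :=
  ∀ s : MvPolynomial σ O, evR a s ≠ 0 → ∀ x ∈ W, ∃ y ∈ W, hAct O N H O pr s y = x

instance finiteW : Module.Finite O W :=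
  haveI : Module.Finite O (HM (GamH N H) O) := finite_HM _ O O
  inferInstance

theorem locAct_W {p : ℕ} (hp : p.Prime) (hpO : (p : O) ∈ maximalIdeal O)
    (hΔ : IsPGroup p ((ZMod N)ˣ ⧸ H)) (hloc : LocW O pr a W) :
    LocAct (actW hW) (Sum.elim a (fun _ => 1)) := by
  haveI : Module.Finite O W := finiteW
  refine LocAct.unip (actW hW) (rhoW hW) (fun g => rfl) a hp hpO hΔ ?_
  intro s hs x
  obtain ⟨y, hy, hyx⟩ := hloc s hs x x.2
  refine ⟨⟨y, hy⟩, Subtype.ext ?_⟩
  change ((actW hW (MvPolynomial.rename Sum.inl s) ⟨y, hy⟩ : W) : HM (GamH N H) O) = x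
  rw [actW_rename, hyx]

end LocA

section Tw

variable {O : Type u} [CommRing O] {N : ℕ} [NeZero N] {H : Subgroup (ZMod N)ˣ} {σ : Type}
  {pr : σ → Nat.Primes} {W : Submodule O (HM (GamH N H) O)} (hW : Stab O pr W)
  {σ' K' : Type} (ι' : σ' → σ) (j : K' → (ZMod N)ˣ ⧸ H)

/-- the substitution defining the twisted operators -/
def twS (O : Type u) [CommRing O] {N : ℕ} {H : Subgroup (ZMod N)ˣ} {σ : Type}
    (pr : σ → Nat.Primes) {σ' K' : Type} (ι' : σ' → σ) (j : K' → (ZMod N)ˣ ⧸ H) :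
    MvPolynomial (σ' ⊕ K') O →ₐ[O] MvPolynomial (σ ⊕ ((ZMod N)ˣ ⧸ H)) O :=
  MvPolynomial.aeval (Sum.elim
    (fun i => MvPolynomial.X (Sum.inr (((uP N (pr (ι' i)) : (ZMod N)ˣ) : (ZMod N)ˣ ⧸ H) ^ hfx N H)) *
      MvPolynomial.X (Sum.inl (ι' i)))
    (fun k => MvPolynomial.X (Sum.inr (j k))))

/-- the action by twisted operators -/
def actT : MvPolynomial (σ' ⊕ K') O →ₐ[O] Module.End O W := (actW hW).comp (twS O pr ι' j)

lemma actT_inl (i : σ') (x : W) :
    ((actT hW ι' j (MvPolynomial.X (Sum.inl i)) x : W) : HM (GamH N H) O) =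
      TP O N H O (pr (ι' i)) x := by
  rw [actT, AlgHom.comp_apply, twS, MvPolynomial.aeval_X, Sum.elim_inl, map_mul,
    Module.End.mul_apply, actW_inr, actW_inl, TP, Module.End.mul_apply]

lemma actT_inr (k : K') (x : W) :
    ((actT hW ι' j (MvPolynomial.X (Sum.inr k)) x : W) : HM (GamH N H) O) =
      diaQ O N H O (j k) x := by
  rw [actT, AlgHom.comp_apply, twS, MvPolynomial.aeval_X, Sum.elim_inr, actW_inr]

theorem locAct_T [IsLocalRing O] [IsNoetherianRing O] {a : σ → ResidueField O} {p : ℕ}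
    (hp : p.Prime) (hpO : (p : O) ∈ maximalIdeal O)
    (hΔ : IsPGroup p ((ZMod N)ˣ ⧸ H)) (hloc : LocW O pr a W) :
    LocAct (actT hW ι' j) (Sum.elim (fun i => a (ι' i)) (fun _ => 1)) := by
  refine (locAct_W hW hp hpO hΔ hloc).comp (twS O pr ι' j) ?_
  rintro (i | k)
  · rw [twS, MvPolynomial.aeval_X, Sum.elim_inl, map_mul, evR_X, evR_X, Sum.elim_inr, Sum.elim_inl,
      one_mul, Sum.elim_inl]
  · rw [twS, MvPolynomial.aeval_X, Sum.elim_inr, evR_X, Sum.elim_inr, Sum.elim_inr]

end Tw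

end Fermat.Agent.TC
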