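import Mathlib
import Fermat.Agent.TC.Stable
import Fermat.Agent.TC.QDat
import Fermat.Agent.TC.Chi2

/-!
# Eigenparts for diamond operators; functoriality of Hecke algebras
-/

set_option autoImplicit false
set_option linter.style.haveILetI false
set_option linter.unusedSectionVars false

noncomputable section

universe u

namespace Fermat.Agent.TC

open CongruenceSubgroup Matrix.SpecialLinearGroup H22 IsLocalRing
open Fermat.Agent.H25.TWM
open scoped MatrixGroups

section Eig

variable {O : Type u} [CommRing O] {N : ℕ} [NeZero N] {H : Subgroup (ZMod N)ˣ} {σ : Type}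
  {pr : σ → Nat.Primes}

/-- part of a module on which certain diamond operators act by scalars -/
def eigPart (W : Submodule O (HM (GamH N H) O)) {ι : Type} (f : ι → (ZMod N)ˣ ⧸ H) (c : ι → O) :
    Submodule O (HM (GamH N H) O) where
  carrier := {x | x ∈ W ∧ ∀ i, diaQ O N H O (f i) x = c i • x}
  zero_mem' := ⟨zero_mem _, fun s => by rw [map_zero, smul_zero]⟩
  add_mem' {x y} hx hy := ⟨add_mem hx.1 hy.1, fun s => by rw [map_add, hx.2, hy.2, smul_add]⟩
  smul_mem' a x hx := ⟨Submodule.smul_mem _ _ hx.1, fun s => by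
    rw [map_smul, hx.2, smul_comm]⟩

variable {W : Submodule O (HM (GamH N H) O)} {ι : Type} {f : ι → (ZMod N)ˣ ⧸ H} {c : ι → O}

lemma mem_eigPart {x : HM (GamH N H) O} :
    x ∈ eigPart W f c ↔ x ∈ W ∧ ∀ i, diaQ O N H O (f i) x = c i • x := Iff.rfl

lemma stab_locPart [IsLocalRing O] (a : σ → ResidueField O) :
    Stab O pr (locPart (hAct O N H O pr) (mx a)) := by
  refine ⟨fun i x hx => ?_, fun g x hx => ?_⟩
  · have h1 := τ_mem_locPart (τ := hAct O N H O pr) (m := mx a) (MvPolynomial.X i) hx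
    rwa [hAct_X] at h1
  · exact locPart_stable (diaQ O N H O g) (fun t x => diaQ_hAct pr g t x) hx

lemma stab_eigPart (hW : Stab O pr W) (f : ι → (ZMod N)ˣ ⧸ H) (c : ι → O) :
    Stab O pr (eigPart W f c) := by
  refine ⟨fun i x hx => ⟨hW.T i x hx.1, fun s => ?_⟩, fun g x hx => ⟨hW.dia g x hx.1, fun s => ?_⟩⟩
  · rw [diaQ_THp, hx.2, map_smul]
  · rw [diaQ_comm, hx.2, map_smul]

lemma locW_locPart [IsLocalRing O] {a : σ → ResidueField O} {e : MvPolynomial σ O}
    (he : Dec (hAct O N H O pr) (mx a) e) (f : ι → (ZMod N)ˣ ⧸ H) (c : ι → O) :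
    LocW O pr a (eigPart (locPart (hAct O N H O pr) (mx a)) f c) := by
  intro s hs x hx
  have hs' : s ∉ mx a := fun h => hs ((mem_mx a s).mp h)
  obtain ⟨y, hy, hyx⟩ := he.surj hs' hx.1
  refine ⟨y, ⟨hy, fun i => ?_⟩, hyx⟩
  rw [← sub_eq_zero]
  refine he.bij hs' (x := diaQ O N H O (f i) y - c i • y) ?_ ?_
  · exact sub_mem ((stab_locPart a).dia (f i) y hy) (Submodule.smul_mem _ _ hy)
  · rw [map_sub, map_smul, ← diaQ_hAct, hyx, hx.2, sub_self]

end Eig

section Map

variable {O : Type u} [CommRing O] {M₁ M₂ : Type u} [AddCommGroup M₁] [Module O M₁]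
  [AddCommGroup M₂] [Module O M₂] {τ₁ τ₂ : Type} (act₁ : MvPolynomial τ₁ O →ₐ[O] Module.End O M₁)
  (act₂ : MvPolynomial τ₂ O →ₐ[O] Module.End O M₂) (θ : MvPolynomial τ₁ O →ₐ[O] MvPolynomial τ₂ O)
  (f : M₁ →+ M₂) (hf : ∀ (a : O) m, f (a • m) = a • f m)
  (h : ∀ i m, f (act₁ (MvPolynomial.X i) m) = act₂ (θ (MvPolynomial.X i)) (f m))

include hf h in
lemma act_intertwine' (P : MvPolynomial τ₁ O) (m : M₁) : f (act₁ P m) = act₂ (θ P) (f m) :=
  act_intertwine (τ := act₁) (τ' := act₂.comp θ) f hf h P m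

variable (hs : Function.Surjective f)

/-- functoriality of Hecke algebras -/
def HT.map : HT act₁ →ₐ[O] HT act₂ :=
  Ideal.Quotient.liftₐ (RingHom.ker act₁) ((Ideal.Quotient.mkₐ O (RingHom.ker act₂)).comp θ) (by
    intro P hP
    rw [AlgHom.comp_apply, Ideal.Quotient.mkₐ_eq_mk, Ideal.Quotient.eq_zero_iff_mem,
      RingHom.mem_ker]
    refine LinearMap.ext fun m => ?_
    obtain ⟨m, rfl⟩ := hs m
    rw [← act_intertwine' act₁ act₂ θ f hf h]
    have : act₁ P = 0 := hP
    rw [this, LinearMap.zero_apply, map_zero, LinearMap.zero_apply])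

lemma HT.map_mk (P : MvPolynomial τ₁ O) :
    HT.map act₁ act₂ θ f hf h hs (Ideal.Quotient.mk _ P) = Ideal.Quotient.mk _ (θ P) := rfl

lemma HT.map_toEnd (b : HT act₁) (m : M₁) :
    f (HT.toEnd act₁ b m) = HT.toEnd act₂ (HT.map act₁ act₂ θ f hf h hs b) (f m) := by
  obtain ⟨P, rfl⟩ := HT.exists_rep act₁ b
  rw [HT.map_mk, HT.toEnd_mk, HT.toEnd_mk, act_intertwine' act₁ act₂ θ f hf h]

end Map

section Mod

variable {O : Type u} [CommRing O] {M : Type u} [AddCommGroup M] [Module O M]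
  {τ : Type} (act : MvPolynomial τ O →ₐ[O] Module.End O M)

/-- the module structure over the Hecke algebra -/
abbrev HT.module : Module (HT act) M := Module.compHom M (HT.toEnd act).toRingHom

lemma HT.tower : letI := HT.module act; IsScalarTower O (HT act) M := by
  letI := HT.module act
  refine ⟨fun a b m => ?_⟩
  change HT.toEnd act (a • b) m = a • HT.toEnd act b m
  rw [map_smul, LinearMap.smul_apply]

end Mod

end Fermat.Agent.TC
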