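import Mathlib
import Fermat.Agent.TC.HAlg

/-!
# Points of Hecke algebras with semisimple action
-/

set_option autoImplicit false
set_option linter.style.haveILetI false
set_option linter.unusedSectionVars false

noncomputable section

universe u

namespace Fermat.Agent.TC

open MvPolynomial

section Abs

variable {O : Type u} [CommRing O] {K : Type u} [Field K] [Algebra O K]
  {M : Type u} [AddCommGroup M] [Module O M] {V : Type u} [AddCommGroup V] [Module K V]
  [FiniteDimensional K V] {τ : Type} (act : MvPolynomial τ O →ₐ[O] Module.End O M)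
  (Φ : M →+ V) (hΦO : ∀ (a : O) m, Φ (a • m) = algebraMap O K a • Φ m)
  (hspan : Submodule.span K (Set.range Φ) = ⊤)
  (G : τ → Module.End K V) (hG : ∀ i m, Φ (act (X i) m) = G i (Φ m))

include hspan in
omit [FiniteDimensional K V] in
lemma end_ext {E E' : Module.End K V} (h : ∀ m, E (Φ m) = E' (Φ m)) : E = E' := by
  refine LinearMap.ext_on_range (v := Φ) hspan h

include hspan hG in
omit [FiniteDimensional K V] in
lemma G_comm (i j : τ) : Commute (G i) (G j) := by
  refine end_ext Φ hspan fun m => ?_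
  rw [Module.End.mul_apply, Module.End.mul_apply, ← hG, ← hG, ← hG, ← hG, ← Module.End.mul_apply,
    ← Module.End.mul_apply, ← map_mul, ← map_mul, mul_comm]

include hΦO hG in
omit [FiniteDimensional K V] in
lemma exists_E (P : MvPolynomial τ O) : ∃ E : Module.End K V, (∀ m, E (Φ m) = Φ (act P m)) ∧
    ∀ (χ : τ → K) (v : V), (∀ i, G i v = χ i • v) → E v = (aeval χ P) • v := by
  induction P using MvPolynomial.induction_on with
  | C a =>
    refine ⟨algebraMap K (Module.End K V) (algebraMap O K a), fun m => ?_, fun χ v hv => ?_⟩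
    · rw [Module.algebraMap_end_apply, ← hΦO, ← MvPolynomial.algebraMap_eq, AlgHom.commutes,
        Module.algebraMap_end_apply]
    · rw [Module.algebraMap_end_apply, MvPolynomial.aeval_C]
  | add P Q hP hQ =>
    obtain ⟨E, hE, hE'⟩ := hP
    obtain ⟨F, hF, hF'⟩ := hQ
    refine ⟨E + F, fun m => ?_, fun χ v hv => ?_⟩
    · rw [LinearMap.add_apply, hE, hF, map_add, LinearMap.add_apply, map_add]
    · rw [LinearMap.add_apply, hE' χ v hv, hF' χ v hv, map_add, add_smul]
  | mul_X P i hP =>
    obtain ⟨E, hE, hE'⟩ := hP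
    refine ⟨E * G i, fun m => ?_, fun χ v hv => ?_⟩
    · rw [Module.End.mul_apply, ← hG, hE, map_mul, Module.End.mul_apply]
    · rw [Module.End.mul_apply, hv i, map_smul, hE' χ v hv, map_mul, aeval_X, smul_smul, mul_comm]

variable [IsAlgClosed K] (hss : ∀ i, (G i).IsSemisimple)

include hspan hG hss in
lemma iSup_iInf_eig : ⨆ χ : τ → K, ⨅ i, (G i).eigenspace (χ i) = ⊤ := by
  have h1 := Module.End.iSup_iInf_maxGenEigenspace_eq_top_of_iSup_maxGenEigenspace_eq_top_of_commute
    G (fun i j _ => G_comm act Φ hspan G hG i j)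
    (fun g => Module.End.iSup_maxGenEigenspace_eq_top _)
  rw [← h1]
  refine iSup_congr fun χ => iInf_congr fun g => ?_
  rw [(hss g).isFinitelySemisimple.maxGenEigenspace_eq_eigenspace]

include hspan hG hss in
lemma finite_weights : {χ : τ → K | (⨅ i, (G i).eigenspace (χ i)) ≠ ⊥}.Finite := by
  have h1 : iSupIndep fun χ : τ → K => ⨅ i, (G i).maxGenEigenspace (χ i) :=
    Module.End.independent_iInf_maxGenEigenspace_of_forall_mapsTo G
      (fun i j φ => Module.End.mapsTo_maxGenEigenspace_of_comm (G_comm act Φ hspan G hG j i) φ)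
  have h2 : iSupIndep fun χ : τ → K => ⨅ i, (G i).eigenspace (χ i) := by
    refine h1.mono fun χ => ?_
    exact iInf_mono fun i => Module.End.eigenspace_le_maxGenEigenspace
  exact WellFoundedGT.finite_ne_bot_of_iSupIndep h2

include hΦO hspan hG hss in
/-- **Points.** -/
theorem exists_points (hinj : Function.Injective Φ) :
    ∃ (X : Type u) (_ : Finite X) (x : X → HT act →ₐ[O] K) (φ : X → V), (∀ c, φ c ≠ 0) ∧
      (∀ c i, G i (φ c) = x c (Ideal.Quotient.mk _ (MvPolynomial.X i)) • φ c) ∧
      ∀ b : HT act, (∀ c, x c b = 0) → b = 0 := by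
  classical
  haveI hfin := (finite_weights act Φ hspan G hG hss).to_subtype
  have hex : ∀ c : {χ : τ → K // (⨅ i, (G i).eigenspace (χ i)) ≠ ⊥},
      ∃ v : V, v ≠ 0 ∧ ∀ i, G i v = c.1 i • v := by
    intro c
    obtain ⟨v, hv, hv0⟩ := Submodule.exists_mem_ne_zero_of_ne_bot c.2
    refine ⟨v, hv0, fun i => ?_⟩
    rw [Submodule.mem_iInf] at hv
    exact Module.End.mem_eigenspace_iff.mp (hv i)
  choose φ hφ0 hφ using hex
  have hker : ∀ c : {χ : τ → K // (⨅ i, (G i).eigenspace (χ i)) ≠ ⊥},
      ∀ P ∈ RingHom.ker act, aeval c.1 P = 0 := by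
    intro c P hP
    obtain ⟨E, hE, hE'⟩ := exists_E act Φ hΦO G hG P
    have h0 : E = 0 := by
      refine end_ext Φ hspan fun m => ?_
      rw [hE, LinearMap.zero_apply]
      have : act P = 0 := hP
      rw [this, LinearMap.zero_apply, map_zero]
    have h1 := hE' c.1 (φ c) (hφ c)
    rw [h0, LinearMap.zero_apply] at h1
    exact (smul_eq_zero.mp h1.symm).resolve_right (hφ0 c)
  refine ⟨{χ : τ → K // (⨅ i, (G i).eigenspace (χ i)) ≠ ⊥}, hfin,
    fun c => Ideal.Quotient.liftₐ (RingHom.ker act) (aeval c.1) (hker c), φ, hφ0, ?_, ?_⟩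
  · intro c i
    rw [hφ]
    congr 1
    change _ = aeval c.1 (MvPolynomial.X i)
    rw [aeval_X]
  · intro b hb
    obtain ⟨P, rfl⟩ := HT.exists_rep act b
    obtain ⟨E, hE, hE'⟩ := exists_E act Φ hΦO G hG P
    have hb' : ∀ c : {χ : τ → K // (⨅ i, (G i).eigenspace (χ i)) ≠ ⊥}, aeval c.1 P = 0 := hb
    have h0 : E = 0 := by
      refine LinearMap.ext fun v => ?_
      have hv : v ∈ ⨆ χ : τ → K, ⨅ i, (G i).eigenspace (χ i) := by
        rw [iSup_iInf_eig act Φ hspan G hG hss]; trivial
      refine Submodule.iSup_induction (fun χ : τ → K => ⨅ i, (G i).eigenspace (χ i))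
        (motive := fun v => E v = (0 : Module.End K V) v) hv ?_ ?_ ?_
      · intro χ v hv
        by_cases hne : (⨅ i, (G i).eigenspace (χ i)) = ⊥
        · rw [hne, Submodule.mem_bot] at hv
          rw [hv, map_zero, map_zero]
        · rw [Submodule.mem_iInf] at hv
          rw [hE' χ v (fun i => Module.End.mem_eigenspace_iff.mp (hv i)), hb' ⟨χ, hne⟩, zero_smul,
            LinearMap.zero_apply]
      · rw [map_zero, map_zero]
      · intro a b ha hb
        rw [map_add, map_add, ha, hb]
    rw [Ideal.Quotient.eq_zero_iff_mem, RingHom.mem_ker]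
    refine LinearMap.ext fun m => ?_
    apply hinj
    rw [← hE, h0, LinearMap.zero_apply, LinearMap.zero_apply, map_zero]

end Abs

section Cor

variable {O : Type u} [CommRing O] {K : Type u} [Field K] [Algebra O K] {B : Type u} [CommRing B]
  [Algebra O B] {X : Type u} [Finite X] (x : X → B →ₐ[O] K)
  (hx : ∀ b, (∀ c, x c b = 0) → b = 0)

include hx in
omit [Finite X] in
theorem isReduced_of_points : IsReduced B := by
  refine ⟨fun b hb => hx b fun c => ?_⟩
  have := hb.map (x c)
  exact IsNilpotent.eq_zero this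

include hx in
theorem minimalPrime_point {𝔭 : Ideal B} (h𝔭 : 𝔭 ∈ minimalPrimes B) :
    ∃ c, RingHom.ker (x c) = 𝔭 := by
  classical
  haveI := Fintype.ofFinite X
  haveI h𝔭' : 𝔭.IsPrime := h𝔭.1.1
  have h1 : ∏ c, RingHom.ker (x c) ≤ 𝔭 := by
    have h2 : ∏ c, RingHom.ker (x c) ≤ ⨅ c, RingHom.ker (x c) := by
      refine le_iInf fun c => ?_
      exact (Ideal.prod_le_inf).trans (Finset.inf_le (Finset.mem_univ c))
    refine h2.trans fun b hb => ?_
    rw [Ideal.mem_iInf] at hb
    rw [hx b fun c => hb c]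
    exact zero_mem _
  obtain ⟨c, -, hc⟩ := (Ideal.IsPrime.prod_le h𝔭').mp h1
  refine ⟨c, le_antisymm hc ?_⟩
  haveI : (RingHom.ker (x c)).IsPrime := RingHom.ker_isPrime _
  exact h𝔭.2 ⟨inferInstance, bot_le⟩ hc

end Cor

end Fermat.Agent.TC
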