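import Mathlib
import Fermat.Agent.TC.Stable
import Fermat.Agent.TC.Points

/-!
# Eigenforms in localized stable submodules
-/

set_option autoImplicit false
set_option linter.style.haveILetI false
set_option linter.unusedSectionVars false

noncomputable section

universe u

namespace Fermat.Agent.TC

open CongruenceSubgroup Matrix.SpecialLinearGroup H22 IsLocalRing
open scoped MatrixGroups

section Ext

variable {O : Type u} [CommRing O] {K : Type u} [Field K] [Algebra O K] {N : ℕ}
  {H : Subgroup (ZMod N)ˣ}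

/-- extension of coefficients -/
def extK (O K : Type u) [CommRing O] [Field K] [Algebra O K] (N : ℕ) (H : Subgroup (ZMod N)ˣ) :
    HM (GamH N H) O →+ HM (GamH N H) K where
  toFun φ := (algebraMap O K).toAddMonoidHom.comp φ
  map_zero' := by ext; simp
  map_add' a b := by ext; simp

lemma extK_apply (φ : HM (GamH N H) O) (g : Additive (GamH N H)) :
    extK O K N H φ g = algebraMap O K (φ g) := rfl

lemma extK_smul (a : O) (φ : HM (GamH N H) O) :
    extK O K N H (a • φ) = algebraMap O K a • extK O K N H φ := by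
  refine AddMonoidHom.ext fun g => ?_
  change algebraMap O K (a * φ g) = algebraMap O K a * algebraMap O K (φ g)
  rw [map_mul]

lemma extK_injective (hK : Function.Injective (algebraMap O K)) :
    Function.Injective (extK O K N H) := by
  intro φ ψ h
  refine AddMonoidHom.ext fun g => hK ?_
  exact DFunLike.congr_fun h g

/-- the `K`-span -/
def spK (K : Type u) [Field K] [Algebra O K] (W : Submodule O (HM (GamH N H) O)) :
    Submodule K (HM (GamH N H) K) := Submodule.span K (extK O K N H '' W)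

variable [NeZero N] {W : Submodule O (HM (GamH N H) O)}

omit [NeZero N] in
lemma spK_induction {E : Module.End K (HM (GamH N H) K)}
    (h : ∀ w ∈ W, E (extK O K N H w) = 0) {φ : HM (GamH N H) K} (hφ : φ ∈ spK K W) : E φ = 0 := by
  refine Submodule.span_induction ?_ ?_ ?_ ?_ hφ
  · rintro _ ⟨w, hw, rfl⟩
    exact h w hw
  · exact map_zero _
  · intro a b _ _ ha hb
    rw [map_add, ha, hb, add_zero]
  · intro c a _ ha
    rw [map_smul, ha, smul_zero]

lemma TP_extK (ℓ : Nat.Primes) (φ : HM (GamH N H) O) :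
    TP K N H K ℓ (extK O K N H φ) = extK O K N H (TP O N H O ℓ φ) :=
  TP_map (R := O) (R' := K) (algebraMap O K).toAddMonoidHom ℓ φ

lemma diaQ_extK (g : (ZMod N)ˣ ⧸ H) (φ : HM (GamH N H) O) :
    diaQ K N H K g (extK O K N H φ) = extK O K N H (diaQ O N H O g φ) :=
  diaQ_map (R := O) (R' := K) (algebraMap O K).toAddMonoidHom g φ

/-- diamond operators act on the span as on the module -/
lemma diaQ_spK {g : (ZMod N)ˣ ⧸ H} {a : O} (h : ∀ w ∈ W, diaQ O N H O g w = a • w)
    {φ : HM (GamH N H) K} (hφ : φ ∈ spK K W) :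
    diaQ K N H K g φ = algebraMap O K a • φ := by
  have h1 := spK_induction (E := diaQ K N H K g - algebraMap K _ (algebraMap O K a)) (W := W)
    (fun w hw => by
      rw [LinearMap.sub_apply, diaQ_extK, h w hw, extK_smul, Module.algebraMap_end_apply,
        sub_self]) hφ
  rw [LinearMap.sub_apply, Module.algebraMap_end_apply] at h1
  exact sub_eq_zero.mp h1

end Ext

section One

variable {O : Type u} [CommRing O] {N : ℕ} [NeZero N] {H : Subgroup (ZMod N)ˣ}

lemma uP_eq_one {N ℓ : ℕ} (h : ((N : ℕ) : ℤ) ∣ (ℓ : ℤ) - 1) : uP N ℓ = 1 := by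
  by_cases hc : ℓ.Coprime N
  · apply Units.ext
    rw [uP_val hc, Units.val_one]
    have h1 : ((ℓ : ℤ) : ZMod N) = ((1 : ℤ) : ZMod N) := by
      rw [ZMod.intCast_eq_intCast_iff_dvd_sub]
      rw [← dvd_neg, neg_sub]
      exact h
    simpa using h1
  · rw [uP, dif_neg hc]

lemma TP_eq_THp {ℓ : Nat.Primes} (h : ((N : ℕ) : ℤ) ∣ (ℓ : ℤ) - 1) :
    TP O N H O ℓ = THp O N H O ℓ := by
  have h1 : ((1 : (ZMod N)ˣ) : (ZMod N)ˣ ⧸ H) = 1 := rfl
  rw [TP, uP_eq_one h, h1, one_pow, map_one, one_mul]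

end One

section Main

variable {O : Type u} [CommRing O] [IsLocalRing O] [IsNoetherianRing O] {K : Type u} [Field K]
  [CharZero K] [IsAlgClosed K] [Algebra O K] {N Q₀ : ℕ} [NeZero N] {H : Subgroup (ZMod N)ˣ}
  (h₀ : Q₀ ∣ N) (hH : ∀ u : (ZMod N)ˣ, ZMod.unitsMap h₀ u = 1 → u ∈ H)
  (hodd : Odd (Nat.card ((ZMod N)ˣ ⧸ H))) {M₀ : ℕ} (hN : N = Q₀ * M₀) (hsq : Squarefree Q₀)
  (hcop : Nat.Coprime Q₀ M₀) {σ : Type} {pr : σ → Nat.Primes} {a : σ → ResidueField O}
  {W : Submodule O (HM (GamH N H) O)} (hW : Stab O pr W) (hloc : LocW O pr a W)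
  (i₀ : σ) (hi₀ : ((N * Q₀ : ℕ) : ℤ) ∣ (pr i₀ : ℤ) - 1)
  (ha₀ : a i₀ ≠ ((pr i₀ : ℕ) : ResidueField O) + 1)

include h₀ hH hodd hN hsq hcop hloc hi₀ ha₀ in
/-- semisimplicity of the operators on `W` -/
theorem semi_W (ℓ : Nat.Primes) (hℓ : ¬ (ℓ : ℕ) ∣ N) :
    ∃ r : Polynomial K, Squarefree r ∧ ∀ w ∈ W,
      Polynomial.aeval (TP K N H K ℓ) r (extK O K N H w) = 0 := by
  obtain ⟨r, hr, hr'⟩ := exists_semi h₀ hH hodd hN hsq hcop ℓ hℓ (pr i₀) hi₀
  refine ⟨r.map (Int.castRingHom K), ?_, fun w hw => ?_⟩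
  · have h1 := hr.map (f := algebraMap ℚ K)
    rw [Polynomial.map_map] at h1
    have h2 : (algebraMap ℚ K).comp (Int.castRingHom ℚ) = Int.castRingHom K := RingHom.ext_int _ _
    rw [h2] at h1
    exact h1.squarefree
  · have hs : evR a (MvPolynomial.X i₀ - MvPolynomial.C (((pr i₀ : ℕ) : O) + 1)) ≠ 0 := by
      rw [map_sub, evR_X, evR_C, map_add, map_natCast, map_one]
      exact sub_ne_zero.mpr ha₀
    obtain ⟨y, hy, hyw⟩ := hloc _ hs w hw
    have h2 : TP O N H O (pr i₀) y - (((pr i₀ : ℕ) : O) + 1) • y = w := by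
      rw [← hyw, map_sub, LinearMap.sub_apply, hAct_X, TP_eq_THp
        ((Int.natCast_dvd_natCast.mpr (dvd_mul_right N Q₀)).trans hi₀),
        ← MvPolynomial.algebraMap_eq, AlgHom.commutes, Module.algebraMap_end_apply]
    have h3 := hr' K (extK O K N H y)
    have h4 : TP K N H K (pr i₀) (extK O K N H y) - (((pr i₀ : ℕ) : ℕ) + 1) • extK O K N H y =
        extK O K N H w := by
      rw [TP_extK, ← h2, map_sub, extK_smul]
      congr 1
      rw [map_add, map_natCast, map_one]
      rw [← Nat.cast_smul_eq_nsmul K]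
      push_cast
      rfl
    rw [h4] at h3
    have h5 : Polynomial.aeval (TP K N H K ℓ) (r.map (Int.castRingHom K)) =
        Polynomial.aeval (TP K N H K ℓ) r := by
      have h1 : algebraMap ℤ K = Int.castRingHom K := rfl
      rw [← h1, Polynomial.aeval_map_algebraMap]
    rw [h5, h3]

/-- the inclusion into the span -/
def toSp (K : Type u) [Field K] [Algebra O K] {H : Subgroup (ZMod N)ˣ}
    (W : Submodule O (HM (GamH N H) O)) : W →+ spK K W where
  toFun w := ⟨extK O K N H w, Submodule.subset_span ⟨w, w.2, rfl⟩⟩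
  map_zero' := Subtype.ext (map_zero _)
  map_add' a b := Subtype.ext (map_add _ _ _)

omit [IsLocalRing O] [IsNoetherianRing O] [CharZero K] [IsAlgClosed K] [NeZero N] in
lemma span_toSp : Submodule.span K (Set.range (toSp (N := N) K W)) = ⊤ := by
  apply Submodule.map_injective_of_injective (spK K W).injective_subtype
  rw [Submodule.map_span, Submodule.map_top, Submodule.range_subtype]
  change _ = Submodule.span K _
  congr 1
  ext φ
  constructor
  · rintro ⟨_, ⟨w, rfl⟩, rfl⟩
    exact ⟨w, w.2, rfl⟩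
  · rintro ⟨w, hw, rfl⟩
    exact ⟨_, ⟨⟨w, hw⟩, rfl⟩, rfl⟩

variable {σ' K' : Type} (ι' : σ' → σ) (j : K' → (ZMod N)ˣ ⧸ H)

/-- the operators over `K` -/
def opK (K : Type u) [Field K] (N : ℕ) [NeZero N] (H : Subgroup (ZMod N)ˣ) {σ σ' K' : Type}
    (pr : σ → Nat.Primes) (ι' : σ' → σ) (j : K' → (ZMod N)ˣ ⧸ H) :
    σ' ⊕ K' → Module.End K (HM (GamH N H) K)
  | Sum.inl i => TP K N H K (pr (ι' i))
  | Sum.inr k => diaQ K N H K (j k)

omit [IsLocalRing O] [IsNoetherianRing O] [CharZero K] [IsAlgClosed K] in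
lemma opK_extK (t : σ' ⊕ K') (w : W) : opK K N H pr ι' j t (extK O K N H w) =
    extK O K N H (actT hW ι' j (MvPolynomial.X t) w : W) := by
  rcases t with i | k
  · rw [actT_inl]; exact TP_extK _ _
  · rw [actT_inr]; exact diaQ_extK _ _

omit [IsLocalRing O] [IsNoetherianRing O] [CharZero K] [IsAlgClosed K] in
include hW in
lemma opK_mem (t : σ' ⊕ K') {φ : HM (GamH N H) K} (hφ : φ ∈ spK K W) :
    opK K N H pr ι' j t φ ∈ spK K W := by
  refine Submodule.span_induction ?_ ?_ ?_ ?_ hφ
  · rintro _ ⟨w, hw, rfl⟩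
    have := opK_extK (K := K) hW ι' j t ⟨w, hw⟩
    rw [this]
    exact Submodule.subset_span ⟨_, (actT hW ι' j (MvPolynomial.X t) ⟨w, hw⟩).2, rfl⟩
  · rw [map_zero]; exact zero_mem _
  · intro a b _ _ ha hb
    rw [map_add]; exact add_mem ha hb
  · intro c a _ ha
    rw [map_smul]; exact Submodule.smul_mem _ _ ha

include h₀ hH hodd hN hsq hcop hloc hi₀ ha₀ in
/-- **Eigenforms in `W`.** -/
theorem exists_points_W (hσ' : ∀ i, ¬ (pr (ι' i) : ℕ) ∣ N)
    (hK : Function.Injective (algebraMap O K)) :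
    ∃ (X : Type u) (_ : Finite X) (x : X → HT (actT hW ι' j) →ₐ[O] K)
      (φ : X → HM (GamH N H) K), (∀ c, φ c ≠ 0) ∧ (∀ c, φ c ∈ spK K W) ∧
      (∀ c i, TP K N H K (pr (ι' i)) (φ c) =
        x c (Ideal.Quotient.mk _ (MvPolynomial.X (Sum.inl i))) • φ c) ∧
      (∀ c k, diaQ K N H K (j k) (φ c) =
        x c (Ideal.Quotient.mk _ (MvPolynomial.X (Sum.inr k))) • φ c) ∧
      ∀ b : HT (actT hW ι' j), (∀ c, x c b = 0) → b = 0 := by
  haveI : FiniteDimensional K (HM (GamH N H) K) := finite_HM _ K K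
  let G : σ' ⊕ K' → Module.End K (spK K W) := fun t =>
    (opK K N H pr ι' j t).restrict (fun φ hφ => opK_mem hW ι' j t hφ)
  have hss : ∀ t, (G t).IsSemisimple := by
    intro t
    obtain ⟨r, hr, hr'⟩ : ∃ r : Polynomial K, Squarefree r ∧ ∀ w ∈ W,
        Polynomial.aeval (opK K N H pr ι' j t) r (extK O K N H w) = 0 := by
      rcases t with i | k
      · exact semi_W h₀ hH hodd hN hsq hcop hloc i₀ hi₀ ha₀ (pr (ι' i)) (hσ' i)
      · have hn : (Nat.card ((ZMod N)ˣ ⧸ H) : K) ≠ 0 := by
          exact_mod_cast Nat.card_pos.ne'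
        refine ⟨Polynomial.X ^ Nat.card ((ZMod N)ˣ ⧸ H) - 1,
          (Polynomial.separable_X_pow_sub_C (1 : K) hn one_ne_zero).squarefree, fun w hw => ?_⟩
        rw [map_sub, map_pow, Polynomial.aeval_X, map_one]
        change ((diaQ K N H K (j k)) ^ (Nat.card ((ZMod N)ˣ ⧸ H)) - 1 :
          Module.End K (HM (GamH N H) K)) (extK O K N H w) = 0
        rw [← map_pow, pow_card_eq_one', map_one, sub_self, LinearMap.zero_apply]
    refine Module.End.isSemisimple_of_squarefree_aeval_eq_zero hr ?_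
    refine LinearMap.ext fun v => Subtype.ext ?_
    have h1 : ∀ (s : Polynomial K) (v : spK K W),
        ((Polynomial.aeval (G t) s v : spK K W) : HM (GamH N H) K) =
          Polynomial.aeval (opK K N H pr ι' j t) s (v : HM (GamH N H) K) := by
      intro s
      induction s using Polynomial.induction_on' with
      | add p q hp hq =>
        intro v
        rw [map_add, map_add, LinearMap.add_apply, LinearMap.add_apply, ← hp, ← hq]
        rfl
      | monomial n c =>
        intro v
        rw [Polynomial.aeval_monomial, Polynomial.aeval_monomial, Module.End.mul_apply,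
          Module.End.mul_apply, Module.algebraMap_end_apply, Module.algebraMap_end_apply]
        change c • ((((G t) ^ n) v : spK K W) : HM (GamH N H) K) = _
        congr 1
        induction n generalizing v with
        | zero => rfl
        | succ n ih =>
          rw [pow_succ, pow_succ, Module.End.mul_apply, Module.End.mul_apply, ih]
          rfl
    rw [h1]
    exact spK_induction hr' v.2
  have hG : ∀ t (w : W), toSp K W (actT hW ι' j (MvPolynomial.X t) w) = G t (toSp K W w) := by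
    intro t w
    exact Subtype.ext (opK_extK hW ι' j t w).symm
  have hsm : ∀ (a : O) (w : W), toSp K W (a • w) = algebraMap O K a • toSp K W w := fun a w =>
    Subtype.ext (extK_smul (K := K) a (w : HM (GamH N H) O))
  obtain ⟨X, hX, x, φ, hφ0, hφ, hx⟩ := exists_points (actT hW ι' j) (toSp K W) hsm
    span_toSp G hG hss
    (fun w w' h => Subtype.ext (extK_injective hK (congrArg Subtype.val h)))
  refine ⟨X, hX, x, fun c => φ c, fun c h => hφ0 c (Subtype.ext h), fun c => (φ c).2, ?_, ?_, hx⟩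
  · intro c i
    exact congrArg Subtype.val (hφ c (Sum.inl i))
  · intro c k
    exact congrArg Subtype.val (hφ c (Sum.inr k))

end Main

end Fermat.Agent.TC
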