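import Mathlib
import Fermat.Agent.TC.Pack1
import Fermat.Agent.TC.Points2

/-!
# Levels: modules, Hecke algebras and points
-/

set_option autoImplicit false
set_option linter.style.haveILetI false
set_option linter.unusedSectionVars false

noncomputable section

universe u

namespace Fermat.Agent.TC

open CongruenceSubgroup Matrix.SpecialLinearGroup H22 IsLocalRing
open Fermat.Agent.H25.TWM
open scoped MatrixGroups

/-- the underlying prime -/
def prD (D₀ : ℕ) (ℓ : Pr D₀) : Nat.Primes := ⟨ℓ.1, ℓ.2.1⟩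

lemma prD_val {D₀ : ℕ} (ℓ : Pr D₀) : ((prD D₀ ℓ : Nat.Primes) : ℕ) = ℓ := rfl

lemma prD_injective (D₀ : ℕ) : Function.Injective (prD D₀) := by
  intro x y h
  exact Subtype.ext (congrArg (fun z : Nat.Primes => (z : ℕ)) h)

/-- inclusion of sets of primes -/
def prI {D₀ D : ℕ} (h : D₀ ∣ D) (ℓ : Pr D) : Pr D₀ :=
  ⟨ℓ.1, ℓ.2.1, fun h' => ℓ.2.2 (h'.trans h)⟩

lemma prI_val {D₀ D : ℕ} (h : D₀ ∣ D) (ℓ : Pr D) : ((prI h ℓ : Pr D₀) : ℕ) = ℓ := rfl

lemma prD_prI {D₀ D : ℕ} (h : D₀ ∣ D) (ℓ : Pr D) : prD D₀ (prI h ℓ) = prD D ℓ := rfl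

section Lev

variable (O : Type u) [CommRing O] [IsLocalRing O] {M : ℕ} [NeZero M] (H : Subgroup (ZMod M)ˣ)
  {D₀ : ℕ} (a : Pr D₀ → ResidueField O) {ι : Type} (f : ι → (ZMod M)ˣ ⧸ H) (c : ι → O)

/-- the localized module with prescribed action of some diamond operators -/
def Lv : Submodule O (HM (GamH M H) O) :=
  eigPart (locPart (hAct O M H O (prD D₀)) (mx a)) f c

lemma Lv_stab : Stab O (prD D₀) (Lv O H a f c) := stab_eigPart (stab_locPart a) f c

variable {D : ℕ} (hD : D₀ ∣ D) {K' : Type} [CommGroup K'] (j : K' →* (ZMod M)ˣ ⧸ H)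

/-- the action of twisted Hecke operators and diamond operators -/
abbrev LvA : MvPolynomial (Pr D ⊕ K') O →ₐ[O] Module.End O (Lv O H a f c) :=
  actT (Lv_stab O H a f c) (prI hD) j

/-- the Hecke algebra -/
abbrev LvB : Type u := HT (LvA O H a f c hD j)

/-- the twisted Hecke operators -/
def LvT (ℓ : Pr D) : LvB O H a f c hD j := Ideal.Quotient.mk _ (MvPolynomial.X (Sum.inl ℓ))

lemma LvT_apply (ℓ : Pr D) (x : Lv O H a f c) :
    ((HT.toEnd (LvA O H a f c hD j) (LvT O H a f c hD j ℓ) x : Lv O H a f c) :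
      HM (GamH M H) O) = TP O M H O (prD D ℓ) x :=
  actT_inl (Lv_stab O H a f c) (prI hD) j ℓ x

/-- the diamond operators -/
def LvD : K' →* LvB O H a f c hD j where
  toFun k := Ideal.Quotient.mk _ (MvPolynomial.X (Sum.inr k))
  map_one' := by
    apply HT.toEnd_injective (LvA O H a f c hD j)
    refine LinearMap.ext fun x => Subtype.ext ?_
    rw [HT.toEnd_mk, actT_inr, map_one, map_one, map_one]
    rfl
  map_mul' k k' := by
    apply HT.toEnd_injective (LvA O H a f c hD j)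
    refine LinearMap.ext fun x => Subtype.ext ?_
    rw [HT.toEnd_mk, actT_inr, map_mul, map_mul, map_mul, Module.End.mul_apply,
      Module.End.mul_apply, HT.toEnd_mk, HT.toEnd_mk, actT_inr, actT_inr]

lemma LvD_apply (k : K') (x : Lv O H a f c) :
    ((HT.toEnd (LvA O H a f c hD j) (LvD O H a f c hD j k) x : Lv O H a f c) :
      HM (GamH M H) O) = diaQ O M H O (j k) x :=
  actT_inr (Lv_stab O H a f c) (prI hD) j k x

/-- generation of the Hecke algebra -/
lemma LvB_induction {P : LvB O H a f c hD j → Prop} (h0 : ∀ x : O, P (algebraMap O _ x))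
    (hadd : ∀ x y, P x → P y → P (x + y)) (hmul : ∀ x y, P x → P y → P (x * y))
    (hT : ∀ ℓ, P (LvT O H a f c hD j ℓ)) (hDi : ∀ k, P (LvD O H a f c hD j k))
    (b : LvB O H a f c hD j) : P b := by
  obtain ⟨q, rfl⟩ := HT.exists_rep _ b
  induction q using MvPolynomial.induction_on with
  | C x => exact h0 x
  | add x y hx hy => rw [map_add]; exact hadd _ _ hx hy
  | mul_X x i hx =>
    rw [map_mul]
    rcases i with ℓ | k
    · exact hmul _ _ hx (hT ℓ)
    · exact hmul _ _ hx (hDi k)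

section Res

variable [IsNoetherianRing O] [IsAdicComplete (maximalIdeal O) O] {p : ℕ} (hp : p.Prime)
  (hpO : (p : O) ∈ maximalIdeal O) (hΔ : IsPGroup p ((ZMod M)ˣ ⧸ H))

instance : Module.Finite O (Lv O H a f c) := finiteW

lemma exists_dec1 : ∃ e, Dec (hAct O M H O (prD D₀)) (mx a) e := by
  haveI : Module.Finite O (HM (GamH M H) O) := finite_HM _ O O
  exact exists_dec _ _ (mx_le a)

lemma Lv_locW : LocW O (prD D₀) a (Lv O H a f c) := by
  obtain ⟨e, he⟩ := exists_dec1 O H a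
  exact locW_locPart he f c

include hp hpO hΔ in
lemma Lv_loc : LocAct (LvA O H a f c hD j) (Sum.elim (fun i => a (prI hD i)) (fun _ => 1)) :=
  locAct_T (Lv_stab O H a f c) (prI hD) j hp hpO hΔ (Lv_locW O H a f c)

variable [Nontrivial (Lv O H a f c)]

/-- the residue map of the Hecke algebra -/
def LvR : LvB O H a f c hD j →+* ResidueField O := resT (Lv_loc O H a f c hD j hp hpO hΔ)

lemma LvR_T (ℓ : Pr D) : LvR O H a f c hD j hp hpO hΔ (LvT O H a f c hD j ℓ) = a (prI hD ℓ) :=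
  resT_X (Lv_loc O H a f c hD j hp hpO hΔ) (Sum.inl ℓ)

lemma LvR_D (k : K') : LvR O H a f c hD j hp hpO hΔ (LvD O H a f c hD j k) = 1 :=
  resT_X (Lv_loc O H a f c hD j hp hpO hΔ) (Sum.inr k)

lemma LvR_algebraMap (x : O) :
    LvR O H a f c hD j hp hpO hΔ (algebraMap O (LvB O H a f c hD j) x) = residue O x :=
  resT_algebraMap (Lv_loc O H a f c hD j hp hpO hΔ) x

lemma LvR_isUnit (b : LvB O H a f c hD j) (hb : LvR O H a f c hD j hp hpO hΔ b ≠ 0) : IsUnit b :=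
  isUnit_of_resT (Lv_loc O H a f c hD j hp hpO hΔ) b hb

include hp hpO hΔ in
lemma LvB_isLocalRing : IsLocalRing (LvB O H a f c hD j) :=
  isLocalRing_HT (Lv_loc O H a f c hD j hp hpO hΔ)

end Res

section Pts

variable [IsNoetherianRing O] [IsAdicComplete (maximalIdeal O) O] {K : Type u} [Field K]
  [CharZero K] [IsAlgClosed K] [Algebra O K] {Q₀ : ℕ}
  (h₀ : Q₀ ∣ M) (hH : ∀ u : (ZMod M)ˣ, ZMod.unitsMap h₀ u = 1 → u ∈ H)
  (hodd : Odd (Nat.card ((ZMod M)ˣ ⧸ H))) {M₀ : ℕ} (hN : M = Q₀ * M₀) (hsq : Squarefree Q₀)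
  (hcop : Nat.Coprime Q₀ M₀) (i₀ : Pr D₀) (hi₀ : ((M * Q₀ : ℕ) : ℤ) ∣ ((i₀ : ℕ) : ℤ) - 1)
  (ha₀ : a i₀ ≠ ((i₀ : ℕ) : ResidueField O) + 1)

include h₀ hH hodd hN hsq hcop hi₀ ha₀ in
/-- **Points of the Hecke algebra.** -/
theorem Lv_points (hMD : M ∣ D) (hK : Function.Injective (algebraMap O K)) :
    ∃ (X : Type u) (_ : Finite X) (x : X → LvB O H a f c hD j →ₐ[O] K)
      (φ : X → HM (GamH M H) K), (∀ t, φ t ≠ 0) ∧
      (∀ t ℓ, TP K M H K (prD D ℓ) (φ t) = x t (LvT O H a f c hD j ℓ) • φ t) ∧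
      (∀ t k, diaQ K M H K (j k) (φ t) = x t (LvD O H a f c hD j k) • φ t) ∧
      (∀ t i, diaQ K M H K (f i) (φ t) = algebraMap O K (c i) • φ t) ∧
      ∀ b, (∀ t, x t b = 0) → b = 0 := by
  obtain ⟨X, hX, x, φ, h1, h2, h3, h4, h5⟩ := exists_points_W (K := K) h₀ hH hodd hN hsq hcop
    (Lv_stab O H a f c) (Lv_locW O H a f c) i₀ hi₀ ha₀ (prI hD) j
    (fun i h => i.2.2 (h.trans hMD)) hK
  refine ⟨X, hX, x, φ, h1, h3, h4, fun t i => ?_, h5⟩
  exact diaQ_spK (W := Lv O H a f c) (fun w hw => hw.2 i) (h2 t)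

end Pts

end Lev

end Fermat.Agent.TC
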