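import Mathlib
import Fermat.Agent.TC.Pack2
import Fermat.Agent.TC.Levels

/-!
# Taylor-Wiles levels: bases
-/

set_option autoImplicit false
set_option linter.style.haveILetI false
set_option linter.unusedSectionVars false

noncomputable section

universe u

namespace Fermat.Agent.TC

open CongruenceSubgroup Matrix.SpecialLinearGroup H22 IsLocalRing
open Fermat.Agent.H25.TWM
open scoped MatrixGroups
open ModularFormClass (qCoeff)

instance {N : ℕ} [NeZero N] {H₀ : Subgroup (ZMod N)ˣ} : Fintype (SQ N H₀) := Fintype.ofFinite _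

section Act

variable (O : Type u) [CommRing O] {p N M r : ℕ} [NeZero N] [NeZero M] (Q : QDat p N M r)
  (H₀ : Subgroup (ZMod N)ˣ)

/-- the action of `S × Δ` -/
def QDat.ρ : SQ N H₀ × Dl p Q.e →* Module.End O (HM (GamH M (Q.H H₀)) O) :=
  (diaQ O M (Q.H H₀) O).comp (Q.E H₀).symm.toMonoidHom

lemma QDat.ρ_apply (g : SQ N H₀ × Dl p Q.e) (x : HM (GamH M (Q.H H₀)) O) :
    Q.ρ O H₀ g x = diaQ O M (Q.H H₀) O ((Q.E H₀).symm g) x := rfl

/-- the action of `S` at the bottom -/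
def rho0 : SQ N H₀ →* Module.End O (HM (GamH N H₀) O) :=
  (diaQ O N H₀ O).comp (SQ.equiv N H₀).symm.toMonoidHom

lemma rho0_apply (g : SQ N H₀) (x : HM (GamH N H₀) O) :
    rho0 O H₀ g x = diaQ O N H₀ O ((SQ.equiv N H₀).symm g) x := rfl

end Act

section Base

variable (O : Type u) [CommRing O] [IsDomain O] [IsDiscreteValuationRing O]
  [IsAdicComplete (maximalIdeal O) O] {D₀ N : ℕ} [NeZero N] (H₀ : Subgroup (ZMod N)ˣ)
  (a : Pr D₀ → ResidueField O)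

lemma exists_eN : ∃ e, Dec (hAct O N H₀ O (prD D₀)) (mx a) e ∧
    Dec (hAct O N ⊤ O (prD D₀)) (mx a) e := by
  haveI : Module.Finite O (HM (GamH N H₀) O) := finite_HM _ O O
  haveI : Module.Finite O (HM (GamH N ⊤) O) := finite_HM _ O O
  exact exists_dec₂ _ _ _ (mx_le a)

/-- the idempotent -/
def eN : MvPolynomial (Pr D₀) O := (exists_eN O H₀ a).choose

lemma eN_dec : Dec (hAct O N H₀ O (prD D₀)) (mx a) (eN O H₀ a) :=
  (exists_eN O H₀ a).choose_spec.1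

lemma eN_dec' : Dec (hAct O N ⊤ O (prD D₀)) (mx a) (eN O H₀ a) :=
  (exists_eN O H₀ a).choose_spec.2

variable (N) in
/-- the rank -/
def rk : ℕ := Module.finrank O (locPart (hAct O N ⊤ O (prD D₀)) (mx a))

variable (N) in
lemma exists_bN [Finite (ResidueField O)] : ∃ b : Fin (rk O N a) → HM (GamH N ⊤) O, LinearIndependent O b ∧
    locPart (hAct O N ⊤ O (prD D₀)) (mx a) = Submodule.span O (Set.range b) := by
  haveI : Module.Finite O (HM (GamH N ⊤) O) := finite_HM _ O O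
  obtain ⟨h1, h2⟩ := locPart_fg (fun (c : O) (x : HM (GamH N ⊤) O) hc h => hm_torsionFree c hc x h)
    (locPart (hAct O N ⊤ O (prD D₀)) (mx a))
  let b := Module.finBasis O (locPart (hAct O N ⊤ O (prD D₀)) (mx a))
  refine ⟨fun i => (b i : HM (GamH N ⊤) O), ?_, ?_⟩
  · exact b.linearIndependent.map' (Submodule.subtype _) (Submodule.ker_subtype _)
  · have h3 := congrArg (Submodule.map (Submodule.subtype (locPart (hAct O N ⊤ O (prD D₀)) (mx a))))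
      b.span_eq
    rw [Submodule.map_top, Submodule.range_subtype, Submodule.map_span, ← Set.range_comp] at h3
    exact h3.symm

/-- hypotheses at the bottom level -/
structure BaseHyp (p : ℕ) : Prop where
  hp2 : p ≠ 2
  hpO : (p : O) ∈ maximalIdeal O
  hΔ₀ : IsPGroup p (SQ N H₀)
  hell : Ell p N

variable {p r M : ℕ} [NeZero M] (Q : QDat p N M r) (α : Fin r → ResidueField O)

variable {O} in
open Classical in
/-- the system at the Taylor-Wiles level -/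
def aQ (x : Pr D₀) : ResidueField O := if h : ∃ j, Q.q j = x then α h.choose else a x

variable {O} in
lemma aQ_q (j : Fin r) (x : Pr D₀) (h : Q.q j = x) : aQ a Q α x = α j := by
  classical
  have hex : ∃ j, Q.q j = x := ⟨j, h⟩
  rw [aQ, dif_pos hex]
  congr 1
  exact Q.inj (hex.choose_spec.trans h.symm)

variable {O} in
lemma aQ_of_ne (x : Pr D₀) (h : ∀ j, Q.q j ≠ x) : aQ a Q α x = a x := by
  classical
  rw [aQ, dif_neg]
  rintro ⟨j, hj⟩
  exact h j hj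

/-- hypotheses on Taylor-Wiles primes -/
structure TWHyp (D : ℕ) (hD : D₀ ∣ D) : Prop where
  hD0 : D ≠ 0
  hMD : M ∣ D
  hqD : ∀ j, ¬ Q.q j ∣ D₀
  h1 : ∀ j, ((Q.q j : ℕ) : ResidueField O) = 1
  hα : ∀ j, ∃ β, α j * β = 1 ∧ a ⟨Q.q j, Q.prime j, hqD j⟩ = α j + β ∧ α j ≠ β
  hnew : ∀ (L : ℕ) (_ : NeZero L) (g : CuspForm (Gamma0 L) 2), L ∣ M → (∃ j, Q.q j ∣ L) →
    g.IsNewform → ∃ s : MvPolynomial (Pr D) ℤ,
      MvPolynomial.aeval (fun ℓ : Pr D => qCoeff g ℓ) s = 0 ∧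
      MvPolynomial.aeval (fun ℓ : Pr D => a (prI hD ℓ)) s ≠ 0
  hℓ₀ : ∃ ℓ₀ : Pr D, ((M * M : ℕ) : ℤ) ∣ ((ℓ₀ : ℕ) : ℤ) - 1 ∧
    a (prI hD ℓ₀) ≠ ((ℓ₀ : ℕ) : ResidueField O) + 1

variable {O H₀ a Q α} {D : ℕ} {hD : D₀ ∣ D}

/-- good primes differ from Taylor-Wiles primes -/
lemma TWHyp.ne (T : TWHyp O a Q α D hD) (ℓ : Pr D) (j : Fin r) : Q.q j ≠ ((prI hD ℓ : Pr D₀) : ℕ) := by
  intro h
  apply ℓ.2.2
  have h1 : ((prI hD ℓ : Pr D₀) : ℕ) = ℓ := rfl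
  rw [← h1, ← h]
  exact (Q.q_dvd j).trans T.hMD

lemma TWHyp.aQ_eq (T : TWHyp O a Q α D hD) (ℓ : Pr D) :
    aQ a Q α (prI hD ℓ) = a (prI hD ℓ) := aQ_of_ne a Q α _ (fun j => T.ne ℓ j)

theorem TWHyp.trIso [CharZero O] [Finite (ResidueField O)] (T : TWHyp O a Q α D hD) :
    TrIso O (prD D₀) N M a (aQ a Q α) := by
  obtain ⟨ℓ₀, hℓ₀, hℓ₀'⟩ := T.hℓ₀
  choose β hβ1 hβ2 hβ3 using T.hα
  have hq : ∀ j, aQ a Q α ⟨Q.q j, Q.prime j, T.hqD j⟩ = α j := fun j => aQ_q a Q α j _ rfl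
  refine tw_levels (prD D₀) (D := D) T.hD0 (prD_injective D₀) (prI hD) (fun ℓ => rfl) N r Q.q M
    Q.hM T.hMD Q.prime Q.ndvd Q.inj T.h1 (fun j => ⟨Q.q j, Q.prime j, T.hqD j⟩) (fun j => rfl)
    a (aQ a Q α) ?_ β ?_ ?_ ?_ T.hnew ℓ₀ ?_ hℓ₀'
  · intro x hx
    exact aQ_of_ne a Q α x fun j h => hx j (Subtype.ext h)
  · intro j
    rw [hq, hβ1]
  · intro j
    rw [hq, hβ2]
  · intro j
    rw [hq]
    exact hβ3 j
  · exact (Int.natCast_dvd_natCast.mpr (dvd_mul_right M M)).trans hℓ₀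

/-- **Compatible bases at the Taylor-Wiles level and at the bottom.** -/
theorem TWHyp.exists_v [CharZero O] [Finite (ResidueField O)] [Fact p.Prime]
    (T : TWHyp O a Q α D hD) (B : BaseHyp O H₀ p) :
    ∃ v : Fin (rk O N a) → HM (GamH M (Q.H H₀)) O,
      LinearIndependent O (fun x : Fin (rk O N a) × (SQ N H₀ × Dl p Q.e) =>
        Q.ρ O H₀ x.2 (v x.1)) ∧
      locPart (hAct O M (Q.H H₀) O (prD D₀)) (mx (aQ a Q α)) =
        Submodule.span O (Set.range (fun x : Fin (rk O N a) × (SQ N H₀ × Dl p Q.e) =>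
          Q.ρ O H₀ x.2 (v x.1))) ∧
      LinearIndependent O (fun x : Fin (rk O N a) × SQ N H₀ =>
        rho0 O H₀ x.2 (ctl O (prD D₀) H₀ (Q.H H₀) (eN O H₀ a) (v x.1))) ∧
      locPart (hAct O N H₀ O (prD D₀)) (mx a) =
        Submodule.span O (Set.range (fun x : Fin (rk O N a) × SQ N H₀ =>
          rho0 O H₀ x.2 (ctl O (prD D₀) H₀ (Q.H H₀) (eN O H₀ a) (v x.1)))) := by
  obtain ⟨ℓ₀, hℓ₀, hℓ₀'⟩ := T.hℓ₀
  obtain ⟨b, hb, hb'⟩ := exists_bN O N a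
  obtain ⟨v, -, -, ⟨h1, h2⟩, ⟨h3, h4⟩⟩ := exists_bases (p := p) (prD D₀) B.hp2 B.hpO Q.dvd_M
    (Q.H_le H₀) (Q.isPGroup B.hΔ₀) B.hell (B.hell.of_dvd Q.dvd_M) T.trIso (prI hD ℓ₀)
    (fun h => ℓ₀.2.2 (h.trans T.hMD)) hℓ₀' (by rw [T.aQ_eq]; exact hℓ₀') (eN_dec O H₀ a)
    (eN_dec' O H₀ a) b hb hb'
  refine ⟨v, ?_, ?_, ?_, ?_⟩
  · exact h1.comp (fun x : Fin (rk O N a) × (SQ N H₀ × Dl p Q.e) => (x.1, (Q.E H₀).symm x.2))
      (fun x y h => by
        obtain ⟨h5, h6⟩ := Prod.mk.inj h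
        exact Prod.ext h5 ((Q.E H₀).symm.injective h6))
  · rw [h2]
    congr 1
    ext y
    constructor
    · rintro ⟨⟨i, g⟩, rfl⟩
      refine ⟨(i, Q.E H₀ g), ?_⟩
      change diaQ O M (Q.H H₀) O ((Q.E H₀).symm (Q.E H₀ g)) (v i) = _
      rw [MulEquiv.symm_apply_apply]
    · rintro ⟨⟨i, g⟩, rfl⟩
      exact ⟨(i, (Q.E H₀).symm g), rfl⟩
  · exact h3.comp (fun x : Fin (rk O N a) × SQ N H₀ => (x.1, (SQ.equiv N H₀).symm x.2))
      (fun x y h => by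
        obtain ⟨h5, h6⟩ := Prod.mk.inj h
        exact Prod.ext h5 ((SQ.equiv N H₀).symm.injective h6))
  · rw [h4]
    rfl

end Base

end Fermat.Agent.TC
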