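import Mathlib
import Fermat.Agent.TC.Pack3

/-!
# Taylor-Wiles levels: nebentypus parts, control and congruences
-/

set_option autoImplicit false
set_option linter.style.haveILetI false
set_option linter.unusedSectionVars false

noncomputable section

universe u

namespace Fermat.Agent.TC

open CongruenceSubgroup Matrix.SpecialLinearGroup H22 IsLocalRing
open Fermat.Agent.H25.TWM
open scoped MatrixGroups

section Pow

variable {N : ℕ} [NeZero N] {H : Subgroup (ZMod N)ˣ}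

lemma sq_inj (hodd : Odd (Nat.card ((ZMod N)ˣ ⧸ H))) {x y : (ZMod N)ˣ ⧸ H}
    (h : x ^ 2 = y ^ 2) : x = y := by
  rw [← pow_hfx hodd x, ← pow_hfx hodd y, pow_mul, pow_mul, h]

lemma pow_eq_hfx (hodd : Odd (Nat.card ((ZMod N)ˣ ⧸ H))) {g : (ZMod N)ˣ ⧸ H} {n : ℕ}
    (h : g ^ (2 * n) = g) : g ^ n = g ^ hfx N H := by
  apply sq_inj hodd
  rw [← pow_mul, ← pow_mul, mul_comm n, mul_comm (hfx N H), h, pow_hfx hodd]

lemma odd_card {p : ℕ} [Fact p.Prime] (hp2 : p ≠ 2) (h : IsPGroup p ((ZMod N)ˣ ⧸ H)) :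
    Odd (Nat.card ((ZMod N)ˣ ⧸ H)) := by
  obtain ⟨n, hn⟩ := IsPGroup.iff_card.mp h
  rw [hn]
  exact (Nat.Prime.odd_of_ne_two Fact.out hp2).pow

end Pow

section Ctl

variable {O : Type u} [CommRing O] {N M : ℕ} [NeZero N] [NeZero M] (hNM : N ∣ M)
  {H₀ : Subgroup (ZMod N)ˣ} {H : Subgroup (ZMod M)ˣ} (hH : H ≤ H₀.comap (ZMod.unitsMap hNM))
  {σ : Type} (pr : σ → Nat.Primes) (e : MvPolynomial σ O)

omit [NeZero M] in
lemma ctl_eq [NeZero M] (x : HM (GamH M H) O) : ctl O pr H₀ H e x =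
    hAct O N H₀ O pr e (tr O O (GamH N H₀) (GamH M H) x) := rfl

lemma ctl_diaQ (g : (ZMod M)ˣ ⧸ H) (x : HM (GamH M H) O) :
    ctl O pr H₀ H e (diaQ O M H O g x) = diaQ O N H₀ O (prQ hNM hH g) (ctl O pr H₀ H e x) := by
  rw [ctl_eq, ctl_eq, tr_diaQ hNM hH, diaQ_hAct]

lemma THp_hAct (H₀ : Subgroup (ZMod N)ˣ) (ℓ : Nat.Primes) (t : MvPolynomial σ O)
    (x : HM (GamH N H₀) O) :
    THp O N H₀ O ℓ (hAct O N H₀ O pr t x) = hAct O N H₀ O pr t (THp O N H₀ O ℓ x) := by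
  refine act_intertwine (THp O N H₀ O ℓ).toAddMonoidHom
    (fun a x => map_smul (THp O N H₀ O ℓ) a x) ?_ t x
  intro i x
  show THp O N H₀ O ℓ _ = _
  rw [hAct_X]
  exact LinearMap.congr_fun (THp_comm (O := O) H₀ O ℓ (pr i)) x

include hH in
lemma ctl_THp (ℓ : Nat.Primes) (hℓ : ¬ (ℓ : ℕ) ∣ M) (x : HM (GamH M H) O) :
    ctl O pr H₀ H e (THp O M H O ℓ x) = THp O N H₀ O ℓ (ctl O pr H₀ H e x) := by
  have : NeZero (ℓ : ℕ) := ⟨ℓ.2.ne_zero⟩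
  have h1 : tr O O (GamH N H₀) (GamH M H) (THp O M H O ℓ x) =
      THp O N H₀ O ℓ (tr O O (GamH N H₀) (GamH M H) x) :=
    (TH_tr_level (R := O) (ℓ := (ℓ : ℕ)) (GamH_le_of_comap hNM hH) hNM (fun p hp hpℓ hpM => by
      rw [(Nat.prime_dvd_prime_iff_eq hp ℓ.2).mp hpℓ] at hpM
      exact absurd hpM hℓ) x).symm
  rw [ctl_eq, ctl_eq, h1, THp_hAct]

lemma prQ_uP (ℓ : Nat.Primes) (hℓ : ¬ (ℓ : ℕ) ∣ M) :
    prQ hNM hH ((uP M ℓ : (ZMod M)ˣ) : (ZMod M)ˣ ⧸ H) = ((uP N ℓ : (ZMod N)ˣ) : (ZMod N)ˣ ⧸ H₀) := by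
  have hcM : Nat.Coprime (ℓ : ℕ) M := (Nat.Prime.coprime_iff_not_dvd ℓ.2).mpr hℓ
  have hcN : Nat.Coprime (ℓ : ℕ) N := Nat.Coprime.coprime_dvd_right hNM hcM
  have h1 : ZMod.unitsMap hNM (uP M ℓ) = uP N ℓ := by
    apply Units.ext
    rw [ZMod.unitsMap_val, uP_val hcM, uP_val hcN]
    exact ZMod.cast_natCast hNM _
  rw [← h1]
  rfl

include hH in
lemma ctl_TP (hodd : Odd (Nat.card ((ZMod M)ˣ ⧸ H))) (hodd₀ : Odd (Nat.card ((ZMod N)ˣ ⧸ H₀)))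
    (ℓ : Nat.Primes) (hℓ : ¬ (ℓ : ℕ) ∣ M) (x : HM (GamH M H) O) :
    ctl O pr H₀ H e (TP O M H O ℓ x) = TP O N H₀ O ℓ (ctl O pr H₀ H e x) := by
  rw [TP, TP, Module.End.mul_apply, Module.End.mul_apply, ctl_diaQ hNM hH, ctl_THp hNM hH pr e ℓ hℓ]
  congr 2
  rw [map_pow, prQ_uP hNM hH ℓ hℓ]
  refine pow_eq_hfx hodd₀ ?_
  rw [← prQ_uP hNM hH ℓ hℓ, ← map_pow, pow_hfx hodd]

end Ctl

section Level

variable {p N M r : ℕ} [NeZero N] [NeZero M] (Q : QDat p N M r) (H₀ : Subgroup (ZMod N)ˣ)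

/-- the elements of `S` at the Taylor-Wiles level -/
def fS (s : SQ N H₀) : (ZMod M)ˣ ⧸ Q.H H₀ := (Q.E H₀).symm (s, 1)

/-- the elements of `Δ` -/
def jD : Dl p Q.e →* (ZMod M)ˣ ⧸ Q.H H₀ :=
  (Q.E H₀).symm.toMonoidHom.comp (MonoidHom.inr (SQ N H₀) (Dl p Q.e))

/-- the elements of `S` at the bottom -/
def fS0 (s : SQ N H₀) : (ZMod N)ˣ ⧸ H₀ := (SQ.equiv N H₀).symm s

/-- trivial group at the bottom -/
def jD0 : Unit →* (ZMod N)ˣ ⧸ H₀ := 1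

variable (O : Type u) [CommRing O] [IsDomain O] [IsDiscreteValuationRing O]
  [IsAdicComplete (maximalIdeal O) O] {D₀ : ℕ} (a : Pr D₀ → ResidueField O)
  (α : Fin r → ResidueField O) (χ : SQ N H₀ →* Oˣ)

/-- the module at the Taylor-Wiles level -/
abbrev Mo : Submodule O (HM (GamH M (Q.H H₀)) O) :=
  Lv O (Q.H H₀) (aQ a Q α) (fS Q H₀) (fun s => (χ s : O))

/-- the module at the bottom -/
abbrev Mo0 : Submodule O (HM (GamH N H₀) O) := Lv O H₀ a (fS0 H₀) (fun s => (χ s : O))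

variable {D : ℕ} (hD : D₀ ∣ D)

/-- the Hecke algebra at the Taylor-Wiles level -/
abbrev MoB : Type u := LvB O (Q.H H₀) (aQ a Q α) (fS Q H₀) (fun s => (χ s : O)) hD (jD Q H₀)

/-- the Hecke algebra at the bottom -/
abbrev MoB0 : Type u := LvB O H₀ a (fS0 H₀) (fun s => (χ s : O)) (dvd_refl D₀) (jD0 H₀)

/-- the action -/
abbrev MoA := LvA O (Q.H H₀) (aQ a Q α) (fS Q H₀) (fun s => (χ s : O)) hD (jD Q H₀)

/-- the action at the bottom -/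
abbrev MoA0 := LvA O H₀ a (fS0 H₀) (fun s => (χ s : O)) (dvd_refl D₀) (jD0 H₀)

/-- twisted Hecke operators -/
abbrev MoT (ℓ : Pr D) : MoB Q H₀ O a α χ hD :=
  LvT O (Q.H H₀) (aQ a Q α) (fS Q H₀) (fun s => (χ s : O)) hD (jD Q H₀) ℓ

/-- twisted Hecke operators at the bottom -/
abbrev MoT0 (ℓ : Pr D₀) : MoB0 H₀ O a χ :=
  LvT O H₀ a (fS0 H₀) (fun s => (χ s : O)) (dvd_refl D₀) (jD0 H₀) ℓ

/-- diamond operators -/
abbrev MoD : Dl p Q.e →* MoB Q H₀ O a α χ hD :=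
  LvD O (Q.H H₀) (aQ a Q α) (fS Q H₀) (fun s => (χ s : O)) hD (jD Q H₀)

lemma Mo_eq : chiPart (Q.ρ O H₀) χ (locPart (hAct O M (Q.H H₀) O (prD D₀)) (mx (aQ a Q α))) =
    Mo Q H₀ O a α χ := rfl

lemma Mo0_eq : chiPart (ext1 (rho0 O H₀)) χ (locPart (hAct O N H₀ O (prD D₀)) (mx a)) =
    Mo0 H₀ O a χ := rfl

/-- good families -/
structure GoodV (v : Fin (rk O N a) → HM (GamH M (Q.H H₀)) O) : Prop where
  hl : LinearIndependent O (fun x : Fin (rk O N a) × (SQ N H₀ × Dl p Q.e) =>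
        Q.ρ O H₀ x.2 (v x.1))
  hs : locPart (hAct O M (Q.H H₀) O (prD D₀)) (mx (aQ a Q α)) =
        Submodule.span O (Set.range (fun x : Fin (rk O N a) × (SQ N H₀ × Dl p Q.e) =>
          Q.ρ O H₀ x.2 (v x.1)))
  hl₀ : LinearIndependent O (fun x : Fin (rk O N a) × SQ N H₀ =>
        rho0 O H₀ x.2 (ctl O (prD D₀) H₀ (Q.H H₀) (eN O H₀ a) (v x.1)))
  hs₀ : locPart (hAct O N H₀ O (prD D₀)) (mx a) =
        Submodule.span O (Set.range (fun x : Fin (rk O N a) × SQ N H₀ =>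
          rho0 O H₀ x.2 (ctl O (prD D₀) H₀ (Q.H H₀) (eN O H₀ a) (v x.1))))

theorem exists_goodV [CharZero O] [Finite (ResidueField O)] [Fact p.Prime]
    (T : TWHyp O a Q α D hD) (B : BaseHyp O H₀ p) : ∃ v, GoodV Q H₀ O a α v := by
  obtain ⟨v, h1, h2, h3, h4⟩ := T.exists_v B
  exact ⟨v, h1, h2, h3, h4⟩

end Level

section Good

variable {p N M r : ℕ} [NeZero N] [NeZero M] [Fact p.Prime] {Q : QDat p N M r}
  {H₀ : Subgroup (ZMod N)ˣ} {O : Type u} [CommRing O] [IsDomain O] [IsDiscreteValuationRing O]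
  [IsAdicComplete (maximalIdeal O) O] {D₀ : ℕ} {a : Pr D₀ → ResidueField O}
  {α : Fin r → ResidueField O} {D : ℕ} {hD : D₀ ∣ D}
  {v : Fin (rk O N a) → HM (GamH M (Q.H H₀)) O} (G : GoodV Q H₀ O a α v)

local instance fintypeDl : Fintype (Dl p Q.e) := Fintype.ofFinite _

/-- the basis -/
def GoodV.bas (χ : SQ N H₀ →* Oˣ) :
    Module.Basis (Fin (rk O N a) × Dl p Q.e) O (Mo Q H₀ O a α χ) :=
  chiBasis G.hl G.hs χ

/-- the generators -/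
def GoodV.u (χ : SQ N H₀ →* Oˣ) (i : Fin (rk O N a)) : Mo Q H₀ O a α χ := G.bas χ (i, 1)

lemma GoodV.bas_eq (χ : SQ N H₀ →* Oˣ) (i : Fin (rk O N a)) (g : Dl p Q.e) :
    G.bas χ (i, g) = HT.toEnd (MoA Q H₀ O a α χ hD) (MoD Q H₀ O a α χ hD g) (G.u χ i) := by
  apply Subtype.ext
  rw [LvD_apply]
  have h1 : (G.bas χ (i, g) : HM (GamH M (Q.H H₀)) O) =
      Q.ρ O H₀ (1, g) (Nx (Q.ρ O H₀) χ (v i)) := chiBasis_apply G.hl G.hs (i, g)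
  have h2 : (G.u χ i : HM (GamH M (Q.H H₀)) O) =
      Q.ρ O H₀ (1, 1) (Nx (Q.ρ O H₀) χ (v i)) := chiBasis_apply G.hl G.hs (i, 1)
  have h3 : ((1, 1) : SQ N H₀ × Dl p Q.e) = 1 := rfl
  rw [h1, h2, h3, map_one, Module.End.one_apply]
  rfl

lemma hTctl (e : MvPolynomial (Pr D₀) O) (s : SQ N H₀) (k : Dl p Q.e)
    (x : HM (GamH M (Q.H H₀)) O) :
    ctl O (prD D₀) H₀ (Q.H H₀) e (Q.ρ O H₀ (s, k) x) =
      rho0 O H₀ s (ctl O (prD D₀) H₀ (Q.H H₀) e x) := by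
  rw [QDat.ρ_apply, ctl_diaQ Q.dvd_M (Q.H_le H₀), Q.prQ_symm]
  rfl

/-- the control map -/
def GoodV.f (χ : SQ N H₀ →* Oˣ) : Mo Q H₀ O a α χ →ₗ[O] Mo0 H₀ O a χ :=
  (ctl O (prD D₀) H₀ (Q.H H₀) (eN O H₀ a)).restrict (fun _ hx =>
    T_mem_chiPart (hTctl (eN O H₀ a)) G.hs G.hs₀ hx)

lemma GoodV.f_val (χ : SQ N H₀ →* Oˣ) (x : Mo Q H₀ O a α χ) :
    (G.f χ x : HM (GamH N H₀) O) = ctl O (prD D₀) H₀ (Q.H H₀) (eN O H₀ a) x := rfl

lemma GoodV.f_surj (χ : SQ N H₀ →* Oˣ) : Function.Surjective (G.f χ) := by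
  intro y
  obtain ⟨x, hx, hxy⟩ := ctl_surj (hTctl (eN O H₀ a)) G.hs G.hl G.hl₀ G.hs₀ y.2
  exact ⟨⟨x, hx⟩, Subtype.ext hxy⟩

variable (hodd : Odd (Nat.card ((ZMod M)ˣ ⧸ Q.H H₀))) (hodd₀ : Odd (Nat.card ((ZMod N)ˣ ⧸ H₀)))
  (hMD : M ∣ D)

/-- substitution for the control map -/
def ctlS (O : Type u) [CommRing O] {D₀ D : ℕ} (hD : D₀ ∣ D) (Δ : Type) :
    MvPolynomial (Pr D ⊕ Δ) O →ₐ[O] MvPolynomial (Pr D₀ ⊕ Unit) O :=
  MvPolynomial.aeval (Sum.elim (fun ℓ => MvPolynomial.X (Sum.inl (prI hD ℓ))) (fun _ => 1))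

include hodd hodd₀ hMD in
lemma GoodV.f_X (χ : SQ N H₀ →* Oˣ) (i : Pr D ⊕ Dl p Q.e) (m : Mo Q H₀ O a α χ) :
    (G.f χ).toAddMonoidHom (MoA Q H₀ O a α χ hD (MvPolynomial.X i) m) =
      MoA0 H₀ O a χ (ctlS O hD (Dl p Q.e) (MvPolynomial.X i)) ((G.f χ).toAddMonoidHom m) := by
  apply Subtype.ext
  change ctl O (prD D₀) H₀ (Q.H H₀) (eN O H₀ a) (MoA Q H₀ O a α χ hD (MvPolynomial.X i) m : _) = _
  rcases i with ℓ | k
  · rw [ctlS, MvPolynomial.aeval_X, Sum.elim_inl, actT_inl, actT_inl,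
      ctl_TP Q.dvd_M (Q.H_le H₀) (prD D₀) (eN O H₀ a) hodd hodd₀ _ (fun h => ℓ.2.2 (h.trans hMD))]
    rfl
  · rw [ctlS, MvPolynomial.aeval_X, Sum.elim_inr, map_one, actT_inr]
    exact hTctl (eN O H₀ a) 1 k (m : HM (GamH M (Q.H H₀)) O) |>.trans (by
      rw [map_one]; rfl)

/-- the map of Hecke algebras -/
def GoodV.π (χ : SQ N H₀ →* Oˣ) : MoB Q H₀ O a α χ hD →ₐ[O] MoB0 H₀ O a χ :=
  HT.map (MoA Q H₀ O a α χ hD) (MoA0 H₀ O a χ) (ctlS O hD (Dl p Q.e)) (G.f χ).toAddMonoidHom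
    (fun a x => map_smul (G.f χ) a x) (G.f_X hodd hodd₀ hMD χ) (G.f_surj χ)

lemma GoodV.π_T (χ : SQ N H₀ →* Oˣ) (ℓ : Pr D) :
    G.π hodd hodd₀ hMD χ (MoT Q H₀ O a α χ hD ℓ) = MoT0 H₀ O a χ (prI hD ℓ) := by
  rw [GoodV.π, MoT, LvT, HT.map_mk, ctlS, MvPolynomial.aeval_X]
  rfl

lemma GoodV.π_D (χ : SQ N H₀ →* Oˣ) (k : Dl p Q.e) :
    G.π hodd hodd₀ hMD χ (MoD Q H₀ O a α χ hD k) = 1 := by
  change G.π hodd hodd₀ hMD χ (Ideal.Quotient.mk _ (MvPolynomial.X (Sum.inr k))) = 1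
  rw [GoodV.π, HT.map_mk, ctlS, MvPolynomial.aeval_X, Sum.elim_inr, map_one]

lemma GoodV.f_smul (χ : SQ N H₀ →* Oˣ) (b : MoB Q H₀ O a α χ hD) (m : Mo Q H₀ O a α χ) :
    G.f χ (HT.toEnd (MoA Q H₀ O a α χ hD) b m) =
      HT.toEnd (MoA0 H₀ O a χ) (G.π hodd hodd₀ hMD χ b) (G.f χ m) :=
  HT.map_toEnd (MoA Q H₀ O a α χ hD) (MoA0 H₀ O a χ) (ctlS O hD (Dl p Q.e))
    (G.f χ).toAddMonoidHom (fun a x => map_smul (G.f χ) a x) (G.f_X hodd hodd₀ hMD χ)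
    (G.f_surj χ) b m

/-- **The kernel of the control map.** -/
theorem GoodV.f_ker (χ : SQ N H₀ →* Oˣ) (m : Mo Q H₀ O a α χ) :
    G.f χ m = 0 ↔ ∃ w : Fin r → Mo Q H₀ O a α χ,
      m = ∑ j, (HT.toEnd (MoA Q H₀ O a α χ hD) (MoD Q H₀ O a α χ hD (dl p Q.e j)) (w j) - w j) := by
  let δ : Dl p Q.e →* Module.End O (Mo Q H₀ O a α χ) :=
    (HT.toEnd (MoA Q H₀ O a α χ hD) : MoB Q H₀ O a α χ hD →* _).comp (MoD Q H₀ O a α χ hD)
  have hδ : ∀ (k : Dl p Q.e) (x : Mo Q H₀ O a α χ), ((δ k x : Mo Q H₀ O a α χ) :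
      HM (GamH M (Q.H H₀)) O) = Q.ρ O H₀ (1, k) x := fun k x =>
    LvD_apply O (Q.H H₀) (aQ a Q α) (fS Q H₀) (fun s => (χ s : O)) hD (jD Q H₀) k x
  let L : (Fin r → Mo Q H₀ O a α χ) →ₗ[O] Mo Q H₀ O a α χ :=
    ∑ j, (δ (dl p Q.e j) - 1).comp (LinearMap.proj j)
  have hL : ∀ w, L w = ∑ j, (δ (dl p Q.e j) (w j) - w j) := by
    intro w
    rw [LinearMap.sum_apply]
    rfl
  have hfδ : ∀ k x, G.f χ (δ k x) = G.f χ x := by
    intro k x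
    apply Subtype.ext
    rw [G.f_val, G.f_val, hδ, hTctl, map_one, Module.End.one_apply]
  constructor
  · intro h0
    have h1 := ctl_ker (hTctl (eN O H₀ a)) G.hs G.hl G.hl₀ G.hs₀ m.2 (congrArg Subtype.val h0)
    have hk : ∀ (k : Dl p Q.e) (y : Mo Q H₀ O a α χ), δ k y - y ∈ LinearMap.range L := by
      intro k
      have hk : k ∈ Subgroup.closure (Set.range (dl p Q.e)) := by rw [closure_dl]; trivial
      induction hk using Subgroup.closure_induction with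
      | mem k hk =>
        intro y
        obtain ⟨j, rfl⟩ := hk
        refine ⟨Pi.single j y, ?_⟩
        rw [hL, Finset.sum_eq_single j]
        · rw [Pi.single_eq_same]
        · intro j' _ hj'
          rw [Pi.single_eq_of_ne hj', map_zero, sub_zero]
        · intro h; exact absurd (Finset.mem_univ j) h
      | one =>
        intro y
        rw [map_one, Module.End.one_apply, sub_self]
        exact zero_mem _
      | mul k k' _ _ hk hk' =>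
        intro y
        rw [map_mul, Module.End.mul_apply]
        have := add_mem (hk (δ k' y)) (hk' y)
        rwa [sub_add_sub_cancel] at this
      | inv k _ hk =>
        intro y
        have h2 := hk (δ k⁻¹ y)
        rw [← Module.End.mul_apply, ← map_mul, mul_inv_cancel, map_one, Module.End.one_apply] at h2
        have := neg_mem h2
        rwa [neg_sub] at this
    have h2 : (m : HM (GamH M (Q.H H₀)) O) ∈
        (LinearMap.range L).map (Submodule.subtype (Mo Q H₀ O a α χ)) := by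
      refine (Submodule.span_le.mpr ?_) h1
      rintro _ ⟨k, y, hy, rfl⟩
      refine ⟨δ k ⟨y, hy⟩ - ⟨y, hy⟩, hk k ⟨y, hy⟩, ?_⟩
      rw [map_sub]
      congr 1
      exact hδ k ⟨y, hy⟩
    obtain ⟨m', ⟨w, hw⟩, hm'⟩ := h2
    have h3 : m' = m := Subtype.ext hm'
    refine ⟨w, ?_⟩
    rw [← h3, ← hw, hL]
    rfl
  · rintro ⟨w, rfl⟩
    rw [map_sum]
    refine Finset.sum_eq_zero fun j _ => ?_
    rw [map_sub, sub_eq_zero]
    exact hfδ _ _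

/-- comparison of two nebentypus parts -/
def GoodV.cmp (χ χ' : SQ N H₀ →* Oˣ) : Mo Q H₀ O a α χ ≃ₗ[O] Mo Q H₀ O a α χ' :=
  chiCmp G.hl G.hs χ χ'

variable {ϖ : O} (hϖ : ϖ ≠ 0) {χ χ' : SQ N H₀ →* Oˣ} (hχ : ∀ s, ∃ c : O, (χ s : O) = 1 + ϖ * c)
  (hχ' : ∀ s, ∃ c : O, (χ' s : O) = 1 + ϖ * c)

include hϖ hχ hχ' in
theorem GoodV.cmp_T (ℓ : Pr D) (m : Mo Q H₀ O a α χ) : ∃ w : Mo Q H₀ O a α χ',
    G.cmp χ χ' (HT.toEnd (MoA Q H₀ O a α χ hD) (MoT Q H₀ O a α χ hD ℓ) m) -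
      HT.toEnd (MoA Q H₀ O a α χ' hD) (MoT Q H₀ O a α χ' hD ℓ) (G.cmp χ χ' m) = ϖ • w := by
  refine chiCmp_equivariant G.hl G.hs (fun x hx => hm_torsionFree ϖ hϖ x hx) hχ hχ'
    (TP O M (Q.H H₀) O (prD D ℓ)) ?_ m _ (LvT_apply _ _ _ _ _ _ _ _ _) _
    (LvT_apply _ _ _ _ _ _ _ _ _)
  intro x hx
  have h1 := (stab_locPart (O := O) (pr := prD D₀) (aQ a Q α)).T (prI hD ℓ) x hx
  rw [TP, Module.End.mul_apply]
  exact (stab_locPart (O := O) (pr := prD D₀) (aQ a Q α)).dia _ _ h1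

include hϖ hχ hχ' in
theorem GoodV.cmp_D (k : Dl p Q.e) (m : Mo Q H₀ O a α χ) : ∃ w : Mo Q H₀ O a α χ',
    G.cmp χ χ' (HT.toEnd (MoA Q H₀ O a α χ hD) (MoD Q H₀ O a α χ hD k) m) -
      HT.toEnd (MoA Q H₀ O a α χ' hD) (MoD Q H₀ O a α χ' hD k) (G.cmp χ χ' m) = ϖ • w := by
  refine chiCmp_equivariant G.hl G.hs (fun x hx => hm_torsionFree ϖ hϖ x hx) hχ hχ'
    (diaQ O M (Q.H H₀) O (jD Q H₀ k)) ?_ m _ (LvD_apply _ _ _ _ _ _ _ _ _) _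
    (LvD_apply _ _ _ _ _ _ _ _ _)
  intro x hx
  exact (stab_locPart (O := O) (pr := prD D₀) (aQ a Q α)).dia _ x hx

end Good

end Fermat.Agent.TC
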