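import Mathlib
import Fermat.Agent.TC.Pack4
import Fermat.Agent.H22.C3psi

/-!
# Taylor-Wiles levels: points and newforms
-/

set_option autoImplicit false
set_option linter.style.haveILetI false
set_option linter.unusedSectionVars false

noncomputable section

universe u

namespace Fermat.Agent.TC

open CongruenceSubgroup Matrix.SpecialLinearGroup H22 IsLocalRing
open Fermat.Agent.H25.TWM
open scoped MatrixGroups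
open ModularFormClass (qCoeff)

/-- the conductor of the characters of `(ℤ/N)ˣ/H` -/
structure CondHyp {N : ℕ} (H : Subgroup (ZMod N)ˣ) (Q₀ M₀ : ℕ) : Prop where
  hN : N = Q₀ * M₀
  hsq : Squarefree Q₀
  hcop : Nat.Coprime Q₀ M₀
  hH : ∀ u : (ZMod N)ˣ, ZMod.unitsMap (Dvd.intro M₀ hN.symm : Q₀ ∣ N) u = 1 → u ∈ H

lemma CondHyp.dvd {N : ℕ} {H : Subgroup (ZMod N)ˣ} {Q₀ M₀ : ℕ} (C : CondHyp H Q₀ M₀) : Q₀ ∣ N :=
  Dvd.intro M₀ C.hN.symm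

section NF

variable {M Q₀ M₀ : ℕ} [NeZero M] {H : Subgroup (ZMod M)ˣ} (C : CondHyp H Q₀ M₀)
  (hodd : Odd (Nat.card ((ZMod M)ˣ ⧸ H))) {K : Type u} [Field K] [CharZero K] [IsAlgClosed K]
  {D : ℕ} (hD0 : D ≠ 0) (hMD : M ∣ D)

include C hodd hD0 hMD in
/-- **The newform of an eigenclass.** -/
theorem exists_newform_eig {φ : HM (GamH M H) K} (hφ0 : φ ≠ 0) {y : Pr D → K}
    (hT : ∀ ℓ : Pr D, TP K M H K (prD D ℓ) φ = y ℓ • φ) {ψ : (ZMod M)ˣ ⧸ H → K}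
    (hψ : ∀ g, diaQ K M H K g φ = ψ g • φ)
    (hE : ∃ ℓ₀ : Pr D, ((M * Q₀ : ℕ) : ℤ) ∣ ((ℓ₀ : ℕ) : ℤ) - 1 ∧ y ℓ₀ ≠ ((ℓ₀ : ℕ) : K) + 1) :
    ∃ (N0 : ℕ) (_ : NeZero N0) (g : CuspForm (Gamma0 N0) 2) (τ : integralClosure ℤ ℂ →+* K),
      g.IsNewform ∧ N0 ∣ M * Q₀ ∧
      (∀ ℓ : Pr D, ∃ z : integralClosure ℤ ℂ, (z : ℂ) = qCoeff g ℓ ∧ τ z = y ℓ) ∧
      (∀ q : ℕ, q.Prime → ∀ b : ℕ, Q₀ = q * b →
        ((∃ u : (ZMod M)ˣ, ((u : ZMod M).val : ZMod b) = 1 ∧ ψ (u : (ZMod M)ˣ ⧸ H) ≠ 1) →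
          q * q ∣ N0) ∧
        ((∀ u : (ZMod M)ˣ, ((u : ZMod M).val : ZMod b) = 1 → ψ (u : (ZMod M)ˣ ⧸ H) = 1) →
          ¬ q * q ∣ N0)) := by
  obtain ⟨ψ', hψ'⟩ := exists_char (χ := ψ) (mem_diaEig.mpr hψ) hφ0
  haveI : NeZero Q₀ := ⟨fun h => NeZero.ne M (by rw [C.hN, h, zero_mul])⟩
  let Ψ : (ZMod M)ˣ →* Kˣ := ψ'.comp (QuotientGroup.mk' H)
  have hΨ : ∀ u : (ZMod M)ˣ, ((Ψ u : Kˣ) : K) = ψ (u : (ZMod M)ˣ ⧸ H) := fun u => hψ' _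
  obtain ⟨n, hn⟩ := hodd
  have hΨn : ∀ u, Ψ u ^ (2 * n + 1) = 1 := by
    intro u
    change ψ' _ ^ _ = 1
    rw [← map_pow, ← hn, pow_card_eq_one', map_one]
  have hfxn : hfx M H = n + 1 := by
    rw [hfx, hn]; omega
  let A : ℕ → K := fun ℓ => if h : ℓ.Prime ∧ ¬ ℓ ∣ D then
    (((Ψ (uP M ℓ))⁻¹ ^ (n + 1) : Kˣ) : K) * y ⟨ℓ, h⟩ else 0
  have hA : ∀ ℓ : Pr D, A ℓ = (((Ψ (uP M ℓ))⁻¹ ^ (n + 1) : Kˣ) : K) * y ℓ := fun ℓ => by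
    change (if h : _ then _ else _) = _
    rw [dif_pos ℓ.2]
  obtain ⟨N0, hN0, g, τ, hg, hdvd, hcoef, hram⟩ := exists_newform_psi (H := H) (K := K) C.hN C.hsq
    C.hcop Ψ hΨn (fun u hu => by
      change ψ' (QuotientGroup.mk' H u) = 1
      rw [(QuotientGroup.eq_one_iff u).mpr (C.hH u hu) |> fun h => (show QuotientGroup.mk' H u = 1 from h), map_one])
    hφ0 (fun g => by
      rw [← diaQ_dChar, hψ, hΨ]) hD0 (a := A) (fun ℓ _ hℓ _ hℓD => by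
      have h1 := hT ⟨ℓ, hℓ, hℓD⟩
      have h2 : A ℓ = _ := hA ⟨ℓ, hℓ, hℓD⟩
      rw [TP, Module.End.mul_apply] at h1
      have h3 : diaQ K M H K (((uP M ℓ : (ZMod M)ˣ) : (ZMod M)ˣ ⧸ H) ^ hfx M H)
          (TH K M H K ℓ φ) = y ⟨ℓ, hℓ, hℓD⟩ • φ := h1
      have h4 : diaQ K M H K (((uP M ℓ : (ZMod M)ˣ) : (ZMod M)ˣ ⧸ H) ^ hfx M H)
          (TH K M H K ℓ φ) = (((Ψ (uP M ℓ)) ^ (n + 1) : Kˣ) : K) • TH K M H K ℓ φ := by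
        rw [diaQ_TH, hψ, map_smul]
        congr 1
        rw [← hψ', map_pow, hfxn]
        rfl
      rw [h4] at h3
      rw [h2, mul_smul, ← h3, smul_smul, ← Units.val_mul, ← mul_pow, inv_mul_cancel, one_pow,
        Units.val_one, one_smul])
    (by
      obtain ⟨ℓ₀, h1, h2⟩ := hE
      refine ⟨ℓ₀, ℓ₀.2.1, h1, ℓ₀.2.2, ?_⟩
      rw [hA, uP_eq_one ((Int.natCast_dvd_natCast.mpr (dvd_mul_right M Q₀)).trans h1), map_one,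
        inv_one, one_pow, Units.val_one, one_mul]
      exact h2)
  refine ⟨N0, hN0, g, τ, hg, hdvd, fun ℓ => ?_, fun q hq b hb => ?_⟩
  · have hcop : Nat.Coprime (ℓ : ℕ) M :=
      (Nat.Prime.coprime_iff_not_dvd ℓ.2.1).mpr fun h => ℓ.2.2 (h.trans hMD)
    obtain ⟨z, hz1, hz2⟩ := hcoef ℓ (uP M ℓ) ℓ.2.1 (uP_val hcop) ℓ.2.2
    refine ⟨z, hz1, ?_⟩
    rw [hz2, hA, ← mul_assoc, ← Units.val_mul, ← mul_pow, mul_inv_cancel, one_pow, Units.val_one,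
      one_mul]
  · obtain ⟨h1, h2⟩ := hram q hq b hb
    refine ⟨fun ⟨u, hu, hu'⟩ => h1 ⟨u, hu, fun h => hu' ?_⟩, fun h => h2 fun u hu => ?_⟩
    · rw [← hΨ, h, Units.val_one]
    · apply Units.ext
      rw [hΨ, h u hu, Units.val_one]

end NF

end Fermat.Agent.TC
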