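import Mathlib
import Fermat.Agent.TC.Pack5

/-!
# Points of Taylor-Wiles levels and their newforms
-/

set_option autoImplicit false
set_option linter.style.haveILetI false
set_option linter.unusedSectionVars false

noncomputable section

universe u

namespace Fermat.Agent.TC

open CongruenceSubgroup Matrix.SpecialLinearGroup H22 IsLocalRing
open Fermat.Agent.H25.TWM
open scoped MatrixGroups
open ModularFormClass (qCoeff)

lemma unitsMap_eq_one_iff {d M : ℕ} [NeZero M] (hd : d ∣ M) (u : (ZMod M)ˣ) :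
    ZMod.unitsMap hd u = 1 ↔ (d : ℤ) ∣ ((u : ZMod M).val : ℤ) - 1 := by
  rw [Units.ext_iff, ZMod.unitsMap_val, Units.val_one, ← ZMod.natCast_val]
  have h1 : (((u : ZMod M).val : ℕ) : ZMod d) = ((((u : ZMod M).val : ℕ) : ℤ) : ZMod d) := by
    push_cast; rfl
  have h2 : (1 : ZMod d) = ((1 : ℤ) : ZMod d) := by push_cast; rfl
  rw [h1, h2, eq_comm, ZMod.intCast_eq_intCast_iff_dvd_sub]

lemma val_eq_one_iff {d M : ℕ} [NeZero M] (u : (ZMod M)ˣ) :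
    (((u : ZMod M).val : ℕ) : ZMod d) = 1 ↔ (d : ℤ) ∣ ((u : ZMod M).val : ℤ) - 1 := by
  have h1 : (((u : ZMod M).val : ℕ) : ZMod d) = ((((u : ZMod M).val : ℕ) : ℤ) : ZMod d) := by
    push_cast; rfl
  have h2 : (1 : ZMod d) = ((1 : ℤ) : ZMod d) := by push_cast; rfl
  rw [h1, h2, eq_comm, ZMod.intCast_eq_intCast_iff_dvd_sub]

lemma unitsMap_trans {b N M : ℕ} (h1 : b ∣ N) (h2 : N ∣ M) (u : (ZMod M)ˣ) :
    ZMod.unitsMap (h1.trans h2) u = ZMod.unitsMap h1 (ZMod.unitsMap h2 u) := by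
  rw [← MonoidHom.comp_apply, ZMod.unitsMap_comp]

section Up

variable {p N M r : ℕ} [NeZero N] [NeZero M] {Q : QDat p N M r} {H₀ : Subgroup (ZMod N)ˣ}
  {Q₀ M₀ : ℕ} (C : CondHyp H₀ Q₀ M₀)

include C in
lemma cop_q (j : Fin r) : Nat.Coprime (Q.q j) Q₀ :=
  (Nat.Prime.coprime_iff_not_dvd (Q.prime j)).mpr fun h => Q.ndvd j (h.trans C.dvd)

lemma cop_qq {i j : Fin r} (h : i ≠ j) : Nat.Coprime (Q.q i) (Q.q j) :=
  (Nat.coprime_primes (Q.prime i) (Q.prime j)).mpr fun h' => h (Q.inj h')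

include C in
/-- the conductor condition at the Taylor-Wiles level -/
theorem CondHyp.up : CondHyp (Q.H H₀) (Q₀ * ∏ j, Q.q j) M₀ where
  hN := Q.hM.trans (by
    have h1 : N * ∏ j, Q.q j = (Q₀ * M₀) * ∏ j, Q.q j := congrArg (· * ∏ j, Q.q j) C.hN
    rw [h1]; ring)
  hsq := by
    rw [Nat.squarefree_mul (Nat.Coprime.prod_right fun j _ => (cop_q C j).symm)]
    refine ⟨C.hsq, ?_⟩
    refine Finset.squarefree_prod_of_pairwise_isCoprime ?_ fun j _ => (Q.prime j).squarefree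
    intro i _ j _ hij
    exact Nat.coprime_iff_isRelPrime.mp (cop_qq hij)
  hcop := by
    refine Nat.Coprime.mul_left C.hcop (Nat.Coprime.prod_left fun j _ => ?_)
    exact (Nat.Prime.coprime_iff_not_dvd (Q.prime j)).mpr fun h =>
      Q.ndvd j (h.trans ⟨Q₀, by rw [C.hN, mul_comm]⟩)
  hH := by
    intro u hu
    rw [unitsMap_eq_one_iff] at hu
    push_cast at hu
    have h1 : Q.toSD H₀ u = 1 := by
      rw [Q.toSD_apply]
      refine Prod.ext ?_ (funext fun j => ?_)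
      · refine SQ.mk_eq_one.mpr (C.hH _ ?_)
        rw [← unitsMap_trans, unitsMap_eq_one_iff]
        exact (dvd_mul_right _ _).trans hu
      · change Q.kap u j = 1
        have h2 : ZMod.unitsMap (Q.q_dvd j) u = 1 := by
          rw [unitsMap_eq_one_iff]
          exact ((Finset.dvd_prod_of_mem (fun j => ((Q.q j : ℕ) : ℤ)) (Finset.mem_univ j)).mul_left
            _).trans hu
        rw [Q.kap_apply, h2, map_one]
    exact h1

end Up

section Pts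

variable {p N M r : ℕ} [NeZero N] [NeZero M] [Fact p.Prime] {Q : QDat p N M r}
  {H₀ : Subgroup (ZMod N)ˣ} {O : Type u} [CommRing O] [IsDomain O] [IsDiscreteValuationRing O]
  [IsAdicComplete (maximalIdeal O) O] {D₀ : ℕ} {a : Pr D₀ → ResidueField O}
  {α : Fin r → ResidueField O} {D : ℕ} {hD : D₀ ∣ D} {K : Type u} [Field K]
  [CharZero K] [IsAlgClosed K] [Algebra O K] {Q₀ M₀ : ℕ}

lemma E_symm_eq (s : SQ N H₀) (k : Dl p Q.e) : (Q.E H₀).symm (s, k) = fS Q H₀ s * jD Q H₀ k := by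
  apply (Q.E H₀).injective
  rw [MulEquiv.apply_symm_apply]
  have h1 : Q.E H₀ (fS Q H₀ s * jD Q H₀ k) = Q.E H₀ (fS Q H₀ s) * Q.E H₀ (jD Q H₀ k) :=
    map_mul _ _ _
  have h2 : Q.E H₀ (fS Q H₀ s) = (s, 1) := MulEquiv.apply_symm_apply _ _
  have h3 : Q.E H₀ (jD Q H₀ k) = (1, k) := MulEquiv.apply_symm_apply _ _
  rw [h1, h2, h3, Prod.mk_mul_mk, mul_one, one_mul]

/-- eigenvalues of `T_ℓ` at points are not `ℓ + 1` -/
lemma pt_ne (M' : ℕ) [NeZero M'] {H : Subgroup (ZMod M')ˣ} {a' : Pr D₀ → ResidueField O}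
    {ι : Type} {f : ι → (ZMod M')ˣ ⧸ H} {c : ι → O} {K' : Type} [CommGroup K']
    {j : K' →* (ZMod M')ˣ ⧸ H} (hpO : (p : O) ∈ maximalIdeal O)
    (hΔ : IsPGroup p ((ZMod M')ˣ ⧸ H)) (x : LvB O H a' f c hD j →ₐ[O] K) (ℓ : Pr D)
    (hℓ : a' (prI hD ℓ) ≠ ((ℓ : ℕ) : ResidueField O) + 1) :
    x (LvT O H a' f c hD j ℓ) ≠ ((ℓ : ℕ) : K) + 1 := by
  intro h
  have hP : evR (Sum.elim (fun i => a' (prI hD i)) (fun _ : K' => 1))
      (MvPolynomial.X (Sum.inl ℓ) - MvPolynomial.C (((ℓ : ℕ) : O) + 1)) ≠ 0 := by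
    rw [map_sub, evR_X, evR_C, map_add, map_natCast, map_one, Sum.elim_inl]
    exact sub_ne_zero.mpr hℓ
  have hu := isUnit_mk (Lv_loc O H a' f c hD j Fact.out hpO hΔ) hP
  have h1 := (hu.map x).ne_zero
  apply h1
  rw [map_sub, map_sub, sub_eq_zero]
  have h2 : (Ideal.Quotient.mk (RingHom.ker (LvA O H a' f c hD j)))
      (MvPolynomial.C (((ℓ : ℕ) : O) + 1)) =
      algebraMap O (LvB O H a' f c hD j) (((ℓ : ℕ) : O) + 1) := rfl
  rw [h2, AlgHom.commutes, map_add, map_natCast, map_one]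
  exact h

variable (T : TWHyp O a Q α D hD) (B : BaseHyp O H₀ p) (C : CondHyp H₀ Q₀ M₀)
  (hK : Function.Injective (algebraMap O K)) (χ : SQ N H₀ →* Oˣ)

include T B C hK in
/-- **Points at the Taylor-Wiles level**, with eigenvectors. -/
theorem TWHyp.points_full : ∃ (X : Type u) (_ : Finite X) (x : X → MoB Q H₀ O a α χ hD →ₐ[O] K)
    (φ : X → HM (GamH M (Q.H H₀)) K),
    (∀ b, (∀ t, x t b = 0) → b = 0) ∧ ∀ t, φ t ≠ 0 ∧
    (∀ ℓ : Pr D, TP K M (Q.H H₀) K (prD D ℓ) (φ t) = x t (MoT Q H₀ O a α χ hD ℓ) • φ t) ∧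
    (∀ g, diaQ K M (Q.H H₀) K g (φ t) = (algebraMap O K (χ (Q.E H₀ g).1 : O) *
      x t (MoD Q H₀ O a α χ hD (Q.E H₀ g).2)) • φ t) ∧
    ∃ (N0 : ℕ) (_ : NeZero N0) (g : CuspForm (Gamma0 N0) 2) (τ : integralClosure ℤ ℂ →+* K),
      g.IsNewform ∧ N0 ∣ M * (Q₀ * ∏ j, Q.q j) ∧
      (∀ ℓ : Pr D, ∃ z : integralClosure ℤ ℂ, (z : ℂ) = qCoeff g ℓ ∧
        τ z = x t (MoT Q H₀ O a α χ hD ℓ)) ∧
      (∀ j, (x t (MoD Q H₀ O a α χ hD (dl p Q.e j)) ≠ 1 → Q.q j * Q.q j ∣ N0) ∧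
        (x t (MoD Q H₀ O a α χ hD (dl p Q.e j)) = 1 → ¬ Q.q j * Q.q j ∣ N0)) ∧
      (∀ q : ℕ, q.Prime → ∀ b : ℕ, Q₀ = q * b →
        ((∃ u : (ZMod N)ˣ, ((u : ZMod N).val : ZMod b) = 1 ∧ χ (SQ.mk H₀ u) ≠ 1) → q * q ∣ N0) ∧
        ((∀ u : (ZMod N)ˣ, ((u : ZMod N).val : ZMod b) = 1 → χ (SQ.mk H₀ u) = 1) →
          ¬ q * q ∣ N0)) := by
  classical
  have hΔ : IsPGroup p ((ZMod M)ˣ ⧸ Q.H H₀) := Q.isPGroup B.hΔ₀
  have hodd := odd_card B.hp2 hΔ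
  have C' : CondHyp (Q.H H₀) (Q₀ * ∏ j, Q.q j) M₀ := C.up
  obtain ⟨ℓ₀, hℓ₀, hℓ₀'⟩ := T.hℓ₀
  have hd : ((M * (Q₀ * ∏ j, Q.q j) : ℕ) : ℤ) ∣ ((ℓ₀ : ℕ) : ℤ) - 1 :=
    (Int.natCast_dvd_natCast.mpr (mul_dvd_mul_left M C'.dvd)).trans hℓ₀
  have ha₀ : aQ a Q α (prI hD ℓ₀) ≠ ((ℓ₀ : ℕ) : ResidueField O) + 1 := by
    rw [T.aQ_eq]; exact hℓ₀'
  obtain ⟨X, hX, x, φ, h1, h2, h3, h4, h5⟩ := Lv_points O (Q.H H₀) (aQ a Q α) (fS Q H₀)
    (fun s => (χ s : O)) hD (jD Q H₀) (K := K) C'.dvd C'.hH hodd C'.hN C'.hsq C'.hcop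
    (prI hD ℓ₀) hd ha₀ T.hMD hK
  refine ⟨X, hX, x, φ, h5, fun t => ?_⟩
  let ψ : (ZMod M)ˣ ⧸ Q.H H₀ → K := fun g => algebraMap O K (χ (Q.E H₀ g).1 : O) *
    x t (MoD Q H₀ O a α χ hD (Q.E H₀ g).2)
  have hψ : ∀ g, diaQ K M (Q.H H₀) K g (φ t) = ψ g • φ t := by
    intro g
    have e1 : g = (Q.E H₀).symm ((Q.E H₀ g).1, (Q.E H₀ g).2) := by
      rw [Prod.mk.eta, MulEquiv.symm_apply_apply]
    have e2 : g = fS Q H₀ (Q.E H₀ g).1 * jD Q H₀ (Q.E H₀ g).2 := e1.trans (E_symm_eq _ _)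
    have e3 : diaQ K M (Q.H H₀) K g (φ t) = diaQ K M (Q.H H₀) K (fS Q H₀ (Q.E H₀ g).1)
        (diaQ K M (Q.H H₀) K (jD Q H₀ (Q.E H₀ g).2) (φ t)) := by
      conv_lhs => rw [e2, map_mul]
      rfl
    rw [e3, h3, map_smul, h4, smul_smul, mul_comm]
  have hψu : ∀ u : (ZMod M)ˣ, ψ (u : (ZMod M)ˣ ⧸ Q.H H₀) =
      algebraMap O K (χ (SQ.mk H₀ (ZMod.unitsMap Q.dvd_M u)) : O) *
        x t (MoD Q H₀ O a α χ hD (Q.kap u)) := fun u => rfl
  obtain ⟨N0, hN0, g, τ, hg, hdvd, hcoef, hram⟩ := exists_newform_eig (K := K) C' hodd T.hD0 T.hMD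
    (h1 t) (y := fun ℓ => x t (MoT Q H₀ O a α χ hD ℓ)) (h2 t) hψ
    ⟨ℓ₀, hd, pt_ne M B.hpO hΔ (x t) ℓ₀ ha₀⟩
  refine ⟨h1 t, h2 t, hψ, N0, hN0, g, τ, hg, hdvd, hcoef, ?_, ?_⟩
  · intro j
    have hb : Q₀ * ∏ j, Q.q j = Q.q j * (Q₀ * ∏ i ∈ Finset.univ.erase j, Q.q i) := by
      rw [← Finset.mul_prod_erase Finset.univ Q.q (Finset.mem_univ j)]
      ring
    obtain ⟨hA, hB⟩ := hram (Q.q j) (Q.prime j) _ hb
    constructor
    · intro hne
      obtain ⟨w, hw⟩ := Q.κ_surj j (Multiplicative.ofAdd 1)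
      obtain ⟨u, hu, hu'⟩ := Q.exists_unit 1 (Function.update 1 j w)
      refine hA ⟨u, ?_, ?_⟩
      · rw [val_eq_one_iff]
        push_cast
        refine IsCoprime.mul_dvd ?_ ?_ ?_
        · refine IsCoprime.prod_right fun i _ => ?_
          exact Nat.isCoprime_iff_coprime.mpr (cop_q (Q := Q) C i).symm
        · rw [← unitsMap_eq_one_iff (C.dvd.trans Q.dvd_M), unitsMap_trans C.dvd Q.dvd_M, hu, map_one]
        · refine Finset.prod_dvd_of_coprime ?_ fun i hi => ?_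
          · intro i _ i' _ hii'
            exact Nat.isCoprime_iff_coprime.mpr (cop_qq hii')
          · have h6 := hu' i
            rw [Function.update_of_ne (Finset.ne_of_mem_erase hi), Pi.one_apply] at h6
            exact (unitsMap_eq_one_iff (Q.q_dvd i) u).mp h6
      · rw [hψu, hu, map_one, map_one, Units.val_one, map_one, one_mul]
        have h6 : Q.kap u = dl p Q.e j := by
          funext i
          rw [Q.kap_apply, hu', dl]
          by_cases hij : i = j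
          · subst hij
            rw [Function.update_self, Pi.mulSingle_eq_same, hw]
          · rw [Function.update_of_ne hij, Pi.mulSingle_eq_of_ne hij, Pi.one_apply, map_one]
        rw [h6]
        exact hne
    · intro heq
      refine hB fun u hu => ?_
      rw [val_eq_one_iff] at hu
      push_cast at hu
      have h6 : SQ.mk H₀ (ZMod.unitsMap Q.dvd_M u) = 1 := by
        refine SQ.mk_eq_one.mpr (C.hH _ ?_)
        rw [← unitsMap_trans, unitsMap_eq_one_iff]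
        exact (dvd_mul_right _ _).trans hu
      have h7 : Q.kap u = dl p Q.e j ^ (Multiplicative.toAdd (Q.kap u j)).val := by
        rw [dl, ← Pi.mulSingle_pow]
        funext i
        by_cases hij : i = j
        · subst hij
          rw [Pi.mulSingle_eq_same]
          haveI : NeZero (p ^ Q.e i) := ⟨pow_ne_zero _ (Fact.out : p.Prime).ne_zero⟩
          have : Multiplicative.toAdd (Q.kap u i) = Multiplicative.toAdd
              ((Multiplicative.ofAdd (1 : ZMod (p ^ Q.e i))) ^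
                (Multiplicative.toAdd (Q.kap u i)).val) := by
            rw [toAdd_pow, toAdd_ofAdd, nsmul_eq_mul, mul_one, ZMod.natCast_val, ZMod.cast_id]
          exact this
        · rw [Pi.mulSingle_eq_of_ne hij, Q.kap_apply]
          have h8 : ZMod.unitsMap (Q.q_dvd i) u = 1 := by
            rw [unitsMap_eq_one_iff]
            exact ((Finset.dvd_prod_of_mem (fun j => ((Q.q j : ℕ) : ℤ))
              (Finset.mem_erase.mpr ⟨hij, Finset.mem_univ i⟩)).mul_left _).trans hu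
          rw [h8, map_one]
      rw [hψu, h6, h7, map_one, Units.val_one, map_one, one_mul, map_pow, map_pow, heq, one_pow]
  · intro q hq b hb
    have hb' : Q₀ * ∏ j, Q.q j = q * (b * ∏ j, Q.q j) := by rw [hb]; ring
    have hbQ : b ∣ Q₀ := ⟨q, by rw [hb, mul_comm]⟩
    obtain ⟨hA, hB⟩ := hram q hq _ hb'
    constructor
    · rintro ⟨u₀, hu₀, hne⟩
      obtain ⟨u, hu, hu'⟩ := Q.exists_unit u₀ 1
      refine hA ⟨u, ?_, ?_⟩
      · rw [val_eq_one_iff]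
        push_cast
        refine IsCoprime.mul_dvd ?_ ?_ ?_
        · refine IsCoprime.prod_right fun i _ => ?_
          exact Nat.isCoprime_iff_coprime.mpr
            (Nat.Coprime.coprime_dvd_left hbQ (cop_q (Q := Q) C i).symm)
        · rw [← unitsMap_eq_one_iff ((hbQ.trans C.dvd).trans Q.dvd_M),
            unitsMap_trans (hbQ.trans C.dvd) Q.dvd_M, hu, unitsMap_eq_one_iff, ← val_eq_one_iff]
          exact hu₀
        · refine Finset.prod_dvd_of_coprime ?_ fun i _ => ?_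
          · intro i _ i' _ hii'
            exact Nat.isCoprime_iff_coprime.mpr (cop_qq hii')
          · exact (unitsMap_eq_one_iff (Q.q_dvd i) u).mp (hu' i)
      · have h6 : Q.kap u = 1 := by
          funext i
          rw [Q.kap_apply, hu', Pi.one_apply, map_one]
          rfl
        rw [hψu, hu, h6, map_one, map_one, mul_one]
        intro h7
        apply hne
        apply Units.ext
        apply hK
        rw [h7, Units.val_one, map_one]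
    · intro hall
      refine hB fun u hu => ?_
      rw [val_eq_one_iff] at hu
      push_cast at hu
      have h6 : Q.kap u = 1 := by
        funext i
        have h8 : ZMod.unitsMap (Q.q_dvd i) u = 1 := by
          rw [unitsMap_eq_one_iff]
          exact ((Finset.dvd_prod_of_mem (fun j => ((Q.q j : ℕ) : ℤ))
            (Finset.mem_univ i)).mul_left _).trans hu
        rw [Q.kap_apply, h8, map_one]
        rfl
      have h7 : χ (SQ.mk H₀ (ZMod.unitsMap Q.dvd_M u)) = 1 := by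
        apply hall
        rw [val_eq_one_iff, ← unitsMap_eq_one_iff (hbQ.trans C.dvd), ← unitsMap_trans,
          unitsMap_eq_one_iff]
        exact (dvd_mul_right _ _).trans hu
      rw [hψu, h6, h7, map_one, map_one, Units.val_one, map_one, mul_one]

include T B C hK in
/-- **Points at the Taylor-Wiles level.** -/
theorem TWHyp.points : ∃ (X : Type u) (_ : Finite X) (x : X → MoB Q H₀ O a α χ hD →ₐ[O] K),
    (∀ b, (∀ t, x t b = 0) → b = 0) ∧ ∀ t,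
    ∃ (N0 : ℕ) (_ : NeZero N0) (g : CuspForm (Gamma0 N0) 2) (τ : integralClosure ℤ ℂ →+* K),
      g.IsNewform ∧ N0 ∣ M * (Q₀ * ∏ j, Q.q j) ∧
      (∀ ℓ : Pr D, ∃ z : integralClosure ℤ ℂ, (z : ℂ) = qCoeff g ℓ ∧
        τ z = x t (MoT Q H₀ O a α χ hD ℓ)) ∧
      (∀ j, (x t (MoD Q H₀ O a α χ hD (dl p Q.e j)) ≠ 1 → Q.q j * Q.q j ∣ N0) ∧
        (x t (MoD Q H₀ O a α χ hD (dl p Q.e j)) = 1 → ¬ Q.q j * Q.q j ∣ N0)) ∧
      (∀ q : ℕ, q.Prime → ∀ b : ℕ, Q₀ = q * b →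
        ((∃ u : (ZMod N)ˣ, ((u : ZMod N).val : ZMod b) = 1 ∧ χ (SQ.mk H₀ u) ≠ 1) → q * q ∣ N0) ∧
        ((∀ u : (ZMod N)ˣ, ((u : ZMod N).val : ZMod b) = 1 → χ (SQ.mk H₀ u) = 1) →
          ¬ q * q ∣ N0)) := by
  obtain ⟨X, hX, x, φ, h1, h2⟩ := T.points_full B C hK χ
  exact ⟨X, hX, x, h1, fun t => (h2 t).2.2.2⟩

variable (hN0 : D₀ ≠ 0) (hND : N ∣ D₀) (hE : ∃ ℓ₀ : Pr D₀, ((N * N : ℕ) : ℤ) ∣ ((ℓ₀ : ℕ) : ℤ) - 1 ∧
    a ℓ₀ ≠ ((ℓ₀ : ℕ) : ResidueField O) + 1)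

include B C hK hN0 hND hE in
omit [NeZero M] in
/-- **Points at the bottom level.** -/
theorem points0 : ∃ (X : Type u) (_ : Finite X) (x : X → MoB0 H₀ O a χ →ₐ[O] K),
    (∀ b, (∀ t, x t b = 0) → b = 0) ∧ ∀ t,
    ∃ (N0 : ℕ) (_ : NeZero N0) (g : CuspForm (Gamma0 N0) 2) (τ : integralClosure ℤ ℂ →+* K),
      g.IsNewform ∧ N0 ∣ N * Q₀ ∧
      (∀ ℓ : Pr D₀, ∃ z : integralClosure ℤ ℂ, (z : ℂ) = qCoeff g ℓ ∧
        τ z = x t (MoT0 H₀ O a χ ℓ)) ∧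
      (∀ q : ℕ, q.Prime → ∀ b : ℕ, Q₀ = q * b →
        ((∃ u : (ZMod N)ˣ, ((u : ZMod N).val : ZMod b) = 1 ∧ χ (SQ.mk H₀ u) ≠ 1) → q * q ∣ N0) ∧
        ((∀ u : (ZMod N)ˣ, ((u : ZMod N).val : ZMod b) = 1 → χ (SQ.mk H₀ u) = 1) →
          ¬ q * q ∣ N0)) := by
  have hΔ : IsPGroup p ((ZMod N)ˣ ⧸ H₀) := B.hΔ₀
  have hodd := odd_card B.hp2 hΔ
  obtain ⟨ℓ₀, hℓ₀, hℓ₀'⟩ := hE
  have hd : ((N * Q₀ : ℕ) : ℤ) ∣ ((ℓ₀ : ℕ) : ℤ) - 1 :=
    (Int.natCast_dvd_natCast.mpr (mul_dvd_mul_left N C.dvd)).trans hℓ₀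
  obtain ⟨X, hX, x, φ, h1, h2, h3, h4, h5⟩ := Lv_points O H₀ a (fS0 H₀)
    (fun s => (χ s : O)) (dvd_refl D₀) (jD0 H₀) (K := K) C.dvd C.hH hodd C.hN C.hsq C.hcop
    (prI (dvd_refl D₀) ℓ₀) hd hℓ₀' hND hK
  refine ⟨X, hX, x, h5, fun t => ?_⟩
  obtain ⟨N0, hN0, g, τ, hg, hdvd, hcoef, hram⟩ := exists_newform_eig (K := K) C hodd hN0 hND
    (h1 t) (y := fun ℓ => x t (MoT0 H₀ O a χ ℓ)) (h2 t)
    (ψ := fun g => algebraMap O K (χ (SQ.equiv N H₀ g) : O)) (fun g => h4 t (SQ.equiv N H₀ g))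
    ⟨ℓ₀, hd, pt_ne (hD := dvd_refl D₀) N B.hpO hΔ (x t) ℓ₀ hℓ₀'⟩
  refine ⟨N0, hN0, g, τ, hg, hdvd, hcoef, fun q hq b hb => ?_⟩
  obtain ⟨hA, hB⟩ := hram q hq b hb
  have key : ∀ u : (ZMod N)ˣ, algebraMap O K
      (χ (SQ.equiv N H₀ (u : (ZMod N)ˣ ⧸ H₀)) : O) = 1 ↔ χ (SQ.mk H₀ u) = 1 := by
    intro u
    constructor
    · intro h
      apply Units.ext
      apply hK
      rw [Units.val_one, map_one]
      exact h
    · intro h
      have : (χ (SQ.equiv N H₀ (u : (ZMod N)ˣ ⧸ H₀)) : O) = (χ (SQ.mk H₀ u) : O) := rfl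
      rw [this, h, Units.val_one, map_one]
  refine ⟨fun ⟨u, hu, hu'⟩ => hA ⟨u, hu, fun h => hu' ((key u).mp h)⟩,
    fun h => hB fun u hu => (key u).mpr (h u hu)⟩

end Pts

end Fermat.Agent.TC
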