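import Mathlib
import Fermat.Agent.TC.Pack6
import Fermat.Agent.TC.TW
import Fermat.Agent.TC.Rank3
import Fermat.Agent.H22.OldPsi

/-!
# Descent of points at Taylor-Wiles levels
-/

set_option autoImplicit false
set_option linter.style.haveILetI false
set_option linter.unusedSectionVars false

noncomputable section

universe u

namespace Fermat.Agent.TC

open CongruenceSubgroup Matrix.SpecialLinearGroup H22 IsLocalRing
open Fermat.Agent.H25.TWM
open scoped MatrixGroups
open ModularFormClass (qCoeff)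

section DecU

variable {O : Type u} [CommRing O] [IsNoetherianRing O] [IsLocalRing O]
  [IsAdicComplete (maximalIdeal O) O] {𝕋 : Type u} [CommRing 𝕋] [Algebra O 𝕋]
  {M M' : Type u} [AddCommGroup M] [Module O M] [Module.Finite O M] [AddCommGroup M']
  [Module O M'] [Module.Finite O M'] {τ : 𝕋 →ₐ[O] Module.End O M}
  {τ' : 𝕋 →ₐ[O] Module.End O M'} {m : Ideal 𝕋} {e e' : 𝕋}

omit [IsNoetherianRing O] [IsLocalRing O] [IsAdicComplete (maximalIdeal O) O]
  [Module.Finite O M] in
/-- the projector does not depend on the choice of the idempotent -/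
theorem Dec.unique (h : Dec τ m e) (h' : Dec τ m e') (x : M) : τ e x = τ e' x := by
  have h1 : τ e' (τ e x) = τ e x := h'.apply_eq (h.mem x)
  have h2 : τ e (τ e' x) = τ e' x := h.apply_eq (h'.mem x)
  rw [← h1, τ_comm, h2]

/-- **Projectors commute with equivariant maps.** -/
theorem Dec.intertwine [hm : m.IsMaximal] (hmO : ∀ x ∈ maximalIdeal O, algebraMap O 𝕋 x ∈ m)
    (h : Dec τ m e) (h' : Dec τ' m e') (f : M →+ M') (hf : ∀ t x, f (τ t x) = τ' t (f x)) (x : M) :
    f (τ e x) = τ' e' (f x) := by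
  obtain ⟨e₀, h₀, h₀'⟩ := exists_dec₂ τ τ' m hmO
  rw [h.unique h₀, hf, h₀'.unique h']

end DecU

section Down

variable {O : Type u} [CommRing O] [IsDomain O] [IsDiscreteValuationRing O] [CharZero O]
  [IsAdicComplete (maximalIdeal O) O] [Finite (ResidueField O)] {D : ℕ}
  (a : Pr D → ResidueField O)

/-- nonvanishing descends from level `M q` to level `M` in the absence of newforms at `q` -/
theorem down_one {M q : ℕ} [NeZero M] [NeZero q] [NeZero (M * q)] (hD : D ≠ 0) (hq : q.Prime)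
    (hM : ¬ q ∣ M) (hND : M * q ∣ D)
    (hnew : ∀ (L : ℕ) (_ : NeZero L) (g : CuspForm (Gamma0 L) 2), L ∣ M * q → q ∣ L →
      g.IsNewform → ∃ s : MvPolynomial (Pr D) ℤ,
        MvPolynomial.aeval (fun ℓ : Pr D => qCoeff g ℓ) s = 0 ∧
        MvPolynomial.aeval a s ≠ 0)
    (ℓ₀ : Pr D) (hℓ₀ : ((M * q : ℕ) : ℤ) ∣ (ℓ₀ : ℤ) - 1)
    (hℓ₀' : a ℓ₀ ≠ ((ℓ₀ : ℕ) : ResidueField O) + 1)
    (h : locPart (hAct O (M * q) ⊤ O (prD D)) (mx a) ≠ ⊥) :
    locPart (hAct O M ⊤ O (prD D)) (mx a) ≠ ⊥ := by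
  intro hbot
  apply h
  rw [Submodule.eq_bot_iff]
  intro v hv
  obtain ⟨c, hc, x, y, hxy⟩ := hold_of (prD D) hD hq hM hND id (fun ℓ => rfl) a hnew ℓ₀ hℓ₀ hℓ₀' v hv
  have hf1 : Module.Finite O (HM (GamH M ⊤) O) := finite_HM _ O O
  have hf2 : Module.Finite O (HM (GamH (M * q) ⊤) O) := finite_HM _ O O
  obtain ⟨e, he, he'⟩ := exists_dec₂ (hAct O M ⊤ O (prD D)) (hAct O (M * q) ⊤ O (prD D)) (mx a)
    (mx_le a)
  have hne : ∀ i : Pr D, (prD D i : ℕ) ≠ q := by
    intro i hi
    apply i.2.2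
    have : ((prD D i : Nat.Primes) : ℕ) = i := rfl
    rw [← this, hi]
    exact (dvd_mul_left q M).trans hND
  have hX : ∀ {N : ℕ} [NeZero N] (i : Pr D) (x : HM (GamH N ⊤) O),
      hAct O N ⊤ O (prD D) (MvPolynomial.X i) x =
        haveI : NeZero ((prD D i : ℕ)) := ⟨(prD D i).2.ne_zero⟩; TH O N ⊤ O (prD D i : ℕ) x := by
    intro N _ i x
    rw [hAct_X]
    rfl
  have h1 : ∀ t x, res O O GamHq_le (hAct O M ⊤ O (prD D) t x) =
      hAct O (M * q) ⊤ O (prD D) t (res O O GamHq_le x) := by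
    intro t x
    refine act_intertwine (res O O GamHq_le).toAddMonoidHom
      (fun a x => map_smul (res O O GamHq_le) a x) ?_ t x
    intro i x
    show res O O GamHq_le _ = _
    rw [hX, hX]
    have : NeZero ((prD D i : ℕ)) := ⟨(prD D i).2.ne_zero⟩
    refine (TH_res_level GamHq_le rfl (prD D i).2 ?_ x).symm
    intro h
    exact hne i ((Nat.prime_dvd_prime_iff_eq (prD D i).2 hq).mp h)
  have h2 : ∀ t x, Bdeg O M q O (hAct O M ⊤ O (prD D) t x) =
      hAct O (M * q) ⊤ O (prD D) t (Bdeg O M q O x) := by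
    intro t x
    refine act_intertwine (Bdeg O M q O).toAddMonoidHom
      (fun a x => map_smul (Bdeg O M q O) a x) ?_ t x
    intro i x
    show Bdeg O M q O _ = _
    rw [hX, hX]
    have : NeZero ((prD D i : ℕ)) := ⟨(prD D i).2.ne_zero⟩
    exact (TH_B (prD D i).2 hq (hne i) x).symm
  have h3 : c • v = hAct O (M * q) ⊤ O (prD D) e (c • v) := by
    rw [map_smul, he'.apply_eq hv]
  have h4 : ∀ z, hAct O M ⊤ O (prD D) e z = 0 := fun z => by
    have := he.mem z
    rw [hbot, Submodule.mem_bot] at this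
    exact this
  rw [hxy, map_add, ← h1, ← h2, h4, h4, map_zero, map_zero, add_zero, ← hxy] at h3
  exact hm_torsionFree c hc v h3

/-- nonvanishing descends from level `N ∏ q_j` to level `N` -/
theorem down_all (hD : D ≠ 0) (N : ℕ) [NeZero N] :
    ∀ (r : ℕ) (q : Fin r → ℕ) (M : ℕ) [NeZero M] (_ : M = N * ∏ j, q j) (_ : M ∣ D)
      (_ : ∀ j, (q j).Prime) (_ : ∀ j, ¬ q j ∣ N) (_ : Function.Injective q)
      (_ : ∀ (L : ℕ) (_ : NeZero L) (g : CuspForm (Gamma0 L) 2), L ∣ M → (∃ j, q j ∣ L) →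
        g.IsNewform → ∃ s : MvPolynomial (Pr D) ℤ,
          MvPolynomial.aeval (fun ℓ : Pr D => qCoeff g ℓ) s = 0 ∧
          MvPolynomial.aeval a s ≠ 0)
      (ℓ₀ : Pr D) (_ : (M : ℤ) ∣ (ℓ₀ : ℤ) - 1)
      (_ : a ℓ₀ ≠ ((ℓ₀ : ℕ) : ResidueField O) + 1)
      (_ : locPart (hAct O M ⊤ O (prD D)) (mx a) ≠ ⊥),
      locPart (hAct O N ⊤ O (prD D)) (mx a) ≠ ⊥ := by
  intro r
  induction r with
  | zero =>
    intro q M _ hM _ _ _ _ _ ℓ₀ _ _ h
    have h1 : M = N := by rw [hM]; simp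
    subst h1
    exact h
  | succ r ih =>
    intro q M _ hM hMD hq hqN hqinj hnew ℓ₀ hℓ₀ hℓ₀' h
    set M₁ := N * ∏ j : Fin r, q j.castSucc with hM₁
    have hM' : M = M₁ * q (Fin.last r) := by
      rw [hM, Fin.prod_univ_castSucc, hM₁, mul_assoc]
    have hM₁0 : M₁ ≠ 0 := by
      intro h
      exact NeZero.ne M (by rw [hM', h, zero_mul])
    haveI : NeZero M₁ := ⟨hM₁0⟩
    haveI : NeZero (q (Fin.last r)) := ⟨(hq _).ne_zero⟩
    have hdvd : M₁ ∣ M := by rw [hM']; exact dvd_mul_right _ _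
    have hqM₁ : ¬ q (Fin.last r) ∣ M₁ := by
      intro h
      rw [hM₁] at h
      rcases (Nat.Prime.dvd_mul (hq _)).mp h with h | h
      · exact hqN _ h
      · rw [(Nat.Prime.prime (hq _)).dvd_finsetProd_iff] at h
        obtain ⟨j, _, hj⟩ := h
        have h2 := (Nat.prime_dvd_prime_iff_eq (hq _) (hq _)).mp hj
        have h3 := hqinj h2
        exact (Fin.castSucc_lt_last j).ne h3.symm
    refine ih (fun j => q j.castSucc) M₁ hM₁ (hdvd.trans hMD) (fun j => hq _) (fun j => hqN _)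
      (fun j j' h => Fin.castSucc_injective r (hqinj h)) (fun L hL g h1 h2 h3 => ?_) ℓ₀
      ((Int.natCast_dvd_natCast.mpr hdvd).trans hℓ₀) hℓ₀' ?_
    · obtain ⟨j, hj⟩ := h2
      exact hnew L hL g (h1.trans hdvd) ⟨_, hj⟩ h3
    · subst hM'
      exact down_one a hD (hq _) hqM₁ hMD (fun L hL g h1 h2 h3 => hnew L hL g h1 ⟨_, h2⟩ h3) ℓ₀
        hℓ₀ hℓ₀' h

/-- nonvanishing descends from `Γ_H(M)` to `Γ₀(M)` -/
theorem down_H {p : ℕ} [Fact p.Prime] {M : ℕ} [NeZero M] (hp2 : p ≠ 2)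
    (hpO : (p : O) ∈ maximalIdeal O) (H : Subgroup (ZMod M)ˣ)
    (hΔ : IsPGroup p ((ZMod M)ˣ ⧸ H)) (hell : Ell p M) (ℓ₀ : Pr D) (hM : M ∣ D)
    (hℓ₀' : a ℓ₀ ≠ ((ℓ₀ : ℕ) : ResidueField O) + 1)
    (h : locPart (hAct O M H O (prD D)) (mx a) ≠ ⊥) :
    locPart (hAct O M ⊤ O (prD D)) (mx a) ≠ ⊥ := by
  intro hbot
  apply h
  have h1 := free_of_tr_basis (prD D) hp2 hpO H hΔ hell (mx a) (mx_le a) ℓ₀
    (X_sub_C_nmem (prD D) a ℓ₀ (fun h => ℓ₀.2.2 (h.trans hM)) hℓ₀') (ι := Fin 0)
    (fun i => i.elim0) (fun i => i.elim0) (linearIndependent_empty_type) (by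
      rw [hbot]; exact bot_le)
  rw [h1.2, Submodule.span_eq_bot]
  rintro _ ⟨⟨i, _⟩, rfl⟩
  exact i.elim0

end Down

section Occ

variable {O : Type u} [CommRing O] [IsLocalRing O] [IsNoetherianRing O]
  [IsAdicComplete (maximalIdeal O) O] {K : Type u} [Field K] [CharZero K] [Algebra O K] {D : ℕ}
  (a : Pr D → ResidueField O) {M : ℕ} [NeZero M] {H : Subgroup (ZMod M)ˣ}

/-- **Eigenclasses over `K` occur in the localization.** -/
theorem occ_of_eigen {φ : HM (GamH M H) K} (hφ : φ ≠ 0) {b : Pr D → K}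
    (hT : ∀ ℓ : Pr D, THp K M H K (prD D ℓ) φ = b ℓ • φ)
    (hb : ∀ P : MvPolynomial (Pr D) O, evR a P ≠ 0 → MvPolynomial.aeval b P ≠ 0) :
    locPart (hAct O M H O (prD D)) (mx a) ≠ ⊥ := by
  intro hbot
  obtain ⟨e, he⟩ := exists_dec1 O H a
  have h0 : ∀ x, hAct O M H O (prD D) e x = 0 := fun x => by
    have := he.mem x
    rw [hbot, Submodule.mem_bot] at this
    exact this
  -- the action over `K`
  have hTK : ∀ (ℓ : Nat.Primes) (x : HM (GamH M H) K), THp O M H K ℓ x = THp K M H K ℓ x := by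
    intro ℓ x
    have : NeZero (ℓ : ℕ) := ⟨ℓ.2.ne_zero⟩
    exact TH_map (R := K) (R' := O) (AddMonoidHom.id K) (ℓ : ℕ) x
  have h1 : ∀ P : MvPolynomial (Pr D) O,
      hAct O M H K (prD D) P φ = (MvPolynomial.aeval b P : K) • φ := by
    intro P
    induction P using MvPolynomial.induction_on with
    | C x =>
      rw [← MvPolynomial.algebraMap_eq, AlgHom.commutes, AlgHom.commutes,
        Module.algebraMap_end_apply]
      refine AddMonoidHom.ext fun g => ?_
      change x • φ g = algebraMap O K x • φ g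
      rw [Algebra.smul_def, smul_eq_mul]
    | add P P' hP hP' => rw [map_add, map_add, LinearMap.add_apply, hP, hP', add_smul]
    | mul_X P i hP =>
      rw [map_mul, map_mul, Module.End.mul_apply, hAct_X, hTK, hT, MvPolynomial.aeval_X]
      have h2 : ∀ (c : K) (x : HM (GamH M H) K), hAct O M H K (prD D) P (c • x) =
          c • hAct O M H K (prD D) P x := by
        intro c x
        refine (act_intertwine (τ := hAct O M H K (prD D)) (τ' := hAct O M H K (prD D))
          ((algebraMap K (Module.End K (HM (GamH M H) K)) c).toAddMonoidHom) ?_ ?_ P x).symm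
        · intro o x
          change c • (o • x) = o • (c • x)
          refine AddMonoidHom.ext fun g => ?_
          change c • (o • x g) = o • (c • x g)
          rw [smul_comm]
        · intro i x
          rw [hAct_X]
          change c • THp O M H K (prD D i) x = THp O M H K (prD D i) (c • x)
          rw [hTK, hTK, map_smul]
      rw [h2, hP, smul_smul, mul_comm]
  -- decompose `φ`
  obtain ⟨n, c, f, -, hf⟩ := exists_decomposition φ
  let F : Fin n → HM (GamH M H) O →+ HM (GamH M H) K := fun i =>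
    { toFun := fun ψ => ((LinearMap.mulRight K (c i)).toAddMonoidHom.comp
        (algebraMap O K).toAddMonoidHom).comp ψ
      map_zero' := by ext; simp
      map_add' := fun a b => by ext; simp [add_mul] }
  have hF : ∀ i P x, F i (hAct O M H O (prD D) P x) = hAct O M H K (prD D) P (F i x) := by
    intro i P x
    refine act_intertwine (F i) ?_ ?_ P x
    · intro o x
      refine AddMonoidHom.ext fun g => ?_
      change algebraMap O K (o * x g) * c i = o • (algebraMap O K (x g) * c i)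
      rw [map_mul, Algebra.smul_def, mul_assoc]
    · intro j x
      rw [hAct_X, hAct_X]
      have : NeZero ((prD D j : Nat.Primes) : ℕ) := ⟨(prD D j).2.ne_zero⟩
      exact (TH_map (R := O) (R' := O) ((LinearMap.mulRight K (c i)).toAddMonoidHom.comp
        (algebraMap O K).toAddMonoidHom) ((prD D j : Nat.Primes) : ℕ) x).symm
  have hdec : φ = ∑ i, F i ((Int.castAddHom O).comp (f i)) := by
    refine AddMonoidHom.ext fun g => ?_
    rw [hf g, AddMonoidHom.finsetSum_apply]
    refine Finset.sum_congr rfl fun i _ => ?_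
    change _ = algebraMap O K ((f i g : ℤ) : O) * c i
    rw [map_intCast, zsmul_eq_mul]
  have h2 : hAct O M H K (prD D) e φ = 0 := by
    rw [hdec, map_sum]
    refine Finset.sum_eq_zero fun i _ => ?_
    rw [← hF, h0, map_zero]
  rw [h1] at h2
  have h3 : evR a e ≠ 0 := fun h => he.nmem ((mem_mx a e).mpr h)
  exact (smul_eq_zero.mp h2).elim (hb e h3) hφ

end Occ

end Fermat.Agent.TC
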