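import Mathlib
import Fermat.Agent.TC.Pack7

/-!
# Descent of points at Taylor-Wiles levels: the end of level lowering
-/

set_option autoImplicit false
set_option linter.style.haveILetI false
set_option linter.unusedSectionVars false

noncomputable section

universe u

namespace Fermat.Agent.TC

open CongruenceSubgroup Matrix.SpecialLinearGroup H22 IsLocalRing
open Fermat.Agent.H25.TWM
open scoped MatrixGroups
open ModularFormClass (qCoeff)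

lemma dvd_of_sq_not_dvd {A Q₀ N0 : ℕ} (h : N0 ∣ A * Q₀) (hQA : Q₀ ∣ A)
    (h2 : ∀ t : ℕ, t.Prime → t ∣ Q₀ → ¬ t * t ∣ N0) : N0 ∣ A := by
  rw [Nat.dvd_iff_prime_pow_dvd_dvd]
  intro t k ht htk
  by_cases htQ : t ∣ Q₀
  · have hk : k ≤ 1 := by
      by_contra hk
      push Not at hk
      apply h2 t ht htQ
      rw [← pow_two]
      exact (pow_dvd_pow t hk).trans htk
    exact ((pow_dvd_pow t hk).trans (by rw [pow_one]; exact htQ)).trans hQA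
  · exact (Nat.Coprime.pow_left k ((Nat.Prime.coprime_iff_not_dvd ht).mpr htQ)).dvd_of_dvd_mul_right
      (htk.trans h)

variable {p N M r : ℕ} [NeZero N] [NeZero M] [Fact p.Prime] {Q : QDat p N M r}
  {H₀ : Subgroup (ZMod N)ˣ} {O : Type u} [CommRing O] [IsDomain O] [IsDiscreteValuationRing O]
  [CharZero O] [Finite (ResidueField O)]
  [IsAdicComplete (maximalIdeal O) O] {D₀ : ℕ} {a : Pr D₀ → ResidueField O}
  {α : Fin r → ResidueField O} {D : ℕ} {hD : D₀ ∣ D} {K : Type u} [Field K]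
  [CharZero K] [IsAlgClosed K] [Algebra O K] {Q₀ M₀ : ℕ} (T : TWHyp O a Q α D hD) (B : BaseHyp O H₀ p)
  (C : CondHyp H₀ Q₀ M₀)

include T B C in
/-- **The end of level lowering.** -/
theorem TWHyp.descend {N'' Tp : ℕ} [NeZero N''] (hN : N = N'' * Tp) (hTp : Squarefree Tp)
    (hcopT : Nat.Coprime N'' Tp) (hell : Ell p N'') {x : MoB Q H₀ O a α 1 hD →ₐ[O] K}
    {φ : HM (GamH M (Q.H H₀)) K} (hφ0 : φ ≠ 0)
    (hφT : ∀ ℓ : Pr D, TP K M (Q.H H₀) K (prD D ℓ) φ = x (MoT Q H₀ O a α 1 hD ℓ) • φ)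
    (hφD : ∀ g, diaQ K M (Q.H H₀) K g φ = (algebraMap O K
      (((1 : SQ N H₀ →* Oˣ) (Q.E H₀ g).1 : Oˣ) : O) *
      x (MoD Q H₀ O a α 1 hD (Q.E H₀ g).2)) • φ)
    {N0 : ℕ} [NeZero N0] {g : CuspForm (Gamma0 N0) 2} {τ : integralClosure ℤ ℂ →+* K}
    (hg : g.IsNewform) (hN0 : N0 ∣ M * (Q₀ * ∏ j, Q.q j))
    (hcoef : ∀ ℓ : Pr D, ∃ z : integralClosure ℤ ℂ, (z : ℂ) = qCoeff g ℓ ∧
      τ z = x (MoT Q H₀ O a α 1 hD ℓ))
    (hsqN0 : ∀ t : ℕ, t.Prime → t ∣ Q₀ → ¬ t * t ∣ N0)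
    (hgt : ∀ t : ℕ, t.Prime → t ∣ Tp → ¬ t ∣ N0 ∧ qCoeff g t ^ 2 ≠ ((t : ℂ) + 1) ^ 2) :
    locPart (hAct O N'' ⊤ O (prD D)) (mx (fun ℓ => a (prI hD ℓ))) ≠ ⊥ := by
  classical
  have hΔ : IsPGroup p ((ZMod M)ˣ ⧸ Q.H H₀) := Q.isPGroup B.hΔ₀
  have hodd := odd_card B.hp2 hΔ
  obtain ⟨n, hn⟩ := hodd
  have hfxn : hfx M (Q.H H₀) = n + 1 := by
    rw [hfx, hn]; omega
  obtain ⟨ℓ₀, hℓ₀, hℓ₀'⟩ := T.hℓ₀
  -- the character
  let ψ : (ZMod M)ˣ →* Kˣ :=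
    (((x : MoB Q H₀ O a α 1 hD →* K).comp (MoD Q H₀ O a α 1 hD)).comp Q.kap).toHomUnits
  have hψ : ∀ u, ((ψ u : Kˣ) : K) = x (MoD Q H₀ O a α 1 hD (Q.kap u)) := fun u => rfl
  have hkap : ∀ u : (ZMod M)ˣ, Q.kap u = (Q.E H₀ (u : (ZMod M)ˣ ⧸ Q.H H₀)).2 := fun u => rfl
  have hdia : ∀ u : (ZMod M)ˣ, diaQ K M (Q.H H₀) K (u : (ZMod M)ˣ ⧸ Q.H H₀) φ =
      (ψ u : K) • φ := by
    intro u
    rw [hφD, MonoidHom.one_apply, Units.val_one, map_one, one_mul, hψ, hkap]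
  have hψn : ∀ u, ψ u ^ (2 * n + 1) = 1 := by
    intro u
    rw [← map_pow]
    have h1 : Q.kap (u ^ (2 * n + 1)) = 1 := by
      rw [hkap, QuotientGroup.mk_pow, ← hn, pow_card_eq_one', map_one]
      rfl
    apply Units.ext
    rw [hψ, h1, map_one, map_one, Units.val_one]
  have hψc : ∀ (d : ℕ) (hd : d ∣ M) (u : (ZMod M)ˣ), (∀ j, Q.q j ∣ d) → ZMod.unitsMap hd u = 1 →
      ψ u = 1 := by
    intro d hd u hqd hu
    have h1 : Q.kap u = 1 := by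
      funext j
      have h8 : ZMod.unitsMap (Q.q_dvd j) u = 1 := by
        rw [unitsMap_eq_one_iff] at hu ⊢
        exact (Int.natCast_dvd_natCast.mpr (hqd j)).trans hu
      rw [Q.kap_apply, h8, map_one]
      rfl
    apply Units.ext
    rw [hψ, h1, map_one, map_one, Units.val_one]
  -- numerics
  set qq : ℕ := ∏ j, Q.q j with hqq
  have hqqj : ∀ j, Q.q j ∣ qq := fun j => Finset.dvd_prod_of_mem Q.q (Finset.mem_univ j)
  have hqq0 : qq ≠ 0 := Q.prod_ne_zero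
  haveI : NeZero qq := ⟨hqq0⟩
  have hM : M = N * qq := Q.hM
  haveI : NeZero (N'' * qq) := ⟨mul_ne_zero (NeZero.ne N'') hqq0⟩
  have hM'' : M = (N'' * qq) * Tp := by rw [hM, hN]; ring
  have hqN : ∀ j, Nat.Coprime (Q.q j) N := fun j =>
    (Nat.Prime.coprime_iff_not_dvd (Q.prime j)).mpr (Q.ndvd j)
  have hqqN : Nat.Coprime qq N := Nat.Coprime.prod_left fun j _ => hqN j
  have hN''N : N'' ∣ N := ⟨Tp, hN⟩
  have hTpN : Tp ∣ N := ⟨N'', by rw [hN, mul_comm]⟩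
  have hsqqq : Squarefree qq := by
    refine Finset.squarefree_prod_of_pairwise_isCoprime ?_ fun j _ => (Q.prime j).squarefree
    intro i _ j _ hij
    exact Nat.coprime_iff_isRelPrime.mp (cop_qq hij)
  have hqqM : qq ∣ M := by rw [hM]; exact dvd_mul_left _ _
  have hM''M : N'' * qq ∣ M := ⟨Tp, hM''⟩
  -- the Hecke eigenvalues
  let y : Pr D → K := fun ℓ => x (MoT Q H₀ O a α 1 hD ℓ)
  let A : ℕ → K := fun ℓ => if h : ℓ.Prime ∧ ¬ ℓ ∣ D then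
    (((ψ (uP M ℓ))⁻¹ ^ (n + 1) : Kˣ) : K) * y ⟨ℓ, h⟩ else 0
  have hA : ∀ ℓ : Pr D, A ℓ = (((ψ (uP M ℓ))⁻¹ ^ (n + 1) : Kˣ) : K) * y ℓ := fun ℓ => by
    change (if h : _ then _ else _) = _
    rw [dif_pos ℓ.2]
  have hTH : ∀ (ℓ : ℕ) [NeZero ℓ], ℓ.Prime → ¬ ℓ ∣ M → ¬ ℓ ∣ D →
      TH K M (Q.H H₀) K ℓ φ = A ℓ • φ := by
    intro ℓ _ hℓ _ hℓD
    have h1 := hφT ⟨ℓ, hℓ, hℓD⟩
    have h2 : A ℓ = _ := hA ⟨ℓ, hℓ, hℓD⟩
    rw [TP, Module.End.mul_apply] at h1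
    have h3 : diaQ K M (Q.H H₀) K (((uP M ℓ : (ZMod M)ˣ) : (ZMod M)ˣ ⧸ Q.H H₀) ^ hfx M (Q.H H₀))
        (TH K M (Q.H H₀) K ℓ φ) = y ⟨ℓ, hℓ, hℓD⟩ • φ := h1
    have h4 : diaQ K M (Q.H H₀) K (((uP M ℓ : (ZMod M)ˣ) : (ZMod M)ˣ ⧸ Q.H H₀) ^ hfx M (Q.H H₀))
        (TH K M (Q.H H₀) K ℓ φ) =
          (((ψ (uP M ℓ)) ^ (n + 1) : Kˣ) : K) • TH K M (Q.H H₀) K ℓ φ := by
      rw [diaQ_TH, ← QuotientGroup.mk_pow, hdia, map_smul, map_pow, hfxn]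
    rw [h4] at h3
    rw [h2, mul_smul, ← h3, smul_smul, ← Units.val_mul, ← mul_pow, inv_mul_cancel, one_pow,
      Units.val_one, one_smul]
  have hE : ∃ ℓ : ℕ, ℓ.Prime ∧ ((M * qq : ℕ) : ℤ) ∣ (ℓ : ℤ) - 1 ∧ ¬ ℓ ∣ D ∧ A ℓ ≠ ℓ + 1 := by
    have h1 : ((M * qq : ℕ) : ℤ) ∣ ((ℓ₀ : ℕ) : ℤ) - 1 :=
      (Int.natCast_dvd_natCast.mpr (mul_dvd_mul_left M hqqM)).trans hℓ₀
    refine ⟨ℓ₀, ℓ₀.2.1, h1, ℓ₀.2.2, ?_⟩
    rw [hA, uP_eq_one ((Int.natCast_dvd_natCast.mpr (dvd_mul_right M qq)).trans h1), map_one,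
      inv_one, one_pow, Units.val_one, one_mul]
    exact pt_ne M B.hpO hΔ x ℓ₀ (by rw [T.aQ_eq]; exact hℓ₀')
  have hN0' : N0 ∣ M * qq := by
    refine dvd_of_sq_not_dvd (Q₀ := Q₀) ?_ ?_ hsqN0
    · have : M * qq * Q₀ = M * (Q₀ * qq) := by ring
      rw [this]; exact hN0
    · exact (C.dvd.trans Q.dvd_M).trans (dvd_mul_right _ _)
  obtain ⟨φ1, hφ1, -, hφ1T⟩ := exists_old_psi (N := N'' * qq) (N' := M) (T := Tp) (Q := qq)
    (M0 := N'') hM'' (mul_comm _ _) hsqqq (Nat.Coprime.coprime_dvd_right hN''N hqqN) hTp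
    (Nat.Coprime.mul_left hcopT (Nat.Coprime.coprime_dvd_right hTpN hqqN)) hM''M hqqM
    (H := Q.H H₀) ψ hψn (fun u hu => hψc qq hqqM u hqqj hu) hφ0 (fun g => by
      rw [← diaQ_dChar, hdia]) T.hD0 (a := A) hTH hE hg.isNormalizedEigenform hN0' τ
    (fun ℓ u hℓ hu hℓD => by
      obtain ⟨z, hz1, hz2⟩ := hcoef ⟨ℓ, hℓ, hℓD⟩
      refine ⟨z, hz1, ?_⟩
      have hcop : Nat.Coprime ℓ M := by
        refine (Nat.Prime.coprime_iff_not_dvd hℓ).mpr fun h => hℓD (h.trans T.hMD)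
      have huu : u = uP M ℓ := Units.ext (by rw [hu, uP_val hcop])
      have h2 : A ℓ = _ := hA ⟨ℓ, hℓ, hℓD⟩
      rw [hz2, h2, huu, ← mul_assoc, ← Units.val_mul, ← mul_pow, mul_inv_cancel, one_pow,
        Units.val_one, one_mul]) hgt
  -- eigenclass at level `N'' qq`
  have hocc : locPart (hAct O (N'' * qq) ((Q.H H₀).map (ZMod.unitsMap hM''M)) O (prD D))
      (mx (fun ℓ => a (prI hD ℓ))) ≠ ⊥ := by
    refine occ_of_eigen (K := K) _ hφ1 (b := fun ℓ => A ℓ) (fun ℓ => ?_) (fun P hP => ?_)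
    · haveI : NeZero ((ℓ : ℕ)) := ⟨ℓ.2.1.ne_zero⟩
      have hℓM : ¬ (ℓ : ℕ) ∣ M := fun h => ℓ.2.2 (h.trans T.hMD)
      exact hφ1T (ℓ : ℕ) (A ℓ) ℓ.2.1 hℓM (hTH ℓ ℓ.2.1 hℓM ℓ.2.2)
    · let f : MvPolynomial (Pr D) O →ₐ[O] MvPolynomial (Pr D ⊕ Dl p Q.e) O :=
        MvPolynomial.aeval (fun ℓ => MvPolynomial.X (Sum.inr (Q.kap (uP M ℓ))⁻¹) ^ (n + 1) *
          MvPolynomial.X (Sum.inl ℓ))
      have h1 : evR (Sum.elim (fun i => aQ a Q α (prI hD i)) (fun _ : Dl p Q.e => 1)) (f P) ≠ 0 := by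
        rw [evR_comp (c' := fun ℓ => a (prI hD ℓ)) f (fun i => ?_)]
        · exact hP
        · rw [MvPolynomial.aeval_X, map_mul, map_pow, evR_X, evR_X, Sum.elim_inr, Sum.elim_inl,
            one_pow, one_mul, T.aQ_eq]
      have hu := isUnit_mk (Lv_loc O (Q.H H₀) (aQ a Q α) (fS Q H₀)
        (fun s => (((1 : SQ N H₀ →* Oˣ) s : Oˣ) : O)) hD (jD Q H₀) Fact.out B.hpO hΔ) h1
      have h2 := (hu.map x).ne_zero
      have h3 : (MvPolynomial.aeval (fun ℓ : Pr D => A ℓ) P : K) =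
          x (Ideal.Quotient.mk (RingHom.ker (MoA Q H₀ O a α 1 hD)) (f P)) := by
        let F : MvPolynomial (Pr D) O →ₐ[O] K := (x.comp (Ideal.Quotient.mkₐ O
          (RingHom.ker (MoA Q H₀ O a α 1 hD)))).comp f
        have h4 : MvPolynomial.aeval (fun ℓ : Pr D => A ℓ) = F := by
          refine MvPolynomial.algHom_ext fun ℓ => ?_
          rw [MvPolynomial.aeval_X, hA]
          change _ = x (Ideal.Quotient.mk (RingHom.ker (MoA Q H₀ O a α 1 hD))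
            (f (MvPolynomial.X ℓ)))
          rw [MvPolynomial.aeval_X, map_mul, map_mul, map_pow, map_pow]
          congr 1
          have h5 : x (Ideal.Quotient.mk (RingHom.ker (MoA Q H₀ O a α 1 hD))
              (MvPolynomial.X (Sum.inr (Q.kap (uP M ℓ))⁻¹))) = ((ψ (uP M ℓ))⁻¹ : Kˣ) := by
            have h6 : ((ψ (uP M ℓ))⁻¹ : Kˣ) = ψ ((uP M ℓ)⁻¹) := (map_inv ψ _).symm
            rw [h6, hψ, map_inv]
            rfl
          rw [h5, Units.val_pow_eq_pow_val]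
        rw [h4]
        rfl
      rw [h3]
      exact h2
  have hΔ'' : IsPGroup p ((ZMod (N'' * qq))ˣ ⧸ (Q.H H₀).map (ZMod.unitsMap hM''M)) := by
    intro g
    obtain ⟨u, rfl⟩ := QuotientGroup.mk_surjective g
    obtain ⟨w, rfl⟩ := ZMod.unitsMap_surjective hM''M u
    obtain ⟨k, hk⟩ := hΔ (w : (ZMod M)ˣ ⧸ Q.H H₀)
    refine ⟨k, ?_⟩
    rw [← QuotientGroup.mk_pow, QuotientGroup.eq_one_iff] at hk
    rw [← QuotientGroup.mk_pow, QuotientGroup.eq_one_iff, ← map_pow]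
    exact Subgroup.mem_map_of_mem _ hk
  have hM''D : N'' * qq ∣ D := hM''M.trans T.hMD
  have htop := down_H (fun ℓ => a (prI hD ℓ)) B.hp2 B.hpO ((Q.H H₀).map (ZMod.unitsMap hM''M)) hΔ''
    (hell.of_dvd (dvd_mul_right N'' qq)) ℓ₀ hM''D hℓ₀' hocc
  refine down_all (fun ℓ => a (prI hD ℓ)) T.hD0 N'' r Q.q (N'' * qq) rfl hM''D Q.prime
    (fun j h => Q.ndvd j (h.trans hN''N)) Q.inj (fun L hL g h1 h2 h3 =>
      T.hnew L hL g (h1.trans hM''M) h2 h3) ℓ₀ ?_ hℓ₀' htop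
  exact (Int.natCast_dvd_natCast.mpr (hM''M.trans (dvd_mul_right M M))).trans hℓ₀

end Fermat.Agent.TC
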