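import Mathlib
import Fermat.Agent.TC.Pack8
import Fermat.Agent.TC.Core
import Fermat.Agent.H25.Asm8
import Fermat.Agent.H25.PtE

/-!
# From Taylor-Wiles levels to components of Hecke type
-/

set_option autoImplicit false
set_option linter.style.haveILetI false
set_option linter.unusedSectionVars false

noncomputable section

namespace Fermat.Agent.TC

open CongruenceSubgroup Matrix.SpecialLinearGroup H22 IsLocalRing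
open Fermat.Agent.H25 Fermat.Agent.H25.PR Fermat.Agent.CC Fermat.Agent.TW Fermat.Agent.H25.PT
open Fermat.Agent.H05 Fermat.Agent.H25.TR Fermat.Agent.H25.TWM Fermat.Agent.H25.GE
open ModularFormClass (qCoeff)

section Pts

variable {p N M r : ℕ} [NeZero N] [NeZero M] [Fact p.Prime] (Q : QDat p N M r)
  (H₀ : Subgroup (ZMod N)ˣ) {O : Type} [CommRing O] [IsDomain O] [IsDiscreteValuationRing O]
  [IsAdicComplete (maximalIdeal O) O] {D₀ : ℕ} (a : Pr D₀ → ResidueField O)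
  (α : Fin r → ResidueField O) {Dn : ℕ} (hD : D₀ ∣ Dn) (K : Type) [Field K]
  [Algebra O K] (Q₀ : ℕ) (χ : SQ N H₀ →* Oˣ)

/-- Points at a Taylor-Wiles level. -/
structure PtsTop where
  X : Type
  fin : Finite X
  pt : X → MoB Q H₀ O a α χ hD →ₐ[O] K
  φ : X → HM (GamH M (Q.H H₀)) K
  inj : ∀ b, (∀ t, pt t b = 0) → b = 0
  φ_ne : ∀ t, φ t ≠ 0
  φ_T : ∀ t, ∀ ℓ : Pr Dn, TP K M (Q.H H₀) K (prD Dn ℓ) (φ t) =
    pt t (MoT Q H₀ O a α χ hD ℓ) • φ t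
  φ_D : ∀ t g, diaQ K M (Q.H H₀) K g (φ t) = (algebraMap O K (χ (Q.E H₀ g).1 : O) *
      pt t (MoD Q H₀ O a α χ hD (Q.E H₀ g).2)) • φ t
  N0 : X → ℕ
  nz : ∀ t, NeZero (N0 t)
  g : ∀ t, CuspForm (Gamma0 (N0 t)) 2
  τ : X → integralClosure ℤ ℂ →+* K
  hg : ∀ t, haveI := nz t; (g t).IsNewform
  hdvd : ∀ t, N0 t ∣ M * (Q₀ * ∏ j, Q.q j)
  hcoef : ∀ t, ∀ ℓ : Pr Dn, ∃ z : integralClosure ℤ ℂ, (z : ℂ) = qCoeff (g t) ℓ ∧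
        τ t z = pt t (MoT Q H₀ O a α χ hD ℓ)
  hq : ∀ t j, (pt t (MoD Q H₀ O a α χ hD (dl p Q.e j)) ≠ 1 → Q.q j * Q.q j ∣ N0 t) ∧
        (pt t (MoD Q H₀ O a α χ hD (dl p Q.e j)) = 1 → ¬ Q.q j * Q.q j ∣ N0 t)
  hram : ∀ t, ∀ q : ℕ, q.Prime → ∀ b : ℕ, Q₀ = q * b →
        ((∃ u : (ZMod N)ˣ, ((u : ZMod N).val : ZMod b) = 1 ∧ χ (SQ.mk H₀ u) ≠ 1) → q * q ∣ N0 t) ∧
        ((∀ u : (ZMod N)ˣ, ((u : ZMod N).val : ZMod b) = 1 → χ (SQ.mk H₀ u) = 1) →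
          ¬ q * q ∣ N0 t)

/-- Points at the bottom level. -/
structure PtsBot where
  X : Type
  fin : Finite X
  pt : X → MoB0 H₀ O a χ →ₐ[O] K
  inj : ∀ b, (∀ t, pt t b = 0) → b = 0
  N0 : X → ℕ
  nz : ∀ t, NeZero (N0 t)
  g : ∀ t, CuspForm (Gamma0 (N0 t)) 2
  τ : X → integralClosure ℤ ℂ →+* K
  hg : ∀ t, haveI := nz t; (g t).IsNewform
  hdvd : ∀ t, N0 t ∣ N * Q₀
  hcoef : ∀ t, ∀ ℓ : Pr D₀, ∃ z : integralClosure ℤ ℂ, (z : ℂ) = qCoeff (g t) ℓ ∧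
        τ t z = pt t (MoT0 H₀ O a χ ℓ)
  hram : ∀ t, ∀ q : ℕ, q.Prime → ∀ b : ℕ, Q₀ = q * b →
        ((∃ u : (ZMod N)ˣ, ((u : ZMod N).val : ZMod b) = 1 ∧ χ (SQ.mk H₀ u) ≠ 1) → q * q ∣ N0 t) ∧
        ((∀ u : (ZMod N)ˣ, ((u : ZMod N).val : ZMod b) = 1 → χ (SQ.mk H₀ u) = 1) →
          ¬ q * q ∣ N0 t)

attribute [instance] PtsTop.fin PtsTop.nz PtsBot.fin PtsBot.nz

variable {Q H₀ a α hD Q₀} {M₀ : ℕ} [CharZero K] [IsAlgClosed K]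

theorem nonempty_PtsTop (T : TWHyp O a Q α Dn hD) (B : BaseHyp O H₀ p) (C : CondHyp H₀ Q₀ M₀)
    (hK : Function.Injective (algebraMap O K)) : Nonempty (PtsTop Q H₀ a α hD K Q₀ χ) := by
  obtain ⟨X, hX, x, φ, h1, h2⟩ := T.points_full B C hK χ
  choose h3 h4 h5 N0 nz g τ hg hdvd hcoef hq hram using h2
  exact ⟨⟨X, hX, x, φ, h1, h3, h4, h5, N0, nz, g, τ, hg, hdvd, hcoef, hq, hram⟩⟩

omit [NeZero M] in
theorem nonempty_PtsBot (B : BaseHyp O H₀ p) (C : CondHyp H₀ Q₀ M₀)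
    (hK : Function.Injective (algebraMap O K)) (hN0 : D₀ ≠ 0) (hND : N ∣ D₀)
    (hE : ∃ ℓ₀ : Pr D₀, ((N * N : ℕ) : ℤ) ∣ ((ℓ₀ : ℕ) : ℤ) - 1 ∧
      a ℓ₀ ≠ ((ℓ₀ : ℕ) : ResidueField O) + 1) : Nonempty (PtsBot H₀ a K Q₀ χ) := by
  obtain ⟨X, hX, x, h1, h2⟩ := points0 B C hK χ hN0 hND hE
  choose N0 nz g τ hg hdvd hcoef hram using h2
  exact ⟨⟨X, hX, x, h1, N0, nz, g, τ, hg, hdvd, hcoef, hram⟩⟩

end Pts

section Lev

variable {O : Type} [CommRing O] [IsDomain O] [IsDiscreteValuationRing O]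
  [IsAdicComplete (maximalIdeal O) O] {p N M r : ℕ} [NeZero N] [NeZero M] [Fact p.Prime]
  (Q : QDat p N M r) (H₀ : Subgroup (ZMod N)ˣ) {D₀ : ℕ} (a : Pr D₀ → ResidueField O)
  (α : Fin r → ResidueField O) (χ : SQ N H₀ →* Oˣ) {Dn : ℕ} (hD : D₀ ∣ Dn)

open Classical in
/-- Hecke operators indexed by natural numbers -/
def MoTl (ℓ : ℕ) : MoB Q H₀ O a α χ hD :=
  if h : ℓ.Prime ∧ ¬ ℓ ∣ Dn then MoT Q H₀ O a α χ hD ⟨ℓ, h⟩ else 0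

lemma MoTl_eq (ℓ : Pr Dn) : MoTl Q H₀ a α χ hD ℓ = MoT Q H₀ O a α χ hD ℓ := by
  rw [MoTl, dif_pos ℓ.2]

open Classical in
/-- Hecke operators indexed by natural numbers, bottom level -/
def MoTl0 (ℓ : ℕ) : MoB0 H₀ O a χ :=
  if h : ℓ.Prime ∧ ¬ ℓ ∣ D₀ then MoT0 H₀ O a χ ⟨ℓ, h⟩ else 0

omit [NeZero M] in
lemma MoTl0_eq (ℓ : Pr D₀) : MoTl0 H₀ a χ ℓ = MoT0 H₀ O a χ ℓ := by
  rw [MoTl0, dif_pos ℓ.2]

variable {Q H₀ a α χ hD}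

lemma nontrivial_Mo {v : Fin (rk O N a) → HM (GamH M (Q.H H₀)) O} (G : GoodV Q H₀ O a α v)
    (hd : rk O N a ≠ 0) : Nontrivial (Mo Q H₀ O a α χ) := by
  haveI : NeZero (rk O N a) := ⟨hd⟩
  exact ⟨⟨G.bas χ (0, 1), 0, (G.bas χ).ne_zero _⟩⟩

lemma nontrivial_Mo0 {v : Fin (rk O N a) → HM (GamH M (Q.H H₀)) O} (G : GoodV Q H₀ O a α v)
    (hd : rk O N a ≠ 0) : Nontrivial (Mo0 H₀ O a χ) := by
  classical
  haveI : NeZero (rk O N a) := ⟨hd⟩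
  obtain ⟨h1, h2⟩ := chi_basis₀ (χ := χ) G.hl₀ G.hs₀
  refine ⟨⟨⟨_, ?_⟩, 0, fun h => h1.ne_zero 0 (congrArg Subtype.val h)⟩⟩
  rw [← Mo0_eq, h2]
  exact Submodule.subset_span ⟨0, rfl⟩

variable (D : RD O (ResidueField O)) (hres : D.res = residue O) (B : BaseHyp O H₀ p)
  (ha : ∀ ℓ : Pr D₀, ∀ A : ValuationSubring Qb, A.LiesOverPrime ℓ →
    ∀ φ : GQ, A.IsFrobeniusAt φ ℓ → D.tbar φ = a ℓ) {K : Type} [Field K] [Algebra O K] {Q₀ : ℕ}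

section Top

variable (T : TWHyp O a Q α Dn hD) [Nontrivial (Mo Q H₀ O a α χ)] (S : Finset Nat.Primes)
  (bad : Finset ℕ) (hbad : ∀ ℓ : ℕ, ℓ.Prime → ℓ ∣ Dn * p → ℓ ∈ bad)
  (hQ₀ : Q₀ ∣ N) (hS : ∀ q : Nat.Primes, (q : ℕ) ∣ M * p → q ∈ S)
  (P : PtsTop Q H₀ a α hD K Q₀ χ)

include hQ₀ in
lemma PtsTop.dvd_of_dvd (t : P.X) {q : ℕ} (hq : q.Prime) (h : q ∣ P.N0 t * p) : q ∣ M * p := by
  rcases (Nat.Prime.dvd_mul hq).mp h with h | h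
  · rcases (Nat.Prime.dvd_mul hq).mp (h.trans (P.hdvd t)) with h | h
    · exact h.mul_right p
    · rcases (Nat.Prime.dvd_mul hq).mp h with h | h
      · exact ((h.trans hQ₀).trans Q.dvd_M).mul_right p
      · rw [(Nat.Prime.prime hq).dvd_finsetProd_iff] at h
        obtain ⟨j, _, hj⟩ := h
        exact (hj.trans (Q.q_dvd j)).mul_right p
  · exact h.mul_left M

/-- **The Hecke algebra with its points at a Taylor-Wiles level.** -/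
@[reducible] def hinTop : HIn D K p S bad where
  B := MoB Q H₀ O a α χ hD
  T := MoTl Q H₀ a α χ hD
  X := P.X
  pt := P.pt
  pt_inj := P.inj
  np t :=
    { N0 := P.N0 t
      g := P.g t
      hg := P.hg t
      τ := P.τ t
      hτ := fun ℓ hℓ hb => by
        have hℓD : ¬ ℓ ∣ Dn := fun h => hb (hbad ℓ hℓ (h.mul_right p))
        have h1 := MoTl_eq Q H₀ a α χ hD ⟨ℓ, hℓ, hℓD⟩
        change MoTl Q H₀ a α χ hD ℓ = _ at h1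
        rw [h1]
        exact P.hcoef t ⟨ℓ, hℓ, hℓD⟩
      hbad := fun ℓ hℓ h => hbad ℓ hℓ
        ((P.dvd_of_dvd hQ₀ t hℓ h).trans (mul_dvd_mul_right T.hMD p))
      hS := fun q h => hS q (P.dvd_of_dvd hQ₀ t q.2 h) }
  res := LvR O (Q.H H₀) (aQ a Q α) (fS Q H₀) (fun s => (χ s : O)) hD (jD Q H₀) Fact.out B.hpO
      (Q.isPGroup B.hΔ₀)
  res_comp := fun x => by rw [LvR_algebraMap, hres]
  loc := fun b hb => LvR_isUnit O (Q.H H₀) (aQ a Q α) (fS Q H₀) (fun s => (χ s : O)) hD (jD Q H₀)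
      Fact.out B.hpO (Q.isPGroup B.hΔ₀) b hb
  res_T := fun ℓ hℓ hb A hA φ hφ => by
    have hℓD : ¬ ℓ ∣ Dn := fun h => hb (hbad ℓ hℓ (h.mul_right p))
    have h1 := MoTl_eq Q H₀ a α χ hD ⟨ℓ, hℓ, hℓD⟩
    change MoTl Q H₀ a α χ hD ℓ = _ at h1
    rw [h1, LvR_T, T.aQ_eq]
    exact ha (prI hD ⟨ℓ, hℓ, hℓD⟩) A hA φ hφ

end Top

section Bot

variable [Nontrivial (Mo0 H₀ O a χ)] (S : Finset Nat.Primes)
  (bad : Finset ℕ) (hbad : ∀ ℓ : ℕ, ℓ.Prime → ℓ ∣ D₀ * p → ℓ ∈ bad) (hND : N ∣ D₀)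
  (hQ₀ : Q₀ ∣ N) (hS : ∀ q : Nat.Primes, (q : ℕ) ∣ N * p → q ∈ S)
  (P : PtsBot H₀ a K Q₀ χ)

include hQ₀ in
lemma PtsBot.dvd_of_dvd (t : P.X) {q : ℕ} (hq : q.Prime) (h : q ∣ P.N0 t * p) : q ∣ N * p := by
  rcases (Nat.Prime.dvd_mul hq).mp h with h | h
  · rcases (Nat.Prime.dvd_mul hq).mp (h.trans (P.hdvd t)) with h | h
    · exact h.mul_right p
    · exact (h.trans hQ₀).mul_right p
  · exact h.mul_left N

/-- **The Hecke algebra with its points at the bottom level.** -/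
@[reducible] def hinBot : HIn D K p S bad where
  B := MoB0 H₀ O a χ
  T := MoTl0 H₀ a χ
  X := P.X
  pt := P.pt
  pt_inj := P.inj
  np t :=
    { N0 := P.N0 t
      g := P.g t
      hg := P.hg t
      τ := P.τ t
      hτ := fun ℓ hℓ hb => by
        have hℓD : ¬ ℓ ∣ D₀ := fun h => hb (hbad ℓ hℓ (h.mul_right p))
        have h1 := MoTl0_eq H₀ a χ ⟨ℓ, hℓ, hℓD⟩
        change MoTl0 H₀ a χ ℓ = _ at h1
        rw [h1]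
        exact P.hcoef t ⟨ℓ, hℓ, hℓD⟩
      hbad := fun ℓ hℓ h => hbad ℓ hℓ
        ((P.dvd_of_dvd hQ₀ t hℓ h).trans (mul_dvd_mul_right hND p))
      hS := fun q h => hS q (P.dvd_of_dvd hQ₀ t q.2 h) }
  res := LvR O H₀ a (fS0 H₀) (fun s => (χ s : O)) (dvd_refl D₀) (jD0 H₀) Fact.out B.hpO B.hΔ₀
  res_comp := fun x => by rw [LvR_algebraMap, hres]
  loc := fun b hb => LvR_isUnit O H₀ a (fS0 H₀) (fun s => (χ s : O)) (dvd_refl D₀) (jD0 H₀)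
      Fact.out B.hpO B.hΔ₀ b hb
  res_T := fun ℓ hℓ hb A hA φ hφ => by
    have hℓD : ¬ ℓ ∣ D₀ := fun h => hb (hbad ℓ hℓ (h.mul_right p))
    have h1 := MoTl0_eq H₀ a χ ⟨ℓ, hℓ, hℓD⟩
    change MoTl0 H₀ a χ ℓ = _ at h1
    rw [h1, LvR_T]
    exact ha (prI (dvd_refl D₀) ⟨ℓ, hℓ, hℓD⟩) A hA φ hφ

end Bot

end Lev

end Fermat.Agent.TC
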