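import Mathlib
import Fermat.Agent.TC.Sys1

/-!
# Taylor-Wiles levels as modules over Galois components
-/

set_option autoImplicit false
set_option linter.style.haveILetI false
set_option linter.unusedSectionVars false

noncomputable section

namespace Fermat.Agent.TC

open CongruenceSubgroup Matrix.SpecialLinearGroup H22 IsLocalRing
open Fermat.Agent.H25 Fermat.Agent.H25.PR Fermat.Agent.CC Fermat.Agent.TW Fermat.Agent.H25.PT
open Fermat.Agent.H05 Fermat.Agent.H25.TR Fermat.Agent.H25.TWM Fermat.Agent.H25.GE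
open ModularFormClass (qCoeff)

/-- the Taylor-Wiles primes -/
@[reducible] def QDat.qv {p N M r : ℕ} (Q : QDat p N M r) (j : Fin r) : Nat.Primes :=
  ⟨Q.q j, Q.prime j⟩

lemma factorization_le_two {p N M r : ℕ} [NeZero N] [NeZero M] (Q : QDat p N M r) {Q₀ N0 : ℕ}
    (hQ₀ : Q₀ ∣ N) (h : N0 ∣ M * (Q₀ * ∏ j, Q.q j)) (j : Fin r) :
    N0.factorization (Q.q j) ≤ 2 := by
  have hj := Q.prime j
  have hQ₀0 : Q₀ ≠ 0 := fun h => NeZero.ne N (Nat.eq_zero_of_zero_dvd (h ▸ hQ₀))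
  have hpr0 : ∏ j, Q.q j ≠ 0 := Finset.prod_ne_zero_iff.mpr fun j _ => (Q.prime j).ne_zero
  have hpf : (∏ j, Q.q j).factorization (Q.q j) = 1 := by
    classical
    rw [Nat.factorization_prod (fun j _ => (Q.prime j).ne_zero), Finsupp.finsetSum_apply,
      Finset.sum_eq_single j]
    · rw [Nat.Prime.factorization_self hj]
    · intro i _ hij
      rw [Nat.Prime.factorization (Q.prime i), Finsupp.single_apply, if_neg]
      exact fun h => hij (Q.inj h)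
    · intro h; exact absurd (Finset.mem_univ j) h
  have hQj : Q₀.factorization (Q.q j) = 0 :=
    Nat.factorization_eq_zero_of_not_dvd fun h => Q.ndvd j (h.trans hQ₀)
  have hNj : N.factorization (Q.q j) = 0 := Nat.factorization_eq_zero_of_not_dvd (Q.ndvd j)
  have h1 : N0.factorization (Q.q j) ≤ (M * (Q₀ * ∏ j, Q.q j)).factorization (Q.q j) := by
    have h0 : M * (Q₀ * ∏ j, Q.q j) ≠ 0 := mul_ne_zero (NeZero.ne M) (mul_ne_zero hQ₀0 hpr0)
    have hN0 : N0 ≠ 0 := fun h' => h0 (Nat.eq_zero_of_zero_dvd (h' ▸ h))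
    exact (Nat.factorization_le_iff_dvd hN0 h0).mpr h _
  have h2 : M.factorization (Q.q j) = 1 := by
    have h3 := congrArg (fun m => Nat.factorization m (Q.q j)) Q.hM
    change M.factorization (Q.q j) = (N * ∏ j, Q.q j).factorization (Q.q j) at h3
    rw [Nat.factorization_mul (NeZero.ne N) hpr0, Finsupp.add_apply, hNj, hpf] at h3
    exact h3
  refine h1.trans ?_
  rw [Nat.factorization_mul (NeZero.ne M) (mul_ne_zero hQ₀0 hpr0),
    Nat.factorization_mul hQ₀0 hpr0, Finsupp.add_apply, Finsupp.add_apply, h2, hQj, hpf, zero_add]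

section Top

variable {O : Type} [CommRing O] [IsDomain O] [IsDiscreteValuationRing O]
  [IsAdicComplete (maximalIdeal O) O] [Finite (ResidueField O)] [CharZero O]
  {p N M r : ℕ} [NeZero N] [NeZero M] [Fact p.Prime]
  {Q : QDat p N M r} {H₀ : Subgroup (ZMod N)ˣ} {D₀ : ℕ} {a : Pr D₀ → ResidueField O}
  {α : Fin r → ResidueField O} {χ : SQ N H₀ →* Oˣ} {Dn : ℕ} {hD : D₀ ∣ Dn}
  (D : RD O (ResidueField O)) (hres : D.res = residue O) (B : BaseHyp O H₀ p)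
  (ha : ∀ ℓ : Pr D₀, ∀ A : ValuationSubring Qb, A.LiesOverPrime ℓ →
    ∀ φ : GQ, A.IsFrobeniusAt φ ℓ → D.tbar φ = a ℓ) {K : Type} [Field K] [Algebra O K] {Q₀ : ℕ}
  (T : TWHyp O a Q α Dn hD) [Nontrivial (Mo Q H₀ O a α χ)] (S : Finset Nat.Primes)
  (bad : Finset ℕ) (hbad : ∀ ℓ : ℕ, ℓ.Prime → ℓ ∣ Dn * p → ℓ ∈ bad)
  (hQ₀ : Q₀ ∣ N) (hS : ∀ q : Nat.Primes, (q : ℕ) ∣ M * p → q ∈ S)
  (P : PtsTop Q H₀ a α hD K Q₀ χ)
  [IsAlgClosed K] [FaithfulSMul O K] (Ge : Geo p) (hchi : IsCyc p D.chi) (hc : D.chi D.c = -1)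

/-- **The Galois component at a Taylor-Wiles level.** -/
abbrev cdTop : CData D S bad :=
  (hinTop D hres B ha T S bad hbad hQ₀ hS P).cd B.hpO Ge hchi hc

/-- **The module at a Taylor-Wiles level.** -/
def mdTop (hbar : HBar D S) (hTWD : TWD D p Q.qv Q.e) {v : Fin (rk O N a) → HM (GamH M (Q.H H₀)) O}
    (G : GoodV Q H₀ O a α v) :
    MData (cdTop D hres B ha T S bad hbad hQ₀ hS P Ge hchi hc) p Q.qv Q.e (rk O N a) where
  M := Mo Q H₀ O a α χ
  modB := HT.module (MoA Q H₀ O a α χ hD)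
  tow := HT.tower (MoA Q H₀ O a α χ hD)
  dia := MoD Q H₀ O a α χ hD
  bas := G.bas χ
  v := G.u χ
  hbas i g := G.bas_eq χ i g
  dia_iff x j := by
    refine (hinTop D hres B ha T S bad hbad hQ₀ hS P).tw_iff B.hpO Ge hchi hc hbar x (Q.prime j)
      (hTWD.ne j).symm (hTWD.eig j) (hTWD.one j) (factorization_le_two Q hQ₀ (P.hdvd x) j) ?_
    rw [pow_two]
    constructor
    · intro h h1
      exact (P.hq x j).2 h1 h
    · exact (P.hq x j).1

/-- type `1` at `t` -/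
theorem cdTop_t_eq_two {t b : ℕ} (ht : t.Prime) (htp : t ≠ p) (hb : Q₀ = t * b)
    (hχ : ∀ u : (ZMod N)ˣ, ((u : ZMod N).val : ZMod b) = 1 → χ (SQ.mk H₀ u) = 1)
    (x : (cdTop D hres B ha T S bad hbad hQ₀ hS P Ge hchi hc).X) :
    (cdTop D hres B ha T S bad hbad hQ₀ hS P Ge hchi hc).t x (tmv p Fact.out t ht) = 2 := by
  refine (hinTop D hres B ha T S bad hbad hQ₀ hS P).t_tmv_eq_two B.hpO Ge hchi hc x ht htp ?_
  rw [pow_two]
  exact (P.hram x t ht b hb).2 hχ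

include hQ₀ in
lemma factorization_eq_two {t b N0 : ℕ} (ht : t.Prime) (hb : Q₀ = t * b) (hcop : ¬ t * t ∣ N)
    (hN0 : N0 ∣ M * (Q₀ * ∏ j, Q.q j)) (hsq : t * t ∣ N0) (hN0' : N0 ≠ 0) :
    N0.factorization t = 2 := by
  have htN : t ∣ N := (Dvd.intro b hb.symm).trans hQ₀
  have hQ₀0 : Q₀ ≠ 0 := fun h => NeZero.ne N (Nat.eq_zero_of_zero_dvd (h ▸ hQ₀))
  have hpr0 : ∏ j, Q.q j ≠ 0 := Finset.prod_ne_zero_iff.mpr fun j _ => (Q.prime j).ne_zero
  have hpf : (∏ j, Q.q j).factorization t = 0 := by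
    refine Nat.factorization_eq_zero_of_not_dvd fun h => ?_
    obtain ⟨j, _, hj⟩ := (Prime.dvd_finsetProd_iff ht.prime _).mp h
    have h1 := (Nat.prime_dvd_prime_iff_eq ht (Q.prime j)).mp hj
    exact Q.ndvd j (h1 ▸ htN)
  have hle1 : ∀ {m : ℕ}, m ≠ 0 → ¬ t * t ∣ m → m.factorization t ≤ 1 := by
    intro m hm h
    by_contra h1
    push Not at h1
    exact h (by rw [← pow_two]; exact (ht.pow_dvd_iff_le_factorization hm).mpr h1)
  have h3 : M.factorization t ≤ 1 := by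
    rw [Q.hM, Nat.factorization_mul (NeZero.ne N) hpr0, Finsupp.add_apply, hpf]
    exact hle1 (NeZero.ne N) hcop
  have h4 : Q₀.factorization t ≤ 1 := hle1 hQ₀0 fun h => hcop (h.trans hQ₀)
  have h0 : M * (Q₀ * ∏ j, Q.q j) ≠ 0 := mul_ne_zero (NeZero.ne M) (mul_ne_zero hQ₀0 hpr0)
  have h1 : N0.factorization t ≤ (M * (Q₀ * ∏ j, Q.q j)).factorization t :=
    (Nat.factorization_le_iff_dvd hN0' h0).mpr hN0 _
  rw [Nat.factorization_mul (NeZero.ne M) (mul_ne_zero hQ₀0 hpr0),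
    Nat.factorization_mul hQ₀0 hpr0, Finsupp.add_apply, Finsupp.add_apply, hpf] at h1
  have h5 : 2 ≤ N0.factorization t :=
    (ht.pow_dvd_iff_le_factorization hN0').mp (by rw [pow_two]; exact hsq)
  omega

/-- type `χ` at `t` -/
theorem cdTop_t_ne_two (hbar : HBar D S) {t b : ℕ} (ht : t.Prime) (htp : t ≠ p) (hb : Q₀ = t * b)
    (hcop : ¬ t * t ∣ N)
    (hχ : ∃ u : (ZMod N)ˣ, ((u : ZMod N).val : ZMod b) = 1 ∧ χ (SQ.mk H₀ u) ≠ 1)
    (hunr : ∀ σ ∈ (plv t ht).inertiaSubgroupIn ℚ, D.rbar σ = 1)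
    (x : (cdTop D hres B ha T S bad hbad hQ₀ hS P Ge hchi hc).X) :
    (cdTop D hres B ha T S bad hbad hQ₀ hS P Ge hchi hc).t x (tmv p Fact.out t ht) ≠ 2 :=
  (hinTop D hres B ha T S bad hbad hQ₀ hS P).t_tmv_ne_two B.hpO Ge hchi hc hbar x ht htp hunr
    (factorization_eq_two (Q := Q) hQ₀ ht hb hcop (P.hdvd x) ((P.hram x t ht b hb).1 hχ)
      (NeZero.ne _))

end Top

section Bot

variable {O : Type} [CommRing O] [IsDomain O] [IsDiscreteValuationRing O]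
  [IsAdicComplete (maximalIdeal O) O] [Finite (ResidueField O)] [CharZero O]
  {p N M r : ℕ} [NeZero N] [NeZero M] [Fact p.Prime]
  {Q : QDat p N M r} {H₀ : Subgroup (ZMod N)ˣ} {D₀ : ℕ} {a : Pr D₀ → ResidueField O}
  {α : Fin r → ResidueField O} {χ : SQ N H₀ →* Oˣ} {Dn : ℕ} {hD : D₀ ∣ Dn}
  (D : RD O (ResidueField O)) (hres : D.res = residue O) (B : BaseHyp O H₀ p)
  (ha : ∀ ℓ : Pr D₀, ∀ A : ValuationSubring Qb, A.LiesOverPrime ℓ →
    ∀ φ : GQ, A.IsFrobeniusAt φ ℓ → D.tbar φ = a ℓ) {K : Type} [Field K] [Algebra O K] {Q₀ : ℕ}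
  [Nontrivial (Mo0 H₀ O a χ)] (S : Finset Nat.Primes)
  (bad : Finset ℕ) (hbad : ∀ ℓ : ℕ, ℓ.Prime → ℓ ∣ D₀ * p → ℓ ∈ bad) (hND : N ∣ D₀)
  (hQ₀ : Q₀ ∣ N) (hS : ∀ q : Nat.Primes, (q : ℕ) ∣ N * p → q ∈ S)
  (P : PtsBot H₀ a K Q₀ χ)
  [IsAlgClosed K] [FaithfulSMul O K] (Ge : Geo p) (hchi : IsCyc p D.chi) (hc : D.chi D.c = -1)

/-- **The Galois component at the bottom level.** -/
abbrev cdBot : CData D S bad :=
  (hinBot D hres B ha S bad hbad hND hQ₀ hS P).cd B.hpO Ge hchi hc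

end Bot

end Fermat.Agent.TC
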