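import Mathlib
import Fermat.Agent.TC.Sys2

/-!
# Components at all Taylor-Wiles levels, and systems
-/

set_option autoImplicit false
set_option linter.style.haveILetI false
set_option linter.unusedSectionVars false

noncomputable section

namespace Fermat.Agent.TC

open CongruenceSubgroup Matrix.SpecialLinearGroup H22 IsLocalRing
open Fermat.Agent.H25 Fermat.Agent.H25.PR Fermat.Agent.CC Fermat.Agent.TW Fermat.Agent.H25.PT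
open Fermat.Agent.H05 Fermat.Agent.H25.TR Fermat.Agent.H25.TWM Fermat.Agent.H25.GE
open ModularFormClass (qCoeff)

/-- Galois data, the residual system and the Taylor-Wiles data at all depths. -/
structure TWBase (O K : Type) [CommRing O] [IsDomain O] [IsDiscreteValuationRing O]
    [IsAdicComplete (maximalIdeal O) O] [Field K] [Algebra O K] (p r : ℕ) where
  D : RD O (ResidueField O)
  hres : D.res = residue O
  Ge : Geo p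
  hchi : IsCyc p D.chi
  hc : D.chi D.c = -1
  D₀ : ℕ
  a : Pr D₀ → ResidueField O
  ha : ∀ ℓ : Pr D₀, ∀ A : ValuationSubring Qb, A.LiesOverPrime ℓ →
    ∀ φ : GQ, A.IsFrobeniusAt φ ℓ → D.tbar φ = a ℓ
  c : ℕ → TWCore p r
  α : ℕ → Fin r → ResidueField O
  Dn : ℕ → ℕ
  hD : ∀ n, D₀ ∣ Dn n
  hTWD : ∀ n, TWD D p (fun j => ⟨(c n).q j, (c n).prime j⟩) (c n).e
  S : ℕ → Finset Nat.Primes
  bad : ℕ → Finset ℕ
  hbar : ∀ n, HBar D (S n)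
  hbad : ∀ n, ∀ ℓ : ℕ, ℓ.Prime → ℓ ∣ Dn n * p → ℓ ∈ bad n
  S₀ : Finset Nat.Primes
  bad₀ : Finset ℕ
  hbar₀ : HBar D S₀
  hbad₀ : ∀ ℓ : ℕ, ℓ.Prime → ℓ ∣ D₀ * p → ℓ ∈ bad₀
  unr₀ : ∀ (n : ℕ) (j : Fin r), (⟨(c n).q j, (c n).prime j⟩ : Nat.Primes) ∉ S₀

variable {O K : Type} [CommRing O] [IsDomain O] [IsDiscreteValuationRing O]
    [IsAdicComplete (maximalIdeal O) O] [Field K] [Algebra O K] {p r : ℕ}

/-- A level with its Taylor-Wiles levels. -/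
structure Cmp (F : TWBase O K p r) where
  N : ℕ
  [nzN : NeZero N]
  H₀ : Subgroup (ZMod N)ˣ
  Q₀ : ℕ
  M₀ : ℕ
  B : BaseHyp O H₀ p
  C : CondHyp H₀ Q₀ M₀
  hND : N ∣ F.D₀
  hd : rk O N F.a ≠ 0
  M : ℕ → ℕ
  [nzM : ∀ n, NeZero (M n)]
  hM : ∀ n, M n = N * ∏ j, (F.c n).q j
  hnd : ∀ n j, ¬ (F.c n).q j ∣ N
  T : ∀ n, TWHyp O F.a ((F.c n).Q (hM n) (hnd n)) (F.α n) (F.Dn n) (F.hD n)
  hS : ∀ n, ∀ q : Nat.Primes, (q : ℕ) ∣ M n * p → q ∈ F.S n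
  hS₀ : ∀ q : Nat.Primes, (q : ℕ) ∣ N * p → q ∈ F.S₀

attribute [instance] Cmp.nzN Cmp.nzM

namespace Cmp

variable [Finite (ResidueField O)] [CharZero O] [Fact p.Prime] [IsAlgClosed K] [FaithfulSMul O K]
  {F : TWBase O K p r} (X : Cmp F) (χ : SQ X.N X.H₀ →* Oˣ) (n : ℕ)

/-- the Taylor-Wiles data -/
@[reducible] def Q : QDat p X.N (X.M n) r := (F.c n).Q (X.hM n) (X.hnd n)

/-- generators -/
def v : Fin (rk O X.N F.a) → HM (GamH (X.M n) ((X.Q n).H X.H₀)) O :=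
  (exists_goodV (X.Q n) X.H₀ O F.a (F.α n) (F.hD n) (X.T n) X.B).choose

theorem G : GoodV (X.Q n) X.H₀ O F.a (F.α n) (X.v n) :=
  (exists_goodV (X.Q n) X.H₀ O F.a (F.α n) (F.hD n) (X.T n) X.B).choose_spec

instance : Nontrivial (Mo (X.Q n) X.H₀ O F.a (F.α n) χ) := nontrivial_Mo (X.G n) X.hd

instance : Nontrivial (Mo0 X.H₀ O F.a χ) := nontrivial_Mo0 (X.G 0) X.hd

omit [FaithfulSMul O K] in
lemma charZero_of_faithful [FaithfulSMul O K] : CharZero K :=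
  charZero_of_injective_algebraMap (FaithfulSMul.algebraMap_injective O K)

/-- the points -/
def P : PtsTop (X.Q n) X.H₀ F.a (F.α n) (F.hD n) K X.Q₀ χ :=
  haveI : CharZero K := charZero_of_faithful (O := O)
  (nonempty_PtsTop K χ (X.T n) X.B X.C (FaithfulSMul.algebraMap_injective O K)).some

include X in
lemma D₀_ne : F.D₀ ≠ 0 := fun h =>
  (X.T 0).hD0 (Nat.eq_zero_of_zero_dvd (h ▸ F.hD 0))

lemma exists_ℓ₀ : ∃ ℓ₀ : Pr F.D₀, ((X.N * X.N : ℕ) : ℤ) ∣ ((ℓ₀ : ℕ) : ℤ) - 1 ∧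
      F.a ℓ₀ ≠ ((ℓ₀ : ℕ) : ResidueField O) + 1 := by
  obtain ⟨ℓ₀, h1, h2⟩ := (X.T 0).hℓ₀
  exact ⟨prI (F.hD 0) ℓ₀, (Int.natCast_dvd_natCast.mpr
    (mul_dvd_mul (X.Q 0).dvd_M (X.Q 0).dvd_M)).trans h1, h2⟩

/-- the points at the bottom level -/
def P₀ : PtsBot X.H₀ F.a K X.Q₀ χ :=
  haveI : CharZero K := charZero_of_faithful (O := O)
  (nonempty_PtsBot K χ X.B X.C (FaithfulSMul.algebraMap_injective O K) X.D₀_ne X.hND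
    X.exists_ℓ₀).some

/-- **The component at a Taylor-Wiles level.** -/
def cd : CData F.D (F.S n) (F.bad n) :=
  cdTop F.D F.hres X.B F.ha (X.T n) (F.S n) (F.bad n) (F.hbad n) X.C.dvd (X.hS n) (X.P χ n)
    F.Ge F.hchi F.hc

/-- **The component at the bottom level.** -/
def cd₀ : CData F.D F.S₀ F.bad₀ :=
  cdBot F.D F.hres X.B F.ha F.S₀ F.bad₀ F.hbad₀ X.hND X.C.dvd X.hS₀ (X.P₀ χ)
    F.Ge F.hchi F.hc

/-- **The module at a Taylor-Wiles level.** -/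
def md : MData (X.cd χ n) p (fun j => ⟨(F.c n).q j, (F.c n).prime j⟩) (F.c n).e
    (rk O X.N F.a) :=
  mdTop F.D F.hres X.B F.ha (X.T n) (F.S n) (F.bad n) (F.hbad n) X.C.dvd (X.hS n) (X.P χ n)
    F.Ge F.hchi F.hc (F.hbar n) (F.hTWD n) (X.G n)

lemma hodd : Odd (Nat.card ((ZMod (X.M n))ˣ ⧸ (X.Q n).H X.H₀)) :=
  odd_card X.B.hp2 ((X.Q n).isPGroup X.B.hΔ₀)

lemma hodd₀ : Odd (Nat.card ((ZMod X.N)ˣ ⧸ X.H₀)) := odd_card X.B.hp2 X.B.hΔ₀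

/-- **The specialisation map.** -/
def π : (X.cd χ n).B →ₐ[O] (X.cd₀ χ).B :=
  (X.G n).π (X.hodd n) X.hodd₀ (X.T n).hMD χ

lemma cd_T (ℓ : Pr (F.Dn n)) : (X.cd χ n).T ℓ = MoT (X.Q n) X.H₀ O F.a (F.α n) χ (F.hD n) ℓ :=
  MoTl_eq (X.Q n) X.H₀ F.a (F.α n) χ (F.hD n) ℓ

lemma cd₀_T (ℓ : Pr F.D₀) : (X.cd₀ χ).T ℓ = MoT0 X.H₀ O F.a χ ℓ := MoTl0_eq X.H₀ F.a χ ℓ

lemma π_T (ℓ : ℕ) (hℓ : ℓ.Prime) (hb : ℓ ∉ F.bad n) :
    X.π χ n ((X.cd χ n).T ℓ) = (X.cd₀ χ).T ℓ := by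
  have hℓD : ¬ ℓ ∣ F.Dn n := fun h => hb (F.hbad n ℓ hℓ (h.mul_right p))
  have h1 := X.cd_T χ n ⟨ℓ, hℓ, hℓD⟩
  have h2 := X.cd₀_T χ (prI (F.hD n) ⟨ℓ, hℓ, hℓD⟩)
  change (X.cd χ n).T ℓ = _ at h1
  change (X.cd₀ χ).T ℓ = _ at h2
  rw [h1, h2]
  exact (X.G n).π_T (X.hodd n) X.hodd₀ (X.T n).hMD χ ⟨ℓ, hℓ, hℓD⟩

end Cmp

end Fermat.Agent.TC
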