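import Mathlib
import Fermat.Agent.TC.Sys3

/-!
# Systems of components
-/

set_option autoImplicit false
set_option linter.style.haveILetI false
set_option linter.unusedSectionVars false

noncomputable section

namespace Fermat.Agent.TC

open CongruenceSubgroup Matrix.SpecialLinearGroup H22 IsLocalRing
open Fermat.Agent.H25 Fermat.Agent.H25.PR Fermat.Agent.CC Fermat.Agent.TW Fermat.Agent.H25.PT
open Fermat.Agent.H05 Fermat.Agent.H25.TR Fermat.Agent.H25.TWM Fermat.Agent.H25.GE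
open ModularFormClass (qCoeff)

variable {O K : Type} [CommRing O] [IsDomain O] [IsDiscreteValuationRing O]
    [IsAdicComplete (maximalIdeal O) O] [Field K] [Algebra O K] {p r : ℕ}
    [Finite (ResidueField O)] [CharZero O] [Fact p.Prime] [IsAlgClosed K] [FaithfulSMul O K]
    {F : TWBase O K p r}

/-- Additional components. -/
structure Extra (F : TWBase O K p r) (κ : Type) where
  H : ∀ n, κ → CData F.D (F.S n) (F.bad n)
  H₀ : κ → CData F.D F.S₀ F.bad₀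
  πB : ∀ (n : ℕ) (i : κ), (H n i).B →ₐ[O] (H₀ i).B
  hπB : ∀ (n : ℕ) (i : κ), ∀ ℓ : ℕ, ℓ.Prime → ℓ ∉ F.bad n → πB n i ((H n i).T ℓ) = (H₀ i).T ℓ

/-- the empty family -/
def Extra.empty (F : TWBase O K p r) : Extra F PEmpty where
  H _ i := i.elim
  H₀ i := i.elim
  πB _ i := i.elim
  hπB _ i := i.elim

namespace Cmp

section Sys

variable {κ κ' : Type} (X : κ → Cmp F) (χ : ∀ i, SQ (X i).N (X i).H₀ →* Oˣ) (E : Extra F κ')

/-- **The system attached to a family of components.** -/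
def sysE : Sys F.D p r (κ ⊕ κ') where
  S := F.S
  bad := F.bad
  hbar := F.hbar
  qv n j := ⟨(F.c n).q j, (F.c n).prime j⟩
  e n := (F.c n).e
  hQ := F.hTWD
  H n := Sum.elim (fun i => (X i).cd (χ i) n) (E.H n)
  S₀ := F.S₀
  bad₀ := F.bad₀
  hbar₀ := F.hbar₀
  H₀ := Sum.elim (fun i => (X i).cd₀ (χ i)) E.H₀
  πB n i := match i with
    | Sum.inl i => (X i).π (χ i) n
    | Sum.inr i => E.πB n i
  badπ := F.bad
  hπB n i := match i with
    | Sum.inl i => (X i).π_T (χ i) n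
    | Sum.inr i => E.hπB n i
  unr₀ := F.unr₀

/-- the system without additional components -/
def sys : Sys F.D p r κ where
  S := F.S
  bad := F.bad
  hbar := F.hbar
  qv n j := ⟨(F.c n).q j, (F.c n).prime j⟩
  e n := (F.c n).e
  hQ := F.hTWD
  H n i := (X i).cd (χ i) n
  S₀ := F.S₀
  bad₀ := F.bad₀
  hbar₀ := F.hbar₀
  H₀ i := (X i).cd₀ (χ i)
  πB n i := (X i).π (χ i) n
  badπ := F.bad
  hπB n i := (X i).π_T (χ i) n
  unr₀ := F.unr₀

/-- the modules -/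
def mdE (i : κ) (n : ℕ) : MData ((sysE X χ E).H n (Sum.inl i)) p ((sysE X χ E).qv n)
    ((sysE X χ E).e n) (rk O (X i).N F.a) := (X i).md (χ i) n

/-- the modules -/
def mds (i : κ) (n : ℕ) : MData ((sys X χ).H n i) p ((sys X χ).qv n)
    ((sys X χ).e n) (rk O (X i).N F.a) := (X i).md (χ i) n

/-- **The bottom level.** -/
def bdE (i : κ) : (sysE X χ E).BData (Sum.inl i) (mdE X χ E i) where
  N := Mo0 (X i).H₀ O F.a (χ i)
  modB := HT.module (MoA0 (X i).H₀ O F.a (χ i))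
  f n := (((X i).G n).f (χ i)).toAddMonoidHom
  f_surj n := ((X i).G n).f_surj (χ i)
  f_smul n b m := ((X i).G n).f_smul ((X i).hodd n) (X i).hodd₀ ((X i).T n).hMD (χ i) b m
  ker_f n m := ((X i).G n).f_ker (χ i) m

/-- **The bottom level.** -/
def bds (i : κ) : (sys X χ).BData i (mds X χ i) where
  N := Mo0 (X i).H₀ O F.a (χ i)
  modB := HT.module (MoA0 (X i).H₀ O F.a (χ i))
  f n := (((X i).G n).f (χ i)).toAddMonoidHom
  f_surj n := ((X i).G n).f_surj (χ i)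
  f_smul n b m := ((X i).G n).f_smul ((X i).hodd n) (X i).hodd₀ ((X i).T n).hMD (χ i) b m
  ker_f n m := ((X i).G n).f_ker (χ i) m

end Sys

section Cong

variable (X : Cmp F) {κ : Type} (χ : κ → (SQ X.N X.H₀ →* Oˣ)) {ϖ : O} (hϖ : ϖ ≠ 0)
  (hχ : ∀ i s, ∃ c : O, (χ i s : O) = 1 + ϖ * c)

/-- **Congruences.** -/
def cong (i₁ i₂ : κ) :
    (sys (fun _ : κ => X) χ).Cong (mds (fun _ : κ => X) χ i₁) (mds (fun _ : κ => X) χ i₂) ϖ where
  g n := ((X.G n).cmp (χ i₁) (χ i₂)).toLinearMap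
  badg := F.bad
  g_T n ℓ hℓ hb m := by
    have hℓD : ¬ ℓ ∣ F.Dn n := fun h => hb (F.hbad n ℓ hℓ (h.mul_right p))
    have h1 := X.cd_T (χ i₁) n ⟨ℓ, hℓ, hℓD⟩
    have h2 := X.cd_T (χ i₂) n ⟨ℓ, hℓ, hℓD⟩
    obtain ⟨w, hw⟩ := (X.G n).cmp_T (hD := F.hD n) hϖ (hχ i₁) (hχ i₂) ⟨ℓ, hℓ, hℓD⟩ m
    exact ⟨w, (congrArg₂ (fun x y => x - y)
      (congrArg (fun b => (X.G n).cmp (χ i₁) (χ i₂)
        (HT.toEnd (MoA (X.Q n) X.H₀ O F.a (F.α n) (χ i₁) (F.hD n)) b m)) h1)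
      (congrArg (fun b => HT.toEnd (MoA (X.Q n) X.H₀ O F.a (F.α n) (χ i₂) (F.hD n)) b
        ((X.G n).cmp (χ i₁) (χ i₂) m)) h2)).trans hw⟩
  g_surj n m₂ := by
    obtain ⟨m₁, hm₁⟩ := ((X.G n).cmp (χ i₁) (χ i₂)).surjective m₂
    refine ⟨m₁, 0, ?_⟩
    rw [smul_zero, sub_eq_zero]
    exact hm₁.symm

end Cong

end Cmp

end Fermat.Agent.TC
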