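import Mathlib
import Fermat.Agent.TC.Sys4
import Fermat.Agent.H22.IntCoeff

/-!
# Local facts at the points of a component, and the end of level lowering
-/

set_option autoImplicit false
set_option linter.style.haveILetI false
set_option linter.unusedSectionVars false

noncomputable section

namespace Fermat.Agent.TC

open CongruenceSubgroup Matrix.SpecialLinearGroup H22 IsLocalRing
open Fermat.Agent.H25 Fermat.Agent.H25.PR Fermat.Agent.CC Fermat.Agent.TW Fermat.Agent.H25.PT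
open Fermat.Agent.H05 Fermat.Agent.H25.TR Fermat.Agent.H25.TWM Fermat.Agent.H25.GE
open ModularFormClass (qCoeff)

section Hin

variable {O k : Type} [CommRing O] [IsDomain O] [IsDiscreteValuationRing O]
  [IsAdicComplete (maximalIdeal O) O] [Finite (ResidueField O)] [CharZero O] [Field k]
  {D : RD O k}
  {K : Type} [Field K] [IsAlgClosed K] [Algebra O K] [FaithfulSMul O K]
  {p : ℕ} [hp : Fact p.Prime] (hpO : (p : O) ∈ maximalIdeal O) (G : Geo p)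
  (hchi : IsCyc p D.chi) (hc : D.chi D.c = -1)
  {S : Finset Nat.Primes} {bad : Finset ℕ} (H : HIn D K p S bad)
  (x : (H.cd hpO G hchi hc).X)

theorem hin_unr {q : ℕ} (hq : q.Prime) (hqp : q ≠ p)
    (hqN : ¬ q ∣ (H.npt hpO G hchi hc x).N0) {A : ValuationSubring Qb} (hA : A.LiesOverPrime q)
    {σ : GQ} (hσ : σ ∈ A.inertiaSubgroupIn ℚ) (g : GQ) :
    (H.cd hpO G hchi hc).t x (σ * g) = (H.cd hpO G hchi hc).t x g := by
  have h1 := (H.rep hpO G x).unr q hq hqN hqp A hA σ hσ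
  change (H.rep hpO G x).ρ.trace (σ * g) = (H.rep hpO G x).ρ.trace g
  rw [GaloisRepAdic.trace, GaloisRepAdic.trace, map_mul, h1, one_mul]

theorem hin_unr' {q : ℕ} (hq : q.Prime) (hqp : q ≠ p)
    (hqN : ¬ q ∣ (H.npt hpO G hchi hc x).N0) {A : ValuationSubring Qb} (hA : A.LiesOverPrime q)
    {σ : GQ} (hσ : σ ∈ A.inertiaSubgroupIn ℚ) (g : GQ) :
    (H.cd hpO G hchi hc).t x (g * σ) = (H.cd hpO G hchi hc).t x g := by
  have h1 := (H.rep hpO G x).unr q hq hqN hqp A hA σ hσ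
  change (H.rep hpO G x).ρ.trace (g * σ) = (H.rep hpO G x).ρ.trace g
  rw [GaloisRepAdic.trace, GaloisRepAdic.trace, map_mul, h1, mul_one]

theorem hin_inertia {q : ℕ} (hq : q.Prime) (hqp : q ≠ p)
    (hq2 : ¬ q * q ∣ (H.npt hpO G hchi hc x).N0) {A : ValuationSubring Qb}
    (hA : A.LiesOverPrime q) {σ : GQ} (hσ : σ ∈ A.inertiaSubgroupIn ℚ) :
    (H.cd hpO G hchi hc).t x σ = 2 :=
  (H.rep hpO G x).trace_inertia hpO G hq hqp (by rw [pow_two]; exact hq2) hA hσ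

theorem hin_sq {q : ℕ} (hq : q.Prime) (hqp : q ≠ p) (hqN : q ∣ (H.npt hpO G hchi hc x).N0)
    (hq2 : ¬ q * q ∣ (H.npt hpO G hchi hc x).N0) {A : ValuationSubring Qb}
    (hA : A.LiesOverPrime q) {φ : GQ} (hφ : A.IsFrobeniusAt φ q) :
    (H.cd hpO G hchi hc).t x φ ^ 2 = ((q : (H.cd hpO G hchi hc).P x) + 1) ^ 2 :=
  (H.rep hpO G x).trace_sq hpO G hq hqp hqN (by rw [pow_two]; exact hq2) hA hφ

theorem hin_not_dvd {q : ℕ} (hq : q.Prime) (hqp : q ≠ p)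
    (hq2 : ¬ q * q ∣ (H.npt hpO G hchi hc x).N0) {A : ValuationSubring Qb}
    (hA : A.LiesOverPrime q) {φ : GQ} (hφ : A.IsFrobeniusAt φ q)
    (h : (H.cd hpO G hchi hc).t x φ ^ 2 ≠ ((q : (H.cd hpO G hchi hc).P x) + 1) ^ 2) :
    ¬ q ∣ (H.npt hpO G hchi hc x).N0 ∧
      qCoeff (H.npt hpO G hchi hc x).g q ^ 2 ≠ ((q : ℂ) + 1) ^ 2 := by
  have hqN : ¬ q ∣ (H.npt hpO G hchi hc x).N0 := fun hqN =>
    h (hin_sq hpO G hchi hc H x hq hqp hqN hq2 hA hφ)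
  refine ⟨hqN, fun h1 => h ?_⟩
  let y : integralClosure ℤ ℂ := ⟨qCoeff (H.npt hpO G hchi hc x).g q,
    isIntegral_qCoeff_prime (H.npt hpO G hchi hc x).hg.1 hq⟩
  have h2 : (H.rep hpO G x).e ((H.rep hpO G x).ρ.trace φ) = (H.np x).τ y :=
    (H.rep hpO G x).trace_frob hq hqN hqp hA hφ rfl
  have h3 : y ^ 2 = ((q : integralClosure ℤ ℂ) + 1) ^ 2 := by
    apply Subtype.ext
    push_cast
    exact h1
  apply (H.rep hpO G x).e_inj
  have h4 : (H.rep hpO G x).e ((H.rep hpO G x).ρ.trace φ ^ 2) =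
      (H.rep hpO G x).e (((q : (H.rep hpO G x).Q) + 1) ^ 2) := by
    rw [map_pow, map_pow, map_add, map_one, map_natCast, h2, ← map_pow, h3, map_pow, map_add,
      map_one, map_natCast]
  exact h4

end Hin

variable {O K : Type} [CommRing O] [IsDomain O] [IsDiscreteValuationRing O]
    [IsAdicComplete (maximalIdeal O) O] [Field K] [Algebra O K] {p r : ℕ}
    [Finite (ResidueField O)] [CharZero O] [Fact p.Prime] [IsAlgClosed K] [FaithfulSMul O K]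
    {F : TWBase O K p r}

namespace Cmp

variable (X : Cmp F) (χ : SQ X.N X.H₀ →* Oˣ) (n : ℕ)

/-- the Hecke algebra with its points -/
abbrev hin : HIn F.D K p (F.S n) (F.bad n) :=
  hinTop F.D F.hres X.B F.ha (X.T n) (F.S n) (F.bad n) (F.hbad n) X.C.dvd (X.hS n) (X.P χ n)

/-- the Hecke algebra with its points -/
abbrev hin₀ : HIn F.D K p F.S₀ F.bad₀ :=
  hinBot F.D F.hres X.B F.ha F.S₀ F.bad₀ F.hbad₀ X.hND X.C.dvd X.hS₀ (X.P₀ χ)

lemma cd_eq : X.cd χ n = (X.hin χ n).cd X.B.hpO F.Ge F.hchi F.hc := rfl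

lemma cd₀_eq : X.cd₀ χ = (X.hin₀ χ).cd X.B.hpO F.Ge F.hchi F.hc := rfl

/-- the level of the newform at a point -/
abbrev lvl (x : (X.cd χ n).X) : ℕ := (X.P χ n).N0 x

/-- the level of the newform at a point -/
abbrev lvl₀ (x : (X.cd₀ χ).X) : ℕ := (X.P₀ χ).N0 x

/-- the newform at a point -/
abbrev nf (x : (X.cd χ n).X) : CuspForm (Gamma0 (X.lvl χ n x)) 2 := (X.P χ n).g x

/-- the newform at a point -/
abbrev nf₀ (x : (X.cd₀ χ).X) : CuspForm (Gamma0 (X.lvl₀ χ x)) 2 := (X.P₀ χ).g x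

lemma lvl_dvd (x : (X.cd χ n).X) : X.lvl χ n x ∣ X.M n * (X.Q₀ * ∏ j, (F.c n).q j) :=
  (X.P χ n).hdvd x

lemma lvl₀_dvd (x : (X.cd₀ χ).X) : X.lvl₀ χ x ∣ X.N * X.Q₀ := (X.P₀ χ).hdvd x

lemma lvl_ne (x : (X.cd χ n).X) : X.lvl χ n x ≠ 0 := NeZero.ne _

/-- type `1` primes -/
lemma not_sq_dvd_of_trivial (x : (X.cd χ n).X) {t b : ℕ} (ht : t.Prime) (hb : X.Q₀ = t * b)
    (hχ : ∀ u : (ZMod X.N)ˣ, ((u : ZMod X.N).val : ZMod b) = 1 → χ (SQ.mk X.H₀ u) = 1) :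
    ¬ t * t ∣ X.lvl χ n x := ((X.P χ n).hram x t ht b hb).2 hχ

/-- other primes -/
lemma not_sq_dvd (x : (X.cd χ n).X) {t : ℕ} (ht : t.Prime) (htQ : ¬ t ∣ X.Q₀)
    (htN : ¬ t * t ∣ X.N) (htq : ∀ j, t ≠ (F.c n).q j) : ¬ t * t ∣ X.lvl χ n x := by
  intro h
  have h1 := h.trans (X.lvl_dvd χ n x)
  have htpr : ¬ t ∣ ∏ j, (F.c n).q j := by
    intro h
    obtain ⟨j, _, hj⟩ := (Prime.dvd_finsetProd_iff ht.prime _).mp h
    exact htq j ((Nat.prime_dvd_prime_iff_eq ht ((F.c n).prime j)).mp hj)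
  have hc1 : Nat.Coprime t (X.Q₀ * ∏ j, (F.c n).q j) := by
    rw [Nat.Prime.coprime_iff_not_dvd ht, ht.dvd_mul]
    rintro (h | h)
    · exact htQ h
    · exact htpr h
  have h2 : t * t ∣ X.M n := (Nat.Coprime.mul_left hc1 hc1).dvd_of_dvd_mul_right h1
  rw [X.hM n] at h2
  have hc2 : Nat.Coprime t (∏ j, (F.c n).q j) := (Nat.Prime.coprime_iff_not_dvd ht).mpr htpr
  exact htN ((Nat.Coprime.mul_left hc2 hc2).dvd_of_dvd_mul_right h2)

/-- **Type `1`.** -/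
theorem t_eq_two (x : (X.cd χ n).X) {t : ℕ} (ht : t.Prime) (htp : t ≠ p)
    (h : ¬ t * t ∣ X.lvl χ n x) : (X.cd χ n).t x (tmv p Fact.out t ht) = 2 :=
  (X.hin χ n).t_tmv_eq_two X.B.hpO F.Ge F.hchi F.hc x ht htp (by rw [pow_two]; exact h)

/-- **Type `χ`.** -/
theorem t_ne_two (x : (X.cd χ n).X) {t b : ℕ} (ht : t.Prime) (htp : t ≠ p) (hb : X.Q₀ = t * b)
    (hcop : ¬ t * t ∣ X.N)
    (hχ : ∃ u : (ZMod X.N)ˣ, ((u : ZMod X.N).val : ZMod b) = 1 ∧ χ (SQ.mk X.H₀ u) ≠ 1)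
    (hunr : ∀ σ ∈ (plv t ht).inertiaSubgroupIn ℚ, F.D.rbar σ = 1) :
    (X.cd χ n).t x (tmv p Fact.out t ht) ≠ 2 :=
  cdTop_t_ne_two F.D F.hres X.B F.ha (X.T n) (F.S n) (F.bad n) (F.hbad n) X.C.dvd (X.hS n)
    (X.P χ n) F.Ge F.hchi F.hc (F.hbar n) ht htp hb hcop hχ hunr x

/-- **The end of level lowering.** -/
theorem descend {N'' Tp : ℕ} (hN : X.N = N'' * Tp) (hTp : Squarefree Tp)
    (hcopT : Nat.Coprime N'' Tp) (hell : Ell p N'') (hpT : ¬ p ∣ Tp) {x : (X.cd 1 n).X}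
    (hx : ∀ (t : ℕ) (ht : t.Prime), t ∣ Tp → (X.cd 1 n).t x (frv t ht) ^ 2 ≠
      ((t : (X.cd 1 n).P x) + 1) ^ 2) :
    haveI : NeZero N'' := ⟨fun h => NeZero.ne X.N (by rw [hN, h, zero_mul])⟩
    locPart (hAct O N'' ⊤ O (prD (F.Dn n))) (mx (fun ℓ => F.a (prI (F.hD n) ℓ))) ≠ ⊥ := by
  haveI : NeZero N'' := ⟨fun h => NeZero.ne X.N (by rw [hN, h, zero_mul])⟩
  haveI : CharZero K := charZero_of_faithful (O := O)
  have hsqQ : ∀ t : ℕ, t.Prime → t ∣ X.Q₀ → ¬ t * t ∣ X.lvl 1 n x := by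
    intro t ht ⟨b, hb⟩
    exact X.not_sq_dvd_of_trivial 1 n x ht hb (fun _ _ => rfl)
  have hsqT : ∀ t : ℕ, t.Prime → t ∣ Tp → ¬ t * t ∣ X.lvl 1 n x := by
    intro t ht htT
    by_cases htQ : t ∣ X.Q₀
    · exact hsqQ t ht htQ
    · refine X.not_sq_dvd 1 n x ht htQ (fun h => ?_) (fun j h => ?_)
      · rw [hN] at h
        have hc : Nat.Coprime t N'' := (Nat.Coprime.coprime_dvd_right htT hcopT).symm
        have h1 : t * t ∣ Tp := (Nat.Coprime.mul_left hc hc).dvd_of_dvd_mul_left h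
        exact ht.one_lt.ne' (Nat.isUnit_iff.mp (hTp t h1))
      · exact X.hnd n j (by rw [← h, hN]; exact htT.mul_left N'')
  exact (X.T n).descend X.B X.C hN hTp hcopT hell ((X.P 1 n).φ_ne x) ((X.P 1 n).φ_T x)
    ((X.P 1 n).φ_D x) ((X.P 1 n).hg x) ((X.P 1 n).hdvd x) ((X.P 1 n).hcoef x) hsqQ
    fun t ht htT => hin_not_dvd X.B.hpO F.Ge F.hchi F.hc (X.hin 1 n) x ht
      (fun h => hpT (h ▸ htT)) (hsqT t ht htT) (plv_over t ht) (frv_spec t ht) (hx t ht htT)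

end Cmp

omit [Field K] [Algebra O K] [IsAlgClosed K] [FaithfulSMul O K] [Fact p.Prime] in
theorem rk_ne_zero {D₀ N : ℕ} [NeZero N] {a : Pr D₀ → ResidueField O}
    (h : locPart (hAct O N ⊤ O (prD D₀)) (mx a) ≠ ⊥) : rk O N a ≠ 0 := by
  intro h0
  obtain ⟨b, -, hb⟩ := exists_bN O N a
  apply h
  rw [hb, Submodule.span_eq_bot]
  rintro _ ⟨i, rfl⟩
  exact absurd (h0 ▸ i.pos : 0 < 0) (lt_irrefl 0)

end Fermat.Agent.TC
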