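import Mathlib
import Fermat.Agent.TC.Sys5
import Fermat.Agent.TFin.RaiseD
import Fermat.Agent.H22.Raise13

/-!
# Level raising data between components
-/

set_option autoImplicit false
set_option linter.style.haveILetI false
set_option linter.unusedSectionVars false

noncomputable section

namespace Fermat.Agent.TC

open CongruenceSubgroup Matrix.SpecialLinearGroup H22 IsLocalRing
open Fermat.Agent.H25 Fermat.Agent.H25.PR Fermat.Agent.CC Fermat.Agent.TW Fermat.Agent.H25.PT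
open Fermat.Agent.H05 Fermat.Agent.H25.TR Fermat.Agent.H25.TWM Fermat.Agent.H25.GE
open ModularFormClass (qCoeff)

lemma condHyp_top (N : ℕ) : CondHyp (⊤ : Subgroup (ZMod N)ˣ) 1 N where
  hN := (one_mul N).symm
  hsq := squarefree_one
  hcop := Nat.coprime_one_left N
  hH _ _ := Subgroup.mem_top _

variable {O K : Type} [CommRing O] [IsDomain O] [IsDiscreteValuationRing O]
    [IsAdicComplete (maximalIdeal O) O] [Field K] [Algebra O K] {p r : ℕ}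

/-- A level of type `Γ₀` with its Taylor-Wiles levels. -/
structure CmpT (F : TWBase O K p r) where
  N : ℕ
  [nzN : NeZero N]
  B : BaseHyp O (⊤ : Subgroup (ZMod N)ˣ) p
  hND : N ∣ F.D₀
  hd : rk O N F.a ≠ 0
  M : ℕ → ℕ
  [nzM : ∀ n, NeZero (M n)]
  hM : ∀ n, M n = N * ∏ j, (F.c n).q j
  hnd : ∀ n j, ¬ (F.c n).q j ∣ N
  T : ∀ n, TWHyp O F.a ((F.c n).Q (hM n) (hnd n)) (F.α n) (F.Dn n) (F.hD n)
  hS : ∀ n, ∀ q : Nat.Primes, (q : ℕ) ∣ M n * p → q ∈ F.S n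
  hS₀ : ∀ q : Nat.Primes, (q : ℕ) ∣ N * p → q ∈ F.S₀

attribute [instance] CmpT.nzN CmpT.nzM

/-- the component -/
@[reducible] def CmpT.toCmp {F : TWBase O K p r} (X : CmpT F) : Cmp F where
  N := X.N
  nzN := X.nzN
  H₀ := ⊤
  Q₀ := 1
  M₀ := X.N
  B := X.B
  C := condHyp_top X.N
  hND := X.hND
  hd := X.hd
  M := X.M
  nzM := X.nzM
  hM := X.hM
  hnd := X.hnd
  T := X.T
  hS := X.hS
  hS₀ := X.hS₀

variable [Finite (ResidueField O)] [CharZero O] [Fact p.Prime] [IsAlgClosed K] [FaithfulSMul O K]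
  {F : TWBase O K p r}

/-- the level `N q` above the level `N` -/
structure RStep (X X' : CmpT F) (q : Nat.Primes) : Prop where
  hN : X'.N = X.N * q
  hqN : ¬ (q : ℕ) ∣ X.N
  hR : RHyp X.N q F.a

namespace RStep

variable {X X' : CmpT F} {q : Nat.Primes} (h : RStep X X' q)

include h

lemma hqD : (q : ℕ) ∣ F.D₀ := ((Dvd.intro_left X.N h.hN.symm).trans X'.hND)

lemma hqM (n : ℕ) : ¬ (q : ℕ) ∣ X.M n := by
  intro h1
  rw [X.hM n] at h1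
  rcases q.2.dvd_mul.mp h1 with h2 | h2
  · exact h.hqN h2
  · obtain ⟨j, _, hj⟩ := (Prime.dvd_finsetProd_iff q.2.prime _).mp h2
    have h3 := (Nat.prime_dvd_prime_iff_eq q.2 ((F.c n).prime j)).mp hj
    exact (X.T n).hqD j (h3 ▸ h.hqD : (F.c n).q j ∣ F.D₀)

lemma rz (n : ℕ) : RzQ (X.toCmp.Q n) (X'.toCmp.Q n) q :=
  ⟨h.hN, q.2, h.hqM n, rfl, rfl, HEq.rfl⟩

lemma exists_w (n : ℕ) : Nonempty (WDat (X.M n) q) := by
  haveI : Fact (q : ℕ).Prime := ⟨q.2⟩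
  obtain ⟨w, -⟩ := exists_WDat (X.M n) q (X.M n) (dvd_refl _)
    ((Nat.Prime.coprime_iff_not_dvd q.2).mpr (h.hqM n)).symm
  exact ⟨w⟩

lemma exists_w₀ : Nonempty (WDat X.N q) := by
  haveI : Fact (q : ℕ).Prime := ⟨q.2⟩
  obtain ⟨w, -⟩ := exists_WDat X.N q X.N (dvd_refl _)
    ((Nat.Prime.coprime_iff_not_dvd q.2).mpr h.hqN).symm
  exact ⟨w⟩

/-- matrices -/
def w (n : ℕ) : WDat (X.M n) q := (h.exists_w n).some

/-- matrices -/
def w₀ : WDat X.N q := h.exists_w₀.some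

end RStep

section Sys

variable {κ κ' : Type} (X : κ → CmpT F) (E : Extra F κ')

/-- the system -/
def sysT : Sys F.D p r (κ ⊕ κ') := Cmp.sysE (fun i => (X i).toCmp) (fun _ => 1) E

/-- the modules -/
def mdT (i : κ) (n : ℕ) : MData ((sysT X E).H n (Sum.inl i)) p ((sysT X E).qv n)
    ((sysT X E).e n) (rk O (X i).N F.a) := (X i).toCmp.md 1 n

/-- the bottom level -/
def bdT (i : κ) : (sysT X E).BData (Sum.inl i) (mdT X E i) :=
  Cmp.bdE (fun i => (X i).toCmp) (fun _ => 1) E i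

omit [Finite (ResidueField O)] [CharZero O] [Fact p.Prime] [IsAlgClosed K] [FaithfulSMul O K] in
lemma bot_smul (X : CmpT F) (c : O) (x : Mo0 (N := X.N) ⊤ O F.a 1) :
    HT.toEnd (MoA0 (N := X.N) ⊤ O F.a 1) (algebraMap O (MoB0 (N := X.N) ⊤ O F.a 1) c) x = c • x := by
  rw [AlgHom.commutes, Module.algebraMap_end_apply]

variable {X} {i i' : κ} {q : Nat.Primes} (h : RStep (X i) (X i') q) {ϖ : O}
  (hϖ : maximalIdeal O = Ideal.span {ϖ}) (hϖ0 : ϖ ≠ 0)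

include hϖ hϖ0 in
/-- **The raising data.** -/
def raiseD : Sys.RaiseD (sysT X E) (bdT X E i) (bdT X E i') q ϖ :=
  haveI : NeZero (q : ℕ) := ⟨q.2.ne_zero⟩
  { i₁ := fun n => (h.rz n).i1 F.a (F.α n) h.hqD
    i₂ := fun n => (h.rz n).i2 F.a (F.α n) h.hqD (h.w n)
    j₁ := fun n => (h.rz n).j1 F.a (F.α n) h.hqD
    j₂ := fun n => (h.rz n).j2 F.a (F.α n) h.hqD (h.w n)
    I₁ := ((h.rz 0).lv0.bI1 q.2 F.a h.hqD).toAddMonoidHom
    I₂ := ((h.rz 0).lv0.bI2 q.2 F.a h.hqD h.w₀).toAddMonoidHom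
    J₁ := ((h.rz 0).lv0.bJ1 q.2 F.a h.hqD).toAddMonoidHom
    J₂ := ((h.rz 0).lv0.bJ2 q.2 F.a h.hqD h.w₀).toAddMonoidHom
    f_i₁ := fun n x => (h.rz n).f_i1 h.hqD ((X i).toCmp.G n) ((X i').toCmp.G n) x
    f_i₂ := fun n x => (h.rz n).f_i2 h.hqD (h.w n) h.w₀ ((X i).toCmp.G n) ((X i').toCmp.G n) x
    f_j₁ := fun n x => (h.rz n).f_j1 h.hqD ((X i).toCmp.G n) ((X i').toCmp.G n) x
    f_j₂ := fun n x => (h.rz n).f_j2 h.hqD (h.w n) h.w₀ ((X i).toCmp.G n) ((X i').toCmp.G n) x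
    bad := F.bad
    i₁_T := fun n ℓ hℓ hb x => by
      have hℓD : ¬ ℓ ∣ F.Dn n := fun h => hb (F.hbad n ℓ hℓ (h.mul_right p))
      have h1 := (X i).toCmp.cd_T 1 n ⟨ℓ, hℓ, hℓD⟩
      have h2 := (X i').toCmp.cd_T 1 n ⟨ℓ, hℓ, hℓD⟩
      exact (congrArg (fun b => (h.rz n).i1 F.a (F.α n) h.hqD
        (HT.toEnd (MoA ((X i).toCmp.Q n) ⊤ O F.a (F.α n) 1 (F.hD n)) b x)) h1).trans
        (((h.rz n).i1_T h.hqD ⟨ℓ, hℓ, hℓD⟩ x).trans
        (congrArg (fun b => HT.toEnd (MoA ((X i').toCmp.Q n) ⊤ O F.a (F.α n) 1 (F.hD n)) b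
          ((h.rz n).i1 F.a (F.α n) h.hqD x)) h2).symm)
    i₂_T := fun n ℓ hℓ hb x => by
      have hℓD : ¬ ℓ ∣ F.Dn n := fun h => hb (F.hbad n ℓ hℓ (h.mul_right p))
      have h1 := (X i).toCmp.cd_T 1 n ⟨ℓ, hℓ, hℓD⟩
      have h2 := (X i').toCmp.cd_T 1 n ⟨ℓ, hℓ, hℓD⟩
      exact (congrArg (fun b => (h.rz n).i2 F.a (F.α n) h.hqD (h.w n)
        (HT.toEnd (MoA ((X i).toCmp.Q n) ⊤ O F.a (F.α n) 1 (F.hD n)) b x)) h1).trans
        (((h.rz n).i2_T h.hqD (h.w n) ⟨ℓ, hℓ, hℓD⟩ x).trans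
        (congrArg (fun b => HT.toEnd (MoA ((X i').toCmp.Q n) ⊤ O F.a (F.α n) 1 (F.hD n)) b
          ((h.rz n).i2 F.a (F.α n) h.hqD (h.w n) x)) h2).symm)
    j₁_T := fun n ℓ hℓ hb x => by
      have hℓD : ¬ ℓ ∣ F.Dn n := fun h => hb (F.hbad n ℓ hℓ (h.mul_right p))
      have h1 := (X i).toCmp.cd_T 1 n ⟨ℓ, hℓ, hℓD⟩
      have h2 := (X i').toCmp.cd_T 1 n ⟨ℓ, hℓ, hℓD⟩
      exact (congrArg (fun b => (h.rz n).j1 F.a (F.α n) h.hqD
        (HT.toEnd (MoA ((X i').toCmp.Q n) ⊤ O F.a (F.α n) 1 (F.hD n)) b x)) h2).trans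
        (((h.rz n).j1_T h.hqD ⟨ℓ, hℓ, hℓD⟩ x).trans
        (congrArg (fun b => HT.toEnd (MoA ((X i).toCmp.Q n) ⊤ O F.a (F.α n) 1 (F.hD n)) b
          ((h.rz n).j1 F.a (F.α n) h.hqD x)) h1).symm)
    j₂_T := fun n ℓ hℓ hb x => by
      have hℓD : ¬ ℓ ∣ F.Dn n := fun h => hb (F.hbad n ℓ hℓ (h.mul_right p))
      have h1 := (X i).toCmp.cd_T 1 n ⟨ℓ, hℓ, hℓD⟩
      have h2 := (X i').toCmp.cd_T 1 n ⟨ℓ, hℓ, hℓD⟩
      exact (congrArg (fun b => (h.rz n).j2 F.a (F.α n) h.hqD (h.w n)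
        (HT.toEnd (MoA ((X i').toCmp.Q n) ⊤ O F.a (F.α n) 1 (F.hD n)) b x)) h2).trans
        (((h.rz n).j2_T h.hqD (h.w n) ⟨ℓ, hℓ, hℓD⟩ x).trans
        (congrArg (fun b => HT.toEnd (MoA ((X i).toCmp.Q n) ⊤ O F.a (F.α n) 1 (F.hD n)) b
          ((h.rz n).j2 F.a (F.α n) h.hqD (h.w n) x)) h1).symm)
    Tq := fun n => (h.rz n).Tq F.a (F.α n) h.hqD (h.w n)
    comp11 := fun n x => (h.rz n).j1_i1 h.hqD x
    comp12 := fun n x => rfl
    comp21 := fun n x => (h.rz n).j2_i1 h.hqD (h.w n) x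
    comp22 := fun n x => (h.rz n).j2_i2 h.hqD (h.w n) ((X i).toCmp.hodd n) x
    tf := fun x hx => Mo0_tf hϖ0 x ((bot_smul (X i') ϖ x).symm.trans hx)
    ihara := fun a b w hab => by
      obtain ⟨⟨a', ha'⟩, ⟨b', hb'⟩⟩ := (h.rz 0).lv0.bot_ihara q.2 h.hqD h.w₀ h.hR hϖ a b w
        (hab.trans (bot_smul (X i') ϖ w))
      exact ⟨⟨a', ha'.trans (bot_smul (X i) ϖ a').symm⟩, ⟨b', hb'.trans (bot_smul (X i) ϖ b').symm⟩⟩
    dual := fun a b => by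
      obtain ⟨z, hz1, hz2⟩ := (h.rz 0).lv0.bot_dual q.2 h.hqD h.w₀ (X i).B.hp2 (X i).B.hpO
        (X i).B.hell h.hR a b
      refine ⟨z, 0, 0, ?_, ?_⟩
      · rw [smul_zero, add_zero]
        exact hz1.symm
      · rw [smul_zero, add_zero]
        exact hz2.symm }

end Sys

end Fermat.Agent.TC
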