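import Mathlib
import Fermat.Agent.TC.Rs1
import Fermat.Agent.TFin.ML
import Fermat.Agent.H19.HeckeBound2

/-!
# Modularity lifting for levels of type `Γ₀`
-/

set_option autoImplicit false
set_option linter.style.haveILetI false
set_option linter.unusedSectionVars false

noncomputable section

namespace Fermat.Agent.TC

open CongruenceSubgroup Matrix.SpecialLinearGroup H22 IsLocalRing
open Fermat.Agent.H25 Fermat.Agent.H25.PR Fermat.Agent.CC Fermat.Agent.TW Fermat.Agent.H25.PT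
open Fermat.Agent.H05 Fermat.Agent.H25.TR Fermat.Agent.H25.TWM Fermat.Agent.H25.GE
open ModularFormClass (qCoeff)

section Hin

variable {O k : Type} [CommRing O] [IsDomain O] [IsDiscreteValuationRing O]
  [IsAdicComplete (maximalIdeal O) O] [Finite (ResidueField O)] [CharZero O] [Field k]
  {D : RD O k}
  {K : Type} [Field K] [IsAlgClosed K] [Algebra O K] [FaithfulSMul O K]
  {p : ℕ} [hp : Fact p.Prime] (hpO : (p : O) ∈ maximalIdeal O) (G : Geo p)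
  (hchi : IsCyc p D.chi) (hc : D.chi D.c = -1)
  {S : Finset Nat.Primes} {bad : Finset ℕ} (H : HIn D K p S bad)
  (x : (H.cd hpO G hchi hc).X)

/-- **The Hecke bound.** -/
theorem hin_bd {q : ℕ} (hq : q.Prime) (hqp : q ≠ p)
    (hqN : ¬ q ∣ (H.npt hpO G hchi hc x).N0) {A : ValuationSubring Qb}
    (hA : A.LiesOverPrime q) {φ : GQ} (hφ : A.IsFrobeniusAt φ q) :
    (H.cd hpO G hchi hc).t x φ ^ 2 ≠ ((q : (H.cd hpO G hchi hc).P x) + 1) ^ 2 := by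
  haveI : CharZero K := charZero_of_injective_algebraMap (FaithfulSMul.algebraMap_injective O K)
  intro h
  let y : integralClosure ℤ ℂ := ⟨qCoeff (H.npt hpO G hchi hc x).g q,
    isIntegral_qCoeff_prime (H.npt hpO G hchi hc x).hg.1 hq⟩
  have h2 : (H.rep hpO G x).e ((H.rep hpO G x).ρ.trace φ) = (H.np x).τ y :=
    (H.rep hpO G x).trace_frob hq hqN hqp hA hφ rfl
  refine H19.map_sq_ne (H.npt hpO G hchi hc x).hg.1 hq hqN (H.np x).τ (x := y) rfl ?_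
  have h3 : (H.rep hpO G x).ρ.trace φ ^ 2 = ((q : (H.rep hpO G x).Q) + 1) ^ 2 := h
  have h4 := congrArg (H.rep hpO G x).e h3
  rw [map_pow, map_pow, map_add, map_one, map_natCast, h2] at h4
  exact h4

/-- value of a point at the trace of Frobenius -/
theorem hin_frob {q : ℕ} (hq : q.Prime) (hqp : q ≠ p)
    (hqN : ¬ q ∣ (H.npt hpO G hchi hc x).N0) {A : ValuationSubring Qb}
    (hA : A.LiesOverPrime q) {φ : GQ} (hφ : A.IsFrobeniusAt φ q) (hbar : HBar D S)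
    {z : integralClosure ℤ ℂ} (hz : (z : ℂ) = qCoeff (H.npt hpO G hchi hc x).g q) :
    H.pt x (((H.cd hpO G hchi hc).C hbar).t φ) = (H.npt hpO G hchi hc x).τ z := by
  have h1 : (H.rep hpO G x).e ((H.rep hpO G x).ρ.trace φ) = (H.np x).τ z :=
    (H.rep hpO G x).trace_frob hq hqN hqp hA hφ hz
  have h2 : H.evQ hpO G x (((H.cd hpO G hchi hc).C hbar).t φ) = (H.rep hpO G x).ρ.trace φ :=
    (H.cd hpO G hchi hc).ev_C hbar φ x
  rw [← h2, HIn.e_evQ] at h1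
  exact h1

end Hin

variable {O K : Type} [CommRing O] [IsDomain O] [IsDiscreteValuationRing O]
    [IsAdicComplete (maximalIdeal O) O] [Field K] [Algebra O K] {p r : ℕ}
    [Finite (ResidueField O)] [CharZero O] [Fact p.Prime] [IsAlgClosed K] [FaithfulSMul O K]
    {F : TWBase O K p r}

namespace CmpT

variable (X : CmpT F) (n : ℕ)

include X in
lemma ne_tw {q : ℕ} (hqD : q ∣ F.D₀) (j : Fin r) : q ≠ (F.c n).q j := fun h =>
  (X.T n).hqD j (h ▸ hqD : (F.c n).q j ∣ F.D₀)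

/-- the level of a point divides `M ∏ q_j` -/
lemma lvl_dvd (x : (X.toCmp.cd 1 n).X) : X.toCmp.lvl 1 n x ∣ X.M n * (1 * ∏ j, (F.c n).q j) :=
  X.toCmp.lvl_dvd 1 n x

lemma not_dvd_lvl (x : (X.toCmp.cd 1 n).X) {q : ℕ} (hq : q.Prime) (hqN : ¬ q ∣ X.N)
    (hqD : q ∣ F.D₀) : ¬ q ∣ X.toCmp.lvl 1 n x := by
  intro h
  have hpr : ¬ q ∣ ∏ j, (F.c n).q j := by
    intro h
    obtain ⟨j, _, hj⟩ := (Prime.dvd_finsetProd_iff hq.prime _).mp h
    exact X.ne_tw n hqD j ((Nat.prime_dvd_prime_iff_eq hq ((F.c n).prime j)).mp hj)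
  rcases hq.dvd_mul.mp (h.trans (X.lvl_dvd n x)) with h | h
  · rw [X.hM n] at h
    rcases hq.dvd_mul.mp h with h | h
    · exact hqN h
    · exact hpr h
  · rw [one_mul] at h
    exact hpr h

lemma not_sq_dvd_lvl (x : (X.toCmp.cd 1 n).X) {q : ℕ} (hq : q.Prime) (hqN : ¬ q * q ∣ X.N)
    (hqD : q ∣ F.D₀) : ¬ q * q ∣ X.toCmp.lvl 1 n x :=
  X.toCmp.not_sq_dvd 1 n x hq (fun h => hq.one_lt.ne' (Nat.dvd_one.mp h)) hqN (X.ne_tw n hqD)

lemma lvl₀_dvd (x : (X.toCmp.cd₀ 1).X) : X.toCmp.lvl₀ 1 x ∣ X.N := by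
  have h := X.toCmp.lvl₀_dvd 1 x
  rwa [mul_one] at h

/-- unramified points -/
theorem unr (x : (X.toCmp.cd 1 n).X) {q : ℕ} (hq : q.Prime) (hqp : q ≠ p) (hqN : ¬ q ∣ X.N)
    (hqD : q ∣ F.D₀) (g : GQ) : (X.toCmp.cd 1 n).t x (tmv p Fact.out q hq * g) =
      (X.toCmp.cd 1 n).t x g :=
  hin_unr X.B.hpO F.Ge F.hchi F.hc (X.toCmp.hin 1 n) x hq hqp (X.not_dvd_lvl n x hq hqN hqD)
    (plv_over q hq) (tmv_spec p Fact.out q hq).2.1 g

/-- unipotent inertia -/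
theorem t_eq_two (x : (X.toCmp.cd 1 n).X) {q : ℕ} (hq : q.Prime) (hqp : q ≠ p)
    (hqN : ¬ q * q ∣ X.N) (hqD : q ∣ F.D₀) :
    (X.toCmp.cd 1 n).t x (tmv p Fact.out q hq) = 2 :=
  X.toCmp.t_eq_two 1 n x hq hqp (X.not_sq_dvd_lvl n x hq hqN hqD)

/-- unipotent inertia at the bottom level -/
theorem t_eq_two₀ (x : (X.toCmp.cd₀ 1).X) {q : ℕ} (hq : q.Prime) (hqp : q ≠ p)
    (hqN : ¬ q * q ∣ X.N) : (X.toCmp.cd₀ 1).t x (tmv p Fact.out q hq) = 2 :=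
  hin_inertia X.B.hpO F.Ge F.hchi F.hc (X.toCmp.hin₀ 1) x hq hqp
    (fun h => hqN (h.trans (X.lvl₀_dvd x))) (plv_over q hq) (tmv_spec p Fact.out q hq).2.1

/-- the Hecke bound at the bottom level -/
theorem bd₀ (x : (X.toCmp.cd₀ 1).X) {q : ℕ} (hq : q.Prime) (hqp : q ≠ p)
    (hqN : ¬ q ∣ X.N) : (X.toCmp.cd₀ 1).t x (frv q hq) ^ 2 ≠
      ((q : (X.toCmp.cd₀ 1).P x) + 1) ^ 2 :=
  hin_bd X.B.hpO F.Ge F.hchi F.hc (X.toCmp.hin₀ 1) x hq hqp
    (fun h => hqN (h.trans (X.lvl₀_dvd x))) (plv_over q hq) (frv_spec q hq)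

/-- Steinberg points at the bottom level -/
theorem sq₀ (x : (X.toCmp.cd₀ 1).X) {q : ℕ} (hq : q.Prime) (hqp : q ≠ p)
    (hqN : ¬ q * q ∣ X.N) (h : q ∣ X.toCmp.lvl₀ 1 x) : (X.toCmp.cd₀ 1).t x (frv q hq) ^ 2 =
      ((q : (X.toCmp.cd₀ 1).P x) + 1) ^ 2 :=
  hin_sq X.B.hpO F.Ge F.hchi F.hc (X.toCmp.hin₀ 1) x hq hqp h
    (fun h => hqN (h.trans (X.lvl₀_dvd x))) (plv_over q hq) (frv_spec q hq)

end CmpT

section Chain

variable {m : ℕ} {tv : Fin m → Nat.Primes} {X : Fin (m + 1) → CmpT F} {j₀ : Fin (m + 1)}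
  (hstep : ∀ t : Fin m, j₀ ≤ t.castSucc → RStep (X t.castSucc) (X t.succ) (tv t))

include hstep in
lemma chain_dvd {j : Fin (m + 1)} (hj : j₀ ≤ j) (j' : Fin (m + 1)) (hjj : j ≤ j') :
    (X j).N ∣ (X j').N := by
  induction j' using Fin.induction with
  | zero =>
    have h : j = 0 := le_antisymm hjj (Fin.zero_le j)
    rw [h]
  | succ i ih =>
    rcases eq_or_lt_of_le hjj with h | h
    · rw [h]
    · have h1 : j ≤ i.castSucc := Fin.le_castSucc_iff.mpr h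
      refine (ih h1).trans ?_
      rw [(hstep i (hj.trans h1)).hN]
      exact dvd_mul_right _ _

include hstep in
lemma chain_not_dvd {j : Fin (m + 1)} (hj : j₀ ≤ j) {t : Fin m} (hjt : j ≤ t.castSucc) :
    ¬ (tv t : ℕ) ∣ (X j).N := fun h =>
  (hstep t (hj.trans hjt)).hqN (h.trans (chain_dvd hstep hj _ hjt))

end Chain

/-- the two remaining inputs of the raising argument -/
structure RIn {X X' : CmpT F} {q : Nat.Primes} (h : RStep X X' q) : Prop where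
  hTq : haveI : NeZero (q : ℕ) := ⟨q.2.ne_zero⟩
    ∀ (n : ℕ) (x : Mo (X.toCmp.Q n) ⊤ O F.a (F.α n) 1),
    (h.rz n).Tq F.a (F.α n) h.hqD (h.w n) x =
      HT.toEnd (MoA (X.toCmp.Q n) ⊤ O F.a (F.α n) 1 (F.hD n))
        (((X.toCmp.cd 1 n).C (F.hbar n)).t (frv q q.2)) x
  hnew : haveI : NeZero (q : ℕ) := ⟨q.2.ne_zero⟩
    ∀ y : (X'.toCmp.cd₀ 1).X, ¬ (q : ℕ) ∣ X'.toCmp.lvl₀ 1 y →
    ∃ b : MoB0 (N := X'.N) ⊤ O F.a 1, (X'.toCmp.P₀ 1).pt y b ≠ 0 ∧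
      ∀ x : Mo0 (N := X'.N) ⊤ O F.a 1, ∃ u v : Mo0 (N := X.N) ⊤ O F.a 1,
        HT.toEnd (MoA0 (N := X'.N) ⊤ O F.a 1) b x =
          (h.rz 0).lv0.bI1 q.2 F.a h.hqD u + (h.rz 0).lv0.bI2 q.2 F.a h.hqD h.w₀ v

section Surj

variable {κ : Type} [Finite κ] [Nonempty κ] {S : Finset Nat.Primes} {bad : Finset ℕ}

/-- the projection of the trace ring to a component generated by traces is surjective -/
theorem pr_surj {k : Type} [Field k] {D : RD O k} (H : κ → CData D S bad) (hbar : HBar D S) (i : κ)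
    (T : Set ℕ) (hT : ∀ ℓ ∈ T, ℓ.Prime ∧ ℓ ∉ bad)
    (hgen : Algebra.adjoin O ((H i).T '' T) = ⊤) : Function.Surjective (pr H hbar i) := by
  rw [← AlgHom.range_eq_top, eq_top_iff, ← hgen, Algebra.adjoin_le_iff]
  rintro _ ⟨ℓ, hℓ, rfl⟩
  obtain ⟨h1, h2⟩ := hT ℓ hℓ
  refine ⟨(CA H hbar).t (frv ℓ h1), ?_⟩
  change pr H hbar i _ = _
  rw [pr_t]
  exact (H i).C_frob hbar ℓ h1 h2 _ (plv_over ℓ h1) _ (frv_spec ℓ h1)

omit [IsAlgClosed K] [FaithfulSMul O K] [CharZero O] [Finite (ResidueField O)] [Fact p.Prime]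
  [Field K] [Algebra O K] in
theorem MoB0_gen {N : ℕ} [NeZero N] (H₀ : Subgroup (ZMod N)ˣ) {D₀ : ℕ} (a : Pr D₀ → ResidueField O)
    (χ : SQ N H₀ →* Oˣ) :
    Algebra.adjoin O (Set.range fun ℓ : Pr D₀ => MoT0 H₀ O a χ ℓ) = ⊤ := by
  rw [eq_top_iff]
  intro b _
  obtain ⟨P, rfl⟩ := HT.exists_rep _ b
  induction P using MvPolynomial.induction_on with
  | C c => exact Subalgebra.algebraMap_mem _ c
  | add P Q hP hQ => rw [map_add]; exact add_mem (hP trivial) (hQ trivial)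
  | mul_X P i hP =>
    rw [map_mul]
    refine mul_mem (hP trivial) ?_
    rcases i with ℓ | u
    · exact Algebra.subset_adjoin ⟨ℓ, rfl⟩
    · have h1 : (Ideal.Quotient.mk _ (MvPolynomial.X (Sum.inr u)) : MoB0 H₀ O a χ) =
          LvD O H₀ a (fS0 H₀) (fun s => (χ s : O)) (dvd_refl D₀) (jD0 H₀) u := rfl
      have h2 : u = 1 := rfl
      rw [h1, h2, map_one]
      exact one_mem _

end Surj

section Final

variable {κ' : Type} [Finite κ'] (E : Extra F κ') {m : ℕ} {tv : Fin m → Nat.Primes}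
  (X : Fin (m + 1) → CmpT F) {ϖ : O}

omit [Finite κ'] in
lemma pr_surj₀ {κ : Type} [Finite κ] [Finite κ'] [Nonempty κ] (X : κ → CmpT F) (i : κ)
    (hbad : ∀ ℓ : ℕ, ℓ.Prime → ℓ ∈ F.bad₀ → ℓ ∣ F.D₀) :
    Function.Surjective (pr (sysT X E).H₀ (sysT X E).hbar₀ (Sum.inl i)) := by
  refine pr_surj (sysT X E).H₀ (sysT X E).hbar₀ (Sum.inl i) {ℓ | ℓ.Prime ∧ ¬ ℓ ∣ F.D₀}
    (fun ℓ hℓ => ⟨hℓ.1, fun h => hℓ.2 (hbad ℓ hℓ.1 h)⟩) ?_
  refine eq_top_iff.mpr (((MoB0_gen (⊤ : Subgroup (ZMod (X i).N)ˣ) F.a 1).ge).trans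
    (Algebra.adjoin_mono ?_))
  rintro _ ⟨ℓ, rfl⟩
  exact ⟨ℓ, ℓ.2, (X i).toCmp.cd₀_T 1 ℓ⟩

set_option maxHeartbeats 1000000 in
/-- **MODULARITY LIFTING** for levels of type `Γ₀`. -/
theorem liftT (hϖ : maximalIdeal O = Ideal.span {ϖ}) (hϖ0 : ϖ ≠ 0) (hT : FrD F.D p tv)
    (ε : Fin m → O) (hε : ∀ t, ε t ^ 2 = 1)
    (htr : ∀ t, (F.D.rbar (frv (tv t) (tv t).2)).trace = F.D.res (ε t * (((tv t : ℕ) : O) + 1)))
    (he : ∀ n j, n ≤ (F.c n).e j)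
    (hSel : ∀ n, SelB ((sysT X E).H n) ((sysT X E).hbar n) r tv)
    (j₀ : Fin (m + 1))
    (hstep : ∀ t : Fin m, j₀ ≤ t.castSucc → RStep (X t.castSucc) (X t.succ) (tv t))
    (hin : ∀ (t : Fin m) (h : j₀ ≤ t.castSucc), RIn (hstep t h))
    (hD₀ : ∀ t, (tv t : ℕ) ∣ F.D₀)
    (hsq : ∀ t, ¬ (tv t : ℕ) * (tv t : ℕ) ∣ (X (Fin.last m)).N)
    (hbad : ∀ ℓ : ℕ, ℓ.Prime → ℓ ∈ F.bad₀ → ℓ ∣ F.D₀)
    (hst : ∀ (n : ℕ) (t : Fin m), t.castSucc < j₀ → ∀ x,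
      ((X j₀).toCmp.cd 1 n).t x (frv (tv t) (tv t).2) =
        algebraMap O _ (ε t * (((tv t : ℕ) : O) + 1)))
    (w : κ') (xw : (E.H₀ w).B →ₐ[O] O) (tW : GQ → O)
    (hW : ∀ g, xw (((E.H₀ w).C F.hbar₀).t g) = tW g)
    (hW1 : ∀ t, tW (tmv p (Fact.out : p.Prime) (tv t) (tv t).2) = 2)
    (hW2 : ∀ t, tW (frv (tv t) (tv t).2) = ε t * (((tv t : ℕ) : O) + 1)) :
    ∃ y : ((X (Fin.last m)).toCmp.cd₀ 1).X, ∀ g,
      ((X (Fin.last m)).toCmp.cd₀ 1).t y g = algebraMap O _ (tW g) := by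
  have hne : ∀ t, (tv t : ℕ) ≠ p := fun t => (hT.ne t).symm
  have hsq' : ∀ (j : Fin (m + 1)) (t : Fin m), j₀ ≤ j → ¬ (tv t : ℕ) * (tv t : ℕ) ∣ (X j).N :=
    fun j t hj h => hsq t (h.trans (chain_dvd hstep hj _ (Fin.le_last j)))
  exact Sys.modularityLifting (Y := sysT X E) (X (Fin.last m)).B.hpO hϖ hT ε hε htr he hSel
    (fun j => Sum.inl j) (fun j => rk O (X j).N F.a) (fun j n => mdT X E j n)
    (fun j => bdT X E j) j₀ (fun t h => raiseD E (hstep t h) hϖ hϖ0)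
    (fun n j t hj hjt x g => (X j).unr n x (tv t).2 (hne t) (chain_not_dvd hstep hj hjt) (hD₀ t) g)
    (fun n j t hj _ x => (X j).t_eq_two n x (tv t).2 (hne t) (hsq' j t hj) (hD₀ t))
    hst
    (fun t h n x => (hin t h).hTq n x)
    (fun t h y => (X t.succ).t_eq_two₀ y (tv t).2 (hne t)
      (hsq' _ t (h.trans (Fin.castSucc_lt_succ).le)))
    (fun t h y => by
      by_cases hq : (tv t : ℕ) ∣ (X t.succ).toCmp.lvl₀ 1 y
      · exact Or.inl ((X t.succ).sq₀ y (tv t).2 (hne t)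
          (hsq' _ t (h.trans (Fin.castSucc_lt_succ).le)) hq)
      · obtain ⟨b, hb1, hb2⟩ := (hin t h).hnew y hq
        obtain ⟨b', hb'⟩ := pr_surj₀ E X t.succ hbad b
        refine Or.inr ⟨b', ?_, fun x => ?_⟩
        · intro h0
          apply hb1
          have h1 := ((X t.succ).toCmp.hin₀ 1).e_evQ (X t.succ).B.hpO F.Ge y b
          rw [← h1]
          have h2 : ((X t.succ).toCmp.hin₀ 1).evQ (X t.succ).B.hpO F.Ge y b = 0 := by
            have h3 : ((X t.succ).toCmp.cd₀ 1).ev y b = 0 := by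
              rw [← hb']
              exact h0
            exact h3
          rw [h2, map_zero]
        · obtain ⟨u, v, huv⟩ := hb2 x
          refine ⟨u, v, ?_⟩
          refine Eq.trans ?_ huv
          exact congrArg (fun b => HT.toEnd (MoA0 (N := (X t.succ).N) ⊤ O F.a 1) b x) hb')
    (fun t h y => (X t.castSucc).bd₀ y (tv t).2 (hne t) (hstep t h).hqN)
    (X j₀).hd (Sum.inr w) xw tW hW hW1 hW2

end Final

end Fermat.Agent.TC
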