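import Mathlib
import Fermat.Agent.TC.Pack8

/-!
# Descent of eigenclasses with general characters
-/

set_option autoImplicit false
set_option linter.style.haveILetI false
set_option linter.unusedSectionVars false

noncomputable section

universe u

namespace Fermat.Agent.TC

open CongruenceSubgroup Matrix.SpecialLinearGroup H22 IsLocalRing
open Fermat.Agent.H25.TWM
open scoped MatrixGroups
open ModularFormClass (qCoeff)

section Core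

variable {p M : ℕ} [NeZero M] [Fact p.Prime] {H : Subgroup (ZMod M)ˣ}
  {O : Type u} [CommRing O] [IsDomain O] [IsDiscreteValuationRing O]
  [CharZero O] [Finite (ResidueField O)]
  [IsAdicComplete (maximalIdeal O) O] {D : ℕ} (a : Pr D → ResidueField O)
  {K : Type u} [Field K] [CharZero K] [IsAlgClosed K] [Algebra O K] {Q₁ M₁ : ℕ}

/-- **Descent of an eigenclass with a character.** -/
theorem descend_eig (C : CondHyp H Q₁ M₁) (hp2 : p ≠ 2) (hpO : (p : O) ∈ maximalIdeal O)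
    (hΔ : IsPGroup p ((ZMod M)ˣ ⧸ H)) (hD0 : D ≠ 0) (hMD : M ∣ D) (ℓ₀ : Pr D)
    (hℓ₀ : ((M * Q₁ : ℕ) : ℤ) ∣ ((ℓ₀ : ℕ) : ℤ) - 1)
    (hℓ₀' : a ℓ₀ ≠ ((ℓ₀ : ℕ) : ResidueField O) + 1)
    {M' T : ℕ} [NeZero M'] (hM' : M = M' * T) (hT : Squarefree T) (hcop : Nat.Coprime M' T)
    (hQM' : Q₁ ∣ M') (hell : Ell p M')
    {φ : HM (GamH M H) K} (hφ0 : φ ≠ 0) {y : Pr D → K}
    (hφT : ∀ ℓ : Pr D, TP K M H K (prD D ℓ) φ = y ℓ • φ) {ψ₀ : (ZMod M)ˣ ⧸ H → K}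
    (hφD : ∀ g, diaQ K M H K g φ = ψ₀ g • φ)
    (hres : ∀ P : MvPolynomial (Pr D ⊕ ((ZMod M)ˣ ⧸ H)) O,
      evR (Sum.elim a (fun _ => 1)) P ≠ 0 → MvPolynomial.aeval (Sum.elim y ψ₀) P ≠ 0)
    {N0 : ℕ} [NeZero N0] {g : CuspForm (Gamma0 N0) 2} {τ : integralClosure ℤ ℂ →+* K}
    (hg : g.IsNewform) (hN0 : N0 ∣ M * Q₁)
    (hcoef : ∀ ℓ : Pr D, ∃ z : integralClosure ℤ ℂ, (z : ℂ) = qCoeff g ℓ ∧ τ z = y ℓ)
    (hgt : ∀ t : ℕ, t.Prime → t ∣ T → ¬ t ∣ N0 ∧ qCoeff g t ^ 2 ≠ ((t : ℂ) + 1) ^ 2) :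
    locPart (hAct O M' ⊤ O (prD D)) (mx a) ≠ ⊥ := by
  classical
  have hodd := odd_card hp2 hΔ
  obtain ⟨n, hn⟩ := hodd
  have hfxn : hfx M H = n + 1 := by
    rw [hfx, hn]; omega
  haveI : NeZero Q₁ := ⟨fun h => NeZero.ne M (by rw [C.hN, h, zero_mul])⟩
  -- the character
  obtain ⟨ψ', hψ'⟩ := exists_char (χ := ψ₀) (mem_diaEig.mpr hφD) hφ0
  let ψ : (ZMod M)ˣ →* Kˣ := ψ'.comp (QuotientGroup.mk' H)
  have hψ : ∀ u : (ZMod M)ˣ, ((ψ u : Kˣ) : K) = ψ₀ (u : (ZMod M)ˣ ⧸ H) := fun u => hψ' _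
  have hdia : ∀ u : (ZMod M)ˣ, diaQ K M H K (u : (ZMod M)ˣ ⧸ H) φ = (ψ u : K) • φ := by
    intro u
    rw [hφD, hψ]
  have hψn : ∀ u, ψ u ^ (2 * n + 1) = 1 := by
    intro u
    change ψ' _ ^ _ = 1
    rw [← map_pow, ← hn, pow_card_eq_one', map_one]
  have hψH : ∀ u : (ZMod M)ˣ, u ∈ H → ψ u = 1 := by
    intro u hu
    change ψ' (QuotientGroup.mk' H u) = 1
    have : QuotientGroup.mk' H u = 1 := (QuotientGroup.eq_one_iff u).mpr hu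
    rw [this, map_one]
  -- the Hecke eigenvalues
  let A : ℕ → K := fun ℓ => if h : ℓ.Prime ∧ ¬ ℓ ∣ D then
    (((ψ (uP M ℓ))⁻¹ ^ (n + 1) : Kˣ) : K) * y ⟨ℓ, h⟩ else 0
  have hA : ∀ ℓ : Pr D, A ℓ = (((ψ (uP M ℓ))⁻¹ ^ (n + 1) : Kˣ) : K) * y ℓ := fun ℓ => by
    change (if h : _ then _ else _) = _
    rw [dif_pos ℓ.2]
  have hTH : ∀ (ℓ : ℕ) [NeZero ℓ], ℓ.Prime → ¬ ℓ ∣ M → ¬ ℓ ∣ D →
      TH K M H K ℓ φ = A ℓ • φ := by
    intro ℓ _ hℓ _ hℓD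
    have h1 := hφT ⟨ℓ, hℓ, hℓD⟩
    have h2 : A ℓ = _ := hA ⟨ℓ, hℓ, hℓD⟩
    rw [TP, Module.End.mul_apply] at h1
    have h3 : diaQ K M H K (((uP M ℓ : (ZMod M)ˣ) : (ZMod M)ˣ ⧸ H) ^ hfx M H)
        (TH K M H K ℓ φ) = y ⟨ℓ, hℓ, hℓD⟩ • φ := h1
    have h4 : diaQ K M H K (((uP M ℓ : (ZMod M)ˣ) : (ZMod M)ˣ ⧸ H) ^ hfx M H)
        (TH K M H K ℓ φ) =
          (((ψ (uP M ℓ)) ^ (n + 1) : Kˣ) : K) • TH K M H K ℓ φ := by
      rw [diaQ_TH, ← QuotientGroup.mk_pow, hdia, map_smul, map_pow, hfxn]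
    rw [h4] at h3
    rw [h2, mul_smul, ← h3, smul_smul, ← Units.val_mul, ← mul_pow, inv_mul_cancel, one_pow,
      Units.val_one, one_smul]
  -- the Eisenstein prime
  have hy₀ : y ℓ₀ ≠ ((ℓ₀ : ℕ) : K) + 1 := by
    have h1 := hres (MvPolynomial.X (Sum.inl ℓ₀) - MvPolynomial.C (((ℓ₀ : ℕ) : O) + 1)) (by
      rw [map_sub, evR_X, evR_C, map_add, map_natCast, map_one, Sum.elim_inl]
      exact sub_ne_zero.mpr hℓ₀')
    rw [map_sub, MvPolynomial.aeval_X, Sum.elim_inl, ← MvPolynomial.algebraMap_eq,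
      AlgHom.commutes, map_add, map_natCast, map_one] at h1
    exact sub_ne_zero.mp h1
  have hE : ∃ ℓ : ℕ, ℓ.Prime ∧ ((M * Q₁ : ℕ) : ℤ) ∣ (ℓ : ℤ) - 1 ∧ ¬ ℓ ∣ D ∧ A ℓ ≠ ℓ + 1 := by
    refine ⟨ℓ₀, ℓ₀.2.1, hℓ₀, ℓ₀.2.2, ?_⟩
    rw [hA, uP_eq_one ((Int.natCast_dvd_natCast.mpr (dvd_mul_right M Q₁)).trans hℓ₀), map_one,
      inv_one, one_pow, Units.val_one, one_mul]
    exact hy₀
  -- numerics
  obtain ⟨M2, hM2⟩ := hQM'
  have hMM : M' ∣ M := ⟨T, hM'⟩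
  have hM₁ : M₁ = M2 * T := by
    have h1 : Q₁ * M₁ = Q₁ * (M2 * T) := by
      rw [← C.hN, hM', hM2]; ring
    exact Nat.eq_of_mul_eq_mul_left (Nat.pos_of_ne_zero (NeZero.ne Q₁)) h1
  have hcop2 : Nat.Coprime Q₁ M2 :=
    Nat.Coprime.coprime_dvd_right ⟨T, hM₁⟩ C.hcop
  obtain ⟨φ1, hφ1, -, hφ1T⟩ := exists_old_psi (N := M') (N' := M) (T := T) (Q := Q₁)
    (M0 := M2) hM' hM2 C.hsq hcop2 hT hcop hMM C.dvd
    (H := H) ψ hψn (fun u hu => hψH u (C.hH u hu)) hφ0 (fun g => by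
      rw [← diaQ_dChar, hdia]) hD0 (a := A) hTH hE hg.isNormalizedEigenform hN0 τ
    (fun ℓ u hℓ hu hℓD => by
      obtain ⟨z, hz1, hz2⟩ := hcoef ⟨ℓ, hℓ, hℓD⟩
      refine ⟨z, hz1, ?_⟩
      have hcop : Nat.Coprime ℓ M := by
        refine (Nat.Prime.coprime_iff_not_dvd hℓ).mpr fun h => hℓD (h.trans hMD)
      have huu : u = uP M ℓ := Units.ext (by rw [hu, uP_val hcop])
      have h2 : A ℓ = _ := hA ⟨ℓ, hℓ, hℓD⟩
      rw [hz2, h2, huu, ← mul_assoc, ← Units.val_mul, ← mul_pow, mul_inv_cancel, one_pow,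
        Units.val_one, one_mul]) hgt
  -- eigenclass at level `M'`
  have hocc : locPart (hAct O M' (H.map (ZMod.unitsMap hMM)) O (prD D)) (mx a) ≠ ⊥ := by
    refine occ_of_eigen (K := K) _ hφ1 (b := fun ℓ => A ℓ) (fun ℓ => ?_) (fun P hP => ?_)
    · haveI : NeZero ((ℓ : ℕ)) := ⟨ℓ.2.1.ne_zero⟩
      have hℓM : ¬ (ℓ : ℕ) ∣ M := fun h => ℓ.2.2 (h.trans hMD)
      exact hφ1T (ℓ : ℕ) (A ℓ) ℓ.2.1 hℓM (hTH ℓ ℓ.2.1 hℓM ℓ.2.2)
    · let f : MvPolynomial (Pr D) O →ₐ[O] MvPolynomial (Pr D ⊕ ((ZMod M)ˣ ⧸ H)) O :=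
        MvPolynomial.aeval (fun ℓ => MvPolynomial.X (Sum.inr
          (((uP M ℓ)⁻¹ : (ZMod M)ˣ) : (ZMod M)ˣ ⧸ H)) ^ (n + 1) * MvPolynomial.X (Sum.inl ℓ))
      have h1 : evR (Sum.elim a (fun _ : (ZMod M)ˣ ⧸ H => 1)) (f P) ≠ 0 := by
        rw [evR_comp (c' := a) f (fun i => ?_)]
        · exact hP
        · rw [MvPolynomial.aeval_X, map_mul, map_pow, evR_X, evR_X, Sum.elim_inr, Sum.elim_inl,
            one_pow, one_mul]
      have h2 := hres (f P) h1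
      have h3 : (MvPolynomial.aeval (fun ℓ : Pr D => A ℓ) P : K) =
          MvPolynomial.aeval (Sum.elim y ψ₀) (f P) := by
        have h4 : MvPolynomial.aeval (fun ℓ : Pr D => A ℓ) =
            (MvPolynomial.aeval (Sum.elim y ψ₀) :
              MvPolynomial (Pr D ⊕ ((ZMod M)ˣ ⧸ H)) O →ₐ[O] K).comp f := by
          refine MvPolynomial.algHom_ext fun ℓ => ?_
          rw [MvPolynomial.aeval_X, hA, AlgHom.comp_apply, MvPolynomial.aeval_X, map_mul, map_pow,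
            MvPolynomial.aeval_X, MvPolynomial.aeval_X, Sum.elim_inr, Sum.elim_inl, ← hψ, map_inv,
            Units.val_pow_eq_pow_val]
        rw [h4]
        rfl
      rw [h3]
      exact h2
  have hΔ'' : IsPGroup p ((ZMod M')ˣ ⧸ H.map (ZMod.unitsMap hMM)) := by
    intro g
    obtain ⟨u, rfl⟩ := QuotientGroup.mk_surjective g
    obtain ⟨w, rfl⟩ := ZMod.unitsMap_surjective hMM u
    obtain ⟨k, hk⟩ := hΔ (w : (ZMod M)ˣ ⧸ H)
    refine ⟨k, ?_⟩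
    rw [← QuotientGroup.mk_pow, QuotientGroup.eq_one_iff] at hk
    rw [← QuotientGroup.mk_pow, QuotientGroup.eq_one_iff, ← map_pow]
    exact Subgroup.mem_map_of_mem _ hk
  exact down_H a hp2 hpO (H.map (ZMod.unitsMap hMM)) hΔ'' hell ℓ₀ (hMM.trans hMD) hℓ₀' hocc

end Core

section Res

variable {p : ℕ} [Fact p.Prime] {O : Type u} [CommRing O] [IsLocalRing O]

/-- characters of `p`-groups are residually trivial -/
lemma residue_char {G : Type*} [Group G] (hG : IsPGroup p G) (hpO : (p : O) ∈ maximalIdeal O)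
    (χ : G →* Oˣ) (s : G) : residue O (χ s : O) = 1 := by
  have h0 : ((p : ℕ) : ResidueField O) = 0 := by
    rw [← map_natCast (residue O)]
    exact (residue_eq_zero_iff _).mpr hpO
  haveI : CharP (ResidueField O) p := (CharP.charP_iff_prime_eq_zero Fact.out).mpr h0
  obtain ⟨k, hk⟩ := hG s
  have h1 : (residue O (χ s : O)) ^ p ^ k = 1 := by
    rw [← map_pow, ← Units.val_pow_eq_pow_val, ← map_pow, hk, map_one, Units.val_one, map_one]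
  have h2 : (residue O (χ s : O) - 1) ^ p ^ k = 0 := by
    rw [sub_pow_char_pow, h1, one_pow, sub_self]
  exact sub_eq_zero.mp (eq_zero_of_pow_eq_zero h2)

end Res

section Lv

variable {p M : ℕ} [NeZero M] [Fact p.Prime] {O : Type u} [CommRing O] [IsDomain O]
  [IsDiscreteValuationRing O] [IsAdicComplete (maximalIdeal O) O] {D₀ D : ℕ} {hD : D₀ ∣ D}
  {H : Subgroup (ZMod M)ˣ} {a' : Pr D₀ → ResidueField O} {ι : Type} {f : ι → (ZMod M)ˣ ⧸ H}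
  {c : ι → O} {K' : Type} [CommGroup K'] {j : K' →* (ZMod M)ˣ ⧸ H}
  {K : Type u} [Field K] [CharZero K] [IsAlgClosed K] [Algebra O K]

/-- the points lie over the maximal ideal -/
lemma Lv_pt_ne (hpO : (p : O) ∈ maximalIdeal O) (hΔ : IsPGroup p ((ZMod M)ˣ ⧸ H))
    (x : LvB O H a' f c hD j →ₐ[O] K) (cf : (ZMod M)ˣ ⧸ H → O) (hcf : ∀ g, residue O (cf g) = 1)
    (kf : (ZMod M)ˣ ⧸ H → K') (P : MvPolynomial (Pr D ⊕ ((ZMod M)ˣ ⧸ H)) O)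
    (hP : evR (Sum.elim (fun ℓ => a' (prI hD ℓ)) (fun _ => 1)) P ≠ 0) :
    MvPolynomial.aeval (Sum.elim (fun ℓ => x (LvT O H a' f c hD j ℓ))
      (fun g => algebraMap O K (cf g) * x (LvD O H a' f c hD j (kf g)))) P ≠ (0 : K) := by
  let F : MvPolynomial (Pr D ⊕ ((ZMod M)ˣ ⧸ H)) O →ₐ[O] MvPolynomial (Pr D ⊕ K') O :=
    MvPolynomial.aeval (Sum.elim (fun ℓ => MvPolynomial.X (Sum.inl ℓ))
      (fun g => MvPolynomial.C (cf g) * MvPolynomial.X (Sum.inr (kf g))))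
  have h1 : evR (Sum.elim (fun i => a' (prI hD i)) (fun _ : K' => 1)) (F P) ≠ 0 := by
    rw [evR_comp (c' := Sum.elim (fun ℓ => a' (prI hD ℓ)) (fun _ => 1)) F (fun i => ?_)]
    · exact hP
    · rcases i with ℓ | g
      · rw [MvPolynomial.aeval_X, Sum.elim_inl, evR_X, Sum.elim_inl, Sum.elim_inl]
      · rw [MvPolynomial.aeval_X, Sum.elim_inr, map_mul, evR_C, evR_X, Sum.elim_inr,
          Sum.elim_inr, hcf, one_mul]
  have hu := isUnit_mk (Lv_loc O H a' f c hD j Fact.out hpO hΔ) h1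
  have h2 := (hu.map x).ne_zero
  have h3 : (MvPolynomial.aeval (Sum.elim (fun ℓ => x (LvT O H a' f c hD j ℓ))
      (fun g => algebraMap O K (cf g) * x (LvD O H a' f c hD j (kf g)))) P : K) =
      x (Ideal.Quotient.mk (RingHom.ker (LvA O H a' f c hD j)) (F P)) := by
    let G : MvPolynomial (Pr D ⊕ ((ZMod M)ˣ ⧸ H)) O →ₐ[O] K := (x.comp (Ideal.Quotient.mkₐ O
      (RingHom.ker (LvA O H a' f c hD j)))).comp F
    have h4 : MvPolynomial.aeval (Sum.elim (fun ℓ => x (LvT O H a' f c hD j ℓ))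
      (fun g => algebraMap O K (cf g) * x (LvD O H a' f c hD j (kf g)))) = G := by
      refine MvPolynomial.algHom_ext fun i => ?_
      rcases i with ℓ | g
      · rw [MvPolynomial.aeval_X, Sum.elim_inl]
        change _ = x (Ideal.Quotient.mk (RingHom.ker (LvA O H a' f c hD j))
          (F (MvPolynomial.X (Sum.inl ℓ))))
        rw [MvPolynomial.aeval_X, Sum.elim_inl]
        rfl
      · rw [MvPolynomial.aeval_X, Sum.elim_inr]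
        change _ = x (Ideal.Quotient.mk (RingHom.ker (LvA O H a' f c hD j))
          (F (MvPolynomial.X (Sum.inr g))))
        rw [MvPolynomial.aeval_X, Sum.elim_inr, map_mul, map_mul]
        congr 1
        have h5 : (Ideal.Quotient.mk (RingHom.ker (LvA O H a' f c hD j)))
            (MvPolynomial.C (cf g)) = algebraMap O (LvB O H a' f c hD j) (cf g) := rfl
        rw [h5, AlgHom.commutes]
    rw [h4]
    rfl
  rw [h3]
  exact h2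

end Lv

section Top

variable {p N M r : ℕ} [NeZero N] [NeZero M] [Fact p.Prime] {Q : QDat p N M r}
  {H₀ : Subgroup (ZMod N)ˣ} {O : Type u} [CommRing O] [IsDomain O] [IsDiscreteValuationRing O]
  [CharZero O] [Finite (ResidueField O)]
  [IsAdicComplete (maximalIdeal O) O] {D₀ : ℕ} {a : Pr D₀ → ResidueField O}
  {α : Fin r → ResidueField O} {D : ℕ} {hD : D₀ ∣ D} {K : Type u} [Field K]
  [CharZero K] [IsAlgClosed K] [Algebra O K] {Q₀ M₀ : ℕ} (T : TWHyp O a Q α D hD) (B : BaseHyp O H₀ p)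
  (C : CondHyp H₀ Q₀ M₀) (χ : SQ N H₀ →* Oˣ)

include T B C in
/-- **Descent at a Taylor-Wiles level, general character.** -/
theorem TWHyp.descend' {N'' Tp : ℕ} [NeZero N''] (hN : N = N'' * Tp) (hTp : Squarefree Tp)
    (hcopT : Nat.Coprime N'' Tp) (hQN : Q₀ ∣ N'') (hell : Ell p N'')
    {x : MoB Q H₀ O a α χ hD →ₐ[O] K}
    {φ : HM (GamH M (Q.H H₀)) K} (hφ0 : φ ≠ 0)
    (hφT : ∀ ℓ : Pr D, TP K M (Q.H H₀) K (prD D ℓ) φ = x (MoT Q H₀ O a α χ hD ℓ) • φ)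
    (hφD : ∀ g, diaQ K M (Q.H H₀) K g φ = (algebraMap O K (χ (Q.E H₀ g).1 : O) *
      x (MoD Q H₀ O a α χ hD (Q.E H₀ g).2)) • φ)
    {N0 : ℕ} [NeZero N0] {g : CuspForm (Gamma0 N0) 2} {τ : integralClosure ℤ ℂ →+* K}
    (hg : g.IsNewform) (hN0 : N0 ∣ M * (Q₀ * ∏ j, Q.q j))
    (hcoef : ∀ ℓ : Pr D, ∃ z : integralClosure ℤ ℂ, (z : ℂ) = qCoeff g ℓ ∧
      τ z = x (MoT Q H₀ O a α χ hD ℓ))
    (hgt : ∀ t : ℕ, t.Prime → t ∣ Tp → ¬ t ∣ N0 ∧ qCoeff g t ^ 2 ≠ ((t : ℂ) + 1) ^ 2) :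
    locPart (hAct O N'' ⊤ O (prD D)) (mx (fun ℓ => a (prI hD ℓ))) ≠ ⊥ := by
  classical
  have hΔ : IsPGroup p ((ZMod M)ˣ ⧸ Q.H H₀) := Q.isPGroup B.hΔ₀
  have C' : CondHyp (Q.H H₀) (Q₀ * ∏ j, Q.q j) M₀ := C.up
  obtain ⟨ℓ₀, hℓ₀, hℓ₀'⟩ := T.hℓ₀
  have hd : ((M * (Q₀ * ∏ j, Q.q j) : ℕ) : ℤ) ∣ ((ℓ₀ : ℕ) : ℤ) - 1 :=
    (Int.natCast_dvd_natCast.mpr (mul_dvd_mul_left M C'.dvd)).trans hℓ₀
  -- numerics
  set qq : ℕ := ∏ j, Q.q j with hqq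
  have hqq0 : qq ≠ 0 := Q.prod_ne_zero
  haveI : NeZero qq := ⟨hqq0⟩
  have hM : M = N * qq := Q.hM
  haveI : NeZero (N'' * qq) := ⟨mul_ne_zero (NeZero.ne N'') hqq0⟩
  have hM'' : M = (N'' * qq) * Tp := by rw [hM, hN]; ring
  have hqN : ∀ j, Nat.Coprime (Q.q j) N := fun j =>
    (Nat.Prime.coprime_iff_not_dvd (Q.prime j)).mpr (Q.ndvd j)
  have hqqN : Nat.Coprime qq N := Nat.Coprime.prod_left fun j _ => hqN j
  have hN''N : N'' ∣ N := ⟨Tp, hN⟩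
  have hTpN : Tp ∣ N := ⟨N'', by rw [hN, mul_comm]⟩
  have hM''M : N'' * qq ∣ M := ⟨Tp, hM''⟩
  have hM''D : N'' * qq ∣ D := hM''M.trans T.hMD
  have htop := descend_eig (K := K) (fun ℓ => a (prI hD ℓ)) C' B.hp2 B.hpO hΔ T.hD0 T.hMD ℓ₀ hd
    hℓ₀' hM'' hTp (Nat.Coprime.mul_left hcopT (Nat.Coprime.coprime_dvd_right hTpN hqqN))
    (mul_dvd_mul_right hQN qq) (hell.of_dvd (dvd_mul_right N'' qq)) hφ0 hφT hφD (fun P hP => by
      refine Lv_pt_ne B.hpO hΔ x (fun g => (χ (Q.E H₀ g).1 : O))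
        (fun g => residue_char B.hΔ₀ B.hpO χ _) (fun g => (Q.E H₀ g).2) P ?_
      have : (fun ℓ => aQ a Q α (prI hD ℓ)) = fun ℓ => a (prI hD ℓ) :=
        funext fun ℓ => T.aQ_eq ℓ
      rw [this]
      exact hP) hg hN0 hcoef hgt
  refine down_all (fun ℓ => a (prI hD ℓ)) T.hD0 N'' r Q.q (N'' * qq) rfl hM''D Q.prime
    (fun j h => Q.ndvd j (h.trans hN''N)) Q.inj (fun L hL g h1 h2 h3 =>
      T.hnew L hL g (h1.trans hM''M) h2 h3) ℓ₀ ?_ hℓ₀' htop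
  exact (Int.natCast_dvd_natCast.mpr (hM''M.trans (dvd_mul_right M M))).trans hℓ₀

end Top

end Fermat.Agent.TC
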