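import Mathlib
import Fermat.Agent.TC.NewP

/-!
# Descent of points at the bottom level
-/

set_option autoImplicit false
set_option linter.style.haveILetI false
set_option linter.unusedSectionVars false

noncomputable section

universe u

namespace Fermat.Agent.TC

open CongruenceSubgroup Matrix.SpecialLinearGroup H22 IsLocalRing
open Fermat.Agent.H25.TWM
open scoped MatrixGroups
open ModularFormClass (qCoeff)

section Conj

/-- extension of embeddings to integral extensions -/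
theorem ptext_int {A S M : Type*} [CommRing A] [IsDomain A] [CommRing S] [IsDomain S] [Algebra A S]
    [FaithfulSMul A S] [Algebra.IsIntegral A S] [Field M] [IsAlgClosed M] (θ : A →+* M)
    (hθ : Function.Injective θ) : ∃ θ' : S →+* M, ∀ a, θ' (algebraMap A S a) = θ a := by
  letI := θ.toAlgebra
  haveI : FaithfulSMul A M := (faithfulSMul_iff_algebraMap_injective A M).mpr hθ
  exact ⟨(IsAlgClosed.lift : S →ₐ[A] M).toRingHom, fun a =>
    AlgHom.commutes (IsAlgClosed.lift : S →ₐ[A] M) a⟩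

/-- conjugation of points -/
theorem exists_ptconj {B : Type*} [CommRing B] {K : Type*} [Field K] [IsAlgClosed K]
    (y x : B →+* K) (h : RingHom.ker y = RingHom.ker x) {R : Type*} [CommRing R] (τ : R →+* K)
    (hR : ∀ z : R, IsIntegral ℤ z) : ∃ τ' : R →+* K, ∀ (z : R) (b : B), τ z = y b → τ' z = x b := by
  let A : Subring K := y.range
  let e : (B ⧸ RingHom.ker y) ≃+* A := RingHom.quotientKerEquivRange y
  let θ0 : (B ⧸ RingHom.ker y) →+* K := Ideal.Quotient.lift (RingHom.ker y) x (fun b hb => by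
    rw [h] at hb; exact hb)
  let θ : A →+* K := θ0.comp e.symm.toRingHom
  have hθ : ∀ b : B, θ ⟨y b, b, rfl⟩ = x b := by
    intro b
    have h1 : e (Ideal.Quotient.mk _ b) = ⟨y b, b, rfl⟩ := rfl
    change θ0 (e.symm ⟨y b, b, rfl⟩) = x b
    rw [← h1, RingEquiv.symm_apply_apply]
    rfl
  have hinj : Function.Injective θ := by
    rw [injective_iff_map_eq_zero]
    rintro ⟨_, b, rfl⟩ hb
    rw [hθ] at hb
    have h2 : b ∈ RingHom.ker y := by rw [h]; exact hb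
    exact Subtype.ext h2
  obtain ⟨θ', hθ'⟩ := ptext_int (S := integralClosure A K) θ hinj
  have hmem : ∀ z : R, τ z ∈ integralClosure A K := by
    intro z
    have h1 : IsIntegral ℤ (τ z) := (hR z).map τ.toIntAlgHom
    exact h1.tower_top
  refine ⟨θ'.comp (τ.codRestrict (integralClosure A K) hmem), fun z b hz => ?_⟩
  rw [← hθ b, ← hθ']
  change θ' ⟨τ z, hmem z⟩ = _
  congr 1
  exact Subtype.ext hz

/-- points with the same kernel -/
theorem exists_ptker_eq {O B K : Type*} [CommRing O] [CommRing B] [Algebra O B] [Module.Finite O B]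
    [Field K] [Algebra O K] (hK : Function.Injective (algebraMap O K)) {X : Type*} [Finite X]
    (x : X → B →ₐ[O] K) (hinj : ∀ b, (∀ t, x t b = 0) → b = 0) (y : B →ₐ[O] K) :
    ∃ t, RingHom.ker (y : B →+* K) = RingHom.ker (x t : B →+* K) := by
  classical
  haveI := Fintype.ofFinite X
  have hprime : (RingHom.ker (y : B →+* K)).IsPrime := RingHom.ker_isPrime _
  have h1 : (Finset.univ : Finset X).inf (fun t => RingHom.ker (x t : B →+* K)) ≤
      RingHom.ker (y : B →+* K) := by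
    intro b hb
    have h2 : ∀ t, x t b = 0 := fun t => by
      have h3 : (Finset.univ : Finset X).inf (fun t => RingHom.ker (x t : B →+* K)) ≤
        RingHom.ker (x t : B →+* K) := Finset.inf_le (Finset.mem_univ t)
      exact h3 hb
    rw [hinj b h2]
    exact zero_mem _
  obtain ⟨t, -, ht⟩ := (Ideal.IsPrime.inf_le' hprime).mp h1
  refine ⟨t, le_antisymm ?_ ht⟩
  intro b hb
  by_contra hbt
  haveI : (RingHom.ker (x t : B →+* K)).IsPrime := RingHom.ker_isPrime _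
  have h2 := Ideal.comap_lt_comap_of_integral_mem_sdiff ht (x := b) ⟨hb, hbt⟩
    (Algebra.IsIntegral.isIntegral (R := O) b)
  obtain ⟨o, ho1, ho2⟩ := Set.exists_of_ssubset h2
  have h3 : y (algebraMap O B o) = 0 := ho1
  rw [AlgHom.commutes] at h3
  have h4 : o = 0 := hK (by rw [h3, map_zero])
  apply ho2
  rw [h4]
  exact zero_mem _

end Conj

section Bot

variable {p N : ℕ} [NeZero N] [Fact p.Prime]
  {H₀ : Subgroup (ZMod N)ˣ} {O : Type u} [CommRing O] [IsDomain O] [IsDiscreteValuationRing O]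
  [CharZero O] [Finite (ResidueField O)]
  [IsAdicComplete (maximalIdeal O) O] {D₀ : ℕ} {a : Pr D₀ → ResidueField O}
  {K : Type u} [Field K] [CharZero K] [IsAlgClosed K] [Algebra O K] {Q₀ M₀ : ℕ}
  (B : BaseHyp O H₀ p) (C : CondHyp H₀ Q₀ M₀) (χ : SQ N H₀ →* Oˣ)
  (hK : Function.Injective (algebraMap O K))

include B C hK in
/-- **Descent at the bottom level, general character.** -/
theorem descend₀ (hD0 : D₀ ≠ 0) (hND : N ∣ D₀)
    (hE : ∃ ℓ₀ : Pr D₀, ((N * N : ℕ) : ℤ) ∣ ((ℓ₀ : ℕ) : ℤ) - 1 ∧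
      a ℓ₀ ≠ ((ℓ₀ : ℕ) : ResidueField O) + 1)
    {N'' Tp : ℕ} [NeZero N''] (hN : N = N'' * Tp) (hTp : Squarefree Tp)
    (hcopT : Nat.Coprime N'' Tp) (hQN : Q₀ ∣ N'') (hell : Ell p N'')
    (y : MoB0 H₀ O a χ →ₐ[O] K)
    {N0 : ℕ} [NeZero N0] {g : CuspForm (Gamma0 N0) 2} {τ : integralClosure ℤ ℂ →+* K}
    (hg : g.IsNewform) (hN0 : N0 ∣ N * Q₀)
    (hcoef : ∀ ℓ : Pr D₀, ∃ z : integralClosure ℤ ℂ, (z : ℂ) = qCoeff g ℓ ∧
      τ z = y (MoT0 H₀ O a χ ℓ))
    (hgt : ∀ t : ℕ, t.Prime → t ∣ Tp → ¬ t ∣ N0 ∧ qCoeff g t ^ 2 ≠ ((t : ℂ) + 1) ^ 2) :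
    locPart (hAct O N'' ⊤ O (prD D₀)) (mx a) ≠ ⊥ := by
  have hΔ : IsPGroup p ((ZMod N)ˣ ⧸ H₀) := B.hΔ₀
  have hodd := odd_card B.hp2 hΔ
  obtain ⟨ℓ₀, hℓ₀, hℓ₀'⟩ := hE
  have hd : ((N * Q₀ : ℕ) : ℤ) ∣ ((ℓ₀ : ℕ) : ℤ) - 1 :=
    (Int.natCast_dvd_natCast.mpr (mul_dvd_mul_left N C.dvd)).trans hℓ₀
  obtain ⟨X, hX, x, φ, h1, h2, h3, h4, h5⟩ := Lv_points O H₀ a (fS0 H₀)
    (fun s => (χ s : O)) (dvd_refl D₀) (jD0 H₀) (K := K) C.dvd C.hH hodd C.hN C.hsq C.hcop
    (prI (dvd_refl D₀) ℓ₀) hd hℓ₀' hND hK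
  obtain ⟨t, ht⟩ := exists_ptker_eq hK x h5 y
  obtain ⟨τ', hτ'⟩ := exists_ptconj (y : MoB0 H₀ O a χ →+* K) (x t : MoB0 H₀ O a χ →+* K) ht τ
    (fun z => integralClosure.isIntegral z)
  refine descend_eig (K := K) a C B.hp2 B.hpO hΔ hD0 hND ℓ₀ hd hℓ₀' hN hTp hcopT hQN hell
    (h1 t) (h2 t) (ψ₀ := fun g => algebraMap O K (χ (SQ.equiv N H₀ g) : O))
    (fun g => h4 t (SQ.equiv N H₀ g)) (fun P hP => ?_) (τ := τ') hg hN0 (fun ℓ => ?_) hgt
  · have h6 := Lv_pt_ne B.hpO hΔ (x t) (fun g => (χ (SQ.equiv N H₀ g) : O))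
      (fun g => residue_char B.hΔ₀ B.hpO χ _) (fun _ => (1 : Unit)) P hP
    rw [map_one, map_one] at h6
    simpa only [mul_one] using h6
  · obtain ⟨z, hz1, hz2⟩ := hcoef ℓ
    exact ⟨z, hz1, hτ' z _ hz2⟩

end Bot

end Fermat.Agent.TC
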