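import Mathlib
import Fermat.Agent.TC.NewP2
import Fermat.Agent.TC.Sys5
import Fermat.Agent.H19.HeckeBound2

/-!
# (NEWP): points of levels which cannot be lowered are new
-/

set_option autoImplicit false
set_option linter.style.haveILetI false
set_option linter.unusedSectionVars false

noncomputable section

namespace Fermat.Agent.TC

open CongruenceSubgroup Matrix.SpecialLinearGroup H22 IsLocalRing
open Fermat.Agent.H25 Fermat.Agent.H25.PR Fermat.Agent.CC Fermat.Agent.TW Fermat.Agent.H25.PT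
open Fermat.Agent.H05 Fermat.Agent.H25.TR Fermat.Agent.H25.TWM Fermat.Agent.H25.GE
open ModularFormClass (qCoeff)

variable {O K : Type} [CommRing O] [IsDomain O] [IsDiscreteValuationRing O]
    [IsAdicComplete (maximalIdeal O) O] [Field K] [Algebra O K] {p r : ℕ}
    [Finite (ResidueField O)] [CharZero O] [Fact p.Prime] [IsAlgClosed K] [FaithfulSMul O K]
    {F : TWBase O K p r}

namespace Cmp

variable (X : Cmp F) (χ : SQ X.N X.H₀ →* Oˣ) (n : ℕ)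

/-- **(NEWP)** at Taylor-Wiles levels. -/
theorem dvd_lvl {N'' q : ℕ} [NeZero N''] (hN : X.N = N'' * q) (hq : q.Prime) (hqN : ¬ q ∣ N'')
    (hqQ : ¬ q ∣ X.Q₀) (hell : Ell p N'')
    (h0 : locPart (hAct O N'' ⊤ O (prD (F.Dn n))) (mx (fun ℓ => F.a (prI (F.hD n) ℓ))) = ⊥)
    (x : (X.cd χ n).X) : q ∣ X.lvl χ n x := by
  by_contra hlvl
  haveI : CharZero K := charZero_of_faithful (O := O)
  have hcop : Nat.Coprime N'' q := ((Nat.Prime.coprime_iff_not_dvd hq).mpr hqN).symm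
  have hQN : X.Q₀ ∣ N'' := by
    have h1 : X.Q₀ ∣ N'' * q := by rw [← hN]; exact X.C.dvd
    exact (((Nat.Prime.coprime_iff_not_dvd hq).mpr hqQ).symm).dvd_of_dvd_mul_right h1
  haveI : NeZero ((X.P χ n).N0 x) := (X.P χ n).nz x
  refine (X.T n).descend' X.B X.C χ hN hq.squarefree hcop hQN hell ((X.P χ n).φ_ne x)
    ((X.P χ n).φ_T x) ((X.P χ n).φ_D x) ((X.P χ n).hg x) ((X.P χ n).hdvd x)
    ((X.P χ n).hcoef x) (fun t ht htq => ?_) h0
  have htq' : t = q := (Nat.prime_dvd_prime_iff_eq ht hq).mp htq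
  subst htq'
  exact ⟨hlvl, H19.qCoeff_sq_ne ((X.P χ n).hg x).isNormalizedEigenform ht hlvl⟩

/-- **(NEWP)** at the bottom level. -/
theorem dvd_lvl₀ {N'' q : ℕ} [NeZero N''] (hN : X.N = N'' * q) (hq : q.Prime) (hqN : ¬ q ∣ N'')
    (hqQ : ¬ q ∣ X.Q₀) (hell : Ell p N'')
    (h0 : locPart (hAct O N'' ⊤ O (prD F.D₀)) (mx F.a) = ⊥)
    (x : (X.cd₀ χ).X) : q ∣ X.lvl₀ χ x := by
  by_contra hlvl
  haveI : CharZero K := charZero_of_faithful (O := O)
  have hcop : Nat.Coprime N'' q := ((Nat.Prime.coprime_iff_not_dvd hq).mpr hqN).symm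
  have hQN : X.Q₀ ∣ N'' := by
    have h1 : X.Q₀ ∣ N'' * q := by rw [← hN]; exact X.C.dvd
    exact (((Nat.Prime.coprime_iff_not_dvd hq).mpr hqQ).symm).dvd_of_dvd_mul_right h1
  haveI : NeZero ((X.P₀ χ).N0 x) := (X.P₀ χ).nz x
  refine descend₀ X.B X.C χ (FaithfulSMul.algebraMap_injective O K) X.D₀_ne X.hND X.exists_ℓ₀ hN
    hq.squarefree hcop hQN hell ((X.P₀ χ).pt x) ((X.P₀ χ).hg x) ((X.P₀ χ).hdvd x)
    ((X.P₀ χ).hcoef x) (fun t ht htq => ?_) h0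
  have htq' : t = q := (Nat.prime_dvd_prime_iff_eq ht hq).mp htq
  subst htq'
  exact ⟨hlvl, H19.qCoeff_sq_ne ((X.P₀ χ).hg x).isNormalizedEigenform ht hlvl⟩

/-- **Stuck primes**: the square of the trace of Frobenius, at Taylor-Wiles levels. -/
theorem t_sq_of_stuck {N'' q : ℕ} [NeZero N''] (hN : X.N = N'' * q) (hq : q.Prime)
    (hqN : ¬ q ∣ N'') (hqQ : ¬ q ∣ X.Q₀) (hqp : q ≠ p) (hell : Ell p N'')
    (h0 : locPart (hAct O N'' ⊤ O (prD (F.Dn n))) (mx (fun ℓ => F.a (prI (F.hD n) ℓ))) = ⊥)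
    (x : (X.cd χ n).X) {A : ValuationSubring Qb} (hA : A.LiesOverPrime q) {φ : GQ}
    (hφ : A.IsFrobeniusAt φ q) :
    (X.cd χ n).t x φ ^ 2 = ((q : (X.cd χ n).P x) + 1) ^ 2 := by
  have h1 := X.dvd_lvl χ n hN hq hqN hqQ hell h0 x
  have h2 : ¬ q * q ∣ X.lvl χ n x := by
    refine X.not_sq_dvd χ n x hq hqQ (fun h => ?_) (fun j h => ?_)
    · rw [hN] at h
      exact hqN ((Nat.mul_dvd_mul_iff_right hq.pos).mp h)
    · exact X.hnd n j (by rw [← h, hN]; exact dvd_mul_left q N'')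
  exact hin_sq X.B.hpO F.Ge F.hchi F.hc (X.hin χ n) x hq hqp h1 h2 hA hφ

/-- **Stuck primes**: inertia, at Taylor-Wiles levels. -/
theorem t_inertia_of {q : ℕ} (hq : q.Prime) (hqN : ¬ q * q ∣ X.N) (hqX : q ∣ X.N)
    (hqQ : ¬ q ∣ X.Q₀) (hqp : q ≠ p)
    (x : (X.cd χ n).X) {A : ValuationSubring Qb} (hA : A.LiesOverPrime q) {σ : GQ}
    (hσ : σ ∈ A.inertiaSubgroupIn ℚ) : (X.cd χ n).t x σ = 2 := by
  have h2 : ¬ q * q ∣ X.lvl χ n x :=
    X.not_sq_dvd χ n x hq hqQ hqN (fun j h => X.hnd n j (by rw [← h]; exact hqX))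
  exact hin_inertia X.B.hpO F.Ge F.hchi F.hc (X.hin χ n) x hq hqp h2 hA hσ

end Cmp

end Fermat.Agent.TC
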