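import Mathlib
import Fermat.Agent.TC.NewP3

/-!
# (NEWP): the sign of the trace of Frobenius at stuck primes
-/

set_option autoImplicit false
set_option linter.style.haveILetI false
set_option linter.unusedSectionVars false

noncomputable section

namespace Fermat.Agent.TC

open CongruenceSubgroup Matrix.SpecialLinearGroup H22 IsLocalRing
open Fermat.Agent.H25 Fermat.Agent.H25.PR Fermat.Agent.CC Fermat.Agent.TW Fermat.Agent.H25.PT
open Fermat.Agent.H05 Fermat.Agent.H25.TR Fermat.Agent.H25.TWM Fermat.Agent.H25.GE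
open ModularFormClass (qCoeff)

section Sign

variable {O k : Type} [CommRing O] [IsLocalRing O] [IsNoetherianRing O]
    [IsAdicComplete (maximalIdeal O) O] [Field k] {D : RD O k}
    {S : Finset Nat.Primes} {bad : Finset ℕ} (H : CData D S bad)

/-- the trace of Frobenius is determined by its square and the residual trace -/
theorem cdata_sign (hbar : HBar D S) (x : H.X) {φ : GQ} {ε : O} (hε : ε ^ 2 = 1) {q : ℕ}
    (htr : (D.rbar φ).trace = D.res (ε * ((q : O) + 1))) (h2 : D.res (2 * ((q : O) + 1)) ≠ 0)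
    (hsq : H.t x φ ^ 2 = ((q : H.P x) + 1) ^ 2) :
    H.t x φ = algebraMap O _ (ε * ((q : O) + 1)) := by
  set b : H.B := (H.C hbar).t φ + algebraMap O H.B (ε * ((q : O) + 1)) with hb
  have h1 : H.res b = D.res (ε * (2 * ((q : O) + 1))) := by
    rw [hb, map_add, H.res_comp, ← H.C_resB hbar, (H.C hbar).res_t, ← D.trace_rbar, htr, ← map_add]
    congr 1
    ring
  have hε0 : D.res ε ≠ 0 := by
    intro h0
    have h3 := congrArg D.res hε
    rw [map_pow, h0, map_one, zero_pow two_ne_zero] at h3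
    exact zero_ne_one h3
  have hu : IsUnit b := H.loc b (by rw [h1, map_mul]; exact mul_ne_zero hε0 h2)
  have h4 : H.ev x b = H.t x φ + algebraMap O _ (ε * ((q : O) + 1)) := by
    rw [hb, map_add, H.ev_C, AlgHom.commutes]
  have h5 : (H.t x φ + algebraMap O (H.P x) (ε * ((q : O) + 1))) ≠ 0 := by
    rw [← h4]
    exact (hu.map (H.ev x)).ne_zero
  have h6 : (algebraMap O (H.P x) (ε * ((q : O) + 1))) ^ 2 = ((q : H.P x) + 1) ^ 2 := by
    rw [← map_pow, mul_pow, hε, one_mul, map_pow, map_add, map_natCast, map_one]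
  have h7 : (H.t x φ + algebraMap O (H.P x) (ε * ((q : O) + 1))) *
      (H.t x φ - algebraMap O (H.P x) (ε * ((q : O) + 1))) = 0 := by
    have : (H.t x φ + algebraMap O (H.P x) (ε * ((q : O) + 1))) *
      (H.t x φ - algebraMap O (H.P x) (ε * ((q : O) + 1))) =
      H.t x φ ^ 2 - (algebraMap O (H.P x) (ε * ((q : O) + 1))) ^ 2 := by ring
    rw [this, h6, hsq, sub_self]
  exact sub_eq_zero.mp ((mul_eq_zero.mp h7).resolve_left h5)

end Sign

variable {O K : Type} [CommRing O] [IsDomain O] [IsDiscreteValuationRing O]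
    [IsAdicComplete (maximalIdeal O) O] [Field K] [Algebra O K] {p r : ℕ}
    [Finite (ResidueField O)] [CharZero O] [Fact p.Prime] [IsAlgClosed K] [FaithfulSMul O K]
    {F : TWBase O K p r}

/-- **Stuck primes** (the exact form of the hypothesis `hst` of `liftT`). -/
theorem Cmp.t_frob_of_stuck (X : Cmp F) (χ : SQ X.N X.H₀ →* Oˣ) (n : ℕ) {N'' q : ℕ} [NeZero N'']
    (hN : X.N = N'' * q) (hq : q.Prime)
    (hqN : ¬ q ∣ N'') (hqQ : ¬ q ∣ X.Q₀) (hqp : q ≠ p) (hell : Ell p N'')
    (h0 : locPart (hAct O N'' ⊤ O (prD (F.Dn n))) (mx (fun ℓ => F.a (prI (F.hD n) ℓ))) = ⊥)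
    {A : ValuationSubring Qb} (hA : A.LiesOverPrime q) {φ : GQ}
    (hφ : A.IsFrobeniusAt φ q) {ε : O} (hε : ε ^ 2 = 1)
    (htr : (F.D.rbar φ).trace = F.D.res (ε * ((q : O) + 1)))
    (h2 : F.D.res (2 * ((q : O) + 1)) ≠ 0) (x : (X.cd χ n).X) :
    (X.cd χ n).t x φ = algebraMap O _ (ε * ((q : O) + 1)) :=
  cdata_sign (X.cd χ n) (F.hbar n) x hε htr h2
    (X.t_sq_of_stuck χ n hN hq hqN hqQ hqp hell h0 x hA hφ)

end Fermat.Agent.TC
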