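import Mathlib
import Fermat.Agent.TC.Rs2
import Fermat.Agent.H12.LL.Lev3
import Fermat.Agent.TFin.WComp
import Fermat.Agent.H18R.Top
import Fermat.Agent.H24R.Ell3
import Fermat.Agent.H19.A8

/-!
# Towers of levels attached to a curve
-/

set_option autoImplicit false
set_option linter.style.haveILetI false
set_option linter.unusedSectionVars false

noncomputable section

namespace Fermat.Agent.TC

open CongruenceSubgroup Matrix.SpecialLinearGroup H22 IsLocalRing
open Fermat.Agent.H25 Fermat.Agent.H25.PR Fermat.Agent.CC Fermat.Agent.TW Fermat.Agent.H25.PT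
open Fermat.Agent.H05 Fermat.Agent.H25.TR Fermat.Agent.H25.TWM Fermat.Agent.H25.GE
open Fermat.Agent.H12.LL Fermat.Agent.TFin Fermat.Agent.Ell
open ModularFormClass (qCoeff)

section Levels

variable {m : ℕ} (N₀ : ℕ) (tv : Fin m → Nat.Primes)

/-- the levels of the tower -/
def tN (j : Fin (m + 1)) : ℕ :=
  N₀ * ∏ t ∈ Finset.univ.filter (fun t : Fin m => t.castSucc < j), (tv t : ℕ)

lemma tN_zero : tN N₀ tv 0 = N₀ := by
  rw [tN, Finset.filter_false_of_mem (fun t _ => not_lt.mpr (Fin.zero_le _)), Finset.prod_empty,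
    mul_one]

lemma tN_succ (t : Fin m) : tN N₀ tv t.succ = tN N₀ tv t.castSucc * tv t := by
  classical
  have h : Finset.univ.filter (fun s : Fin m => s.castSucc < t.succ) =
      insert t (Finset.univ.filter (fun s : Fin m => s.castSucc < t.castSucc)) := by
    ext s
    simp only [Finset.mem_filter, Finset.mem_univ, true_and, Finset.mem_insert,
      Fin.castSucc_lt_castSucc_iff, Fin.castSucc_lt_succ_iff]
    rw [le_iff_eq_or_lt]
  rw [tN, tN, h, Finset.prod_insert (by simp), mul_assoc, mul_comm (tv t : ℕ)]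

lemma tN_last : tN N₀ tv (Fin.last m) = N₀ * ∏ t, (tv t : ℕ) := by
  rw [tN, Finset.filter_true_of_mem (fun t _ => Fin.castSucc_lt_last t)]

lemma tN_dvd (j : Fin (m + 1)) : tN N₀ tv j ∣ N₀ * ∏ t, (tv t : ℕ) :=
  mul_dvd_mul_left _ (Finset.prod_dvd_prod_of_subset _ _ _ (Finset.filter_subset _ _))

lemma dvd_tN (j : Fin (m + 1)) : N₀ ∣ tN N₀ tv j := dvd_mul_right _ _

lemma tN_ne [NeZero N₀] (j : Fin (m + 1)) : tN N₀ tv j ≠ 0 :=
  mul_ne_zero (NeZero.ne N₀) (Finset.prod_ne_zero_iff.mpr fun t _ => (tv t).2.ne_zero)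

instance [NeZero N₀] (j : Fin (m + 1)) : NeZero (tN N₀ tv j) := ⟨tN_ne N₀ tv j⟩

variable {N₀ tv} (hinj : Function.Injective tv) (hN₀ : ∀ t, ¬ (tv t : ℕ) ∣ N₀)

include hinj hN₀ in
lemma tN_not_dvd (t : Fin m) {j : Fin (m + 1)} (hj : j ≤ t.castSucc) :
    ¬ (tv t : ℕ) ∣ tN N₀ tv j := by
  intro h
  rcases (tv t).2.dvd_mul.mp h with h | h
  · exact hN₀ t h
  · obtain ⟨s, hs, hst⟩ := (Prime.dvd_finsetProd_iff (tv t).2.prime _).mp h
    rw [Finset.mem_filter] at hs
    have h1 := (Nat.prime_dvd_prime_iff_eq (tv t).2 (tv s).2).mp hst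
    have h2 : t = s := hinj (Subtype.ext h1)
    rw [← h2] at hs
    exact absurd (hs.2.trans_le hj) (lt_irrefl _)

include hinj hN₀ in
lemma tN_not_sq_dvd (t : Fin m) (j : Fin (m + 1)) :
    ¬ (tv t : ℕ) * (tv t : ℕ) ∣ tN N₀ tv j := by
  intro h
  have hc : Nat.Coprime (tv t : ℕ) N₀ := (Nat.Prime.coprime_iff_not_dvd (tv t).2).mpr (hN₀ t)
  have h1 := (Nat.Coprime.mul_left hc hc).dvd_of_dvd_mul_left h
  have hsq : Squarefree (∏ t ∈ Finset.univ.filter (fun t : Fin m => t.castSucc < j), (tv t : ℕ)) := by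
    refine Finset.squarefree_prod_of_pairwise_isCoprime ?_ fun t _ => (tv t).2.squarefree
    intro s _ t _ hst
    refine Nat.coprime_iff_isRelPrime.mp ((Nat.coprime_primes (tv s).2 (tv t).2).mpr fun h => hst ?_)
    exact hinj (Subtype.ext h)
  exact (tv t).2.not_isUnit (hsq _ h1)

end Levels

section SelRe

/-- reindexing of the framed primes -/
theorem SelB.reindex {O k : Type} [CommRing O] [IsLocalRing O] [IsNoetherianRing O]
    [IsAdicComplete (maximalIdeal O) O] [Field k] [Finite k] {D : RD O k}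
    {S : Finset Nat.Primes} {bad : Finset ℕ} {κ : Type} [Finite κ] [Nonempty κ]
    {H : κ → CData D S bad} {hbar : HBar D S} {𝒯 𝒯' : Type} [Finite 𝒯] [Finite 𝒯'] {r : ℕ}
    {tv : 𝒯 → Nat.Primes} {tv' : 𝒯' → Nat.Primes} (e : 𝒯' ≃ 𝒯) (he : ∀ t, tv (e t) = tv' t)
    (h : SelB H hbar r tv) : SelB H hbar r tv' := by
  obtain rfl : (fun t => tv (e t)) = tv' := funext he
  obtain ⟨Sel, hfin, h1, h2⟩ := h
  refine ⟨Sel, hfin, fun d hd hq => h1 d hd fun q => ?_, ?_⟩
  · have h3 := hq (e.symm q)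
    simp only [Equiv.apply_symm_apply] at h3
    exact h3
  · have h4 : Nat.card (∀ q : 𝒯', H0 ((plv (tv (e q)) (tv (e q)).2).decompositionSubgroup ℚ)
        (Ad0 D.rbar (1 : GQ →* k))) = Nat.card (∀ q : 𝒯,
        H0 ((plv (tv q) (tv q).2).decompositionSubgroup ℚ) (Ad0 D.rbar (1 : GQ →* k))) :=
      Nat.card_congr (Equiv.piCongrLeft (fun q : 𝒯 =>
        H0 ((plv (tv q) (tv q).2).decompositionSubgroup ℚ) (Ad0 D.rbar (1 : GQ →* k))) e)
    rw [h4]
    exact h2

end SelRe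

end Fermat.Agent.TC
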