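import Mathlib
import Fermat.Agent.H25.TWFree

/-!
# Bases over group rings from bases over the base ring
-/

set_option autoImplicit false
set_option linter.unusedSectionVars false

noncomputable section

namespace Fermat.Agent.TC

open Fermat.Agent.H25.TWM

variable {O : Type*} [CommRing O] [IsDomain O] [IsLocalRing O] {K : Type*} [CommGroup K] [Finite K]
  [Fintype K] {M : Type*} [AddCommGroup M] [Module O M] (x : K →* Module.End O M)

lemma smul_toTw (y : MonoidAlgebra O K) (m : M) :
    y • toTw x m = toTw x (∑ k, y.coeff k • x k m) := by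
  classical
  induction y using MonoidAlgebra.induction_on with
  | of a =>
    rw [of_smul]
    congr 1
    rw [Finset.sum_eq_single a]
    · simp
    · intro k _ hk
      simp [Ne.symm hk]
    · intro h
      exact absurd (Finset.mem_univ a) h
  | add y z hy hz =>
    rw [add_smul, hy, hz, ← map_add, ← Finset.sum_add_distrib]
    congr 1
    refine Finset.sum_congr rfl fun k _ => ?_
    rw [MonoidAlgebra.coeff_add, Finsupp.add_apply, add_smul]
  | smul r y hy =>
    rw [smul_assoc, hy, ← map_smul, Finset.smul_sum]
    congr 1
    refine Finset.sum_congr rfl fun k _ => ?_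
    rw [MonoidAlgebra.coeff_smul, Finsupp.smul_apply, smul_eq_mul, mul_smul]

variable {ι : Type*} [Fintype ι] (B : Module.Basis (ι × K) O M) (u : ι → M)
  (hB : ∀ i k, B (i, k) = x k (u i))

include hB in
theorem exists_twBasis :
    ∃ b : Module.Basis ι (MonoidAlgebra O K) (Tw x), ∀ i, b i = toTw x (u i) := by
  classical
  have hli : LinearIndependent (MonoidAlgebra O K) (fun i => toTw x (u i)) := by
    rw [Fintype.linearIndependent_iff]
    intro y hy i
    have h1 : ∑ z : ι × K, (y z.1).coeff z.2 • B z = 0 := by
      apply (toTw x).injective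
      rw [map_zero, ← hy, Fintype.sum_prod_type, map_sum]
      refine Finset.sum_congr rfl fun i _ => ?_
      rw [smul_toTw]
      congr 1
      exact Finset.sum_congr rfl fun k _ => by rw [hB]
    have h2 := Fintype.linearIndependent_iff.mp B.linearIndependent _ h1
    apply MonoidAlgebra.ext
    ext k
    exact h2 (i, k)
  have hsp : ⊤ ≤ Submodule.span (MonoidAlgebra O K) (Set.range fun i => toTw x (u i)) := by
    intro m _
    obtain ⟨m, rfl⟩ := (toTw x).surjective m
    rw [← B.sum_repr m, map_sum, Fintype.sum_prod_type]
    refine Submodule.sum_mem _ fun i _ => Submodule.sum_mem _ fun k _ => ?_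
    rw [hB, map_smul, ← of_smul, ← smul_assoc]
    exact Submodule.smul_mem _ _ (Submodule.subset_span ⟨i, rfl⟩)
  exact ⟨Module.Basis.mk hli hsp, fun i => Module.Basis.mk_apply hli hsp i⟩

end Fermat.Agent.TC
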